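import Fermat.Agent.Corollaries.SectK.JzCount

/-!
# The number of points of `y ^ 2 = x ^ 3 + m x`

`card_j1728`: `χ : MulChar (ZMod p) ℂ` with `χ ^ 2` the quadratic character: the number of affine
points is `p + z + conj z`, `z = conj (χ (4 m)) J (χ, χ ^ 2)`.
-/

set_option autoImplicit false

noncomputable section

namespace Fermat.Agent.Cor.SectK.Qu

open Finset Diary Jz

section General

variable {F : Type*} [Field F] [Fintype F] [DecidableEq F] {χ : MulChar F ℂ}

theorem rho_sq : rho F ^ 2 = 1 := by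
  ext a
  rw [MulChar.pow_apply_coe, MulChar.one_apply_coe, rho_apply]
  have := quadraticChar_sq_one (F := F) a.ne_zero
  exact_mod_cast this

theorem orderOf_eq_four (h2 : ringChar F ≠ 2) (hc : χ ^ 2 = rho F) : orderOf χ = 4 := by
  have := Fact.mk Nat.prime_two
  have h := orderOf_eq_prime_pow (x := χ) (p := 2) (n := 1)
    (by rw [pow_one, hc]; exact rho_ne_one h2) (by
      rw [show 2 ^ (1 + 1) = 2 * 2 by norm_num, pow_mul, hc, rho_sq])
  rw [h]
  norm_num

/-- the number of points of `u ^ 2 = v ^ 4 + c` -/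
theorem card_quartic (h2 : ringChar F ≠ 2) (hc : χ ^ 2 = rho F) {c : F} (hc0 : c ≠ 0) :
    ((univ.filter fun P : F × F => P.2 ^ 2 = P.1 ^ 4 + c).card : ℂ) =
      Fintype.card F - 1 + (χ (-c) * rho F c * jacobiSum χ (rho F) +
        (starRingEnd ℂ) (χ (-c) * rho F c * jacobiSum χ (rho F))) := by
  have hord := orderOf_eq_four h2 hc
  have hχ1 : χ ≠ 1 := by
    rintro rfl
    rw [orderOf_one] at hord
    norm_num at hord
  have hχ2 : χ ^ 2 ≠ 1 := by
    rw [hc]
    exact rho_ne_one h2
  have h4 : χ ^ 4 = 1 := by rw [← hord, pow_orderOf_eq_one]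
  have hinv : χ ^ 3 = χ⁻¹ := by
    rw [eq_inv_iff_mul_eq_one, ← pow_succ, h4]
  have hχ3 : χ ^ 3 ≠ 1 := by
    rw [hinv, Ne, inv_eq_one]
    exact hχ1
  have hrinv : (rho F)⁻¹ = rho F := by
    rw [inv_eq_iff_mul_eq_one, ← pow_two, rho_sq]
  have h1 : ((univ.filter fun P : F × F => P.2 ^ 2 = P.1 ^ 4 + c).card : ℂ) =
      ∑ w : F, ((univ.filter fun v : F => v ^ 4 = w).card : ℂ) *
        ((univ.filter fun u : F => u ^ 2 = w + c).card : ℂ) := by
    rw [card_eq_sum_card_fiberwise (f := fun P : F × F => P.1 ^ 4) (t := univ)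
      (fun _ _ => by simp)]
    push_cast
    refine sum_congr rfl fun u _ => ?_
    rw [← Nat.cast_mul, ← card_product]
    congr 2
    ext ⟨x, y⟩
    simp only [mem_filter, mem_univ, true_and, mem_product]
    constructor
    · rintro ⟨h1, rfl⟩
      exact ⟨rfl, h1⟩
    · rintro ⟨rfl, h2⟩
      exact ⟨h2, rfl⟩
  -- the mixed sums
  have hmix : ∀ φ : MulChar F ℂ, ∑ w : F, φ w * rho F (w + c) =
      φ (-c) * rho F c * jacobiSum φ (rho F) := by
    intro φ
    rw [jacobiSum, mul_sum, ← Equiv.sum_comp (Equiv.mulLeft₀ (-c : F) (neg_ne_zero.mpr hc0))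
      (fun u => φ u * rho F (u + c))]
    refine sum_congr rfl fun w _ => ?_
    change φ (-c * w) * rho F (-c * w + c) = _
    rw [show -c * w + c = c * (1 - w) by ring, map_mul (rho F), map_mul φ]
    ring
  rw [h1]
  have hstep : ∀ w : F, ((univ.filter fun v : F => v ^ 4 = w).card : ℂ) *
      ((univ.filter fun u : F => u ^ 2 = w + c).card : ℂ) =
      1 + χ w + (χ ^ 2) w + (χ ^ 3) w + rho F (w + c) + χ w * rho F (w + c) +
        (χ ^ 2) w * rho F (w + c) + (χ ^ 3) w * rho F (w + c) := by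
    intro w
    have h8 : ∑ i ∈ range 4, χ w ^ i = 1 + χ w + χ w ^ 2 + χ w ^ 3 := by
      simp [sum_range_succ]
    rw [card_pow_eq four_pos hord, card_sq_eq h2, h8, MulChar.pow_apply' _ two_ne_zero,
      MulChar.pow_apply' _ three_ne_zero]
    ring
  simp_rw [hstep]
  rw [sum_add_distrib, sum_add_distrib, sum_add_distrib, sum_add_distrib, sum_add_distrib,
    sum_add_distrib, sum_add_distrib, MulChar.sum_eq_zero_of_ne_one hχ1,
    MulChar.sum_eq_zero_of_ne_one hχ2, MulChar.sum_eq_zero_of_ne_one hχ3, hmix χ, hmix (χ ^ 2),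
    hmix (χ ^ 3)]
  have h6 : ∑ u : F, rho F (u + c) = 0 := by
    rw [← MulChar.sum_eq_zero_of_ne_one (rho_ne_one h2),
      ← Equiv.sum_comp (Equiv.addRight c) (fun u => rho F u)]
    rfl
  have h7 : (χ ^ 2) (-c) * rho F c * jacobiSum (χ ^ 2) (rho F) = -1 := by
    have h8 := jacobiSum_nontrivial_inv (rho_ne_one (F := F) h2)
    rw [hrinv] at h8
    have h9 : rho F (-c) * rho F c = rho F (-1) := by
      rw [show (-c : F) = -1 * c by ring, map_mul, mul_assoc, ← sq, ← MulChar.pow_apply' _ two_ne_zero,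
        rho_sq, MulChar.one_apply (Ne.isUnit hc0), mul_one]
    have h10 : rho F (-1) * rho F (-1) = 1 := by
      rw [← map_mul, neg_mul_neg, one_mul, map_one]
    rw [hc, h8, h9]
    linear_combination -h10
  have h11 : (χ ^ 3) (-c) * rho F c * jacobiSum (χ ^ 3) (rho F) =
      (starRingEnd ℂ) (χ (-c) * rho F c * jacobiSum χ (rho F)) := by
    have h12 : jacobiSum (χ ^ 3) (rho F) = (starRingEnd ℂ) (jacobiSum χ (rho F)) := by
      rw [hinv]
      nth_rewrite 1 [← hrinv]
      rw [jacobiSum_inv_eq_conj]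
    have h13 : (χ ^ 3) (-c) = (starRingEnd ℂ) (χ (-c)) := by
      rw [hinv]
      exact (MulChar.star_apply' χ (-c)).symm
    have h14 : (starRingEnd ℂ) (rho F c) = rho F c := by
      rw [rho_apply]
      simp
    rw [map_mul, map_mul, h12, h13, h14]
  rw [h6, h7, h11]
  simp only [sum_const, card_univ, nsmul_eq_mul, mul_one]
  ring

/-- the affine points of `y ^ 2 = x ^ 3 + m x` -/
theorem card_curve (h2 : ringChar F ≠ 2) {m : F} (hm : m ≠ 0) :
    (univ.filter fun P : F × F => P.2 ^ 2 = P.1 ^ 3 + m * P.1).card =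
      1 + (univ.filter fun P : F × F => P.2 ^ 2 = P.1 ^ 4 + -4 * m).card := by
  have h20 : (2 : F) ≠ 0 := Ring.two_ne_zero h2
  have e1 : (univ.filter fun P : F × F => P.2 ^ 2 = P.1 ^ 3 + m * P.1) =
      insert ((0 : F), (0 : F)) ((univ.filter fun P : F × F => P.2 ^ 2 = P.1 ^ 4 + -4 * m).image
        fun P => ((P.2 + P.1 ^ 2) / 2, P.1 * ((P.2 + P.1 ^ 2) / 2))) := by
    ext ⟨x, y⟩
    simp only [mem_filter, mem_univ, true_and, mem_insert, mem_image, Prod.exists, Prod.mk.injEq]
    constructor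
    · intro h
      rcases eq_or_ne x 0 with rfl | hx
      · left
        refine ⟨rfl, ?_⟩
        have h3 : y ^ 2 = 0 := by rw [h]; ring
        exact pow_eq_zero_iff two_ne_zero |>.1 h3
      · right
        refine ⟨y / x, 2 * x - (y / x) ^ 2, ?_, ?_, ?_⟩
        · field_simp
          linear_combination (-4 * x ^ 3) * h
        · field_simp
          ring
        · field_simp
          ring
    · rintro (⟨rfl, rfl⟩ | ⟨v, u, h, rfl, rfl⟩)
      · ring
      · have h3 : ((u + v ^ 2) / 2) ^ 2 - v ^ 2 * ((u + v ^ 2) / 2) + m = 0 := by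
          field_simp
          linear_combination h
        linear_combination (-((u + v ^ 2) / 2)) * h3
  rw [e1, card_insert_of_notMem, card_image_of_injOn, add_comm]
  · rintro ⟨v, u⟩ h ⟨v', u'⟩ h' he
    simp only [coe_filter, mem_univ, true_and, Set.mem_ofPred_eq] at h h'
    simp only [Prod.mk.injEq] at he
    obtain ⟨e2, e3⟩ := he
    have hx : (u + v ^ 2) / 2 ≠ 0 := by
      intro h0
      have h3 : ((u + v ^ 2) / 2) ^ 2 - v ^ 2 * ((u + v ^ 2) / 2) + m = 0 := by
        field_simp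
        linear_combination h
      rw [h0] at h3
      apply hm
      linear_combination h3
    rw [← e2] at e3
    have hv : v = v' := mul_right_cancel₀ hx e3
    subst hv
    have hu : u = u' := by
      field_simp at e2
      linear_combination e2
    rw [hu]
  · simp only [mem_image, mem_filter, mem_univ, true_and, Prod.exists, Prod.mk.injEq, not_exists,
      not_and]
    intro v u h h0
    exfalso
    have h3 : ((u + v ^ 2) / 2) ^ 2 - v ^ 2 * ((u + v ^ 2) / 2) + m = 0 := by
      field_simp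
      linear_combination h
    rw [h0] at h3
    apply hm
    linear_combination h3

end General

/-- (P1) the number of points of `y ^ 2 = x ^ 3 + m x` -/
theorem card_j1728 {p : ℕ} [Fact p.Prime] (h2 : p ≠ 2) {χ : MulChar (ZMod p) ℂ}
    (hc : χ ^ 2 = (quadraticChar (ZMod p)).ringHomComp (Int.castRingHom ℂ)) {m : ZMod p}
    (hm : m ≠ 0) :
    (Nat.card {P : ZMod p × ZMod p // P.2 ^ 2 = P.1 ^ 3 + m * P.1} : ℂ) =
      p + ((starRingEnd ℂ) (χ (4 * m)) * jacobiSum χ (χ ^ 2) +
        (starRingEnd ℂ) ((starRingEnd ℂ) (χ (4 * m)) * jacobiSum χ (χ ^ 2))) := by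
  have h2' : ringChar (ZMod p) ≠ 2 := by rwa [ZMod.ringChar_zmod_n]
  have hcc : χ ^ 2 = rho (ZMod p) := hc
  have h20 : (2 : ZMod p) ≠ 0 := Ring.two_ne_zero h2'
  have h40 : (-4 * m : ZMod p) ≠ 0 := by
    refine mul_ne_zero (neg_ne_zero.2 ?_) hm
    have : (4 : ZMod p) = 2 * 2 := by norm_num
    rw [this]
    exact mul_ne_zero h20 h20
  have h4m : (4 * m : ZMod p) ≠ 0 := by
    intro h0
    apply h40
    linear_combination -h0
  rw [Nat.card_eq_fintype_card, Fintype.card_subtype, card_curve h2' hm]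
  push_cast
  rw [card_quartic h2' hcc h40, ZMod.card]
  have h5 : χ (-(-4 * m)) * rho (ZMod p) (-4 * m) = (starRingEnd ℂ) (χ (4 * m)) := by
    have h6 : (starRingEnd ℂ) (χ (4 * m)) = (χ ^ 3) (4 * m) := by
      have h7 : χ ^ 3 = χ⁻¹ := by
        have h9 := pow_orderOf_eq_one χ
        rw [orderOf_eq_four h2' hcc] at h9
        rw [eq_inv_iff_mul_eq_one, ← pow_succ]
        exact h9
      rw [h7]
      exact MulChar.star_apply' χ (4 * m)
    have h8 : rho (ZMod p) (-1) = 1 := by
      rw [← hcc, MulChar.pow_apply' _ two_ne_zero, sq, ← map_mul, neg_mul_neg, one_mul, map_one]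
    rw [h6, show (-(-4 * m) : ZMod p) = 4 * m by ring, show (-4 * m : ZMod p) = -1 * (4 * m) by ring,
      map_mul (rho (ZMod p)), h8, one_mul, ← hcc, MulChar.pow_apply' _ two_ne_zero,
      MulChar.pow_apply' _ three_ne_zero]
    ring
  rw [h5, hcc]
  ring

end Fermat.Agent.Cor.SectK.Qu
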