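import Fermat.Agent.Corollaries.SectK.CongCurve

/-!
# The curves `y² = x³ + m x` modulo `p`
-/

set_option autoImplicit false

noncomputable section

open scoped Classical

namespace Fermat.Agent.Cor.SectK

open WeierstrassCurve

/-- the curve `y² = x³ + m x` (`j = 1728`) -/
def E1728 (m : ℤ) : WeierstrassCurve ℤ := ⟨0, 0, 0, m, 0⟩

variable {p : ℕ} [hp : Fact p.Prime] {m : ℤ}

theorem E1728_Δ : (E1728 m).Δ = -64 * m ^ 3 := by
  simp only [WeierstrassCurve.Δ, WeierstrassCurve.b₂, WeierstrassCurve.b₄, WeierstrassCurve.b₆,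
    WeierstrassCurve.b₈, E1728]
  ring

theorem E1728_equation (x y : ZMod p) :
    ((E1728 m).reductionMod p).toAffine.Equation x y ↔ y ^ 2 = x ^ 3 + (m : ZMod p) * x := by
  rw [Affine.equation_iff]
  simp [reductionMod, E1728, WeierstrassCurve.map]

theorem E1728_Δ_ne (h2 : p ≠ 2) (hm : ¬ (p : ℤ) ∣ m) :
    ((E1728 m).reductionMod p).Δ ≠ 0 := by
  rw [reductionMod, WeierstrassCurve.map_Δ, E1728_Δ, map_mul, map_pow]
  have h3 : (Int.castRingHom (ZMod p)) m ≠ 0 := by
    rw [eq_intCast, Ne, ZMod.intCast_zmod_eq_zero_iff_dvd]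
    exact hm
  have h4 : (Int.castRingHom (ZMod p)) (-64) ≠ 0 := by
    have h5 : (Int.castRingHom (ZMod p)) (-64) = -2 ^ 6 := by
      rw [eq_intCast]
      norm_num
    rw [h5]
    exact neg_ne_zero.2 (pow_ne_zero _ (two_ne_zmod h2))
  exact mul_ne_zero h4 (pow_ne_zero _ h3)

/-- the points, except the origin -/
def ptEquiv1728 (h2 : p ≠ 2) (hm : ¬ (p : ℤ) ∣ m) : ((E1728 m).reductionMod p).toAffine.Point ≃
    Option {P : ZMod p × ZMod p // P.2 ^ 2 = P.1 ^ 3 + (m : ZMod p) * P.1} where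
  toFun P := match P with
    | .zero => none
    | .some x y h => some ⟨(x, y), (E1728_equation x y).1 h.1⟩
  invFun P := match P with
    | none => .zero
    | some P => .some P.1.1 P.1.2
      ((Affine.equation_iff_nonsingular_of_Δ_ne_zero (E1728_Δ_ne h2 hm)).1
        ((E1728_equation _ _).2 P.2))
  left_inv P := by
    match P with
    | .zero => rfl
    | .some x y h => rfl
  right_inv P := by
    match P with
    | none => rfl
    | some P => rfl

/-- `a_p = p - #{(x, y) : y² = x³ + m x}` -/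
theorem ap_E1728 (h2 : p ≠ 2) (hm : ¬ (p : ℤ) ∣ m) : (E1728 m).apOfModel p =
    p - (Nat.card {P : ZMod p × ZMod p // P.2 ^ 2 = P.1 ^ 3 + (m : ZMod p) * P.1} : ℤ) := by
  have h1 : Nat.card ((E1728 m).reductionMod p).toAffine.Point =
      Nat.card {P : ZMod p × ZMod p // P.2 ^ 2 = P.1 ^ 3 + (m : ZMod p) * P.1} + 1 := by
    rw [Nat.card_congr (ptEquiv1728 h2 hm), Finite.card_option]
  rw [apOfModel, traceOfFrobenius, card, h1, Nat.card_zmod]
  push_cast
  ring

/-- the supersingular primes -/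
theorem ap_E1728_of_three (h4 : p % 4 = 3) (hm : ¬ (p : ℤ) ∣ m) : (E1728 m).apOfModel p = 0 := by
  have h2 : p ≠ 2 := by
    rintro rfl
    omega
  have hF : ringChar (ZMod p) ≠ 2 := by
    rw [ZMod.ringChar_zmod_n]
    exact h2
  have h1 := Twist.trace_eq ((E1728 m).reductionMod p) hF (E1728_Δ_ne h2 hm)
  have h3 : ∀ x : ZMod p, 4 * x ^ 3 + ((E1728 m).reductionMod p).b₂ * x ^ 2 +
      2 * ((E1728 m).reductionMod p).b₄ * x + ((E1728 m).reductionMod p).b₆ =
      4 * (x ^ 3 + (m : ZMod p) * x) := by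
    intro x
    simp only [reductionMod, WeierstrassCurve.map_b₂, WeierstrassCurve.map_b₄,
      WeierstrassCurve.map_b₆]
    simp [E1728, WeierstrassCurve.b₂, WeierstrassCurve.b₄, WeierstrassCurve.b₆]
    ring
  simp_rw [h3] at h1
  have h5 : ∑ x : ZMod p, quadraticChar (ZMod p) (4 * (x ^ 3 + (m : ZMod p) * x)) =
      -∑ x : ZMod p, quadraticChar (ZMod p) (4 * (x ^ 3 + (m : ZMod p) * x)) := by
    have h6 : quadraticChar (ZMod p) (-1) = -1 := by
      rw [quadraticChar_neg_one hF, ZMod.card, ZMod.χ₄_nat_three_mod_four h4]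
    calc ∑ x : ZMod p, quadraticChar (ZMod p) (4 * (x ^ 3 + (m : ZMod p) * x)) =
          ∑ x : ZMod p, quadraticChar (ZMod p) (4 * ((-x) ^ 3 + (m : ZMod p) * -x)) :=
          (Equiv.sum_comp (Equiv.neg (ZMod p)) _).symm
      _ = ∑ x : ZMod p, -quadraticChar (ZMod p) (4 * (x ^ 3 + (m : ZMod p) * x)) := by
          refine Finset.sum_congr rfl fun x _ => ?_
          have h7 : 4 * ((-x) ^ 3 + (m : ZMod p) * -x) = -1 * (4 * (x ^ 3 + (m : ZMod p) * x)) := by
            ring
          rw [h7, map_mul, h6]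
          ring
      _ = _ := Finset.sum_neg_distrib _
  have h6 : ∑ x : ZMod p, quadraticChar (ZMod p) (4 * (x ^ 3 + (m : ZMod p) * x)) = 0 := by
    linarith
  rw [apOfModel, h1, h6, neg_zero]

end Fermat.Agent.Cor.SectK
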