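import Fermat.Agent.Corollaries.Gauss.CurveCM
import Fermat.Agent.Corollaries.Twist.Ap

/-!
# The traces of Frobenius of the congruent number curves `y² = x³ - n² x`
-/

set_option autoImplicit false

noncomputable section

namespace Fermat.Agent.Cor.SectK

open WeierstrassCurve

/-- the congruent number curve `y² = x³ - n² x` -/
def congCurve (n : ℤ) : WeierstrassCurve ℤ := ⟨0, 0, 0, -n ^ 2, 0⟩

variable {p : ℕ} [hp : Fact p.Prime]

theorem two_ne_zmod (h2 : p ≠ 2) : (2 : ZMod p) ≠ 0 := by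
  intro h
  have h1 : ((2 : ℕ) : ZMod p) = 0 := by exact_mod_cast h
  rw [ZMod.natCast_eq_zero_iff] at h1
  exact h2 ((Nat.prime_dvd_prime_iff_eq hp.out Nat.prime_two).1 h1)

theorem congCurve_Δ (h2 : p ≠ 2) {n : ℤ} (hn : ¬ (p : ℤ) ∣ n) :
    ((congCurve n).reductionMod p).Δ ≠ 0 := by
  have h1 : (congCurve n).Δ = 64 * n ^ 6 := by
    simp only [WeierstrassCurve.Δ, WeierstrassCurve.b₂, WeierstrassCurve.b₄, WeierstrassCurve.b₆,
      WeierstrassCurve.b₈, congCurve]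
    ring
  rw [reductionMod, WeierstrassCurve.map_Δ, h1, map_mul, map_pow]
  have h3 : (Int.castRingHom (ZMod p)) n ≠ 0 := by
    rw [eq_intCast, Ne, ZMod.intCast_zmod_eq_zero_iff_dvd]
    exact hn
  have h4 : (Int.castRingHom (ZMod p)) 64 ≠ 0 := by
    have h5 : (Int.castRingHom (ZMod p)) 64 = 2 ^ 6 := by
      rw [eq_intCast]
      norm_num
    rw [h5]
    exact pow_ne_zero _ (two_ne_zmod h2)
  exact mul_ne_zero h4 (pow_ne_zero _ h3)

/-- `a_p` as a character sum -/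
theorem ap_congCurve_eq (h2 : p ≠ 2) {n : ℤ} (hn : ¬ (p : ℤ) ∣ n) :
    (congCurve n).apOfModel p =
      -∑ x : ZMod p, quadraticChar (ZMod p) (x ^ 3 - (n : ZMod p) ^ 2 * x) := by
  have hF : ringChar (ZMod p) ≠ 2 := by
    rw [ZMod.ringChar_zmod_n]
    exact h2
  have h1 := Twist.trace_eq ((congCurve n).reductionMod p) hF (congCurve_Δ h2 hn)
  rw [apOfModel, h1]
  congr 1
  refine Finset.sum_congr rfl fun x _ => ?_
  have h3 : 4 * x ^ 3 + ((congCurve n).reductionMod p).b₂ * x ^ 2 +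
      2 * ((congCurve n).reductionMod p).b₄ * x + ((congCurve n).reductionMod p).b₆ =
      2 ^ 2 * (x ^ 3 - (n : ZMod p) ^ 2 * x) := by
    simp only [reductionMod, WeierstrassCurve.map_b₂, WeierstrassCurve.map_b₄,
      WeierstrassCurve.map_b₆]
    simp [congCurve, WeierstrassCurve.b₂, WeierstrassCurve.b₄, WeierstrassCurve.b₆]
    ring
  rw [h3, map_mul, quadraticChar_sq_one' (two_ne_zmod h2), one_mul]

/-- `a_p(E_n) = (n / p) a_p(E_1)` -/
theorem ap_congCurve (h2 : p ≠ 2) {n : ℤ} (hn : ¬ (p : ℤ) ∣ n) :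
    (congCurve n).apOfModel p = legendreSym p n * (congCurve 1).apOfModel p := by
  have h1 : ¬ (p : ℤ) ∣ 1 := by
    intro h
    have := hp.out.one_lt
    have h3 := Int.le_of_dvd one_pos h
    omega
  have hn0 : (n : ZMod p) ≠ 0 := by
    rw [Ne, ZMod.intCast_zmod_eq_zero_iff_dvd]
    exact hn
  rw [ap_congCurve_eq h2 hn, ap_congCurve_eq h2 h1, mul_neg, Finset.mul_sum]
  congr 1
  refine (Fintype.sum_equiv (Equiv.mulLeft₀ (n : ZMod p) hn0) _ _ fun x => ?_).symm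
  rw [Equiv.mulLeft₀_apply, legendreSym, ← map_mul]
  have h6 : ((n : ZMod p) * x) ^ 3 - (n : ZMod p) ^ 2 * ((n : ZMod p) * x) =
      (n : ZMod p) ^ 2 * ((n : ZMod p) * (x ^ 3 - ((1 : ℤ) : ZMod p) ^ 2 * x)) := by
    push_cast
    ring
  rw [h6, map_mul (quadraticChar (ZMod p)) ((n : ZMod p) ^ 2), quadraticChar_sq_one' hn0, one_mul]

/-- the supersingular primes -/
theorem ap_congCurve_of_three (h4 : p % 4 = 3) : (congCurve 1).apOfModel p = 0 := by
  have h2 : p ≠ 2 := by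
    rintro rfl
    omega
  have h1 : ¬ (p : ℤ) ∣ 1 := by
    intro h
    have := hp.out.one_lt
    have h3 := Int.le_of_dvd one_pos h
    omega
  have hF : ringChar (ZMod p) ≠ 2 := by
    rw [ZMod.ringChar_zmod_n]
    exact h2
  rw [ap_congCurve_eq h2 h1]
  have h5 : ∑ x : ZMod p, quadraticChar (ZMod p) (x ^ 3 - ((1 : ℤ) : ZMod p) ^ 2 * x) =
      -∑ x : ZMod p, quadraticChar (ZMod p) (x ^ 3 - ((1 : ℤ) : ZMod p) ^ 2 * x) := by
    have h6 : quadraticChar (ZMod p) (-1) = -1 := by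
      rw [quadraticChar_neg_one hF, ZMod.card, ZMod.χ₄_nat_three_mod_four h4]
    calc ∑ x : ZMod p, quadraticChar (ZMod p) (x ^ 3 - ((1 : ℤ) : ZMod p) ^ 2 * x) =
          ∑ x : ZMod p, quadraticChar (ZMod p) ((-x) ^ 3 - ((1 : ℤ) : ZMod p) ^ 2 * -x) :=
          (Equiv.sum_comp (Equiv.neg (ZMod p)) _).symm
      _ = ∑ x : ZMod p, -quadraticChar (ZMod p) (x ^ 3 - ((1 : ℤ) : ZMod p) ^ 2 * x) := by
          refine Finset.sum_congr rfl fun x _ => ?_
          have h7 : (-x) ^ 3 - ((1 : ℤ) : ZMod p) ^ 2 * -x =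
            -1 * (x ^ 3 - ((1 : ℤ) : ZMod p) ^ 2 * x) := by ring
          rw [h7, map_mul, h6]
          ring
      _ = _ := Finset.sum_neg_distrib _
  have h6 : ∑ x : ZMod p, quadraticChar (ZMod p) (x ^ 3 - ((1 : ℤ) : ZMod p) ^ 2 * x) = 0 := by
    linarith
  rw [h6, neg_zero]

/-- `p ≡ 1 mod 4`: the same `a_p` as `y² = x³ + 4 x` -/
theorem ap_congCurve_eq_E4 (h4 : p % 4 = 1) :
    (congCurve 1).apOfModel p = Gauss.E4.apOfModel p := by
  have h2 : p ≠ 2 := by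
    rintro rfl
    omega
  have h1 : ¬ (p : ℤ) ∣ 1 := by
    intro h
    have := hp.out.one_lt
    have h3 := Int.le_of_dvd one_pos h
    omega
  have hF : ringChar (ZMod p) ≠ 2 := by
    rw [ZMod.ringChar_zmod_n]
    exact h2
  obtain ⟨i, hi⟩ : IsSquare (-1 : ZMod p) := ZMod.exists_sq_eq_neg_one_iff.2 (by omega)
  have h2' := two_ne_zmod h2
  have hi0 : i ≠ 0 := by
    rintro rfl
    rw [mul_zero, neg_eq_zero] at hi
    exact one_ne_zero hi
  have hc : (2 * (1 - i) : ZMod p) ≠ 0 := by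
    intro h
    have h3 : (2 * (1 - i)) * (2 * (1 + i)) = (2 ^ 3 : ZMod p) := by linear_combination 4 * hi
    rw [h, zero_mul] at h3
    exact pow_ne_zero 3 h2' h3.symm
  have h5 := Twist.trace_eq (Gauss.E4.reductionMod p) hF (Gauss.E4_Δ h2)
  rw [ap_congCurve_eq h2 h1, apOfModel, h5]
  congr 1
  refine Fintype.sum_equiv (Equiv.mulLeft₀ (2 * i) (mul_ne_zero h2' hi0)) _ _ fun x => ?_
  rw [Equiv.mulLeft₀_apply]
  have h3 : 4 * (2 * i * x) ^ 3 + (Gauss.E4.reductionMod p).b₂ * (2 * i * x) ^ 2 +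
      2 * (Gauss.E4.reductionMod p).b₄ * (2 * i * x) + (Gauss.E4.reductionMod p).b₆ =
      (2 * (1 - i)) ^ 2 * (2 ^ 2 * (x ^ 3 - ((1 : ℤ) : ZMod p) ^ 2 * x)) := by
    simp only [reductionMod, WeierstrassCurve.map_b₂, WeierstrassCurve.map_b₄,
      WeierstrassCurve.map_b₆]
    simp [Gauss.E4, WeierstrassCurve.b₂, WeierstrassCurve.b₄, WeierstrassCurve.b₆]
    have hi2 : i ^ 2 = -1 := by rw [sq]; exact hi.symm
    linear_combination (32 * i * x ^ 3 - 16 * (x ^ 3 - x)) * hi2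
  rw [h3, map_mul, quadraticChar_sq_one' hc, one_mul, map_mul, quadraticChar_sq_one' h2', one_mul]

end Fermat.Agent.Cor.SectK
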