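import Mathlib
import Fermat.Agent.Corollaries.Kron.Basis

/-!
# The field of fourth roots of unity

`GausDat σ η` : `σ : K →+* ℂ`, `η ∈ 𝓞 K`, `η² = -1`, and every integer of `K` is `x + y η` with
`x y : ℤ`.
-/

set_option autoImplicit false
set_option linter.unusedSectionVars false

noncomputable section

open NumberField nonZeroDivisors Complex Module

namespace Fermat.Agent.Cor.SectK

universe u

variable {K : Type u} [Field K] [NumberField K]

/-- the Gaussian integers -/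
structure GausDat (σ : K →+* ℂ) (η : 𝓞 K) : Prop where
  cpx : IsTotallyComplex K
  rank : finrank ℚ K = 2
  pid : IsPrincipalIdealRing (𝓞 K)
  root : η ^ 2 + 1 = 0
  ex : ∀ z : 𝓞 K, ∃ x y : ℤ, z = x + y * η

theorem exists_gausDat [hcyc : IsCyclotomicExtension {4} ℚ K] (σ : K →+* ℂ) :
    ∃ η, GausDat σ η := by
  have hζ := IsCyclotomicExtension.zeta_spec 4 ℚ K
  have h1 : (hζ.toInteger : 𝓞 K) ^ 2 + 1 = 0 := by
    have h2 := hζ.toInteger_isPrimitiveRoot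
    have h3 : (hζ.toInteger : 𝓞 K) ^ 4 = 1 := h2.pow_eq_one
    have h4 : (hζ.toInteger : 𝓞 K) ^ 2 ≠ 1 := h2.pow_ne_one_of_pos_of_lt (by norm_num) (by norm_num)
    have h5 : ((hζ.toInteger : 𝓞 K) ^ 2 - 1) * ((hζ.toInteger : 𝓞 K) ^ 2 + 1) = 0 := by
      linear_combination h3
    rcases mul_eq_zero.1 h5 with h6 | h6
    · exact absurd (sub_eq_zero.1 h6) h4
    · exact h6
  have hcpx : IsTotallyComplex K := IsCyclotomicExtension.Rat.isTotallyComplex (n := 4) K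
    (by norm_num)
  have hrank : finrank ℚ K = 2 := by
    rw [IsCyclotomicExtension.Rat.finrank 4 K]
    decide
  have hd : discr K = -4 := by
    have : IsCyclotomicExtension {2 ^ 2} ℚ K := hcyc
    have h := IsCyclotomicExtension.Rat.discr_prime_pow 2 2 K
    rw [h]
    have : Nat.totient (2 ^ 2) = 2 := by decide
    rw [this]
    norm_num
  have hcp : InfinitePlace.nrComplexPlaces K = 1 := by
    rw [IsCyclotomicExtension.Rat.nrComplexPlaces_eq_totient_div_two 4]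
    decide
  have hpid : IsPrincipalIdealRing (𝓞 K) := by
    apply RingOfIntegers.isPrincipalIdealRing_of_abs_discr_lt
    rw [hrank, hcp, hd]
    have h3 : (((|(-4 : ℤ)| : ℤ)) : ℝ) < (2 * (3 / 4) ^ 1 * ((2 : ℕ) ^ 2 / (2 : ℕ).factorial)) ^ 2 := by
      norm_num [Nat.factorial]
    refine lt_trans h3 ?_
    gcongr
    · exact Real.pi_gt_three
  have hex : ∀ z : 𝓞 K, ∃ x y : ℤ, z = x + y * hζ.toInteger := by
    intro z
    obtain ⟨f, hf, hz⟩ := hζ.integralPowerBasis.exists_eq_aeval z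
    rw [hζ.integralPowerBasis_dim] at hf
    have hf1 : f.natDegree ≤ 1 := by
      have : Nat.totient 4 = 2 := by decide
      omega
    obtain ⟨a, b, rfl⟩ := Polynomial.exists_eq_X_add_C_of_natDegree_le_one hf1
    refine ⟨b, a, ?_⟩
    rw [hz, hζ.integralPowerBasis_gen]
    simp [add_comm]
  exact ⟨hζ.toInteger, hcpx, hrank, hpid, h1, hex⟩

namespace GausDat

variable {σ : K →+* ℂ} {η : 𝓞 K} (h : GausDat σ η)

include h

theorem sig_root : σ (η : K) ^ 2 + 1 = 0 := by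
  have h3 := congrArg (fun z : 𝓞 K => σ (z : K)) h.root
  simpa using h3

theorem re_im : (σ (η : K)).re = 0 ∧ (σ (η : K)).im ^ 2 = 1 := by
  have h1 := congrArg Complex.im h.sig_root
  have h2 := congrArg Complex.re h.sig_root
  simp [sq] at h1 h2
  have h3 : (σ (η : K)).re * (σ (η : K)).im = 0 := by linarith
  rcases mul_eq_zero.1 h3 with h4 | h4
  · refine ⟨h4, ?_⟩
    rw [h4] at h2
    rw [sq]
    linarith
  · exfalso
    rw [h4] at h2
    nlinarith [mul_self_nonneg (σ (η : K)).re]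

theorem sig_eq (x y : ℤ) : σ ((x + y * η : 𝓞 K) : K) = x + y * σ (η : K) := by simp

theorem sig_re (x y : ℤ) : (σ ((x + y * η : 𝓞 K) : K)).re = x := by
  rw [h.sig_eq]
  simp [h.re_im.1]

theorem sig_im (x y : ℤ) : (σ ((x + y * η : 𝓞 K) : K)).im = y * (σ (η : K)).im := by
  rw [h.sig_eq]
  simp

theorem norm_sq (x y : ℤ) :
    ‖σ ((x + y * η : 𝓞 K) : K)‖ ^ 2 = x ^ 2 + y ^ 2 := by
  rw [← Complex.normSq_eq_norm_sq, Complex.normSq_apply, h.sig_re, h.sig_im]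
  have h1 := h.re_im.2
  linear_combination (y : ℝ) ^ 2 * h1

/-- the norm form -/
theorem norm_eq (x y : ℤ) : Algebra.norm ℤ (x + y * η : 𝓞 K) = x ^ 2 + y ^ 2 := by
  have hc := h.cpx
  have h1 := Kron.norm_eq h.rank σ ((x + y * η : 𝓞 K) : K)
  rw [h.norm_sq, ← Algebra.coe_norm_int] at h1
  have h2 : ((Algebra.norm ℤ (x + y * η : 𝓞 K) : ℤ) : ℝ) =
      ((x ^ 2 + y ^ 2 : ℤ) : ℝ) := by
    push_cast
    rw [← h1]
    norm_cast
  exact_mod_cast h2

theorem nat_norm (x y : ℤ) :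
    ((Algebra.norm ℤ (x + y * η : 𝓞 K)).natAbs : ℤ) = x ^ 2 + y ^ 2 := by
  rw [h.norm_eq, Int.natAbs_of_nonneg]
  positivity

/-- the elements `≡ 1 mod 2 + 2 i` -/
theorem sub_one_mem {x y : ℤ} (hy : y % 2 = 0) (hxy : (x + y) % 4 = 1) :
    (x + y * η : 𝓞 K) - 1 ∈ Ideal.span {(2 + 2 * η : 𝓞 K)} := by
  rw [Ideal.mem_span_singleton']
  obtain ⟨t, ht⟩ : ∃ t, x + y = 4 * t + 1 := ⟨(x + y) / 4, by omega⟩
  obtain ⟨s, rfl⟩ : ∃ s, y = 2 * s := ⟨y / 2, by omega⟩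
  refine ⟨(t : ℤ) + (s - t : ℤ) * η, ?_⟩
  have hx : x = 4 * t + 1 - 2 * s := by linarith
  rw [hx]
  push_cast
  linear_combination (2 * s - 2 * t : 𝓞 K) * h.root

theorem of_sub_one_mem {x y : ℤ}
    (hm : (x + y * η : 𝓞 K) - 1 ∈ Ideal.span {(2 + 2 * η : 𝓞 K)}) :
    y % 2 = 0 ∧ (x + y) % 4 = 1 := by
  obtain ⟨c, hc⟩ := Ideal.mem_span_singleton'.1 hm
  obtain ⟨s, t, rfl⟩ := h.ex c
  have h1 : ((x - 1 - 2 * s + 2 * t : ℤ) + (y - 2 * s - 2 * t : ℤ) * η : 𝓞 K) = 0 := by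
    push_cast
    linear_combination -hc + (2 * t : 𝓞 K) * h.root
  have h2 := h.norm_eq (x - 1 - 2 * s + 2 * t) (y - 2 * s - 2 * t)
  rw [h1, Algebra.norm_zero] at h2
  have h3 : x - 1 - 2 * s + 2 * t = 0 := by
    have : (x - 1 - 2 * s + 2 * t) ^ 2 = 0 := by
      nlinarith [sq_nonneg (x - 1 - 2 * s + 2 * t), sq_nonneg (y - 2 * s - 2 * t)]
    exact pow_eq_zero_iff two_ne_zero |>.1 this
  have h4 : y - 2 * s - 2 * t = 0 := by
    have : (y - 2 * s - 2 * t) ^ 2 = 0 := by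
      nlinarith [sq_nonneg (x - 1 - 2 * s + 2 * t), sq_nonneg (y - 2 * s - 2 * t)]
    exact pow_eq_zero_iff two_ne_zero |>.1 this
  omega

/-- a unit `≡ 1 mod 2 + 2 i` is `1` -/
theorem unit_eq_one {v : (𝓞 K)ˣ} (hv : (v : 𝓞 K) - 1 ∈ Ideal.span {(2 + 2 * η : 𝓞 K)}) :
    (v : 𝓞 K) = 1 := by
  obtain ⟨x, y, hxy⟩ := h.ex (v : 𝓞 K)
  have h1 : (Algebra.norm ℤ (x + y * η : 𝓞 K)).natAbs = 1 := by
    rw [← hxy]
    exact Int.isUnit_iff_natAbs_eq.1 (v.isUnit.map (Algebra.norm ℤ))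
  have h2 := h.nat_norm x y
  rw [h1] at h2
  rw [hxy] at hv ⊢
  obtain ⟨h3, h4⟩ := h.of_sub_one_mem hv
  have hy : y = 0 := by
    obtain ⟨s, rfl⟩ : ∃ s, y = 2 * s := ⟨y / 2, by omega⟩
    have h5 : s = 0 := by
      have h6 : s ^ 2 < 1 := by
        push_cast at h2
        nlinarith [sq_nonneg x]
      have h7 : s ^ 2 = 0 := le_antisymm (by linarith) (sq_nonneg s)
      exact pow_eq_zero_iff two_ne_zero |>.1 h7
    rw [h5]
    ring
  subst hy
  have h5 : x ^ 2 = 1 := by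
    push_cast at h2
    linarith
  rcases sq_eq_one_iff.1 h5 with h6 | h6
  · rw [h6]
    simp
  · exfalso
    omega

/-- an ideal of odd norm has a generator `≡ 1 mod 2 + 2 i` -/
theorem exists_gen {I : Ideal (𝓞 K)} {n : ℕ} (hI : Ideal.absNorm I = n) (hn : n % 2 = 1) :
    ∃ x y : ℤ, I = Ideal.span {(x + y * η : 𝓞 K)} ∧ y % 2 = 0 ∧ (x + y) % 4 = 1 ∧
      (n : ℤ) = x ^ 2 + y ^ 2 := by
  have hpid := h.pid
  obtain ⟨a, ha⟩ := (IsPrincipalIdealRing.principal I).principal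
  rw [← Ideal.span] at ha
  obtain ⟨x, y, rfl⟩ := h.ex a
  have h1 : (n : ℤ) = x ^ 2 + y ^ 2 := by
    rw [← h.nat_norm x y, ← hI, ha, Ideal.absNorm_span_singleton]
  have hη : IsUnit η := IsUnit.of_mul_eq_one (-η) (by linear_combination -h.root)
  have hpar : (x + y) % 2 = 1 := by
    have h2 : (x ^ 2 + y ^ 2) % 2 = 1 := by omega
    rcases Int.even_or_odd' x with ⟨l, rfl | rfl⟩ <;> rcases Int.even_or_odd' y with ⟨m, rfl | rfl⟩
    · exfalso
      have h7 : (2 * l) ^ 2 + (2 * m) ^ 2 = 2 * (2 * l ^ 2 + 2 * m ^ 2) := by ring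
      omega
    · omega
    · omega
    · exfalso
      have h7 : (2 * l + 1) ^ 2 + (2 * m + 1) ^ 2 =
        2 * (2 * l ^ 2 + 2 * l + 2 * m ^ 2 + 2 * m + 1) := by ring
      omega
  -- a generator with `y` even
  obtain ⟨x', y', h2, h3, h4⟩ : ∃ x' y' : ℤ, I = Ideal.span {(x' + y' * η : 𝓞 K)} ∧ y' % 2 = 0 ∧
      (n : ℤ) = x' ^ 2 + y' ^ 2 := by
    rcases Int.emod_two_eq_zero_or_one y with hy | hy
    · exact ⟨x, y, ha, hy, h1⟩
    · refine ⟨-y, x, ?_, by omega, by rw [h1]; ring⟩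
      rw [ha, ← Ideal.span_singleton_mul_left_unit hη]
      congr 2
      push_cast
      linear_combination (y : 𝓞 K) * h.root
  have hpar' : x' % 2 = 1 := by
    have h5 : (x' ^ 2 + y' ^ 2) % 2 = 1 := by omega
    obtain ⟨m, rfl⟩ : ∃ s, y' = 2 * s := ⟨y' / 2, by omega⟩
    rcases Int.even_or_odd' x' with ⟨l, rfl | rfl⟩
    · exfalso
      have h7 : (2 * l) ^ 2 + (2 * m) ^ 2 = 2 * (2 * l ^ 2 + 2 * m ^ 2) := by ring
      omega
    · omega
  have h5 : (x' + y') % 4 = 1 ∨ (x' + y') % 4 = 3 := by omega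
  rcases h5 with h5 | h5
  · exact ⟨x', y', h2, h3, h5, h4⟩
  · refine ⟨-x', -y', ?_, by omega, by omega, by rw [h4]; ring⟩
    rw [h2, ← Ideal.span_singleton_neg]
    congr 2
    push_cast
    ring

end GausDat

end Fermat.Agent.Cor.SectK
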