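import Fermat.Agent.Corollaries.SectK.HeckeTwist
import Fermat.Agent.Corollaries.SectK.GausK
import Fermat.Agent.Corollaries.SectK.CongCurve
import Fermat.Agent.Corollaries.Twist.Chi

/-!
# The Sato-Tate law for the congruent number curves `y² = x³ - n² x`
-/

set_option autoImplicit false
set_option linter.unusedSectionVars false

noncomputable section

open NumberField nonZeroDivisors Complex Filter Topology Module

open scoped Classical

namespace Fermat.Agent.Cor.SectK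

open Fermat.Agent.ClassL Fermat.Agent.Cor.Ray

namespace GausDat

variable {K : Type} [Field K] [NumberField K] {σ : K →+* ℂ} {η : 𝓞 K} (h : GausDat σ η)

include h

theorem mod_ne_bot : (Ideal.span {(2 + 2 * η : 𝓞 K)}) ≠ ⊥ := by
  rw [Ne, Ideal.span_singleton_eq_bot]
  intro h0
  have h1 := h.norm_eq 2 2
  have h2 : (((2 : ℤ) : 𝓞 K) + ((2 : ℤ) : 𝓞 K) * η) = 2 + 2 * η := by push_cast; ring
  rw [h2, h0, Algebra.norm_zero] at h1
  norm_num at h1

/-- the Hecke character of `y² = x³ - x` -/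
theorem exists_hchar :
    ∃ ψ : (Ideal (𝓞 K))⁰ →* ℂ, HChar σ (Ideal.span {(2 + 2 * η : 𝓞 K)}) 1 ψ := by
  refine extStmt K σ _ h.mod_ne_bot 1 fun v hv => ?_
  rw [h.unit_eq_one hv, zpow_one, ang]
  simp

/-- the split primes -/
theorem ap_split {ψ : (Ideal (𝓞 K))⁰ →* ℂ}
    (hψ : HChar σ (Ideal.span {(2 + 2 * η : 𝓞 K)}) 1 ψ) {p : ℕ}
    (hp : p.Prime) (h2 : p ≠ 2) (P : (Ideal (𝓞 K))⁰)
    (hP : Ideal.absNorm (P : Ideal (𝓞 K)) = p) :
    ((congCurve 1).apOfModel p : ℝ) = 2 * Real.sqrt p * (ψ P).re := by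
  have : Fact p.Prime := ⟨hp⟩
  have hodd : p % 2 = 1 := Nat.odd_iff.1 (hp.odd_of_ne_two h2)
  obtain ⟨x, y, hxy, hy, hx, hn⟩ := h.exists_gen hP hodd
  have h5 := hψ.cong P _ hxy (h.sub_one_mem hy hx)
  have h4 : p % 4 = 1 := by
    obtain ⟨m, rfl⟩ : ∃ s, y = 2 * s := ⟨y / 2, by omega⟩
    obtain ⟨l, rfl⟩ : ∃ s, x = 2 * s + 1 := ⟨x / 2, by omega⟩
    have h6 : (p : ℤ) = 4 * (l ^ 2 + l + m ^ 2) + 1 := by
      rw [hn]
      ring
    omega
  have hap : (congCurve 1).apOfModel p = 2 * x := by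
    rw [ap_congCurve_eq_E4 h4]
    exact Gauss.ap_E4_of_two_squares hn hy hx
  have hz : ‖σ ((x + y * η : 𝓞 K) : K)‖ ^ 2 = p := by
    rw [h.norm_sq]
    have h5 : ((p : ℤ) : ℝ) = ((x ^ 2 + y ^ 2 : ℤ) : ℝ) := by rw [hn]
    rw [Int.cast_natCast] at h5
    rw [h5]
    push_cast
    ring
  have hz' : ‖σ ((x + y * η : 𝓞 K) : K)‖ = Real.sqrt p := by
    rw [← hz, Real.sqrt_sq (norm_nonneg _)]
  have hp0 : (0 : ℝ) < p := by exact_mod_cast hp.pos
  have h6 : Real.sqrt p ≠ 0 := (Real.sqrt_pos.2 hp0).ne'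
  rw [h5, zpow_one, ang, hz', hap, Complex.div_ofReal_re, h.sig_re]
  push_cast
  field_simp

/-- the primes `p ≡ 1 mod 4` are norms of prime ideals -/
theorem exists_pr {p : ℕ} (hp : p.Prime) (hp4 : p % 4 = 1) :
    ∃ P : Pr K, Ideal.absNorm ((P.1 : (Ideal (𝓞 K))⁰) : Ideal (𝓞 K)) = p := by
  have : Fact p.Prime := ⟨hp⟩
  obtain ⟨a, b, hab⟩ := Nat.Prime.sq_add_sq (p := p) (by omega)
  have hN : (Algebra.norm ℤ (((a : ℤ) : 𝓞 K) + ((b : ℤ) : 𝓞 K) * η : 𝓞 K)).natAbs = p := by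
    have h6 := h.nat_norm a b
    refine Nat.cast_injective (R := ℤ) ?_
    rw [h6]
    exact_mod_cast hab
  have hpr : (Ideal.span {(((a : ℤ) : 𝓞 K) + ((b : ℤ) : 𝓞 K) * η : 𝓞 K)}).IsPrime :=
    Ideal.isPrime_of_irreducible_absNorm (by
      rw [Ideal.absNorm_span_singleton, hN]
      exact hp)
  have hne : (Ideal.span {(((a : ℤ) : 𝓞 K) + ((b : ℤ) : 𝓞 K) * η : 𝓞 K)}) ≠ ⊥ := by
    intro h0
    have h1 : Ideal.absNorm (Ideal.span {(((a : ℤ) : 𝓞 K) + ((b : ℤ) : 𝓞 K) * η : 𝓞 K)}) = p := by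
      rw [Ideal.absNorm_span_singleton, hN]
    rw [h0, Ideal.absNorm_bot] at h1
    exact hp.ne_zero h1.symm
  refine ⟨⟨⟨_, mem_nonZeroDivisors_of_ne_zero hne⟩, Ideal.prime_of_isPrime hne hpr⟩, ?_⟩
  change Ideal.absNorm (Ideal.span {(((a : ℤ) : 𝓞 K) + ((b : ℤ) : 𝓞 K) * η : 𝓞 K)}) = p
  rw [Ideal.absNorm_span_singleton, hN]

end GausDat

/-- **The Sato-Tate law for the congruent number curves** `y² = x³ - n² x`: for every integer
`n ≠ 0` and `[α, β] ⊆ [-1, 1]` the number of the primes `p ≤ x`, `p` prime to `2 n`, with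
`α ≤ a_p / (2 √p) ≤ β` is asymptotic to `μ([α, β]) x / log x`, where `μ` is
`(1/2) δ₀ + dt / (2π √(1 - t²))`. -/
theorem sato_tate_congruent {n : ℤ} (hn : n ≠ 0) {α β : ℝ} (hα : -1 ≤ α) (hαβ : α ≤ β)
    (hβ : β ≤ 1) :
    Tendsto (fun x : ℕ => (Nat.card {p : ℕ // p.Prime ∧ p ≠ 2 ∧ ¬ (p : ℤ) ∣ n ∧ p ≤ x ∧
      α ≤ ((congCurve n).apOfModel p : ℝ) / (2 * Real.sqrt p) ∧
      ((congCurve n).apOfModel p : ℝ) / (2 * Real.sqrt p) ≤ β} : ℝ) *
        Real.log x / x) atTop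
      (𝓝 ((if α ≤ 0 ∧ 0 ≤ β then 1 / 2 else 0) +
        (Real.arccos α - Real.arccos β) / (2 * Real.pi))) := by
  have : NeZero ((4 : ℕ) : ℚ) := ⟨by norm_num⟩
  have : IsCyclotomicExtension {4} ℚ (CyclotomicField 4 ℚ) :=
    CyclotomicField.isCyclotomicExtension 4 ℚ
  obtain ⟨σ⟩ : Nonempty (CyclotomicField 4 ℚ →+* ℂ) := inferInstance
  obtain ⟨η, h⟩ := exists_gausDat (K := CyclotomicField 4 ℚ) σ
  obtain ⟨ψ, hψ⟩ := h.exists_hchar
  have := Twist.neZero_mod hn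
  have hdvd : ∀ {p : ℕ}, p.Prime → (p ∣ 4 * n.natAbs ↔ p = 2 ∨ (p : ℤ) ∣ n) := by
    intro p hp
    rw [hp.dvd_mul, Int.natCast_dvd]
    refine or_congr ?_ Iff.rfl
    have h4 : (4 : ℕ) = 2 ^ 2 := by norm_num
    rw [h4]
    exact ⟨fun h5 => (Nat.prime_dvd_prime_iff_eq hp Nat.prime_two).1 (hp.dvd_of_dvd_pow h5),
      fun h5 => by rw [h5]; norm_num⟩
  have key := sato_tate_of_hecke_twist h.cpx h.rank h.mod_ne_bot one_ne_zero hψ {2}
    (a := fun p => ((congCurve 1).apOfModel p : ℝ))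
    (fun p P hp hpS hP => h.ap_split hψ hp (by
      rintro rfl
      simp at hpS) P.1 hP)
    (fun p hp hpS hP => by
      rw [Finset.mem_singleton] at hpS
      have : Fact p.Prime := ⟨hp⟩
      have h5 : p % 2 = 1 := Nat.odd_iff.1 (hp.odd_of_ne_two hpS)
      have h6 : p % 4 ≠ 1 := by
        intro h6
        obtain ⟨P, hP'⟩ := h.exists_pr hp h6
        exact hP P hP'
      have h7 : (congCurve 1).apOfModel p = 0 := ap_congCurve_of_three (by omega)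
      simp [h7])
    (Twist.chiD n hn) (fun p => if h : p.Prime then
      ((@legendreSym p ⟨h⟩ n : ℤ) : ℝ) else 0)
    (fun p hp hpm => by
      have : Fact p.Prime := ⟨hp⟩
      rw [Twist.chiD_prime hn hpm, dif_pos hp]
      push_cast
      rfl)
    (b := fun p => ((congCurve n).apOfModel p : ℝ))
    (fun p hp hpS hpm => by
      have : Fact p.Prime := ⟨hp⟩
      rw [Finset.mem_singleton] at hpS
      rw [hdvd hp, not_or] at hpm
      rw [dif_pos hp]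
      have := ap_congCurve hpm.1 hpm.2
      rw [this]
      push_cast
      rfl)
    hα hαβ hβ
  refine key.congr fun x => ?_
  congr 2
  rw [Nat.cast_inj]
  refine Nat.card_congr (Equiv.subtypeEquivRight fun p => ?_)
  rw [Finset.mem_union, not_or, Finset.mem_singleton, Nat.mem_primeFactors]
  constructor
  · rintro ⟨hp, ⟨h1, h3⟩, h4⟩
    refine ⟨hp, h1, fun h5 => h3 ⟨hp, (hdvd hp).2 (Or.inr h5), NeZero.ne _⟩, h4⟩
  · rintro ⟨hp, h1, h3, h4⟩
    refine ⟨hp, ⟨h1, fun h5 => ?_⟩, h4⟩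
    rcases (hdvd hp).1 h5.2.1 with h6 | h6
    · exact h1 h6
    · exact h3 h6

end Fermat.Agent.Cor.SectK
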