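import Fermat.Agent.Corollaries.SectK.QuHecke
import Fermat.Agent.Corollaries.SectK.QuCount
import Fermat.Agent.Corollaries.SectK.QuCurve
import Fermat.Agent.Corollaries.SectK.TwistGauss

/-!
# The Sato-Tate law for all elliptic curves `y² = x³ + m x` (`j = 1728`)

* `ap_E1728_eq` : `a_p = 2 Re (conj (4 m / π)₄ π)`, `p = N(π)`, `π ≡ 1 mod 2 + 2 i` (Gauss,
  Davenport-Hasse);
* `exists_hChar_E1728` : this is a Hecke character of type `1` of `ℚ(i)`;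
* `sato_tate_j1728` : the Sato-Tate law.
-/

set_option autoImplicit false
set_option linter.unusedSectionVars false

noncomputable section

open NumberField nonZeroDivisors Complex Filter Topology Module

open scoped Classical

namespace Fermat.Agent.Cor.SectK

open Fermat.Agent.ClassL Fermat.Agent.Cor.Ray

variable {K : Type} [Field K] [NumberField K] {σ : K →+* ℂ} {η : 𝓞 K}

/-- **`a_p` of `y² = x³ + m x`**: `a_p = 2 Re (conj (4 m / π)₄ π)` -/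
theorem ap_E1728_eq (h : GausDat σ η) {p : ℕ} [hp : Fact p.Prime] {x y : ℤ} {r : 𝓞 K →+* ZMod p}
    {χ : MulChar (ZMod p) (𝓞 K)} (Q : QuDat η p x y r χ) {m : ℤ} (hm : ¬ (p : ℤ) ∣ m) :
    ((E1728 m).apOfModel p : ℝ) =
      2 * ((starRingEnd ℂ) (σ (χ ((4 * m : ℤ) : ZMod p) : K)) *
        σ ((x + y * η : 𝓞 K) : K)).re := by
  have hc : (χ.ringHomComp (sigO σ)) ^ 2 =
      (quadraticChar (ZMod p)).ringHomComp (Int.castRingHom ℂ) := by
    rw [MulChar.ringHomComp_pow, Q.sq_eq]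
    ext a
    simp [MulChar.ringHomComp_apply]
  have hm0 : (m : ZMod p) ≠ 0 := by
    rw [Ne, ZMod.intCast_zmod_eq_zero_iff_dvd]
    exact hm
  have h1 := Qu.card_j1728 Q.ne_two hc hm0
  rw [MulChar.ringHomComp_pow, jacobiSum_ringHomComp, Q.jacobiSum_eq h,
    MulChar.ringHomComp_apply, Complex.add_conj] at h1
  have h2 := ap_E1728 Q.ne_two hm
  have h3 : (((E1728 m).apOfModel p : ℤ) : ℂ) = ((p : ℤ) : ℂ) -
      (Nat.card {P : ZMod p × ZMod p // P.2 ^ 2 = P.1 ^ 3 + (m : ZMod p) * P.1} : ℂ) := by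
    rw [h2]
    push_cast
    ring
  rw [h1] at h3
  have h4 : (((E1728 m).apOfModel p : ℝ) : ℂ) =
      ((2 * ((starRingEnd ℂ) (σ (χ ((4 * m : ℤ) : ZMod p) : K)) *
        σ ((x + y * η : 𝓞 K) : K)).re : ℝ) : ℂ) := by
    have e1 : (((E1728 m).apOfModel p : ℝ) : ℂ) = (((E1728 m).apOfModel p : ℤ) : ℂ) := by
      norm_cast
    rw [e1, h3, sigO_apply, map_neg, sigO_apply]
    push_cast
    rw [mul_neg, Complex.neg_re]
    push_cast
    ring
  exact_mod_cast h4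

/-- **The Hecke character of `y² = x³ + m x`** -/
theorem exists_hChar_E1728 (h : GausDat σ η) {m : ℤ} (hm : m ≠ 0) :
    ∃ (𝔪 : Ideal (𝓞 K)) (ψ : (Ideal (𝓞 K))⁰ →* ℂ), 𝔪 ≠ ⊥ ∧ HChar σ 𝔪 1 ψ ∧
      ∀ (p : ℕ), p.Prime → p ≠ 2 → ¬ (p : ℤ) ∣ m → ∀ P : (Ideal (𝓞 K))⁰,
        Ideal.absNorm (P : Ideal (𝓞 K)) = p →
          ((E1728 m).apOfModel p : ℝ) = 2 * Real.sqrt p * (ψ P).re := by
  obtain ⟨ψ, hψ⟩ := h.exists_hchar
  have h4m : (4 * m : ℤ) ≠ 0 := by omega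
  obtain ⟨𝔪, φ, h1, h2, h3⟩ := heckeQuStmt σ η h4m h
  refine ⟨_, ψ * (φ * (φ * φ)), mul_ne_zero h.mod_ne_bot (mul_ne_zero h1 (mul_ne_zero h1 h1)),
    ?_, ?_⟩
  · have := Jz.mul_hChar hψ (Jz.mul_hChar h2 (Jz.mul_hChar h2 h2))
    norm_num at this
    exact this
  · intro p hp hp2 hpm P hP
    have : Fact p.Prime := ⟨hp⟩
    have hodd : p % 2 = 1 := Nat.odd_iff.1 (hp.odd_of_ne_two hp2)
    obtain ⟨x, y, hxy, hy, hx, hn⟩ := h.exists_gen hP hodd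
    obtain ⟨r, χ, Q⟩ := exQuStmt σ η h p x y hn hy hx
    have hp4m : ¬ (p : ℤ) ∣ 4 * m := by
      intro h5
      rcases (Nat.prime_iff_prime_int.1 hp).dvd_or_dvd h5 with h6 | h6
      · have h7 : (p : ℤ) ∣ 2 ^ 2 := by norm_num; exact h6
        have h8 : (p : ℤ) ∣ 2 := (Nat.prime_iff_prime_int.1 hp).dvd_of_dvd_pow h7
        have h9 : p ∣ 2 := by exact_mod_cast h8
        exact hp2 ((Nat.prime_dvd_prime_iff_eq hp Nat.prime_two).1 h9)
      · exact hpm h6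
    have hφ := h3 p x y r χ Q hp4m P hxy
    have hc := hψ.cong P _ hxy (h.sub_one_mem hy hx)
    have hz : ‖σ ((x + y * η : 𝓞 K) : K)‖ ^ 2 = p := by
      rw [h.norm_sq]
      have h5 : ((p : ℤ) : ℝ) = ((x ^ 2 + y ^ 2 : ℤ) : ℝ) := by rw [hn]
      rw [Int.cast_natCast] at h5
      rw [h5]
      push_cast
      ring
    have hz' : ‖σ ((x + y * η : 𝓞 K) : K)‖ = Real.sqrt p := by
      rw [← hz, Real.sqrt_sq (norm_nonneg _)]
    have hp0 : (0 : ℝ) < p := by exact_mod_cast hp.pos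
    have h6 : Real.sqrt p ≠ 0 := (Real.sqrt_pos.2 hp0).ne'
    have h4m0 : ((4 * m : ℤ) : ZMod p) ≠ 0 := by
      rw [Ne, ZMod.intCast_zmod_eq_zero_iff_dvd]
      exact hp4m
    have h7 : σ (χ ((4 * m : ℤ) : ZMod p) : K) ^ 4 = 1 := by
      have h8 := congrArg (sigO σ) (Q.pow_four h4m0)
      rw [map_pow, map_one] at h8
      exact h8
    have h8 : (starRingEnd ℂ) (σ (χ ((4 * m : ℤ) : ZMod p) : K)) =
        σ (χ ((4 * m : ℤ) : ZMod p) : K) ^ 3 := by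
      have h9 : ‖σ (χ ((4 * m : ℤ) : ZMod p) : K)‖ = 1 :=
        Complex.norm_eq_one_of_pow_eq_one h7 (by norm_num)
      have h10 : σ (χ ((4 * m : ℤ) : ZMod p) : K) *
          (starRingEnd ℂ) (σ (χ ((4 * m : ℤ) : ZMod p) : K)) = 1 := by
        rw [Complex.mul_conj, Complex.normSq_eq_norm_sq, h9]
        norm_num
      calc (starRingEnd ℂ) (σ (χ ((4 * m : ℤ) : ZMod p) : K)) =
            (σ (χ ((4 * m : ℤ) : ZMod p) : K) ^ 3 * σ (χ ((4 * m : ℤ) : ZMod p) : K)) *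
            (starRingEnd ℂ) (σ (χ ((4 * m : ℤ) : ZMod p) : K)) := by
              rw [← pow_succ, h7, one_mul]
        _ = _ := by rw [mul_assoc, h10, mul_one]
    rw [ap_E1728_eq h Q hpm, MonoidHom.mul_apply, MonoidHom.mul_apply, MonoidHom.mul_apply, hφ,
      hc, zpow_one, ang, hz', h8]
    have e1 : σ ((x + y * η : 𝓞 K) : K) / ((Real.sqrt p : ℝ) : ℂ) *
        (σ (χ ((4 * m : ℤ) : ZMod p) : K) * (σ (χ ((4 * m : ℤ) : ZMod p) : K) *
          σ (χ ((4 * m : ℤ) : ZMod p) : K))) =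
        (σ (χ ((4 * m : ℤ) : ZMod p) : K) ^ 3 * σ ((x + y * η : 𝓞 K) : K)) /
          ((Real.sqrt p : ℝ) : ℂ) := by ring
    rw [e1, Complex.div_ofReal_re]
    field_simp

/-- **The Sato-Tate law for all elliptic curves over `ℚ` with `j = 1728`** (up to isomorphism
`y² = x³ + m x`): for every integer `m ≠ 0` and `[α, β] ⊆ [-1, 1]` the number of the primes
`p ≤ x`, `p` prime to `2 m`, with `α ≤ a_p / (2 √p) ≤ β` is asymptotic to `μ([α, β]) x / log x`,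
where `μ` is `(1/2) δ₀ + dt / (2π √(1 - t²))`. -/
theorem sato_tate_j1728 {m : ℤ} (hm : m ≠ 0) {α β : ℝ} (hα : -1 ≤ α) (hαβ : α ≤ β)
    (hβ : β ≤ 1) :
    Tendsto (fun x : ℕ => (Nat.card {p : ℕ // p.Prime ∧ ¬ (p : ℤ) ∣ 2 * m ∧ p ≤ x ∧
      α ≤ ((E1728 m).apOfModel p : ℝ) / (2 * Real.sqrt p) ∧
      ((E1728 m).apOfModel p : ℝ) / (2 * Real.sqrt p) ≤ β} : ℝ) *
        Real.log x / x) atTop
      (𝓝 ((if α ≤ 0 ∧ 0 ≤ β then 1 / 2 else 0) +
        (Real.arccos α - Real.arccos β) / (2 * Real.pi))) := by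
  have : NeZero ((4 : ℕ) : ℚ) := ⟨by norm_num⟩
  have : IsCyclotomicExtension {4} ℚ (CyclotomicField 4 ℚ) :=
    CyclotomicField.isCyclotomicExtension 4 ℚ
  obtain ⟨σ⟩ : Nonempty (CyclotomicField 4 ℚ →+* ℂ) := inferInstance
  obtain ⟨η, h⟩ := exists_gausDat (K := CyclotomicField 4 ℚ) σ
  obtain ⟨𝔪, ψ, h𝔪, hψ, hap⟩ := exists_hChar_E1728 h hm
  have h2m : (2 * m).natAbs ≠ 0 := by
    rw [Int.natAbs_ne_zero]
    omega
  have hdvd : ∀ {p : ℕ}, p.Prime → (p ∉ (2 * m).natAbs.primeFactors ↔ ¬ (p : ℤ) ∣ 2 * m) := by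
    intro p hp
    rw [Nat.mem_primeFactors, Int.natCast_dvd]
    exact ⟨fun h1 h3 => h1 ⟨hp, h3, h2m⟩, fun h1 h3 => h1 h3.2.1⟩
  have hsep : ∀ {p : ℕ}, p.Prime → ¬ (p : ℤ) ∣ 2 * m → p ≠ 2 ∧ ¬ (p : ℤ) ∣ m := by
    intro p hp h1
    refine ⟨?_, fun h3 => h1 (h3.mul_left _)⟩
    rintro rfl
    exact h1 (Dvd.intro _ rfl)
  have key := sato_tate_of_hecke h.cpx h.rank h𝔪 one_ne_zero hψ (2 * m).natAbs.primeFactors
    (a := fun p => ((E1728 m).apOfModel p : ℝ))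
    (fun p P hp hpS hP => by
      obtain ⟨h1, h3⟩ := hsep hp ((hdvd hp).1 hpS)
      exact hap p hp h1 h3 P.1 hP)
    (fun p hp hpS hP => by
      obtain ⟨h1, h3⟩ := hsep hp ((hdvd hp).1 hpS)
      have : Fact p.Prime := ⟨hp⟩
      have h5 : p % 2 = 1 := Nat.odd_iff.1 (hp.odd_of_ne_two h1)
      have h6 : p % 4 ≠ 1 := by
        intro h6
        obtain ⟨P, hP'⟩ := h.exists_pr hp h6
        exact hP P hP'
      have h7 : (E1728 m).apOfModel p = 0 := ap_E1728_of_three (by omega) h3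
      simp [h7])
    hα hαβ hβ
  refine key.congr fun x => ?_
  congr 2
  rw [Nat.cast_inj]
  refine Nat.card_congr (Equiv.subtypeEquivRight fun p => ?_)
  constructor
  · rintro ⟨hp, h1, h3⟩
    exact ⟨hp, (hdvd hp).1 h1, h3⟩
  · rintro ⟨hp, h1, h3⟩
    exact ⟨hp, (hdvd hp).2 h1, h3⟩

end Fermat.Agent.Cor.SectK
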