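import Fermat.Agent.Corollaries.SectK.JZero

/-!
# The Sato-Tate law for every integral Weierstrass equation with `c₄ = 0`

* `ap_eq_ap_E0` : `a_p(W) = a_p(y² = x³ - 54 c₆)` for `c₄ = 0`, `p ∤ 6 Δ`.
* `sato_tate_c4_eq_zero` : the Sato-Tate law.
-/

set_option autoImplicit false

noncomputable section

namespace Fermat.Agent.Cor.SectK

open WeierstrassCurve Filter Topology

namespace Jz

section Prime

variable {p : ℕ} [hp : Fact p.Prime] {W : WeierstrassCurve ℤ}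

/-- the points, except the origin -/
def ptEquivAll (h : (W.reductionMod p).Δ ≠ 0) : (W.reductionMod p).toAffine.Point ≃
    Option {P : ZMod p × ZMod p // (W.reductionMod p).toAffine.Equation P.1 P.2} where
  toFun P := match P with
    | .zero => none
    | .some x y h => some ⟨(x, y), h.1⟩
  invFun P := match P with
    | none => .zero
    | some P => .some P.1.1 P.1.2 ((Affine.equation_iff_nonsingular_of_Δ_ne_zero h).1 P.2)
  left_inv P := by
    match P with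
    | .zero => rfl
    | .some x y h => rfl
  right_inv P := by
    match P with
    | none => rfl
    | some P => rfl

theorem ap_all (h : (W.reductionMod p).Δ ≠ 0) : W.apOfModel p =
    p - (Nat.card {P : ZMod p × ZMod p //
      (W.reductionMod p).toAffine.Equation P.1 P.2} : ℤ) := by
  classical
  have h1 : Nat.card (W.reductionMod p).toAffine.Point =
      Nat.card {P : ZMod p × ZMod p // (W.reductionMod p).toAffine.Equation P.1 P.2} + 1 := by
    rw [Nat.card_congr (ptEquivAll h), Nat.card_eq_fintype_card, Fintype.card_option,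
      Nat.card_eq_fintype_card]
  rw [apOfModel, traceOfFrobenius, card, h1, Nat.card_zmod]
  push_cast
  ring

/-- the change of variables to `Y² = X³ - 27 c₄ X - 54 c₆` over a field in which `6 ≠ 0` -/
theorem equation_iff_short {F : Type*} [Field F] (V : WeierstrassCurve F) (h2 : (2 : F) ≠ 0)
    (h3 : (3 : F) ≠ 0) (hc : V.c₄ = 0) (x y : F) : V.toAffine.Equation x y ↔
      (108 * (2 * y + V.a₁ * x + V.a₃)) ^ 2 = (36 * x + 3 * V.b₂) ^ 3 + -54 * V.c₆ := by
  rw [Affine.equation_iff]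
  have h4 : (46656 : F) ≠ 0 := by
    have : (46656 : F) = 2 ^ 6 * 3 ^ 6 := by norm_num
    rw [this]
    exact mul_ne_zero (pow_ne_zero _ h2) (pow_ne_zero _ h3)
  have key : (108 * (2 * y + V.a₁ * x + V.a₃)) ^ 2 - ((36 * x + 3 * V.b₂) ^ 3 + -54 * V.c₆) +
      27 * V.c₄ * (36 * x + 3 * V.b₂) =
      46656 * (y ^ 2 + V.a₁ * x * y + V.a₃ * y - (x ^ 3 + V.a₂ * x ^ 2 + V.a₄ * x + V.a₆)) := by
    simp only [c₄, c₆, b₂, b₄, b₆]
    ring
  rw [hc, mul_zero, zero_mul, add_zero] at key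
  constructor
  · intro h
    have h5 : y ^ 2 + V.a₁ * x * y + V.a₃ * y - (x ^ 3 + V.a₂ * x ^ 2 + V.a₄ * x + V.a₆) = 0 :=
      sub_eq_zero.2 h
    rw [h5, mul_zero] at key
    exact sub_eq_zero.1 key
  · intro h
    rw [sub_eq_zero.2 h] at key
    exact sub_eq_zero.1 ((mul_eq_zero.1 key.symm).resolve_left h4)

/-- the number of the affine points -/
theorem card_short {F : Type*} [Field F] (V : WeierstrassCurve F) (h2 : (2 : F) ≠ 0)
    (h3 : (3 : F) ≠ 0) (hc : V.c₄ = 0) :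
    Nat.card {P : F × F // V.toAffine.Equation P.1 P.2} =
      Nat.card {P : F × F // P.2 ^ 2 = P.1 ^ 3 + -54 * V.c₆} := by
  have h36 : (36 : F) ≠ 0 := by
    have : (36 : F) = 2 ^ 2 * 3 ^ 2 := by norm_num
    rw [this]
    exact mul_ne_zero (pow_ne_zero _ h2) (pow_ne_zero _ h3)
  have h108 : (108 : F) ≠ 0 := by
    have : (108 : F) = 2 ^ 2 * 3 ^ 3 := by norm_num
    rw [this]
    exact mul_ne_zero (pow_ne_zero _ h2) (pow_ne_zero _ h3)
  refine Nat.card_eq_of_bijective (fun P : {P : F × F // V.toAffine.Equation P.1 P.2} =>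
    (⟨(36 * P.1.1 + 3 * V.b₂, 108 * (2 * P.1.2 + V.a₁ * P.1.1 + V.a₃)),
      (equation_iff_short V h2 h3 hc _ _).1 P.2⟩ :
        {P : F × F // P.2 ^ 2 = P.1 ^ 3 + -54 * V.c₆})) ⟨?_, ?_⟩
  · rintro ⟨⟨x, y⟩, h⟩ ⟨⟨x', y'⟩, h'⟩ he
    rw [Subtype.mk.injEq, Prod.mk.injEq] at he
    obtain ⟨e1, e2⟩ := he
    simp only at e1 e2
    have hx : x = x' := mul_left_cancel₀ h36 (add_right_cancel e1)
    subst hx
    have e3 := mul_left_cancel₀ h108 e2
    have hy : y = y' := by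
      apply mul_left_cancel₀ h2
      linear_combination e3
    subst hy
    rfl
  · rintro ⟨⟨X, Y⟩, h⟩
    have e1 : 36 * ((X - 3 * V.b₂) / 36) + 3 * V.b₂ = X := by
      rw [mul_div_cancel₀ _ h36]
      ring
    have e2 : 108 * (2 * ((Y / 108 - V.a₁ * ((X - 3 * V.b₂) / 36) - V.a₃) / 2) +
        V.a₁ * ((X - 3 * V.b₂) / 36) + V.a₃) = Y := by
      rw [mul_div_cancel₀ _ h2]
      have e3 : 108 * (Y / 108) = Y := mul_div_cancel₀ _ h108
      linear_combination e3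
    refine ⟨⟨((X - 3 * V.b₂) / 36,
      (Y / 108 - V.a₁ * ((X - 3 * V.b₂) / 36) - V.a₃) / 2), ?_⟩, ?_⟩
    · rw [equation_iff_short V h2 h3 hc]
      simp only
      rw [e1, e2]
      exact h
    · exact Subtype.ext (Prod.ext e1 e2)

theorem two_three_ne (h : ¬ (p : ℤ) ∣ 6 * W.Δ) : (2 : ZMod p) ≠ 0 ∧ (3 : ZMod p) ≠ 0 ∧
    (W.reductionMod p).Δ ≠ 0 := by
  refine ⟨fun h1 => h ?_, fun h1 => h ?_, fun h1 => h ?_⟩
  · have h2 : ((2 : ℤ) : ZMod p) = 0 := by exact_mod_cast h1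
    rw [ZMod.intCast_zmod_eq_zero_iff_dvd] at h2
    have h3 : 6 * W.Δ = 2 * (3 * W.Δ) := by ring
    rw [h3]
    exact h2.mul_right _
  · have h2 : ((3 : ℤ) : ZMod p) = 0 := by exact_mod_cast h1
    rw [ZMod.intCast_zmod_eq_zero_iff_dvd] at h2
    have h3 : 6 * W.Δ = 3 * (2 * W.Δ) := by ring
    rw [h3]
    exact h2.mul_right _
  · rw [reductionMod, WeierstrassCurve.map_Δ, eq_intCast, ZMod.intCast_zmod_eq_zero_iff_dvd] at h1
    exact h1.mul_left _

/-- `p ∤ 6 Δ` if and only if `p ∤ 6 · 54 c₆` for `c₄ = 0` -/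
theorem dvd_iff (hc : W.c₄ = 0) : (p : ℤ) ∣ 6 * (-54 * W.c₆) ↔ (p : ℤ) ∣ 6 * W.Δ := by
  have hpr : Prime (p : ℤ) := Nat.prime_iff_prime_int.1 hp.out
  have hrel : 1728 * W.Δ = -W.c₆ ^ 2 := by
    have h1 := W.c_relation
    rw [hc] at h1
    linarith
  have h6 : ∀ {n : ℤ} {k : ℕ}, n ∣ 6 ^ k → (p : ℤ) ∣ n → (p : ℤ) ∣ 6 := fun hn hpn =>
    hpr.dvd_of_dvd_pow (hpn.trans hn)
  constructor
  · intro h
    rcases hpr.dvd_or_dvd h with h1 | h1
    · exact h1.mul_right _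
    rcases hpr.dvd_or_dvd h1 with h2 | h2
    · exact (h6 (n := -54) (k := 3) (by norm_num) h2).mul_right _
    · have h3 : (p : ℤ) ∣ 1728 * W.Δ := by
        rw [hrel]
        exact (dvd_pow h2 two_ne_zero).neg_right
      rcases hpr.dvd_or_dvd h3 with h4 | h4
      · exact (h6 (n := 1728) (k := 6) (by norm_num) h4).mul_right _
      · exact h4.mul_left _
  · intro h
    rcases hpr.dvd_or_dvd h with h1 | h1
    · exact h1.mul_right _
    · have h2 : (p : ℤ) ∣ W.c₆ := by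
        have h3 : (p : ℤ) ∣ -W.c₆ ^ 2 := by
          rw [← hrel]
          exact h1.mul_left _
        exact hpr.dvd_of_dvd_pow ((dvd_neg).1 h3)
      exact (h2.mul_left _).mul_left _

/-- `a_p(W) = a_p(y² = x³ - 54 c₆)` for `c₄ = 0`, `p ∤ 6 Δ` -/
theorem ap_eq_ap_E0 (hc : W.c₄ = 0) (h : ¬ (p : ℤ) ∣ 6 * W.Δ) :
    W.apOfModel p = (E0 (-54 * W.c₆)).apOfModel p := by
  obtain ⟨h2, h3, hΔ⟩ := two_three_ne h
  have hc' : (W.reductionMod p).c₄ = 0 := by
    rw [reductionMod, WeierstrassCurve.map_c₄, hc, map_zero]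
  have hc6 : (W.reductionMod p).c₆ = (W.c₆ : ZMod p) := by
    rw [reductionMod, WeierstrassCurve.map_c₆, eq_intCast]
  rw [ap_all hΔ, ap_E0 (fun h4 => h ((dvd_iff hc).1 h4)), card_short _ h2 h3 hc', hc6]
  push_cast
  rfl

end Prime

end Jz

open Jz

/-- **The Sato-Tate law for every elliptic curve over `ℚ` with `j`-invariant `0`**, given by any
Weierstrass equation with integral coefficients (`c₄ = 0`, `Δ ≠ 0`): the number of the primes
`p ≤ x`, `p ∤ 6 Δ`, with `α ≤ a_p / (2 √p) ≤ β` is asymptotic to `μ([α, β]) x / log x`, where `μ` is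
`(1/2) δ₀ + dt / (2π √(1 - t²))`. -/
theorem sato_tate_c4_eq_zero {W : WeierstrassCurve ℤ} (hΔ : W.Δ ≠ 0) (hc : W.c₄ = 0) {α β : ℝ}
    (hα : -1 ≤ α) (hαβ : α ≤ β) (hβ : β ≤ 1) :
    Tendsto (fun x : ℕ => (Nat.card {p : ℕ // p.Prime ∧ ¬ (p : ℤ) ∣ 6 * W.Δ ∧ p ≤ x ∧
      α ≤ (W.apOfModel p : ℝ) / (2 * Real.sqrt p) ∧
      (W.apOfModel p : ℝ) / (2 * Real.sqrt p) ≤ β} : ℝ) * Real.log x / x) atTop
      (𝓝 ((if α ≤ 0 ∧ 0 ≤ β then 1 / 2 else 0) +
        (Real.arccos α - Real.arccos β) / (2 * Real.pi))) := by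
  have hm : -54 * W.c₆ ≠ 0 := by
    intro h
    apply hΔ
    have h1 := W.c_relation
    have h2 : W.c₆ = 0 := by omega
    rw [hc, h2] at h1
    omega
  refine (sato_tate_jzero hm hα hαβ hβ).congr fun x => ?_
  congr 2
  rw [Nat.cast_inj]
  refine Nat.card_congr (Equiv.subtypeEquivRight fun p => ?_)
  refine and_congr_right fun hp => ?_
  have hpF : Fact p.Prime := ⟨hp⟩
  rw [dvd_iff hc]
  refine and_congr_right fun h => ?_
  rw [ap_eq_ap_E0 hc h]

end Fermat.Agent.Cor.SectK
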