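import Fermat.Agent.Corollaries.SectK.QuMain
import Fermat.Agent.Corollaries.SectK.JZeroAll

/-!
# The Sato-Tate law for every integral Weierstrass equation with `c₆ = 0` (`j = 1728`)

* `Qc.ap_E1728_sum` : `a_p` of `y² = x³ + m x` as a character sum.
* `Qc.ap_eq_ap_E1728` : `a_p(W) = a_p(y² = x³ - 27 c₄ x)` for `c₆ = 0`, `p ∤ 6 Δ`.
* `sato_tate_c6_eq_zero` : the Sato-Tate law for all equations with `c₆ = 0`.
* `sato_tate_j` : the Sato-Tate law for all integral equations with `c₄ c₆ = 0`, that is, for all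
  elliptic curves over `ℚ` with `j = 0` or `j = 1728`.
-/

set_option autoImplicit false
set_option linter.unusedSectionVars false

noncomputable section

namespace Fermat.Agent.Cor.SectK

open NumberField nonZeroDivisors Filter Topology WeierstrassCurve Fermat.Agent.ClassL

namespace Qc

section Curve

variable {p : ℕ} [hp : Fact p.Prime] {m : ℤ}

theorem ne_two_of_not_dvd_two_mul (h : ¬ (p : ℤ) ∣ 2 * m) : p ≠ 2 := by
  rintro rfl
  exact h ⟨m, by push_cast; ring⟩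

/-- `a_p` as a character sum -/
theorem ap_E1728_sum (h : ¬ (p : ℤ) ∣ 2 * m) :
    (E1728 m).apOfModel p =
      -∑ x : ZMod p, quadraticChar (ZMod p) (x ^ 3 + (m : ZMod p) * x) := by
  have h2 := ne_two_of_not_dvd_two_mul h
  have hF : ringChar (ZMod p) ≠ 2 := by
    rw [ZMod.ringChar_zmod_n]
    exact h2
  have h1 := Twist.trace_eq ((E1728 m).reductionMod p) hF (E1728_Δ_ne h2 (fun h4 => h (h4.mul_left _)))
  rw [apOfModel, h1]
  congr 1
  refine Finset.sum_congr rfl fun x _ => ?_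
  have h3 : 4 * x ^ 3 + ((E1728 m).reductionMod p).b₂ * x ^ 2 +
      2 * ((E1728 m).reductionMod p).b₄ * x + ((E1728 m).reductionMod p).b₆ =
      2 ^ 2 * (x ^ 3 + (m : ZMod p) * x) := by
    simp only [reductionMod, WeierstrassCurve.map_b₂, WeierstrassCurve.map_b₄,
      WeierstrassCurve.map_b₆]
    simp [E1728, WeierstrassCurve.b₂, WeierstrassCurve.b₄, WeierstrassCurve.b₆]
    ring
  rw [h3, map_mul, quadraticChar_sq_one' (two_ne_zmod h2), one_mul]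

end Curve

/-- `p ∤ 6 Δ` if and only if `p ∤ 2 · 27 c₄` for `c₆ = 0` -/
theorem dvd_iff_of_c6 {p : ℕ} (hp : p.Prime) {W : WeierstrassCurve ℤ} (hc : W.c₆ = 0) :
    (p : ℤ) ∣ 2 * (-27 * W.c₄) ↔ (p : ℤ) ∣ 6 * W.Δ := by
  have hpr : Prime (p : ℤ) := Nat.prime_iff_prime_int.1 hp
  have hrel : 1728 * W.Δ = W.c₄ ^ 3 := by
    have h1 := W.c_relation
    rw [hc] at h1
    linarith
  have h2 : (p : ℤ) ∣ 2 → (p : ℤ) ∣ 6 * W.Δ := fun h1 => (h1.mul_right (3 * W.Δ)).trans (by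
    rw [← mul_assoc]
    norm_num)
  have h3 : (p : ℤ) ∣ 3 → (p : ℤ) ∣ 6 * W.Δ := fun h1 => (h1.mul_right (2 * W.Δ)).trans (by
    rw [← mul_assoc]
    norm_num)
  constructor
  · intro h1
    rcases hpr.dvd_or_dvd h1 with h4 | h4
    · exact h2 h4
    rcases hpr.dvd_or_dvd h4 with h5 | h5
    · apply h3
      apply hpr.dvd_of_dvd_pow (n := 3)
      have : (-27 : ℤ) = -(3 ^ 3) := by norm_num
      rw [this] at h5
      exact (dvd_neg).1 h5
    · have h6 : (p : ℤ) ∣ 1728 * W.Δ := by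
        rw [hrel]
        exact dvd_pow h5 three_ne_zero
      rcases hpr.dvd_or_dvd h6 with h7 | h7
      · have h8 : (1728 : ℤ) = 2 ^ 6 * 3 ^ 3 := by norm_num
        rw [h8] at h7
        rcases hpr.dvd_or_dvd h7 with h9 | h9
        · exact h2 (hpr.dvd_of_dvd_pow h9)
        · exact h3 (hpr.dvd_of_dvd_pow h9)
      · exact h7.mul_left _
  · intro h1
    rcases hpr.dvd_or_dvd h1 with h4 | h4
    · have h5 : (6 : ℤ) = 2 * 3 := by norm_num
      rw [h5] at h4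
      rcases hpr.dvd_or_dvd h4 with h6 | h6
      · exact h6.mul_right _
      · have h7 : (p : ℤ) ∣ -27 := by
          have : (-27 : ℤ) = -(3 ^ 3) := by norm_num
          rw [this]
          exact (dvd_pow h6 three_ne_zero).neg_right
        exact (h7.mul_right _).mul_left _
    · have h5 : (p : ℤ) ∣ W.c₄ := by
        apply hpr.dvd_of_dvd_pow (n := 3)
        rw [← hrel]
        exact h4.mul_left _
      exact (h5.mul_left _).mul_left _

/-- `a_p(W) = a_p(y² = x³ - 27 c₄ x)` for `c₆ = 0`, `p ∤ 6 Δ` -/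
theorem ap_eq_ap_E1728 {p : ℕ} [hp : Fact p.Prime] {W : WeierstrassCurve ℤ} (hc : W.c₆ = 0)
    (h : ¬ (p : ℤ) ∣ 6 * W.Δ) : W.apOfModel p = (E1728 (-27 * W.c₄)).apOfModel p := by
  have h2' : ¬ (p : ℤ) ∣ 2 := fun h1 => h ((h1.mul_right (3 * W.Δ)).trans (by
    rw [← mul_assoc]
    norm_num))
  have h3' : ¬ (p : ℤ) ∣ 3 := fun h1 => h ((h1.mul_right (2 * W.Δ)).trans (by
    rw [← mul_assoc]
    norm_num))
  have hΔ' : ¬ (p : ℤ) ∣ W.Δ := fun h1 => h (h1.mul_left _)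
  have h20 : (2 : ZMod p) ≠ 0 := by
    intro h1
    apply h2'
    rw [← ZMod.intCast_zmod_eq_zero_iff_dvd]
    exact_mod_cast h1
  have h30 : (3 : ZMod p) ≠ 0 := by
    intro h1
    apply h3'
    rw [← ZMod.intCast_zmod_eq_zero_iff_dvd]
    exact_mod_cast h1
  have hΔ : (W.reductionMod p).Δ ≠ 0 := by
    rw [reductionMod, WeierstrassCurve.map_Δ, eq_intCast, Ne, ZMod.intCast_zmod_eq_zero_iff_dvd]
    exact hΔ'
  have hm : ¬ (p : ℤ) ∣ 2 * (-27 * W.c₄) := fun h1 => h ((dvd_iff_of_c6 hp.out hc).1 h1)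
  have hF : ringChar (ZMod p) ≠ 2 := by
    rw [ZMod.ringChar_zmod_n]
    exact ne_two_of_not_dvd_two_mul hm
  rw [ap_E1728_sum hm, apOfModel, Twist.trace_eq (W.reductionMod p) hF hΔ]
  congr 1
  have h36 : (36 : ZMod p) ≠ 0 := by
    have : (36 : ZMod p) = 2 ^ 2 * 3 ^ 2 := by norm_num
    rw [this]
    exact mul_ne_zero (pow_ne_zero _ h20) (pow_ne_zero _ h30)
  have h108 : (108 : ZMod p) ≠ 0 := by
    have : (108 : ZMod p) = 2 ^ 2 * 3 ^ 3 := by norm_num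
    rw [this]
    exact mul_ne_zero (pow_ne_zero _ h20) (pow_ne_zero _ h30)
  set V := W.reductionMod p with hV
  have hc4 : ((-27 * W.c₄ : ℤ) : ZMod p) = -27 * V.c₄ := by
    rw [hV, reductionMod, WeierstrassCurve.map_c₄, eq_intCast]
    push_cast
    rfl
  have hc6 : V.c₆ = 0 := by
    rw [hV, reductionMod, WeierstrassCurve.map_c₆, hc, map_zero]
  rw [hc4, ← Equiv.sum_comp ((Equiv.mulLeft₀ (36 : ZMod p) h36).trans
    (Equiv.addRight (3 * V.b₂)))
    (fun x => quadraticChar (ZMod p) (x ^ 3 + -27 * V.c₄ * x))]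
  refine Finset.sum_congr rfl fun x _ => ?_
  have e1 : ((Equiv.mulLeft₀ (36 : ZMod p) h36).trans (Equiv.addRight (3 * V.b₂))) x =
      36 * x + 3 * V.b₂ := rfl
  rw [e1]
  have e2 : (36 * x + 3 * V.b₂) ^ 3 + -27 * V.c₄ * (36 * x + 3 * V.b₂) =
      108 ^ 2 * (4 * x ^ 3 + V.b₂ * x ^ 2 + 2 * V.b₄ * x + V.b₆) + 54 * V.c₆ := by
    simp only [c₄, c₆]
    ring
  rw [e2, hc6, mul_zero, add_zero, map_mul, quadraticChar_sq_one' h108, one_mul]

end Qc

/-- **The Sato-Tate law for every integral Weierstrass equation with `c₆ = 0`** (`j = 1728`) -/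
theorem sato_tate_c6_eq_zero {W : WeierstrassCurve ℤ} (hΔ : W.Δ ≠ 0) (hc : W.c₆ = 0) {α β : ℝ}
    (hα : -1 ≤ α) (hαβ : α ≤ β) (hβ : β ≤ 1) :
    Tendsto (fun x : ℕ => (Nat.card {p : ℕ // p.Prime ∧ ¬ (p : ℤ) ∣ 6 * W.Δ ∧ p ≤ x ∧
      α ≤ (W.apOfModel p : ℝ) / (2 * Real.sqrt p) ∧
      (W.apOfModel p : ℝ) / (2 * Real.sqrt p) ≤ β} : ℝ) * Real.log x / x) atTop
      (𝓝 ((if α ≤ 0 ∧ 0 ≤ β then 1 / 2 else 0) +
        (Real.arccos α - Real.arccos β) / (2 * Real.pi))) := by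
  have hrel : 1728 * W.Δ = W.c₄ ^ 3 := by
    have h1 := W.c_relation
    rw [hc] at h1
    linarith
  have hm : -27 * W.c₄ ≠ 0 := by
    intro h
    apply hΔ
    have h2 : W.c₄ = 0 := by omega
    rw [h2] at hrel
    omega
  refine (sato_tate_j1728 hm hα hαβ hβ).congr fun x => ?_
  congr 2
  rw [Nat.cast_inj]
  refine Nat.card_congr (Equiv.subtypeEquivRight fun p => ?_)
  refine and_congr_right fun hp => ?_
  have hpF : Fact p.Prime := ⟨hp⟩
  rw [Qc.dvd_iff_of_c6 hp hc]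
  refine and_congr_right fun h => ?_
  rw [Qc.ap_eq_ap_E1728 hc h]

/-- **The Sato-Tate law for every elliptic curve over `ℚ` with `j = 0` or `j = 1728`**: for every
integral Weierstrass equation with `Δ ≠ 0` and `c₄ c₆ = 0` and `[α, β] ⊆ [-1, 1]` the number of
the primes `p ≤ x`, `p ∤ 6 Δ`, with `α ≤ a_p / (2 √p) ≤ β` is asymptotic to
`μ([α, β]) x / log x`, where `μ` is `(1/2) δ₀ + dt / (2π √(1 - t²))`. -/
theorem sato_tate_j {W : WeierstrassCurve ℤ} (hΔ : W.Δ ≠ 0) (hc : W.c₄ * W.c₆ = 0) {α β : ℝ}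
    (hα : -1 ≤ α) (hαβ : α ≤ β) (hβ : β ≤ 1) :
    Tendsto (fun x : ℕ => (Nat.card {p : ℕ // p.Prime ∧ ¬ (p : ℤ) ∣ 6 * W.Δ ∧ p ≤ x ∧
      α ≤ (W.apOfModel p : ℝ) / (2 * Real.sqrt p) ∧
      (W.apOfModel p : ℝ) / (2 * Real.sqrt p) ≤ β} : ℝ) * Real.log x / x) atTop
      (𝓝 ((if α ≤ 0 ∧ 0 ≤ β then 1 / 2 else 0) +
        (Real.arccos α - Real.arccos β) / (2 * Real.pi))) := by
  rcases mul_eq_zero.1 hc with h | h
  · exact sato_tate_c4_eq_zero hΔ h hα hαβ hβ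
  · exact sato_tate_c6_eq_zero hΔ h hα hαβ hβ

end Fermat.Agent.Cor.SectK
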