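import Fermat.Agent.Corollaries.SectK.TwoIsog
import Fermat.Agent.Corollaries.SectK.QuAll

/-!
# The Sato-Tate law for all elliptic curves over `ℚ` with `j = 54000` or `j = 287496`

* `ap_short` : `a_p` as a character sum over the short form `x³ - 27 c₄ x - 54 c₆`.
* `ap_scale` : `a_p` depends only on `(c₄, c₆)` up to `(w⁴ c₄, w⁶ c₆)`.
* `sato_tate_c4_54000`, `sato_tate_c4_287496` : the Sato-Tate law for every integral Weierstrass
  equation with `c₄³ = 54000 Δ` (`287496 Δ`).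
-/

set_option autoImplicit false
set_option linter.unusedSectionVars false

noncomputable section

open Filter Topology WeierstrassCurve

namespace Fermat.Agent.Cor.SectK

section Short

variable {p : ℕ} [hp : Fact p.Prime]

/-- `a_p` as a character sum over the short form -/
theorem ap_short (h2 : p ≠ 2) (h3 : p ≠ 3) {W : WeierstrassCurve ℤ} (hΔ : ¬ (p : ℤ) ∣ W.Δ) :
    W.apOfModel p = -∑ x : ZMod p, quadraticChar (ZMod p)
      (x ^ 3 - 27 * ((W.c₄ : ℤ) : ZMod p) * x - 54 * ((W.c₆ : ℤ) : ZMod p)) := by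
  have h20 : (2 : ZMod p) ≠ 0 := two_ne_zmod h2
  have h30 : (3 : ZMod p) ≠ 0 := three_ne h3
  have hF : ringChar (ZMod p) ≠ 2 := by
    rw [ZMod.ringChar_zmod_n]
    exact h2
  have hΔ' : (W.reductionMod p).Δ ≠ 0 := by
    rw [reductionMod, WeierstrassCurve.map_Δ, eq_intCast]
    exact cast_ne_zero' hΔ
  rw [apOfModel, Twist.trace_eq (W.reductionMod p) hF hΔ']
  congr 1
  have h36 : (36 : ZMod p) ≠ 0 := by
    have : (36 : ZMod p) = 2 ^ 2 * 3 ^ 2 := by norm_num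
    rw [this]
    exact mul_ne_zero (pow_ne_zero _ h20) (pow_ne_zero _ h30)
  have h108 : (108 : ZMod p) ≠ 0 := by
    have : (108 : ZMod p) = 2 ^ 2 * 3 ^ 3 := by norm_num
    rw [this]
    exact mul_ne_zero (pow_ne_zero _ h20) (pow_ne_zero _ h30)
  set V := W.reductionMod p with hV
  have hc4 : ((W.c₄ : ℤ) : ZMod p) = V.c₄ := by
    rw [hV, reductionMod, WeierstrassCurve.map_c₄, eq_intCast]
  have hc6 : ((W.c₆ : ℤ) : ZMod p) = V.c₆ := by
    rw [hV, reductionMod, WeierstrassCurve.map_c₆, eq_intCast]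
  rw [hc4, hc6, ← Equiv.sum_comp ((Equiv.mulLeft₀ (36 : ZMod p) h36).trans
    (Equiv.addRight (3 * V.b₂)))
    (fun x => quadraticChar (ZMod p) (x ^ 3 - 27 * V.c₄ * x - 54 * V.c₆))]
  refine Finset.sum_congr rfl fun x _ => ?_
  have e1 : ((Equiv.mulLeft₀ (36 : ZMod p) h36).trans (Equiv.addRight (3 * V.b₂))) x =
      36 * x + 3 * V.b₂ := rfl
  rw [e1]
  have e2 : (36 * x + 3 * V.b₂) ^ 3 - 27 * V.c₄ * (36 * x + 3 * V.b₂) - 54 * V.c₆ =
      108 ^ 2 * (4 * x ^ 3 + V.b₂ * x ^ 2 + 2 * V.b₄ * x + V.b₆) := by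
    simp only [c₄, c₆]
    ring
  rw [e2, map_mul, quadraticChar_sq_one' h108, one_mul]

/-- `a_p` depends only on `(c₄, c₆)` up to `(w⁴ c₄, w⁶ c₆)` -/
theorem ap_scale (h2 : p ≠ 2) (h3 : p ≠ 3) {W W' : WeierstrassCurve ℤ} (hΔ : ¬ (p : ℤ) ∣ W.Δ)
    (hΔ' : ¬ (p : ℤ) ∣ W'.Δ) {w : ℤ} (hw : ¬ (p : ℤ) ∣ w) (h4 : W'.c₄ = w ^ 4 * W.c₄)
    (h6 : W'.c₆ = w ^ 6 * W.c₆) : W'.apOfModel p = W.apOfModel p := by
  rw [ap_short h2 h3 hΔ, ap_short h2 h3 hΔ', h4, h6]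
  congr 1
  have hw0 : (w : ZMod p) ≠ 0 := cast_ne_zero' hw
  rw [← Equiv.sum_comp (Equiv.mulLeft₀ ((w : ZMod p) ^ 2) (pow_ne_zero 2 hw0))]
  refine Finset.sum_congr rfl fun x _ => ?_
  rw [Equiv.mulLeft₀_apply]
  have e : ((w : ZMod p) ^ 2 * x) ^ 3 - 27 * ((w ^ 4 * W.c₄ : ℤ) : ZMod p) * ((w : ZMod p) ^ 2 * x) -
      54 * ((w ^ 6 * W.c₆ : ℤ) : ZMod p) = ((w : ZMod p) ^ 3) ^ 2 *
        (x ^ 3 - 27 * ((W.c₄ : ℤ) : ZMod p) * x - 54 * ((W.c₆ : ℤ) : ZMod p)) := by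
    push_cast
    ring
  rw [e, map_mul, quadraticChar_sq_one' (pow_ne_zero 3 hw0), one_mul]

end Short

theorem prime_dvd_iff {p q : ℕ} (hp : p.Prime) (hq : q.Prime) : (p : ℤ) ∣ q ↔ p = q := by
  rw [Int.natCast_dvd_natCast, Nat.prime_dvd_prime_iff_eq hp hq]

section J54000

variable {W : WeierstrassCurve ℤ}

theorem c6_sq_54000 (hj : W.c₄ ^ 3 = 54000 * W.Δ) : W.c₆ ^ 2 = 52272 * W.Δ := by
  have := W.c_relation
  linarith

/-- the bad primes -/
theorem dvd_54000 (hj : W.c₄ ^ 3 = 54000 * W.Δ) {p : ℕ} (hp : p.Prime) :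
    (p : ℤ) ∣ 6 * (-660 * W.c₄ * W.c₆) ↔ (p : ℤ) ∣ 330 * W.Δ := by
  have hpz := Nat.prime_iff_prime_int.1 hp
  have h6 := c6_sq_54000 hj
  have h2 : (p : ℤ) ∣ (2 : ℕ) ↔ p = 2 := prime_dvd_iff hp Nat.prime_two
  have h3 : (p : ℤ) ∣ (3 : ℕ) ↔ p = 3 := prime_dvd_iff hp Nat.prime_three
  have h5 : (p : ℤ) ∣ (5 : ℕ) ↔ p = 5 := prime_dvd_iff hp Nat.prime_five
  have h11 : (p : ℤ) ∣ (11 : ℕ) ↔ p = 11 := prime_dvd_iff hp (by norm_num)
  by_cases hs : p = 2 ∨ p = 3 ∨ p = 5 ∨ p = 11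
  · have e1 : (p : ℤ) ∣ 6 * (-660 * W.c₄ * W.c₆) := by
      rcases hs with rfl | rfl | rfl | rfl
      · exact ⟨3 * (-660 * W.c₄ * W.c₆), by push_cast; ring⟩
      · exact ⟨2 * (-660 * W.c₄ * W.c₆), by push_cast; ring⟩
      · exact ⟨6 * (-132 * W.c₄ * W.c₆), by push_cast; ring⟩
      · exact ⟨6 * (-60 * W.c₄ * W.c₆), by push_cast; ring⟩
    have e2 : (p : ℤ) ∣ 330 * W.Δ := by
      rcases hs with rfl | rfl | rfl | rfl
      · exact ⟨165 * W.Δ, by push_cast; ring⟩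
      · exact ⟨110 * W.Δ, by push_cast; ring⟩
      · exact ⟨66 * W.Δ, by push_cast; ring⟩
      · exact ⟨30 * W.Δ, by push_cast; ring⟩
    exact ⟨fun _ => e2, fun _ => e1⟩
  · push Not at hs
    obtain ⟨k2, k3, k5, k11⟩ := hs
    have n2 : ¬ (p : ℤ) ∣ 2 := fun h => k2 (h2.1 (by exact_mod_cast h))
    have n3 : ¬ (p : ℤ) ∣ 3 := fun h => k3 (h3.1 (by exact_mod_cast h))
    have n5 : ¬ (p : ℤ) ∣ 5 := fun h => k5 (h5.1 (by exact_mod_cast h))
    have n11 : ¬ (p : ℤ) ∣ 11 := fun h => k11 (h11.1 (by exact_mod_cast h))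
    constructor
    · intro h
      have e : 6 * (-660 * W.c₄ * W.c₆) = 2 ^ 3 * (3 ^ 2 * (5 * (11 * (-(W.c₄ * W.c₆))))) := by ring
      rw [e] at h
      rcases hpz.dvd_or_dvd h with h | h
      · exact absurd (hpz.dvd_of_dvd_pow h) n2
      rcases hpz.dvd_or_dvd h with h | h
      · exact absurd (hpz.dvd_of_dvd_pow h) n3
      rcases hpz.dvd_or_dvd h with h | h
      · exact absurd h n5
      rcases hpz.dvd_or_dvd h with h | h
      · exact absurd h n11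
      rw [dvd_neg] at h
      have hΔ : (p : ℤ) ∣ W.Δ := by
        rcases hpz.dvd_or_dvd h with h | h
        · have h7 : (p : ℤ) ∣ 2 ^ 4 * (3 ^ 3 * (5 ^ 3 * W.Δ)) := by
            have e : 2 ^ 4 * (3 ^ 3 * (5 ^ 3 * W.Δ)) = W.c₄ ^ 3 := by rw [hj]; ring
            rw [e]
            exact dvd_pow h three_ne_zero
          rcases hpz.dvd_or_dvd h7 with h | h
          · exact absurd (hpz.dvd_of_dvd_pow h) n2
          rcases hpz.dvd_or_dvd h with h | h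
          · exact absurd (hpz.dvd_of_dvd_pow h) n3
          rcases hpz.dvd_or_dvd h with h | h
          · exact absurd (hpz.dvd_of_dvd_pow h) n5
          exact h
        · have h7 : (p : ℤ) ∣ 2 ^ 4 * (3 ^ 3 * (11 ^ 2 * W.Δ)) := by
            have e : 2 ^ 4 * (3 ^ 3 * (11 ^ 2 * W.Δ)) = W.c₆ ^ 2 := by rw [h6]; ring
            rw [e]
            exact dvd_pow h two_ne_zero
          rcases hpz.dvd_or_dvd h7 with h | h
          · exact absurd (hpz.dvd_of_dvd_pow h) n2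
          rcases hpz.dvd_or_dvd h with h | h
          · exact absurd (hpz.dvd_of_dvd_pow h) n3
          rcases hpz.dvd_or_dvd h with h | h
          · exact absurd (hpz.dvd_of_dvd_pow h) n11
          exact h
      exact hΔ.mul_left _
    · intro h
      have e : 330 * W.Δ = 2 * (3 * (5 * (11 * W.Δ))) := by ring
      rw [e] at h
      rcases hpz.dvd_or_dvd h with h | h
      · exact absurd h n2
      rcases hpz.dvd_or_dvd h with h | h
      · exact absurd h n3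
      rcases hpz.dvd_or_dvd h with h | h
      · exact absurd h n5
      rcases hpz.dvd_or_dvd h with h | h
      · exact absurd h n11
      have h4 : (p : ℤ) ∣ W.c₄ := by
        apply hpz.dvd_of_dvd_pow (n := 3)
        rw [hj]
        exact h.mul_left _
      exact ((h4.mul_left _).mul_right _).mul_left _

/-- `a_p(W) = a_p(E54000 (-660 c₄ c₆))` -/
theorem ap_54000 (hj : W.c₄ ^ 3 = 54000 * W.Δ) {p : ℕ} [hp : Fact p.Prime]
    (h : ¬ (p : ℤ) ∣ 330 * W.Δ) :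
    (E54000 (-660 * W.c₄ * W.c₆)).apOfModel p = W.apOfModel p := by
  have hpz := Nat.prime_iff_prime_int.1 hp.out
  have h' := h
  rw [← dvd_54000 hj hp.out] at h'
  have h2 : p ≠ 2 := by
    rintro rfl
    exact h ⟨165 * W.Δ, by push_cast; ring⟩
  have h3 : p ≠ 3 := by
    rintro rfl
    exact h ⟨110 * W.Δ, by push_cast; ring⟩
  have hΔ : ¬ (p : ℤ) ∣ W.Δ := fun h1 => h (h1.mul_left _)
  have n2 : ¬ (p : ℤ) ∣ 2 := fun h1 => h2 ((prime_dvd_iff hp.out Nat.prime_two).1 (by exact_mod_cast h1))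
  have n3 : ¬ (p : ℤ) ∣ 3 :=
    fun h1 => h3 ((prime_dvd_iff hp.out Nat.prime_three).1 (by exact_mod_cast h1))
  have hd : ¬ (p : ℤ) ∣ -660 * W.c₄ * W.c₆ := fun h1 => h' (h1.mul_left _)
  have hΔ' : ¬ (p : ℤ) ∣ (E54000 (-660 * W.c₄ * W.c₆)).Δ := by
    rw [E54000_Δ]
    intro h1
    have e : (6912 : ℤ) * (-660 * W.c₄ * W.c₆) ^ 6 = 2 ^ 8 * (3 ^ 3 * (-660 * W.c₄ * W.c₆) ^ 6) := by
      ring
    rw [e] at h1
    rcases hpz.dvd_or_dvd h1 with h1 | h1
    · exact n2 (hpz.dvd_of_dvd_pow h1)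
    rcases hpz.dvd_or_dvd h1 with h1 | h1
    · exact n3 (hpz.dvd_of_dvd_pow h1)
    · exact hd (hpz.dvd_of_dvd_pow h1)
  have hw : ¬ (p : ℤ) ∣ 132 * W.c₄ := by
    intro h1
    apply hd
    have e : -660 * W.c₄ * W.c₆ = (132 * W.c₄) * (-5 * W.c₆) := by ring
    rw [e]
    exact h1.mul_right _
  have h6 := c6_sq_54000 hj
  have hrel : 125 * W.c₆ ^ 2 = 121 * W.c₄ ^ 3 := by
    rw [h6, hj]
    ring
  refine ap_scale h2 h3 hΔ hΔ' hw ?_ ?_
  · have e : (E54000 (-660 * W.c₄ * W.c₆)).c₄ = 720 * (-660 * W.c₄ * W.c₆) ^ 2 := by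
      simp only [WeierstrassCurve.c₄, WeierstrassCurve.b₂, WeierstrassCurve.b₄, E54000]
      ring
    rw [e]
    linear_combination (2509056 * W.c₄ ^ 2) * hrel
  · have e : (E54000 (-660 * W.c₄ * W.c₆)).c₆ = -19008 * (-660 * W.c₄ * W.c₆) ^ 3 := by
      simp only [WeierstrassCurve.c₆, WeierstrassCurve.b₂, WeierstrassCurve.b₄,
        WeierstrassCurve.b₆, E54000]
      ring
    rw [e]
    linear_combination (43717791744 * W.c₄ ^ 3 * W.c₆) * hrel

/-- **The Sato-Tate law for every elliptic curve over `ℚ` with `j = 54000`** (complex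
multiplication by `ℤ[√-3]`) -/
theorem sato_tate_c4_54000 (hΔ : W.Δ ≠ 0) (hj : W.c₄ ^ 3 = 54000 * W.Δ) {α β : ℝ}
    (hα : -1 ≤ α) (hαβ : α ≤ β) (hβ : β ≤ 1) :
    Tendsto (fun x : ℕ => (Nat.card {p : ℕ // p.Prime ∧ ¬ (p : ℤ) ∣ 330 * W.Δ ∧ p ≤ x ∧
      α ≤ (W.apOfModel p : ℝ) / (2 * Real.sqrt p) ∧
      (W.apOfModel p : ℝ) / (2 * Real.sqrt p) ≤ β} : ℝ) * Real.log x / x) atTop
      (𝓝 ((if α ≤ 0 ∧ 0 ≤ β then 1 / 2 else 0) +
        (Real.arccos α - Real.arccos β) / (2 * Real.pi))) := by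
  have h6 := c6_sq_54000 hj
  have h4 : W.c₄ ≠ 0 := by
    intro h
    rw [h] at hj
    apply hΔ
    omega
  have h6' : W.c₆ ≠ 0 := by
    intro h
    rw [h] at h6
    apply hΔ
    omega
  have hd : -660 * W.c₄ * W.c₆ ≠ 0 := mul_ne_zero (mul_ne_zero (by norm_num) h4) h6'
  refine (sato_tate_j54000 hd hα hαβ hβ).congr fun x => ?_
  congr 2
  rw [Nat.cast_inj]
  refine Nat.card_congr (Equiv.subtypeEquivRight fun p => ?_)
  refine and_congr_right fun hp => ?_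
  have hpF : Fact p.Prime := ⟨hp⟩
  rw [dvd_54000 hj hp]
  refine and_congr_right fun h => ?_
  rw [ap_54000 hj h]

end J54000

section J287496

variable {W : WeierstrassCurve ℤ}

theorem c6_sq_287496 (hj : W.c₄ ^ 3 = 287496 * W.Δ) : W.c₆ ^ 2 = 285768 * W.Δ := by
  have := W.c_relation
  linarith

/-- the bad primes -/
theorem dvd_287496 (hj : W.c₄ ^ 3 = 287496 * W.Δ) {p : ℕ} (hp : p.Prime) :
    (p ≠ 2 ∧ ¬ (p : ℤ) ∣ 693 * W.c₄ * W.c₆) ↔ ¬ (p : ℤ) ∣ 462 * W.Δ := by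
  have hpz := Nat.prime_iff_prime_int.1 hp
  have h6 := c6_sq_287496 hj
  have h2 : (p : ℤ) ∣ (2 : ℕ) ↔ p = 2 := prime_dvd_iff hp Nat.prime_two
  have h3 : (p : ℤ) ∣ (3 : ℕ) ↔ p = 3 := prime_dvd_iff hp Nat.prime_three
  have h7 : (p : ℤ) ∣ (7 : ℕ) ↔ p = 7 := prime_dvd_iff hp (by norm_num)
  have h11 : (p : ℤ) ∣ (11 : ℕ) ↔ p = 11 := prime_dvd_iff hp (by norm_num)
  by_cases hs : p = 2 ∨ p = 3 ∨ p = 7 ∨ p = 11
  · have e1 : ¬ (p ≠ 2 ∧ ¬ (p : ℤ) ∣ 693 * W.c₄ * W.c₆) := by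
      rcases hs with rfl | rfl | rfl | rfl
      · exact fun h => h.1 rfl
      · exact fun h => h.2 ⟨231 * W.c₄ * W.c₆, by push_cast; ring⟩
      · exact fun h => h.2 ⟨99 * W.c₄ * W.c₆, by push_cast; ring⟩
      · exact fun h => h.2 ⟨63 * W.c₄ * W.c₆, by push_cast; ring⟩
    have e2 : (p : ℤ) ∣ 462 * W.Δ := by
      rcases hs with rfl | rfl | rfl | rfl
      · exact ⟨231 * W.Δ, by push_cast; ring⟩
      · exact ⟨154 * W.Δ, by push_cast; ring⟩
      · exact ⟨66 * W.Δ, by push_cast; ring⟩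
      · exact ⟨42 * W.Δ, by push_cast; ring⟩
    exact ⟨fun h => absurd h e1, fun h => absurd e2 h⟩
  · push Not at hs
    obtain ⟨k2, k3, k7, k11⟩ := hs
    have n2 : ¬ (p : ℤ) ∣ 2 := fun h => k2 (h2.1 (by exact_mod_cast h))
    have n3 : ¬ (p : ℤ) ∣ 3 := fun h => k3 (h3.1 (by exact_mod_cast h))
    have n7 : ¬ (p : ℤ) ∣ 7 := fun h => k7 (h7.1 (by exact_mod_cast h))
    have n11 : ¬ (p : ℤ) ∣ 11 := fun h => k11 (h11.1 (by exact_mod_cast h))
    constructor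
    · rintro ⟨-, hd⟩ h
      apply hd
      have e : 462 * W.Δ = 2 * (3 * (7 * (11 * W.Δ))) := by ring
      rw [e] at h
      rcases hpz.dvd_or_dvd h with h | h
      · exact absurd h n2
      rcases hpz.dvd_or_dvd h with h | h
      · exact absurd h n3
      rcases hpz.dvd_or_dvd h with h | h
      · exact absurd h n7
      rcases hpz.dvd_or_dvd h with h | h
      · exact absurd h n11
      have h4 : (p : ℤ) ∣ W.c₄ := by
        apply hpz.dvd_of_dvd_pow (n := 3)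
        rw [hj]
        exact h.mul_left _
      exact (h4.mul_left _).mul_right _
    · intro hd
      refine ⟨k2, fun h => hd ?_⟩
      have e : 693 * W.c₄ * W.c₆ = 3 ^ 2 * (7 * (11 * (W.c₄ * W.c₆))) := by ring
      rw [e] at h
      rcases hpz.dvd_or_dvd h with h | h
      · exact absurd (hpz.dvd_of_dvd_pow h) n3
      rcases hpz.dvd_or_dvd h with h | h
      · exact absurd h n7
      rcases hpz.dvd_or_dvd h with h | h
      · exact absurd h n11
      have hΔ : (p : ℤ) ∣ W.Δ := by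
        rcases hpz.dvd_or_dvd h with h | h
        · have h8 : (p : ℤ) ∣ 2 ^ 3 * (3 ^ 3 * (11 ^ 3 * W.Δ)) := by
            have e : 2 ^ 3 * (3 ^ 3 * (11 ^ 3 * W.Δ)) = W.c₄ ^ 3 := by rw [hj]; ring
            rw [e]
            exact dvd_pow h three_ne_zero
          rcases hpz.dvd_or_dvd h8 with h | h
          · exact absurd (hpz.dvd_of_dvd_pow h) n2
          rcases hpz.dvd_or_dvd h with h | h
          · exact absurd (hpz.dvd_of_dvd_pow h) n3
          rcases hpz.dvd_or_dvd h with h | h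
          · exact absurd (hpz.dvd_of_dvd_pow h) n11
          exact h
        · have h8 : (p : ℤ) ∣ 2 ^ 3 * (3 ^ 6 * (7 ^ 2 * W.Δ)) := by
            have e : 2 ^ 3 * (3 ^ 6 * (7 ^ 2 * W.Δ)) = W.c₆ ^ 2 := by rw [h6]; ring
            rw [e]
            exact dvd_pow h two_ne_zero
          rcases hpz.dvd_or_dvd h8 with h | h
          · exact absurd (hpz.dvd_of_dvd_pow h) n2
          rcases hpz.dvd_or_dvd h with h | h
          · exact absurd (hpz.dvd_of_dvd_pow h) n3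
          rcases hpz.dvd_or_dvd h with h | h
          · exact absurd (hpz.dvd_of_dvd_pow h) n7
          exact h
      exact hΔ.mul_left _

/-- `a_p(W) = a_p(E287496 (693 c₄ c₆))` -/
theorem ap_287496 (hj : W.c₄ ^ 3 = 287496 * W.Δ) {p : ℕ} [hp : Fact p.Prime]
    (h : ¬ (p : ℤ) ∣ 462 * W.Δ) :
    (E287496 (693 * W.c₄ * W.c₆)).apOfModel p = W.apOfModel p := by
  have hpz := Nat.prime_iff_prime_int.1 hp.out
  obtain ⟨h2, hd⟩ := (dvd_287496 hj hp.out).2 h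
  have h3 : p ≠ 3 := by
    rintro rfl
    exact h ⟨154 * W.Δ, by push_cast; ring⟩
  have hΔ : ¬ (p : ℤ) ∣ W.Δ := fun h1 => h (h1.mul_left _)
  have n2 : ¬ (p : ℤ) ∣ 2 := fun h1 => h2 ((prime_dvd_iff hp.out Nat.prime_two).1 (by exact_mod_cast h1))
  have n3 : ¬ (p : ℤ) ∣ 3 :=
    fun h1 => h3 ((prime_dvd_iff hp.out Nat.prime_three).1 (by exact_mod_cast h1))
  have hΔ' : ¬ (p : ℤ) ∣ (E287496 (693 * W.c₄ * W.c₆)).Δ := by
    rw [E287496_Δ]
    intro h1
    have e : (512 : ℤ) * (693 * W.c₄ * W.c₆) ^ 6 = 2 ^ 9 * (693 * W.c₄ * W.c₆) ^ 6 := by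
      ring
    rw [e] at h1
    rcases hpz.dvd_or_dvd h1 with h1 | h1
    · exact n2 (hpz.dvd_of_dvd_pow h1)
    · exact hd (hpz.dvd_of_dvd_pow h1)
  have hw : ¬ (p : ℤ) ∣ 126 * W.c₄ := by
    intro h1
    have e : 126 * W.c₄ = 2 * (3 ^ 2 * (7 * W.c₄)) := by ring
    rw [e] at h1
    rcases hpz.dvd_or_dvd h1 with h1 | h1
    · exact n2 h1
    rcases hpz.dvd_or_dvd h1 with h1 | h1
    · exact n3 (hpz.dvd_of_dvd_pow h1)
    apply hd
    have e : 693 * W.c₄ * W.c₆ = (7 * W.c₄) * (99 * W.c₆) := by ring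
    rw [e]
    exact h1.mul_right _
  have h6 := c6_sq_287496 hj
  have hrel : 1331 * W.c₆ ^ 2 = 1323 * W.c₄ ^ 3 := by
    rw [h6, hj]
    ring
  refine ap_scale h2 h3 hΔ hΔ' hw ?_ ?_
  · have e : (E287496 (693 * W.c₄ * W.c₆)).c₄ = 528 * (693 * W.c₄ * W.c₆) ^ 2 := by
      simp only [WeierstrassCurve.c₄, WeierstrassCurve.b₂, WeierstrassCurve.b₄, E287496]
      ring
    rw [e]
    linear_combination (190512 * W.c₄ ^ 2) * hrel
  · have e : (E287496 (693 * W.c₄ * W.c₆)).c₆ = 12096 * (693 * W.c₄ * W.c₆) ^ 3 := by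
      simp only [WeierstrassCurve.c₆, WeierstrassCurve.b₂, WeierstrassCurve.b₄,
        WeierstrassCurve.b₆, E287496]
      ring
    rw [e]
    linear_combination (3024568512 * W.c₄ ^ 3 * W.c₆) * hrel

/-- **The Sato-Tate law for every elliptic curve over `ℚ` with `j = 287496`** (complex
multiplication by `ℤ[2i]`) -/
theorem sato_tate_c4_287496 (hΔ : W.Δ ≠ 0) (hj : W.c₄ ^ 3 = 287496 * W.Δ) {α β : ℝ}
    (hα : -1 ≤ α) (hαβ : α ≤ β) (hβ : β ≤ 1) :
    Tendsto (fun x : ℕ => (Nat.card {p : ℕ // p.Prime ∧ ¬ (p : ℤ) ∣ 462 * W.Δ ∧ p ≤ x ∧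
      α ≤ (W.apOfModel p : ℝ) / (2 * Real.sqrt p) ∧
      (W.apOfModel p : ℝ) / (2 * Real.sqrt p) ≤ β} : ℝ) * Real.log x / x) atTop
      (𝓝 ((if α ≤ 0 ∧ 0 ≤ β then 1 / 2 else 0) +
        (Real.arccos α - Real.arccos β) / (2 * Real.pi))) := by
  have h6 := c6_sq_287496 hj
  have h4 : W.c₄ ≠ 0 := by
    intro h
    rw [h] at hj
    apply hΔ
    omega
  have h6' : W.c₆ ≠ 0 := by
    intro h
    rw [h] at h6
    apply hΔ
    omega
  have hd : 693 * W.c₄ * W.c₆ ≠ 0 := mul_ne_zero (mul_ne_zero (by norm_num) h4) h6'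
  refine (sato_tate_j287496 hd hα hαβ hβ).congr fun x => ?_
  congr 2
  rw [Nat.cast_inj]
  refine Nat.card_congr (Equiv.subtypeEquivRight fun p => ?_)
  refine and_congr_right fun hp => ?_
  have hpF : Fact p.Prime := ⟨hp⟩
  rw [← and_assoc, dvd_287496 hj hp]
  refine and_congr_right fun h => ?_
  rw [ap_287496 hj h]

end J287496

/-! ### All together -/

open Classical in
theorem card_eq_filter (A R : ℕ → Prop) (x : ℕ) :
    Nat.card {p : ℕ // p.Prime ∧ A p ∧ p ≤ x ∧ R p} =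
      ((Finset.range (x + 1)).filter fun p => p.Prime ∧ A p ∧ R p).card := by
  rw [← Nat.card_eq_finsetCard]
  refine Nat.card_congr (Equiv.subtypeEquivRight fun p => ?_)
  rw [Finset.mem_filter, Finset.mem_range]
  constructor
  · rintro ⟨h1, h2, h3, h4⟩
    exact ⟨by omega, h1, h2, h4⟩
  · rintro ⟨h1, h2, h3, h4⟩
    exact ⟨h2, h3, by omega, h4⟩

/-- finitely many primes do not matter -/
theorem tendsto_finite_change {A B R : ℕ → Prop} (N : ℕ)
    (hN : ∀ p, p.Prime → N < p → (A p ↔ B p)) {L : ℝ}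
    (h : Tendsto (fun x : ℕ => (Nat.card {p : ℕ // p.Prime ∧ A p ∧ p ≤ x ∧ R p} : ℝ) *
      Real.log x / x) atTop (𝓝 L)) :
    Tendsto (fun x : ℕ => (Nat.card {p : ℕ // p.Prime ∧ B p ∧ p ≤ x ∧ R p} : ℝ) *
      Real.log x / x) atTop (𝓝 L) := by
  classical
  have key : ∀ {A B : ℕ → Prop}, (∀ p, p.Prime → N < p → (A p ↔ B p)) → ∀ x : ℕ,
      (Nat.card {p : ℕ // p.Prime ∧ A p ∧ p ≤ x ∧ R p} : ℝ) ≤
        Nat.card {p : ℕ // p.Prime ∧ B p ∧ p ≤ x ∧ R p} + (N + 1) := by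
    intro A B hN x
    rw [card_eq_filter, card_eq_filter]
    have h1 : ((Finset.range (x + 1)).filter fun p => p.Prime ∧ A p ∧ R p) ⊆
        ((Finset.range (x + 1)).filter fun p => p.Prime ∧ B p ∧ R p) ∪ Finset.range (N + 1) := by
      intro p hp
      simp only [Finset.mem_filter, Finset.mem_range] at hp
      simp only [Finset.mem_union, Finset.mem_filter, Finset.mem_range]
      rcases le_or_gt p N with h2 | h2
      · exact Or.inr (by omega)
      · exact Or.inl ⟨hp.1, hp.2.1, (hN p hp.2.1 h2).1 hp.2.2.1, hp.2.2.2⟩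
    have h2 := (Finset.card_le_card h1).trans (Finset.card_union_le _ _)
    rw [Finset.card_range] at h2
    exact_mod_cast h2
  have h0 : Tendsto (fun x : ℕ => Real.log x / x) atTop (𝓝 0) := by
    have h5 := Real.isLittleO_log_id_atTop.tendsto_div_nhds_zero.comp tendsto_natCast_atTop_atTop
    exact h5
  have h1 : Tendsto (fun x : ℕ => (N + 1 : ℝ) * (Real.log x / x)) atTop (𝓝 0) := by
    have := h0.const_mul (N + 1 : ℝ)
    rwa [mul_zero] at this
  have hlow := h.sub h1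
  have hupp := h.add h1
  rw [sub_zero] at hlow
  rw [add_zero] at hupp
  refine tendsto_of_tendsto_of_tendsto_of_le_of_le hlow hupp (fun x => ?_) (fun x => ?_)
  · have h2 := key hN x
    have h3 : (0 : ℝ) ≤ Real.log x / x := div_nonneg (Real.log_natCast_nonneg x) (Nat.cast_nonneg x)
    have h4 := mul_le_mul_of_nonneg_right h2 h3
    simp only [mul_div_assoc]
    linarith [h4]
  · have h2 := key (fun p hp hpN => (hN p hp hpN).symm) x
    have h3 : (0 : ℝ) ≤ Real.log x / x := div_nonneg (Real.log_natCast_nonneg x) (Nat.cast_nonneg x)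
    have h4 := mul_le_mul_of_nonneg_right h2 h3
    simp only [mul_div_assoc]
    linarith [h4]

/-- **The Sato-Tate law for the elliptic curves over `ℚ` with complex multiplication by an order of
index `≤ 2` in `ℤ[i]` or `ℤ[ω]`** (`j = 1728`, `287496`, `0`, `54000`): for every integral
Weierstrass equation with such an invariant and `[α, β] ⊆ [-1, 1]` the number of the primes `p ≤ x`,
`p ∤ Δ`, with `α ≤ a_p / (2 √p) ≤ β` is asymptotic to `μ([α, β]) x / log x`, where `μ` is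
`(1/2) δ₀ + dt / (2π √(1 - t²))`. -/
theorem sato_tate_cm {W : WeierstrassCurve ℤ} (hΔ : W.Δ ≠ 0)
    (hj : W.c₄ ^ 3 = 0 * W.Δ ∨ W.c₄ ^ 3 = 1728 * W.Δ ∨ W.c₄ ^ 3 = 54000 * W.Δ ∨
      W.c₄ ^ 3 = 287496 * W.Δ) {α β : ℝ} (hα : -1 ≤ α) (hαβ : α ≤ β) (hβ : β ≤ 1) :
    Tendsto (fun x : ℕ => (Nat.card {p : ℕ // p.Prime ∧ ¬ (p : ℤ) ∣ W.Δ ∧ p ≤ x ∧
      α ≤ (W.apOfModel p : ℝ) / (2 * Real.sqrt p) ∧
      (W.apOfModel p : ℝ) / (2 * Real.sqrt p) ≤ β} : ℝ) * Real.log x / x) atTop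
      (𝓝 ((if α ≤ 0 ∧ 0 ≤ β then 1 / 2 else 0) +
        (Real.arccos α - Real.arccos β) / (2 * Real.pi))) := by
  have key : ∀ N : ℕ, 0 < N → ∀ p : ℕ, p.Prime → N < p →
      (¬ (p : ℤ) ∣ N * W.Δ ↔ ¬ (p : ℤ) ∣ W.Δ) := by
    intro N hN0 p hp hNp
    refine not_congr ⟨fun h => ?_, fun h => h.mul_left _⟩
    rcases (Nat.prime_iff_prime_int.1 hp).dvd_or_dvd h with h1 | h1
    · have h2 : p ∣ N := by exact_mod_cast h1
      have := Nat.le_of_dvd hN0 h2
      omega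
    · exact h1
  rcases hj with h | h | h | h
  · rw [zero_mul] at h
    have h4 : W.c₄ = 0 := pow_eq_zero_iff three_ne_zero |>.1 h
    exact tendsto_finite_change (R := fun p => α ≤ (W.apOfModel p : ℝ) / (2 * Real.sqrt p) ∧
      (W.apOfModel p : ℝ) / (2 * Real.sqrt p) ≤ β) 6 (key 6 (by norm_num))
      (sato_tate_c4_eq_zero hΔ h4 hα hαβ hβ)
  · have h6 : W.c₆ = 0 := by
      have h1 := W.c_relation
      have h2 : W.c₆ ^ 2 = 0 := by linarith
      exact pow_eq_zero_iff two_ne_zero |>.1 h2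
    exact tendsto_finite_change (R := fun p => α ≤ (W.apOfModel p : ℝ) / (2 * Real.sqrt p) ∧
      (W.apOfModel p : ℝ) / (2 * Real.sqrt p) ≤ β) 6 (key 6 (by norm_num))
      (sato_tate_c6_eq_zero hΔ h6 hα hαβ hβ)
  · exact tendsto_finite_change (R := fun p => α ≤ (W.apOfModel p : ℝ) / (2 * Real.sqrt p) ∧
      (W.apOfModel p : ℝ) / (2 * Real.sqrt p) ≤ β) 330 (key 330 (by norm_num))
      (sato_tate_c4_54000 hΔ h hα hαβ hβ)
  · exact tendsto_finite_change (R := fun p => α ≤ (W.apOfModel p : ℝ) / (2 * Real.sqrt p) ∧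
      (W.apOfModel p : ℝ) / (2 * Real.sqrt p) ≤ β) 462 (key 462 (by norm_num))
      (sato_tate_c4_287496 hΔ h hα hαβ hβ)

end Fermat.Agent.Cor.SectK
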