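import Fermat.Agent.Corollaries.SectK.TestFun
import Fermat.Agent.Corollaries.SectK.CMAll

/-!
# Deuring's theorem, moments and test functions for `j = 0, 1728, 54000, 287496`

* `isHecke_cm` : the traces of Frobenius of an elliptic curve over `ℚ` with
  `j ∈ {0, 1728, 54000, 287496}` come from a Hecke character;
* `moments_cm` : the moments of `a_p / √p`, all primes;
* `tendsto_cont_cm` : continuous test functions in the Sato-Tate law, all primes;
* `mean_sq_cm`, `mean_abs_cm` : the means of `a_p² / p` and `|a_p| / √p` are `1` and `2/π`.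
-/

set_option autoImplicit false
set_option linter.unusedSectionVars false

noncomputable section

open NumberField nonZeroDivisors Filter Topology Module

open scoped Classical

namespace Fermat.Agent.Cor.SectK

open Fermat.Agent.ClassL Fermat.Agent.Cor.Ray Fermat.Agent.Classic.Zeta

/-- **Deuring's theorem for the elliptic curves over `ℚ` with `j = 0, 1728, 54000, 287496`** (all
integral Weierstrass equations): the traces of Frobenius come from a Hecke character of an
imaginary quadratic field. -/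
theorem isHecke_cm {W : WeierstrassCurve ℤ} (hΔ : W.Δ ≠ 0)
    (hj : W.c₄ ^ 3 = 0 * W.Δ ∨ W.c₄ ^ 3 = 1728 * W.Δ ∨ W.c₄ ^ 3 = 54000 * W.Δ ∨
      W.c₄ ^ 3 = 287496 * W.Δ) : IsHecke (fun p => (W.apOfModel p : ℝ)) (2310 * W.Δ) := by
  have hrel := W.c_relation
  have hsmall : ∀ (p : ℕ) (a : ℤ), a ∣ 2310 → ¬ (p : ℤ) ∣ 2310 * W.Δ → ¬ (p : ℤ) ∣ a * W.Δ := by
    intro p a ha h h1
    exact h (h1.trans (mul_dvd_mul_right ha _))
  rcases hj with hj | hj | hj | hj
  · have h4 : W.c₄ = 0 := by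
      rw [zero_mul] at hj
      exact eq_zero_of_pow_eq_zero hj
    refine (isHecke_j hΔ (by rw [h4, zero_mul])).congr fun p hp hpN => ⟨?_, rfl⟩
    exact hsmall p 6 ⟨385, by norm_num⟩ hpN
  · have h6 : W.c₆ = 0 := by
      rw [hj] at hrel
      apply eq_zero_of_pow_eq_zero (n := 2)
      linarith
    refine (isHecke_j hΔ (by rw [h6, mul_zero])).congr fun p hp hpN => ⟨?_, rfl⟩
    exact hsmall p 6 ⟨385, by norm_num⟩ hpN
  · have h6 := c6_sq_54000 hj
    have h4 : W.c₄ ≠ 0 := by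
      intro h
      rw [h] at hj
      apply hΔ
      omega
    have h6' : W.c₆ ≠ 0 := by
      intro h
      rw [h] at h6
      apply hΔ
      omega
    have hd : -660 * W.c₄ * W.c₆ ≠ 0 := mul_ne_zero (mul_ne_zero (by norm_num) h4) h6'
    refine (isHecke_E0 (pow_ne_zero 3 hd)).congr fun p hp hpN => ?_
    have hpF : Fact p.Prime := ⟨hp⟩
    have hpz := Nat.prime_iff_prime_int.1 hp
    have h7 := hsmall p 330 ⟨7, by norm_num⟩ hpN
    have h8 := h7
    rw [← dvd_54000 hj hp] at h8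
    constructor
    · intro h9
      apply h8
      rcases hpz.dvd_or_dvd h9 with h10 | h10
      · exact h10.mul_right _
      · exact (hpz.dvd_of_dvd_pow h10).mul_left _
    · rw [← ap_54000 hj h7, ap_E54000 h8]
  · have h6 := c6_sq_287496 hj
    have h4 : W.c₄ ≠ 0 := by
      intro h
      rw [h] at hj
      apply hΔ
      omega
    have h6' : W.c₆ ≠ 0 := by
      intro h
      rw [h] at h6
      apply hΔ
      omega
    have hd : 693 * W.c₄ * W.c₆ ≠ 0 := mul_ne_zero (mul_ne_zero (by norm_num) h4) h6'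
    refine (isHecke_E1728 (neg_ne_zero.2 (pow_ne_zero 2 hd))).congr fun p hp hpN => ?_
    have hpF : Fact p.Prime := ⟨hp⟩
    have hpz := Nat.prime_iff_prime_int.1 hp
    have h7 := hsmall p 462 ⟨5, by norm_num⟩ hpN
    obtain ⟨h8, h9⟩ := (dvd_287496 hj hp).2 h7
    constructor
    · intro h10
      rcases hpz.dvd_or_dvd h10 with h11 | h11
      · exact h8 ((Nat.prime_dvd_prime_iff_eq hp Nat.prime_two).1 (by exact_mod_cast h11))
      · exact h9 (hpz.dvd_of_dvd_pow ((dvd_neg).1 h11))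
    · rw [← ap_287496 hj h7, ap_E287496 h8 h9]
      rfl

/-- finitely many primes do not matter -/
theorem tendsto_all {g : ℕ → ℝ} {N : ℤ} (hN : N ≠ 0) {l : ℝ}
    (h : Tendsto (fun x : ℕ => (∑ p ∈ (Finset.Icc 1 x).filter (fun p : ℕ => p.Prime ∧
      ¬ (p : ℤ) ∣ N), g p) * Real.log x / x) atTop (𝓝 l)) :
    Tendsto (fun x : ℕ => (∑ p ∈ (Finset.Icc 1 x).filter Nat.Prime, g p) * Real.log x / x) atTop
      (𝓝 l) := by
  refine qd_tendsto_of_bounded (A := 0)
    (B := ∑ p ∈ N.natAbs.primeFactors, |g p|) (fun x => ?_) h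
  have hsub : (Finset.Icc 1 x).filter (fun p : ℕ => p.Prime ∧ ¬ (p : ℤ) ∣ N) ⊆
      (Finset.Icc 1 x).filter Nat.Prime := by
    intro p hp
    rw [Finset.mem_filter] at hp ⊢
    exact ⟨hp.1, hp.2.1⟩
  rw [← Finset.sum_sdiff hsub, sub_add_cancel_right, abs_neg, zero_mul, zero_add]
  refine (Finset.abs_sum_le_sum_abs _ _).trans (Finset.sum_le_sum_of_subset_of_nonneg ?_
    fun _ _ _ => abs_nonneg _)
  intro p hp
  rw [Finset.mem_sdiff, Finset.mem_filter, Finset.mem_filter] at hp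
  by_contra h1
  exact hp.2 ⟨hp.1.1, hp.1.2, (notMem_primeFactors_iff hN hp.1.2).1 h1⟩

variable {W : WeierstrassCurve ℤ} (hΔ : W.Δ ≠ 0)
  (hj : W.c₄ ^ 3 = 0 * W.Δ ∨ W.c₄ ^ 3 = 1728 * W.Δ ∨ W.c₄ ^ 3 = 54000 * W.Δ ∨
    W.c₄ ^ 3 = 287496 * W.Δ)

include hΔ hj

/-- **The moments of the traces of Frobenius of the elliptic curves over `ℚ` with
`j = 0, 1728, 54000, 287496`**: `∑_{p ≤ x} (a_p / √p)^n` is asymptotic to `(1/2) C(n, n/2)`
(`n > 0` even), `0` (`n` odd), times `x / log x`. -/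
theorem moments_cm (n : ℕ) :
    Tendsto (fun x : ℕ => (∑ p ∈ (Finset.Icc 1 x).filter Nat.Prime,
      ((W.apOfModel p : ℝ) / Real.sqrt p) ^ n) * Real.log x / x) atTop
      (𝓝 ((if n = 0 then 1 / 2 else 0) + (if Even n then (n.choose (n / 2) : ℝ) / 2 else 0))) :=
  tendsto_all (mul_ne_zero (by norm_num) hΔ)
    ((isHecke_cm hΔ hj).moments (mul_ne_zero (by norm_num) hΔ) n)

/-- **Continuous test functions in the Sato-Tate law of the elliptic curves over `ℚ` with
`j = 0, 1728, 54000, 287496`**, all primes. -/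
theorem tendsto_cont_cm {φ : ℝ → ℝ} (hφ : Continuous φ) :
    Tendsto (fun x : ℕ => (∑ p ∈ (Finset.Icc 1 x).filter Nat.Prime,
      φ ((W.apOfModel p : ℝ) / (2 * Real.sqrt p))) * Real.log x / x) atTop
      (𝓝 (φ 0 / 2 + (∫ t in (0 : ℝ)..Real.pi, φ (Real.cos t)) / (2 * Real.pi))) :=
  tendsto_all (mul_ne_zero (by norm_num) hΔ)
    ((isHecke_cm hΔ hj).tendsto_cont (mul_ne_zero (by norm_num) hΔ) hφ)

/-- the mean of `a_p² / p` is `1` -/
theorem mean_sq_cm :
    Tendsto (fun x : ℕ => (∑ p ∈ (Finset.Icc 1 x).filter Nat.Prime,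
      (W.apOfModel p : ℝ) ^ 2 / p) * Real.log x / x) atTop (𝓝 1) := by
  have h := moments_cm hΔ hj 2
  have e : (if 2 = 0 then (1 / 2 : ℝ) else 0) +
      (if Even 2 then (((2 : ℕ).choose (2 / 2) : ℕ) : ℝ) / 2 else 0) = 1 := by
    rw [if_neg (by norm_num), if_pos even_two]
    norm_num
  rw [e] at h
  refine h.congr fun x => ?_
  congr 2
  refine Finset.sum_congr rfl fun p _ => ?_
  rw [div_pow, Real.sq_sqrt (Nat.cast_nonneg p)]

/-- the mean of `|a_p| / √p` is `2 / π` -/
theorem mean_abs_cm :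
    Tendsto (fun x : ℕ => (∑ p ∈ (Finset.Icc 1 x).filter Nat.Prime,
      |(W.apOfModel p : ℝ)| / Real.sqrt p) * Real.log x / x) atTop (𝓝 (2 / Real.pi)) := by
  have h := tendsto_cont_cm hΔ hj (φ := fun t => 2 * |t|) (continuous_const.mul continuous_abs)
  have hpi := Real.pi_ne_zero
  have e : (2 * |(0 : ℝ)|) / 2 + (∫ t in (0 : ℝ)..Real.pi, 2 * |Real.cos t|) / (2 * Real.pi) =
      2 / Real.pi := by
    rw [intervalIntegral.integral_const_mul, integral_abs_cos]
    simp
    field_simp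
  rw [e] at h
  refine h.congr fun x => ?_
  congr 2
  refine Finset.sum_congr rfl fun p hp => ?_
  rw [Finset.mem_filter, Finset.mem_Icc] at hp
  have h6 : (0 : ℝ) < p := by exact_mod_cast hp.1.1
  have h7 : 0 < Real.sqrt p := Real.sqrt_pos.2 h6
  rw [abs_div, abs_of_pos (by positivity : (0 : ℝ) < 2 * Real.sqrt p)]
  field_simp

end Fermat.Agent.Cor.SectK
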