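import Fermat.Agent.Corollaries.SectK.CMAll
import Fermat.Agent.Corollaries.HW.TateEquiv

/-!
# The Sato-Tate law for the elliptic curves over `ℚ` isogenous to a curve with `j = 0, 1728, ...`
-/

set_option autoImplicit false
set_option linter.unusedSectionVars false

noncomputable section

open Filter Topology WeierstrassCurve Fermat.Agent.Cor.HW

namespace Fermat.Agent.Cor.SectK

/-- **The Sato-Tate law for isogenous curves**: `W'` is isogenous over `ℚ` to `W`, and the invariant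
of `W` is `0`, `1728`, `54000` or `287496`. -/
theorem sato_tate_cm_isog {W W' : WeierstrassCurve ℤ} (hΔ : W.Δ ≠ 0) (hΔ' : W'.Δ ≠ 0)
    (hj : W.c₄ ^ 3 = 0 * W.Δ ∨ W.c₄ ^ 3 = 1728 * W.Δ ∨ W.c₄ ^ 3 = 54000 * W.Δ ∨
      W.c₄ ^ 3 = 287496 * W.Δ) {φ : Pt W →+ Pt W'} (hφ : IsIsog φ) {α β : ℝ} (hα : -1 ≤ α)
    (hαβ : α ≤ β) (hβ : β ≤ 1) :
    Tendsto (fun x : ℕ => (Nat.card {p : ℕ // p.Prime ∧ ¬ (p : ℤ) ∣ W'.Δ ∧ p ≤ x ∧
      α ≤ (W'.apOfModel p : ℝ) / (2 * Real.sqrt p) ∧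
      (W'.apOfModel p : ℝ) / (2 * Real.sqrt p) ≤ β} : ℝ) * Real.log x / x) atTop
      (𝓝 ((if α ≤ 0 ∧ 0 ≤ β then 1 / 2 else 0) +
        (Real.arccos α - Real.arccos β) / (2 * Real.pi))) := by
  set N : ℕ := (W.Δ * W'.Δ).natAbs with hN
  have hN0 : N ≠ 0 := by
    rw [hN, Int.natAbs_ne_zero]
    exact mul_ne_zero hΔ hΔ'
  have key : ∀ p : ℕ, N < p → ¬ (p : ℤ) ∣ W.Δ ∧ ¬ (p : ℤ) ∣ W'.Δ := by
    intro p hp
    constructor
    · intro h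
      have h1 : p ∣ N := by
        rw [hN, ← Int.natCast_dvd]
        exact h.mul_right _
      have := Nat.le_of_dvd (Nat.pos_of_ne_zero hN0) h1
      omega
    · intro h
      have h1 : p ∣ N := by
        rw [hN, ← Int.natCast_dvd]
        exact h.mul_left _
      have := Nat.le_of_dvd (Nat.pos_of_ne_zero hN0) h1
      omega
  have h1 := tendsto_finite_change (A := fun p => ¬ (p : ℤ) ∣ W.Δ)
    (B := fun p => ¬ (p : ℤ) ∣ W'.Δ ∧ ¬ (p : ℤ) ∣ W.Δ)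
    (R := fun p => α ≤ (W.apOfModel p : ℝ) / (2 * Real.sqrt p) ∧
      (W.apOfModel p : ℝ) / (2 * Real.sqrt p) ≤ β) N
    (fun p _ hp => ⟨fun h => ⟨(key p hp).2, h⟩, fun h => h.2⟩)
    (sato_tate_cm hΔ hj hα hαβ hβ)
  have e : ∀ x : ℕ, Nat.card {p : ℕ // p.Prime ∧ (¬ (p : ℤ) ∣ W'.Δ ∧ ¬ (p : ℤ) ∣ W.Δ) ∧ p ≤ x ∧
      α ≤ (W.apOfModel p : ℝ) / (2 * Real.sqrt p) ∧
      (W.apOfModel p : ℝ) / (2 * Real.sqrt p) ≤ β} =
      Nat.card {p : ℕ // p.Prime ∧ (¬ (p : ℤ) ∣ W'.Δ ∧ ¬ (p : ℤ) ∣ W.Δ) ∧ p ≤ x ∧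
      α ≤ (W'.apOfModel p : ℝ) / (2 * Real.sqrt p) ∧
      (W'.apOfModel p : ℝ) / (2 * Real.sqrt p) ≤ β} := by
    intro x
    refine Nat.card_congr (Equiv.subtypeEquivRight fun p => ?_)
    refine and_congr_right fun hp => and_congr_right fun h => ?_
    rw [hφ.apOfModel_eq hΔ hΔ' hp h.2 h.1]
  simp_rw [e] at h1
  exact tendsto_finite_change (A := fun p => ¬ (p : ℤ) ∣ W'.Δ ∧ ¬ (p : ℤ) ∣ W.Δ)
    (B := fun p => ¬ (p : ℤ) ∣ W'.Δ)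
    (R := fun p => α ≤ (W'.apOfModel p : ℝ) / (2 * Real.sqrt p) ∧
      (W'.apOfModel p : ℝ) / (2 * Real.sqrt p) ≤ β) N
    (fun p _ hp => ⟨fun h => h.1, fun h => ⟨h, (key p hp).1⟩⟩) h1

end Fermat.Agent.Cor.SectK
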