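import Fermat.Agent.Corollaries.SectK.Defs
import Fermat.Agent.Corollaries.Gauss.Cont
import Fermat.Agent.Corollaries.ZetaK.PsiNonVan

/-!
# Continuation of the `L`-functions of Hecke characters to `Re s > 1 / 2`

From the estimate `|∑_{N I ≤ n} ψ(I)| ≤ C √n` of the partial sums.
-/

set_option autoImplicit false

noncomputable section

open NumberField nonZeroDivisors Complex Filter Topology Asymptotics

open scoped Classical

namespace Fermat.Agent.Cor.SectK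

open Fermat.Agent.ClassL Fermat.Agent.Cor.Ray

universe u

variable {K : Type u} [Field K] [NumberField K]

theorem HChar.isUnitary {σ : K →+* ℂ} {𝔪 : Ideal (𝓞 K)} {k : ℤ} {ψ : (Ideal (𝓞 K))⁰ →* ℂ}
    (hψ : HChar σ 𝔪 k ψ) : Psi.IsUnitary ψ := fun I => by
  by_cases hI : IsCoprime (I : Ideal (𝓞 K)) 𝔪
  · exact Or.inl (hψ.norm_eq I hI)
  · exact Or.inr (hψ.eq_zero I hI)

theorem idl_disjoint {m n : ℕ} (h : m ≠ n) : Disjoint (RealCh.idl K m) (RealCh.idl K n) := by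
  rw [Finset.disjoint_left]
  intro I h1 h2
  exact h ((RealCh.mem_idl.1 h1).symm.trans (RealCh.mem_idl.1 h2))

/-- the non-zero ideals of norm `≤ n` -/
def idlEquiv (K : Type u) [Field K] [NumberField K] (n : ℕ) :
    {I : (Ideal (𝓞 K))⁰ // Ideal.absNorm (I : Ideal (𝓞 K)) ≤ n} ≃
      {I : Ideal (𝓞 K) // I ∈ (Finset.Icc 1 n).biUnion (RealCh.idl K)} where
  toFun I := ⟨I.1.1, by
    rw [Finset.mem_biUnion]
    refine ⟨Ideal.absNorm (I.1 : Ideal (𝓞 K)), ?_, RealCh.mem_idl.2 rfl⟩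
    rw [Finset.mem_Icc]
    refine ⟨Nat.one_le_iff_ne_zero.2 fun h => ?_, I.2⟩
    exact nonZeroDivisors.coe_ne_zero I.1 (Ideal.absNorm_eq_zero_iff.1 h)⟩
  invFun I := ⟨⟨I.1, mem_nonZeroDivisors_of_ne_zero (by
    rintro h
    obtain ⟨m, hm, hI⟩ := Finset.mem_biUnion.1 I.2
    rw [RealCh.mem_idl, h] at hI
    rw [Finset.mem_Icc] at hm
    simp at hI
    omega)⟩, by
    obtain ⟨m, hm, hI⟩ := Finset.mem_biUnion.1 I.2
    rw [RealCh.mem_idl] at hI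
    change Ideal.absNorm I.1 ≤ n
    rw [hI]
    exact (Finset.mem_Icc.1 hm).2⟩
  left_inv I := rfl
  right_inv I := rfl

theorem sum_aIdl (ψ : (Ideal (𝓞 K))⁰ →* ℂ) (n : ℕ) :
    ∑ m ∈ Finset.Icc 1 n, RealCh.aIdl (Psi.ext0 ψ) m =
      ∑' I : {I : (Ideal (𝓞 K))⁰ // Ideal.absNorm (I : Ideal (𝓞 K)) ≤ n}, ψ I := by
  have h1 : ∑ I ∈ (Finset.Icc 1 n).biUnion (RealCh.idl K), Psi.ext0 ψ I =
      ∑ m ∈ Finset.Icc 1 n, RealCh.aIdl (Psi.ext0 ψ) m :=
    Finset.sum_biUnion fun m _ m' _ h => idl_disjoint h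
  rw [← h1, ← Finset.tsum_subtype, ← (idlEquiv K n).tsum_eq]
  exact tsum_congr fun I => Psi.ext0_coe ψ I.1

/-- (S3) **Continuation to `Re s > 1 / 2`.** -/
theorem contStmt_of (h : SumStmt K) : ContStmt K := by
  intro hc h2 σ 𝔪 h𝔪 k hk ψ hψ
  obtain ⟨C, hC⟩ := h hc h2 σ 𝔪 h𝔪 k hk ψ hψ
  have hs : ∀ s : ℂ, 1 < s.re → LSeriesHasSum (RealCh.aIdl (Psi.ext0 ψ)) s (Psi.Lp ψ s) :=
    fun s hs => Psi.lseriesHasSum_ext0 hψ.isUnitary.le hs
  obtain ⟨H, hH, hH'⟩ := Gauss.contStmt (RealCh.aIdl (Psi.ext0 ψ)) 0 (1 / 2) (by norm_num)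
    (by norm_num) (fun s hs' => (hs s hs').LSeriesSummable) (by
      refine IsBigO.of_bound C (Eventually.of_forall fun n => ?_)
      rw [zero_mul, sub_zero, sum_aIdl, Real.norm_of_nonneg (by positivity), ← Real.sqrt_eq_rpow]
      exact hC n)
  refine ⟨H, hH, fun s hs' => ?_⟩
  have h1 := hH' s hs'
  rw [zero_mul, add_zero, (hs s hs').LSeries_eq] at h1
  exact h1.symm

end Fermat.Agent.Cor.SectK
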