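import Fermat.Agent.Corollaries.Ray.Defs
import Fermat.Agent.ClassL.Euler

/-!
# Prime elements of imaginary quadratic fields in sectors and residue classes (Hecke 1920)

`K` imaginary quadratic, `σ : K →+* ℂ`, `𝔪 ≠ 0` an ideal. Hecke characters of `∞`-type `k`:
`ψ((a)) = (σ a / |σ a|) ^ k` for `a ≡ 1 mod 𝔪`. Statements of the pieces.
-/

set_option autoImplicit false

noncomputable section

namespace Fermat.Agent.Cor.SectK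

open NumberField Filter Topology Fermat.Agent.Cor.Ray
open scoped nonZeroDivisors

universe u

variable {K : Type u} [Field K] [NumberField K]

/-- the direction of `a` -/
def ang (σ : K →+* ℂ) (a : 𝓞 K) : ℂ := σ (a : K) / ‖σ (a : K)‖

/-- Hecke characters modulo `𝔪` of `∞`-type `k`, extended by zero -/
structure HChar (σ : K →+* ℂ) (𝔪 : Ideal (𝓞 K)) (k : ℤ) (ψ : (Ideal (𝓞 K))⁰ →* ℂ) : Prop where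
  norm_eq : ∀ I : (Ideal (𝓞 K))⁰, IsCoprime (I : Ideal (𝓞 K)) 𝔪 → ‖ψ I‖ = 1
  eq_zero : ∀ I : (Ideal (𝓞 K))⁰, ¬ IsCoprime (I : Ideal (𝓞 K)) 𝔪 → ψ I = 0
  cong : ∀ (I : (Ideal (𝓞 K))⁰) (a : 𝓞 K), (I : Ideal (𝓞 K)) = Ideal.span {a} → a - 1 ∈ 𝔪 →
    ψ I = ang σ a ^ k

/-- (S1) Lattice.lean: the elements of a coset of an ideal in a disc -/
def LatStmt (K : Type u) [Field K] [NumberField K] : Prop :=
  IsTotallyComplex K → Module.finrank ℚ K = 2 →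
  ∀ (σ : K →+* ℂ) (I : Ideal (𝓞 K)), I ≠ ⊥ → ∀ (b : 𝓞 K) (j : ℤ), j ≠ 0 → ∃ C : ℝ, ∀ R : ℝ, 1 ≤ R →
    {a : 𝓞 K | a - b ∈ I ∧ a ≠ 0 ∧ ‖σ (a : K)‖ ≤ R}.Finite ∧
    ‖∑' a : {a : 𝓞 K // a - b ∈ I ∧ a ≠ 0 ∧ ‖σ (a : K)‖ ≤ R}, ang σ a ^ j‖ ≤ C * R

/-- (S2) Sum.lean: the partial sums of the coefficients of the `L`-series -/
def SumStmt (K : Type u) [Field K] [NumberField K] : Prop :=
  IsTotallyComplex K → Module.finrank ℚ K = 2 →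
  ∀ (σ : K →+* ℂ) (𝔪 : Ideal (𝓞 K)), 𝔪 ≠ ⊥ → ∀ k : ℤ, k ≠ 0 → ∀ ψ : (Ideal (𝓞 K))⁰ →* ℂ,
    HChar σ 𝔪 k ψ → ∃ C : ℝ, ∀ n : ℕ,
      ‖∑' I : {I : (Ideal (𝓞 K))⁰ // Ideal.absNorm (I : Ideal (𝓞 K)) ≤ n}, ψ I‖ ≤ C * √(n : ℝ)

/-- (S3) Cont.lean: continuation to `Re s > 1 / 2` -/
def ContStmt (K : Type u) [Field K] [NumberField K] : Prop :=
  IsTotallyComplex K → Module.finrank ℚ K = 2 →
  ∀ (σ : K →+* ℂ) (𝔪 : Ideal (𝓞 K)), 𝔪 ≠ ⊥ → ∀ k : ℤ, k ≠ 0 → ∀ ψ : (Ideal (𝓞 K))⁰ →* ℂ,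
    HChar σ 𝔪 k ψ → ∃ L : ℂ → ℂ, DifferentiableOn ℂ L {s | 1 / 2 < s.re} ∧
      ∀ s : ℂ, 1 < s.re → L s = Ls ψ s

/-- (S4) PrimeSum.lean: the prime number theorem for Hecke characters of infinite order -/
def PrimeSumStmt (K : Type u) [Field K] [NumberField K] : Prop :=
  IsTotallyComplex K → Module.finrank ℚ K = 2 →
  ∀ (σ : K →+* ℂ) (𝔪 : Ideal (𝓞 K)), 𝔪 ≠ ⊥ → ∀ k : ℤ, k ≠ 0 → ∀ ψ : (Ideal (𝓞 K))⁰ →* ℂ,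
    HChar σ 𝔪 k ψ → Tendsto (fun x : ℕ => (((Real.log x / x : ℝ)) : ℂ) *
      ∑' P : {P : ClassL.Pr K // Ideal.absNorm ((P.1 : (Ideal (𝓞 K))⁰) : Ideal (𝓞 K)) ≤ x},
        ψ P.1.1) atTop (𝓝 0)

/-- (S5) Ext.lean: existence of Hecke characters -/
def ExtStmt (K : Type u) [Field K] [NumberField K] : Prop :=
  ∀ (σ : K →+* ℂ) (𝔪 : Ideal (𝓞 K)), 𝔪 ≠ ⊥ → ∀ k : ℤ,
    (∀ v : (𝓞 K)ˣ, (v : 𝓞 K) - 1 ∈ 𝔪 → ang σ v ^ k = 1) →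
      ∃ ψ : (Ideal (𝓞 K))⁰ →* ℂ, HChar σ 𝔪 k ψ

/-- (S6) Elem.lean: prime elements in a residue class, exponential sums -/
def ElemStmt (K : Type u) [Field K] [NumberField K] : Prop :=
  IsTotallyComplex K → Module.finrank ℚ K = 2 →
  ∀ (σ : K →+* ℂ) (𝔪 : Ideal (𝓞 K)), 𝔪 ≠ ⊥ → ∀ α : 𝓞 K, IsCoprime (Ideal.span {α}) 𝔪 →
    ∀ k : ℤ, k ≠ 0 → Tendsto (fun x : ℕ => (((Real.log x / x : ℝ)) : ℂ) *
      ∑' π : {π : 𝓞 K // Prime π ∧ π - α ∈ 𝔪 ∧ (Algebra.norm ℤ π).natAbs ≤ x}, ang σ π ^ k)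
      atTop (𝓝 0)

/-- (S7) Count.lean: the number of prime elements in a residue class -/
def CountStmt (K : Type u) [Field K] [NumberField K] : Prop :=
  IsTotallyComplex K → Module.finrank ℚ K = 2 →
  ∀ 𝔪 : Ideal (𝓞 K), 𝔪 ≠ ⊥ → ∀ α : 𝓞 K, IsCoprime (Ideal.span {α}) 𝔪 →
    (∀ x : ℕ, {π : 𝓞 K | Prime π ∧ π - α ∈ 𝔪 ∧ (Algebra.norm ℤ π).natAbs ≤ x}.Finite) ∧
    Tendsto (fun x : ℕ => (Nat.card {π : 𝓞 K // Prime π ∧ π - α ∈ 𝔪 ∧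
      (Algebra.norm ℤ π).natAbs ≤ x} : ℝ) * Real.log x / x) atTop
      (𝓝 ((Nat.card {v : (𝓞 K)ˣ // (v : 𝓞 K) - 1 ∈ 𝔪} : ℝ) /
        Nat.card (Quot fun I J : Cop 𝔪 => RayEq 𝔪 I.1 J.1)))

/-- (S8) Main.lean: **Hecke's theorem**: the prime elements of `K` in a residue class are
equidistributed in sectors -/
def SectorStmt (K : Type u) [Field K] [NumberField K] : Prop :=
  IsTotallyComplex K → Module.finrank ℚ K = 2 →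
  ∀ (σ : K →+* ℂ) (𝔪 : Ideal (𝓞 K)), 𝔪 ≠ ⊥ → ∀ α : 𝓞 K, IsCoprime (Ideal.span {α}) 𝔪 →
    ∀ a b : ℝ, -Real.pi ≤ a → a ≤ b → b ≤ Real.pi →
    Tendsto (fun x : ℕ => (Nat.card {π : 𝓞 K // Prime π ∧ π - α ∈ 𝔪 ∧
      (Algebra.norm ℤ π).natAbs ≤ x ∧ a < (σ (π : K)).arg ∧ (σ (π : K)).arg < b} : ℝ) *
        Real.log x / x) atTop
      (𝓝 ((Nat.card {v : (𝓞 K)ˣ // (v : 𝓞 K) - 1 ∈ 𝔪} : ℝ) /
        Nat.card (Quot fun I J : Cop 𝔪 => RayEq 𝔪 I.1 J.1) * ((b - a) / (2 * Real.pi))))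

end Fermat.Agent.Cor.SectK
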