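import Fermat.Agent.Corollaries.Ray.Final
import Fermat.Agent.Corollaries.SectK.Defs

/-!
# The number of prime elements in a residue class

The prime elements `π ≡ α` modulo `𝔪` are the products of a generator `≡ α` of a prime ideal and
a unit `≡ 1` modulo `𝔪`; the prime ideals are counted by `Ray.dirichlet_density`.
-/

set_option autoImplicit false
set_option linter.unusedSectionVars false

noncomputable section

namespace Fermat.Agent.Cor.SectK

open NumberField Filter Topology Fermat.Agent.Cor.Ray Fermat.Agent.ClassL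
open scoped nonZeroDivisors

universe u

variable {K : Type u} [Field K] [NumberField K] {𝔪 : Ideal (𝓞 K)} {α : 𝓞 K}

/-- an imaginary quadratic field has finitely many units -/
theorem finite_units (h1 : IsTotallyComplex K) (h2 : Module.finrank ℚ K = 2) :
    Finite (𝓞 K)ˣ := by
  have hr : InfinitePlace.nrRealPlaces K = 0 := IsTotallyComplex.nrRealPlaces_eq_zero K
  have hc := InfinitePlace.card_add_two_mul_card_eq_rank K
  have hcard := InfinitePlace.card_eq_nrRealPlaces_add_nrComplexPlaces (K := K)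
  have hrank : Units.rank K = 0 := by
    rw [Units.rank]
    omega
  have hemp : IsEmpty (Fin (Units.rank K)) := by
    rw [hrank]
    infer_instance
  have htop := Units.closure_fundSystem_sup_torsion_eq_top (K := K)
  rw [Set.range_eq_empty, Subgroup.closure_empty, bot_sup_eq] at htop
  have hfin : Finite (Units.torsion K) := inferInstance
  rw [htop] at hfin
  exact Finite.of_equiv _ Subgroup.topEquiv.toEquiv

variable (𝔪 α) in
/-- the prime ideals of norm at most `x` which are generated by an element `≡ α` modulo `𝔪` -/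
abbrev GenP (x : ℕ) : Type u := {P : Pr K //
  Ideal.absNorm ((P.1 : (Ideal (𝓞 K))⁰) : Ideal (𝓞 K)) ≤ x ∧
    ∃ π : 𝓞 K, π - α ∈ 𝔪 ∧ ((P.1 : (Ideal (𝓞 K))⁰) : Ideal (𝓞 K)) = Ideal.span {π}}

variable (𝔪 α) in
/-- the prime elements `≡ α` modulo `𝔪` of norm at most `x` -/
abbrev ElP (x : ℕ) : Type u :=
  {π : 𝓞 K // Prime π ∧ π - α ∈ 𝔪 ∧ (Algebra.norm ℤ π).natAbs ≤ x}

variable (𝔪) in
/-- the units `≡ 1` modulo `𝔪` -/
abbrev UnP : Type u := {v : (𝓞 K)ˣ // (v : 𝓞 K) - 1 ∈ 𝔪}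

/-- the chosen generator -/
def gen {x : ℕ} (P : GenP 𝔪 α x) : 𝓞 K := P.2.2.choose

theorem gen_sub {x : ℕ} (P : GenP 𝔪 α x) : gen P - α ∈ 𝔪 := P.2.2.choose_spec.1

theorem gen_span {x : ℕ} (P : GenP 𝔪 α x) :
    ((P.1.1 : (Ideal (𝓞 K))⁰) : Ideal (𝓞 K)) = Ideal.span {gen P} := P.2.2.choose_spec.2

theorem gen_ne {x : ℕ} (P : GenP 𝔪 α x) : gen P ≠ 0 := by
  intro h
  have h1 := gen_span P
  rw [h, Ideal.span_singleton_eq_bot.mpr rfl] at h1
  exact nonZeroDivisors.coe_ne_zero _ h1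

theorem gen_prime {x : ℕ} (P : GenP 𝔪 α x) : Prime (gen P) := by
  rw [← Ideal.span_singleton_prime (gen_ne P), ← gen_span P]
  exact Ideal.isPrime_of_prime P.1.2

theorem natAbs_norm (a : 𝓞 K) : (Algebra.norm ℤ a).natAbs = Ideal.absNorm (Ideal.span {a}) :=
  (Ideal.absNorm_span_singleton a).symm

/-- cancellation of `α` modulo `𝔪` -/
theorem sub_one_mem (hα : IsCoprime (Ideal.span {α}) 𝔪) {a u : 𝓞 K} (ha : a - α ∈ 𝔪)
    (hu : a * u - α ∈ 𝔪) : u - 1 ∈ 𝔪 := by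
  obtain ⟨c, hc⟩ := isCoprime_span_iff.mp hα
  have h1 : u - 1 = c * (a * u - α) - c * (a - α) - (c * α - 1) * (u - 1)
    - c * (a - α) * (u - 1) := by ring
  rw [h1]
  exact 𝔪.sub_mem (𝔪.sub_mem (𝔪.sub_mem (𝔪.mul_mem_left _ hu) (𝔪.mul_mem_left _ ha))
    (𝔪.mul_mem_right _ hc)) (𝔪.mul_mem_right _ (𝔪.mul_mem_left _ ha))

theorem mul_unit_mem {a u : 𝓞 K} (ha : a - α ∈ 𝔪) (hu : u - 1 ∈ 𝔪) : a * u - α ∈ 𝔪 := by
  have h1 : a * u - α = a * (u - 1) + (a - α) := by ring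
  rw [h1]
  exact 𝔪.add_mem (𝔪.mul_mem_left _ hu) ha

/-- prime elements `≡ α` = (prime ideals generated by an element `≡ α`) × (units `≡ 1`) -/
def elEquiv (hα : IsCoprime (Ideal.span {α}) 𝔪) (x : ℕ) : GenP 𝔪 α x × UnP 𝔪 ≃ ElP 𝔪 α x :=
  Equiv.ofBijective (fun q => ⟨gen q.1 * (q.2.1 : 𝓞 K),
    ((associated_mul_unit_left (gen q.1) _ q.2.1.isUnit).prime_iff).2 (gen_prime q.1),
    mul_unit_mem (gen_sub q.1) q.2.2, by
      rw [natAbs_norm, Ideal.span_singleton_mul_right_unit q.2.1.isUnit, ← gen_span q.1]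
      exact q.1.2.1⟩) (by
    constructor
    · rintro ⟨P, v⟩ ⟨Q, w⟩ h
      have h1 : gen P * (v.1 : 𝓞 K) = gen Q * (w.1 : 𝓞 K) := congrArg Subtype.val h
      have h2 : P = Q := by
        refine Subtype.ext (Subtype.ext (Subtype.ext ?_))
        rw [gen_span P, gen_span Q, ← Ideal.span_singleton_mul_right_unit v.1.isUnit (gen P), h1,
          Ideal.span_singleton_mul_right_unit w.1.isUnit]
      subst h2
      have h3 : v = w := Subtype.ext (Units.ext (mul_left_cancel₀ (gen_ne P) h1))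
      rw [h3]
    · rintro ⟨π, hπ, hα', hx⟩
      have hP0 : Ideal.span {π} ∈ (Ideal (𝓞 K))⁰ := by
        refine mem_nonZeroDivisors_of_ne_zero ?_
        rw [Ideal.zero_eq_bot, Ne, Ideal.span_singleton_eq_bot]
        exact hπ.ne_zero
      have hPp : Prime (Ideal.span {π} : Ideal (𝓞 K)) :=
        Ideal.prime_of_isPrime (by rw [Ne, Ideal.span_singleton_eq_bot]; exact hπ.ne_zero)
          ((Ideal.span_singleton_prime hπ.ne_zero).2 hπ)
      let P : GenP 𝔪 α x := ⟨⟨⟨Ideal.span {π}, hP0⟩, hPp⟩, by rw [← natAbs_norm]; exact hx,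
        π, hα', rfl⟩
      have hg : Ideal.span {gen P} = Ideal.span {π} := (gen_span P).symm
      obtain ⟨v, hv⟩ := Ideal.span_singleton_eq_span_singleton.1 hg
      refine ⟨⟨P, v, sub_one_mem hα (gen_sub P) (by rw [hv]; exact hα')⟩, Subtype.ext hv⟩)

theorem elEquiv_apply (hα : IsCoprime (Ideal.span {α}) 𝔪) (x : ℕ) (q : GenP 𝔪 α x × UnP 𝔪) :
    ((elEquiv hα x q : ElP 𝔪 α x) : 𝓞 K) = gen q.1 * (q.2.1 : 𝓞 K) := rfl

instance finite_GenP (x : ℕ) : Finite (GenP 𝔪 α x) := by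
  have h := Ideal.finite_setOfPred_absNorm_le (S := 𝓞 K) x
  have := h.to_subtype
  refine Finite.of_injective (fun P : GenP 𝔪 α x =>
    (⟨((P.1.1 : (Ideal (𝓞 K))⁰) : Ideal (𝓞 K)), P.2.1⟩ :
      {I : Ideal (𝓞 K) | Ideal.absNorm I ≤ x})) fun P Q h => ?_
  have h' : ((P.1.1 : (Ideal (𝓞 K))⁰) : Ideal (𝓞 K)) = ((Q.1.1 : (Ideal (𝓞 K))⁰) :
    Ideal (𝓞 K)) := congrArg (fun J : {I : Ideal (𝓞 K) | Ideal.absNorm I ≤ x} => J.1) h
  exact Subtype.ext (Subtype.ext (Subtype.ext h'))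

/-- (S7): **the number of prime elements in a residue class** -/
theorem countStmt (K : Type u) [Field K] [NumberField K] : CountStmt K := by
  intro h1 h2 𝔪 h𝔪 α hα
  have hU := finite_units h1 h2
  constructor
  · intro x
    have : Finite {π : 𝓞 K | Prime π ∧ π - α ∈ 𝔪 ∧ (Algebra.norm ℤ π).natAbs ≤ x} :=
      Finite.of_equiv _ (elEquiv hα x)
    exact Set.toFinite {π : 𝓞 K | Prime π ∧ π - α ∈ 𝔪 ∧ (Algebra.norm ℤ π).natAbs ≤ x}
  · have key := (dirichlet_density h𝔪 hα).mul_const (Nat.card (UnP 𝔪) : ℝ)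
    have h3 : 1 / (rayNumber 𝔪 : ℝ) * (Nat.card (UnP 𝔪) : ℝ) = (Nat.card (UnP 𝔪) : ℝ) /
        Nat.card (Quot fun I J : Cop 𝔪 => RayEq 𝔪 I.1 J.1) := by
      rw [one_div_mul_eq_div]
      rfl
    rw [h3] at key
    refine key.congr fun x => ?_
    have h4 : Nat.card (ElP 𝔪 α x) = Nat.card (GenP 𝔪 α x) * Nat.card (UnP 𝔪) := by
      rw [← Nat.card_prod]
      exact (Nat.card_congr (elEquiv hα x)).symm
    rw [h4]
    push_cast
    ring

end Fermat.Agent.Cor.SectK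

end
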