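import Fermat.Agent.Corollaries.Diary.Cubic
import Fermat.Prelude.Def_FLTPrelim_Modularity

/-!
# The elliptic curve `y² = x³ - 432` and the Fermat cubic `x³ + y³ = 1`

* `ap_E27` : `a_p = p - #{(x, y) : y² = x³ - 432}` for `p ≥ 5`.
* `card_E27` : for `p ≡ 1 mod 3` this number is `2 + #{(x, y) : x³ + y³ = 1}`.
* `ap_E27_of_one` : `a_p = -L` if `4 p = L² + 27 M²`, `L ≡ 1 mod 3`.
* `ap_E27_of_two` : `a_p = 0` if `p ≡ 2 mod 3`.
* `card_fermat_cubic` : `#{(x, y) : x³ + y³ = 1} = p - 2 - a_p` for `p ≡ 1 mod 3`.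
-/

set_option autoImplicit false

noncomputable section

open scoped Classical

namespace Fermat.Agent.Cor.SectK

open WeierstrassCurve

/-- the curve `y² = x³ - 432` over `ℤ`, the Jacobian of the Fermat cubic -/
def E27 : WeierstrassCurve ℤ := ⟨0, 0, 0, 0, -432⟩

variable {p : ℕ} [hp : Fact p.Prime]

theorem E27_equation (x y : ZMod p) :
    (E27.reductionMod p).toAffine.Equation x y ↔ y ^ 2 = x ^ 3 - 432 := by
  rw [Affine.equation_iff]
  simp [reductionMod, E27, WeierstrassCurve.map, sub_eq_add_neg]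

theorem natCast_ne_zero {n : ℕ} (hn : ∀ q : ℕ, q.Prime → q ∣ n → q = 2 ∨ q = 3) (h2 : p ≠ 2)
    (h3 : p ≠ 3) : (n : ZMod p) ≠ 0 := by
  rw [Ne, ZMod.natCast_eq_zero_iff]
  intro h
  rcases hn p hp.out h with h4 | h4
  · exact h2 h4
  · exact h3 h4

theorem two_ne (h2 : p ≠ 2) : (2 : ZMod p) ≠ 0 := by
  have : ((2 : ℕ) : ZMod p) ≠ 0 := by
    rw [Ne, ZMod.natCast_eq_zero_iff]
    exact fun h => h2 ((Nat.prime_dvd_prime_iff_eq hp.out Nat.prime_two).1 h)
  exact_mod_cast this

theorem three_ne (h3 : p ≠ 3) : (3 : ZMod p) ≠ 0 := by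
  have : ((3 : ℕ) : ZMod p) ≠ 0 := by
    rw [Ne, ZMod.natCast_eq_zero_iff]
    exact fun h => h3 ((Nat.prime_dvd_prime_iff_eq hp.out Nat.prime_three).1 h)
  exact_mod_cast this

theorem E27_Δ (h2 : p ≠ 2) (h3 : p ≠ 3) : (E27.reductionMod p).Δ ≠ 0 := by
  have h1 : (E27.reductionMod p).Δ = ((-80621568 : ℤ) : ZMod p) := by
    rw [reductionMod, WeierstrassCurve.map_Δ]
    congr 1
  have h4 : ((-80621568 : ℤ) : ZMod p) = -(2 ^ 12 * 3 ^ 9) := by
    push_cast
    norm_num
  rw [h1, h4]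
  exact neg_ne_zero.2 (mul_ne_zero (pow_ne_zero _ (two_ne h2)) (pow_ne_zero _ (three_ne h3)))

/-- the points, except the origin -/
def ptEquiv27 (h2 : p ≠ 2) (h3 : p ≠ 3) : (E27.reductionMod p).toAffine.Point ≃
    Option {P : ZMod p × ZMod p // P.2 ^ 2 = P.1 ^ 3 - 432} where
  toFun P := match P with
    | .zero => none
    | .some x y h => some ⟨(x, y), (E27_equation x y).1 h.1⟩
  invFun P := match P with
    | none => .zero
    | some P => .some P.1.1 P.1.2
      ((Affine.equation_iff_nonsingular_of_Δ_ne_zero (E27_Δ h2 h3)).1 ((E27_equation _ _).2 P.2))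
  left_inv P := by
    match P with
    | .zero => rfl
    | .some x y h => rfl
  right_inv P := by
    match P with
    | none => rfl
    | some P => rfl

/-- `a_p = p - #{(x, y) : y² = x³ - 432}` -/
theorem ap_E27 (h2 : p ≠ 2) (h3 : p ≠ 3) : E27.apOfModel p =
    p - ((Finset.univ.filter fun P : ZMod p × ZMod p => P.2 ^ 2 = P.1 ^ 3 - 432).card : ℤ) := by
  have h1 : Nat.card (E27.reductionMod p).toAffine.Point =
      (Finset.univ.filter fun P : ZMod p × ZMod p => P.2 ^ 2 = P.1 ^ 3 - 432).card + 1 := by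
    rw [Nat.card_congr (ptEquiv27 h2 h3), Nat.card_eq_fintype_card, Fintype.card_option,
      Fintype.card_subtype]
  rw [apOfModel, traceOfFrobenius, card, h1, Nat.card_zmod]
  push_cast
  ring

/-! ### `p ≡ 1 mod 3` -/

/-- a square root of `-3` -/
theorem exists_sq_eq (h1 : p % 3 = 1) : ∃ r : ZMod p, r ^ 2 = -3 := by
  have : Fact (Nat.Prime 3) := ⟨Nat.prime_three⟩
  have h3 : 3 ∣ Fintype.card (ZMod p)ˣ := by
    rw [ZMod.card_units p]
    omega
  obtain ⟨g, hg⟩ := exists_prime_orderOf_dvd_card 3 h3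
  have h4 : (g : ZMod p) ^ 3 = 1 := by
    rw [← Units.val_pow_eq_pow_val, ← hg, pow_orderOf_eq_one, Units.val_one]
  have h5 : (g : ZMod p) ≠ 1 := by
    intro h
    have h6 : g = 1 := Units.ext h
    rw [h6, orderOf_one] at hg
    norm_num at hg
  have h6 : (g : ZMod p) ^ 2 + g + 1 = 0 := by
    have h7 : ((g : ZMod p) - 1) * ((g : ZMod p) ^ 2 + g + 1) = 0 := by linear_combination h4
    rcases mul_eq_zero.1 h7 with h8 | h8
    · exact absurd (sub_eq_zero.1 h8) h5
    · exact h8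
  exact ⟨2 * g + 1, by linear_combination 4 * h6⟩

theorem card_sq_eq (h1 : p % 3 = 1) :
    (Finset.univ.filter fun Y : ZMod p => Y ^ 2 = -432).card = 2 := by
  have h2 : p ≠ 2 := by omega
  have h3 : p ≠ 3 := by omega
  obtain ⟨r, hr⟩ := exists_sq_eq h1
  have e2 := two_ne (p := p) h2
  have e3 := three_ne (p := p) h3
  have hr0 : r ≠ 0 := by
    rintro rfl
    apply e3
    linear_combination hr
  have h12 : (12 : ZMod p) ≠ 0 := by
    have : (12 : ZMod p) = 2 ^ 2 * 3 := by norm_num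
    rw [this]
    exact mul_ne_zero (pow_ne_zero _ e2) e3
  have h4 : (Finset.univ.filter fun Y : ZMod p => Y ^ 2 = -432) = {12 * r, -(12 * r)} := by
    ext Y
    rw [Finset.mem_filter, Finset.mem_insert, Finset.mem_singleton, ← sq_eq_sq_iff_eq_or_eq_neg]
    constructor
    · rintro ⟨-, h⟩
      rw [h]
      linear_combination (-144 : ZMod p) * hr
    · intro h
      refine ⟨Finset.mem_univ _, ?_⟩
      rw [h]
      linear_combination (144 : ZMod p) * hr
  rw [h4, Finset.card_pair]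
  intro h
  have h5 : 2 * (12 * r) = 0 := by linear_combination h
  exact mul_ne_zero e2 (mul_ne_zero h12 hr0) h5

/-- the affine Fermat cubic and the points of `y² = x³ - 432` with `x ≠ 0` -/
def cubicEquiv (h2 : p ≠ 2) (h3 : p ≠ 3) :
    {P : ZMod p × ZMod p // P.1 ^ 3 + P.2 ^ 3 = 1} ≃
      {P : ZMod p × ZMod p // P.2 ^ 2 = P.1 ^ 3 - 432 ∧ P.1 ≠ 0} where
  toFun P := ⟨(12 / (P.1.1 + P.1.2), 36 * (P.1.1 - P.1.2) / (P.1.1 + P.1.2)), by
    obtain ⟨⟨x, y⟩, h⟩ := P
    simp only at h ⊢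
    have hs : x + y ≠ 0 := by
      intro h0
      have h1 : x = -y := eq_neg_of_add_eq_zero_left h0
      rw [h1] at h
      have : (0 : ZMod p) = 1 := by linear_combination h
      exact zero_ne_one this
    have h12 : (12 : ZMod p) ≠ 0 := by
      have : (12 : ZMod p) = 2 ^ 2 * 3 := by norm_num
      rw [this]
      exact mul_ne_zero (pow_ne_zero _ (two_ne h2)) (three_ne h3)
    refine ⟨?_, div_ne_zero h12 hs⟩
    field_simp
    linear_combination (1728 : ZMod p) * h⟩
  invFun P := ⟨((36 + P.1.2) / (6 * P.1.1), (36 - P.1.2) / (6 * P.1.1)), by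
    obtain ⟨⟨x, y⟩, h, h0⟩ := P
    simp only at h h0 ⊢
    have h6 : (6 : ZMod p) ≠ 0 := by
      have : (6 : ZMod p) = 2 * 3 := by norm_num
      rw [this]
      exact mul_ne_zero (two_ne h2) (three_ne h3)
    field_simp
    linear_combination (216 : ZMod p) * h⟩
  left_inv P := by
    obtain ⟨⟨x, y⟩, h⟩ := P
    have hs : x + y ≠ 0 := by
      intro h0
      have h1 : x = -y := eq_neg_of_add_eq_zero_left h0
      simp only at h
      rw [h1] at h
      have : (0 : ZMod p) = 1 := by linear_combination h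
      exact zero_ne_one this
    have e2 := two_ne (p := p) h2
    have e3 := three_ne (p := p) h3
    have h6 : (6 : ZMod p) ≠ 0 := by
      have : (6 : ZMod p) = 2 * 3 := by norm_num
      rw [this]
      exact mul_ne_zero e2 e3
    have h12 : (12 : ZMod p) ≠ 0 := by
      have : (12 : ZMod p) = 2 ^ 2 * 3 := by norm_num
      rw [this]
      exact mul_ne_zero (pow_ne_zero _ e2) e3
    refine Subtype.ext (Prod.ext ?_ ?_)
    · simp only
      field_simp
      ring
    · simp only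
      field_simp
      ring
  right_inv P := by
    obtain ⟨⟨x, y⟩, h, h0⟩ := P
    simp only at h h0
    have e2 := two_ne (p := p) h2
    have e3 := three_ne (p := p) h3
    have h6 : (6 : ZMod p) ≠ 0 := by
      have : (6 : ZMod p) = 2 * 3 := by norm_num
      rw [this]
      exact mul_ne_zero e2 e3
    have h12 : (12 : ZMod p) ≠ 0 := by
      have : (12 : ZMod p) = 2 ^ 2 * 3 := by norm_num
      rw [this]
      exact mul_ne_zero (pow_ne_zero _ e2) e3
    have h5 : (36 + y) / (6 * x) + (36 - y) / (6 * x) = 12 / x := by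
      field_simp
      ring
    have h7 : (36 + y) / (6 * x) - (36 - y) / (6 * x) = y / (3 * x) := by
      field_simp
      ring
    refine Subtype.ext (Prod.ext ?_ ?_)
    · simp only
      rw [h5]
      field_simp
    · simp only
      rw [h5, h7]
      field_simp
      ring

/-- `#{(x, y) : y² = x³ - 432} = #{(x, y) : x³ + y³ = 1} + 2` for `p ≡ 1 mod 3` -/
theorem card_E27 (h1 : p % 3 = 1) :
    (Finset.univ.filter fun P : ZMod p × ZMod p => P.2 ^ 2 = P.1 ^ 3 - 432).card =
      (Finset.univ.filter fun P : ZMod p × ZMod p => P.1 ^ 3 + P.2 ^ 3 = 1).card + 2 := by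
  have h2 : p ≠ 2 := by omega
  have h3 : p ≠ 3 := by omega
  have e1 : (Finset.univ.filter fun P : ZMod p × ZMod p => P.1 ^ 3 + P.2 ^ 3 = 1).card =
      (Finset.univ.filter fun P : ZMod p × ZMod p =>
        P.2 ^ 2 = P.1 ^ 3 - 432 ∧ P.1 ≠ 0).card := by
    rw [← Fintype.card_subtype, ← Fintype.card_subtype]
    exact Fintype.card_congr (cubicEquiv h2 h3)
  have e2 : (Finset.univ.filter fun P : ZMod p × ZMod p =>
        P.2 ^ 2 = P.1 ^ 3 - 432 ∧ ¬ P.1 ≠ 0).card = 2 := by
    refine (Finset.card_bij (fun P _ => P.2) ?_ ?_ ?_).trans (card_sq_eq h1)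
    · rintro ⟨x, y⟩ h
      rw [Finset.mem_filter] at h ⊢
      obtain ⟨-, h4, h5⟩ := h
      simp only [not_not] at h4 h5
      subst h5
      exact ⟨Finset.mem_univ _, by linear_combination h4⟩
    · rintro ⟨x, y⟩ h ⟨x', y'⟩ h' hy
      rw [Finset.mem_filter] at h h'
      have h5 := not_not.1 h.2.2
      have h6 := not_not.1 h'.2.2
      simp only at h5 h6 hy
      rw [h5, h6, hy]
    · intro y hy
      rw [Finset.mem_filter] at hy
      refine ⟨(0, y), ?_, rfl⟩
      rw [Finset.mem_filter]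
      exact ⟨Finset.mem_univ _, by linear_combination hy.2, by simp⟩
  have e3 := Finset.card_filter_add_card_filter_not (s := Finset.univ.filter
    fun P : ZMod p × ZMod p => P.2 ^ 2 = P.1 ^ 3 - 432) (fun P : ZMod p × ZMod p => P.1 ≠ 0)
  rw [Finset.filter_filter, Finset.filter_filter] at e3
  omega

/-- `a_p = -L`, `4 p = L² + 27 M²`, `L ≡ 1 mod 3` -/
theorem ap_E27_of_one {L M : ℤ} (hL : L % 3 = 1) (h : 4 * (p : ℤ) = L ^ 2 + 27 * M ^ 2) :
    E27.apOfModel p = -L := by
  have h1 : p % 3 = 1 := by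
    obtain ⟨l, hl⟩ : ∃ l, L = 3 * l + 1 := ⟨L / 3, by omega⟩
    have h1 : (p : ℤ) = 3 * (3 * l ^ 2 + 2 * l + 9 * M ^ 2 - p) + 1 := by
      rw [hl] at h
      linarith
    omega
  have h2 : p ≠ 2 := by omega
  have h3 : p ≠ 3 := by omega
  have h4 := Diary.card_cubic_of_eq hL h
  rw [ap_E27 h2 h3, card_E27 h1]
  have h5 : ((Finset.univ.filter fun P : ZMod p × ZMod p => P.1 ^ 3 + P.2 ^ 3 = 1).card : ℤ) =
      p - 2 + L := by
    rw [← h4]
  push_cast
  rw [h5]
  ring

/-- **Gauss.** The equation `x³ + y³ = 1` has `p - 2 - a_p` solutions modulo `p ≡ 1 mod 3`. -/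
theorem card_fermat_cubic (h1 : p % 3 = 1) :
    ((Finset.univ.filter fun P : ZMod p × ZMod p => P.1 ^ 3 + P.2 ^ 3 = 1).card : ℤ) =
      p - 2 - E27.apOfModel p := by
  have h2 : p ≠ 2 := by omega
  have h3 : p ≠ 3 := by omega
  rw [ap_E27 h2 h3, card_E27 h1]
  push_cast
  ring

/-! ### `p ≡ 2 mod 3` -/

theorem cube_bijective (h1 : p % 3 = 2) : Function.Bijective fun x : ZMod p => x ^ 3 := by
  refine Finite.injective_iff_bijective.1 fun x y h => ?_
  rcases eq_or_ne y 0 with rfl | hy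
  · rw [zero_pow three_ne_zero] at h
    exact pow_eq_zero_iff three_ne_zero |>.1 h
  · have h2 : (x / y) ^ 3 = 1 := by
      rw [div_pow, h, div_self (pow_ne_zero _ hy)]
    have hxy : x / y ≠ 0 := by
      intro h3
      rw [h3, zero_pow three_ne_zero] at h2
      exact zero_ne_one h2
    have h3 := ZMod.pow_card_sub_one_eq_one hxy
    obtain ⟨k, hk⟩ : ∃ k, p = 3 * k + 2 := ⟨p / 3, by omega⟩
    have h4 : p - 1 = 3 * k + 1 := by omega
    rw [h4, pow_add, pow_mul, h2, one_pow, one_mul, pow_one, div_eq_one_iff_eq hy] at h3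
    exact h3

/-- the supersingular primes -/
theorem ap_E27_of_two (h1 : p % 3 = 2) (h2 : p ≠ 2) : E27.apOfModel p = 0 := by
  have h3 : p ≠ 3 := by omega
  rw [ap_E27 h2 h3, sub_eq_zero]
  have h4 : (Finset.univ.filter fun P : ZMod p × ZMod p => P.2 ^ 2 = P.1 ^ 3 - 432).card =
      (Finset.univ : Finset (ZMod p)).card := by
    refine Finset.card_bij (fun P _ => P.2) (fun _ _ => Finset.mem_univ _) ?_ ?_
    · rintro ⟨x, y⟩ h ⟨x', y'⟩ h' hy
      rw [Finset.mem_filter] at h h'
      obtain ⟨-, h⟩ := h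
      obtain ⟨-, h'⟩ := h'
      simp only at h h' hy
      subst hy
      have h5 : x ^ 3 = x' ^ 3 := by linear_combination h' - h
      rw [(cube_bijective h1).1 h5]
    · intro y _
      obtain ⟨x, hx⟩ := (cube_bijective h1).2 (y ^ 2 + 432)
      refine ⟨(x, y), ?_, rfl⟩
      rw [Finset.mem_filter]
      simp only at hx
      exact ⟨Finset.mem_univ _, by linear_combination -hx⟩
  rw [h4, Finset.card_univ, ZMod.card]

/-- `x³ + y³ = 1` has `p` solutions modulo `p ≡ 2 mod 3` -/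
theorem card_fermat_cubic_of_two (h1 : p % 3 = 2) :
    (Finset.univ.filter fun P : ZMod p × ZMod p => P.1 ^ 3 + P.2 ^ 3 = 1).card = p := by
  have h4 : (Finset.univ.filter fun P : ZMod p × ZMod p => P.1 ^ 3 + P.2 ^ 3 = 1).card =
      (Finset.univ : Finset (ZMod p)).card := by
    refine Finset.card_bij (fun P _ => P.2) (fun _ _ => Finset.mem_univ _) ?_ ?_
    · rintro ⟨x, y⟩ h ⟨x', y'⟩ h' hy
      rw [Finset.mem_filter] at h h'
      obtain ⟨-, h⟩ := h
      obtain ⟨-, h'⟩ := h'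
      simp only at h h' hy
      subst hy
      have h5 : x ^ 3 = x' ^ 3 := by linear_combination h - h'
      rw [(cube_bijective h1).1 h5]
    · intro y _
      obtain ⟨x, hx⟩ := (cube_bijective h1).2 (1 - y ^ 3)
      refine ⟨(x, y), ?_, rfl⟩
      rw [Finset.mem_filter]
      simp only at hx
      exact ⟨Finset.mem_univ _, by linear_combination hx⟩
  rw [h4, Finset.card_univ, ZMod.card]

end Fermat.Agent.Cor.SectK
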