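import Mathlib
import Fermat.Agent.Corollaries.Kron.Basis

/-!
# The field of third roots of unity

`EisDat σ η` : `σ : K →+* ℂ`, `η ∈ 𝓞 K` a primitive third root of unity with `Im σ(η) > 0`, and
every integer of `K` is `x + y η` with `x y : ℤ`.
-/

set_option autoImplicit false
set_option linter.unusedSectionVars false

noncomputable section

open NumberField nonZeroDivisors Complex Module

namespace Fermat.Agent.Cor.SectK

universe u

variable {K : Type u} [Field K] [NumberField K]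

/-- the Eisenstein integers -/
structure EisDat (σ : K →+* ℂ) (η : 𝓞 K) : Prop where
  cpx : IsTotallyComplex K
  rank : finrank ℚ K = 2
  pid : IsPrincipalIdealRing (𝓞 K)
  root : η ^ 2 + η + 1 = 0
  im : 0 < (σ (η : K)).im
  ex : ∀ z : 𝓞 K, ∃ x y : ℤ, z = x + y * η

theorem exists_eisDat [IsCyclotomicExtension {3} ℚ K] (σ : K →+* ℂ) : ∃ η, EisDat σ η := by
  have hζ := IsCyclotomicExtension.zeta_spec 3 ℚ K
  have h1 : (hζ.toInteger : 𝓞 K) ^ 2 + hζ.toInteger + 1 = 0 :=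
    IsCyclotomicExtension.Rat.Three.eta_sq_add_eta_add_one hζ
  have hcpx : IsTotallyComplex K := IsCyclotomicExtension.Rat.isTotallyComplex (n := 3) K
    (by norm_num)
  have hrank : finrank ℚ K = 2 := by
    rw [IsCyclotomicExtension.Rat.finrank 3 K]
    decide
  have hpid := IsCyclotomicExtension.Rat.three_pid K
  have hex : ∀ z : 𝓞 K, ∃ x y : ℤ, z = x + y * hζ.toInteger := by
    intro z
    obtain ⟨f, hf, hz⟩ := hζ.integralPowerBasis.exists_eq_aeval z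
    rw [hζ.integralPowerBasis_dim] at hf
    have hf1 : f.natDegree ≤ 1 := by
      have : Nat.totient 3 = 2 := by decide
      omega
    obtain ⟨a, b, rfl⟩ := Polynomial.exists_eq_X_add_C_of_natDegree_le_one hf1
    refine ⟨b, a, ?_⟩
    rw [hz, hζ.integralPowerBasis_gen]
    simp [add_comm]
  set w : ℂ := σ (hζ.toInteger : K) with hw
  have h2 : w ^ 2 + w + 1 = 0 := by
    have h3 := congrArg (fun z : 𝓞 K => σ (z : K)) h1
    simpa [hw] using h3
  have him : w.im ≠ 0 := by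
    intro h0
    have h3 := congrArg Complex.re h2
    simp [sq, h0] at h3
    nlinarith [sq_nonneg (w.re + 1 / 2)]
  rcases lt_or_gt_of_ne him with h3 | h3
  · refine ⟨-1 - hζ.toInteger, hcpx, hrank, hpid, by linear_combination h1, ?_, fun z => ?_⟩
    · have h4 : σ ((-1 - hζ.toInteger : 𝓞 K) : K) = -1 - w := by simp [hw]
      rw [h4]
      simp
      exact h3
    · obtain ⟨x, y, rfl⟩ := hex z
      refine ⟨x - y, -y, ?_⟩
      push_cast
      ring
  · exact ⟨hζ.toInteger, hcpx, hrank, hpid, h1, h3, hex⟩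

namespace EisDat

variable {σ : K →+* ℂ} {η : 𝓞 K} (h : EisDat σ η)

include h

theorem sig_root : σ (η : K) ^ 2 + σ (η : K) + 1 = 0 := by
  have h3 := congrArg (fun z : 𝓞 K => σ (z : K)) h.root
  simpa using h3

theorem re_eq : (σ (η : K)).re = -1 / 2 := by
  have h1 := congrArg Complex.im h.sig_root
  have h2 := h.im
  simp [sq] at h1
  have h3 : (σ (η : K)).im * (2 * (σ (η : K)).re + 1) = 0 := by linarith
  rcases mul_eq_zero.1 h3 with h4 | h4
  · exact absurd h4 h2.ne'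
  · linarith

theorem im_sq : (σ (η : K)).im ^ 2 = 3 / 4 := by
  have h1 := congrArg Complex.re h.sig_root
  simp [sq, h.re_eq] at h1
  rw [sq]
  linarith

theorem sig_eq (x y : ℤ) : σ ((x + y * η : 𝓞 K) : K) = x + y * σ (η : K) := by simp

theorem sig_re (x y : ℤ) : (σ ((x + y * η : 𝓞 K) : K)).re = x - y / 2 := by
  rw [h.sig_eq]
  simp [h.re_eq]
  ring

theorem sig_im (x y : ℤ) : (σ ((x + y * η : 𝓞 K) : K)).im = y * (σ (η : K)).im := by
  rw [h.sig_eq]
  simp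

theorem norm_sq (x y : ℤ) :
    ‖σ ((x + y * η : 𝓞 K) : K)‖ ^ 2 = x ^ 2 - x * y + y ^ 2 := by
  rw [← Complex.normSq_eq_norm_sq, Complex.normSq_apply, h.sig_re, h.sig_im]
  have h1 := h.im_sq
  linear_combination (y : ℝ) ^ 2 * h1

/-- the norm form -/
theorem norm_eq (x y : ℤ) : Algebra.norm ℤ (x + y * η : 𝓞 K) = x ^ 2 - x * y + y ^ 2 := by
  have hc := h.cpx
  have h1 := Kron.norm_eq h.rank σ ((x + y * η : 𝓞 K) : K)
  rw [h.norm_sq, ← Algebra.coe_norm_int] at h1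
  have h2 : ((Algebra.norm ℤ (x + y * η : 𝓞 K) : ℤ) : ℝ) =
      ((x ^ 2 - x * y + y ^ 2 : ℤ) : ℝ) := by
    push_cast
    rw [← h1]
    norm_cast
  exact_mod_cast h2

theorem nat_norm (x y : ℤ) :
    ((Algebra.norm ℤ (x + y * η : 𝓞 K)).natAbs : ℤ) = x ^ 2 - x * y + y ^ 2 := by
  rw [h.norm_eq, Int.natAbs_of_nonneg]
  nlinarith [sq_nonneg (2 * x - y), sq_nonneg y]

theorem eq_zero {x y : ℤ} (h0 : (x + y * η : 𝓞 K) = 0) : x = 0 ∧ y = 0 := by
  have h1 := h.norm_eq x y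
  rw [h0, Algebra.norm_zero] at h1
  have h2 : y = 0 := by
    have h3 : y ^ 2 ≤ 0 := by nlinarith [sq_nonneg (2 * x - y)]
    exact pow_eq_zero_iff two_ne_zero |>.1 (le_antisymm h3 (sq_nonneg y))
  refine ⟨?_, h2⟩
  rw [h2] at h1
  have h3 : x ^ 2 = 0 := by linarith
  exact pow_eq_zero_iff two_ne_zero |>.1 h3

theorem ext {x y x' y' : ℤ} (h0 : (x + y * η : 𝓞 K) = x' + y' * η) : x = x' ∧ y = y' := by
  have h1 : ((x - x' : ℤ) + (y - y' : ℤ) * η : 𝓞 K) = 0 := by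
    push_cast
    linear_combination h0
  obtain ⟨h2, h3⟩ := h.eq_zero h1
  exact ⟨by linarith, by linarith⟩

theorem mem_three {x y : ℤ} :
    (x + y * η : 𝓞 K) ∈ Ideal.span {(3 : 𝓞 K)} ↔ 3 ∣ x ∧ 3 ∣ y := by
  rw [Ideal.mem_span_singleton']
  constructor
  · rintro ⟨c, hc⟩
    obtain ⟨s, t, rfl⟩ := h.ex c
    have h1 : ((3 * s : ℤ) + (3 * t : ℤ) * η : 𝓞 K) = x + y * η := by
      rw [← hc]
      push_cast
      ring
    obtain ⟨h2, h3⟩ := h.ext h1
    exact ⟨⟨s, h2.symm⟩, ⟨t, h3.symm⟩⟩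
  · rintro ⟨⟨s, rfl⟩, ⟨t, rfl⟩⟩
    exact ⟨s + t * η, by push_cast; ring⟩

theorem sub_one_mem {x y : ℤ} :
    (x + y * η : 𝓞 K) - 1 ∈ Ideal.span {(3 : 𝓞 K)} ↔ 3 ∣ x - 1 ∧ 3 ∣ y := by
  have h1 : (x + y * η : 𝓞 K) - 1 = ((x - 1 : ℤ) + y * η : 𝓞 K) := by
    push_cast
    ring
  rw [h1]
  exact h.mem_three

/-! ### Units -/

/-- a unit `≡ s mod 3`, `s ∈ ℤ`, is `1` or `-1` -/
theorem unit_cases {x y : ℤ} (h1 : (Algebra.norm ℤ (x + y * η : 𝓞 K)).natAbs = 1) (h3 : 3 ∣ y) :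
    y = 0 ∧ (x = 1 ∨ x = -1) := by
  have h2 := h.nat_norm x y
  rw [h1] at h2
  obtain ⟨m, rfl⟩ := h3
  have h4 : m = 0 := by
    have h5 : m ^ 2 < 1 := by
      push_cast at h2
      nlinarith [sq_nonneg (2 * x - 3 * m)]
    have h6 : m ^ 2 = 0 := le_antisymm (by linarith) (sq_nonneg m)
    exact pow_eq_zero_iff two_ne_zero |>.1 h6
  subst h4
  refine ⟨by ring, ?_⟩
  have h5 : x ^ 2 = 1 := by
    push_cast at h2
    linarith
  rcases sq_eq_one_iff.1 h5 with h6 | h6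
  · exact Or.inl h6
  · exact Or.inr h6

end EisDat

end Fermat.Agent.Cor.SectK
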