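import Fermat.Agent.Corollaries.SectK.Eis
import Fermat.Agent.Corollaries.SectK.Defs
import Fermat.Agent.Corollaries.Ray.Coprime

/-!
# Eisenstein integers `≡ 1 mod 3`

* `EisDat.card_ray` : there is one ray class modulo `3`.
* `EisDat.card_units` : the only unit `≡ 1 mod 3` is `1`.
* `EisDat.prime_norm` : the norm of a prime element `x + y η ≡ 1 mod 3`, `y ≠ 0`, is a prime
  number.
-/

set_option autoImplicit false
set_option linter.unusedSectionVars false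

noncomputable section

open NumberField nonZeroDivisors Complex Module

namespace Fermat.Agent.Cor.SectK

open Fermat.Agent.Cor.Ray

universe u

variable {K : Type u} [Field K] [NumberField K]

namespace EisDat

variable {σ : K →+* ℂ} {η : 𝓞 K} (h : EisDat σ η)

include h

/-- every integer prime to `3` has an associate `≡ 1 mod 3` -/
theorem exists_unit_cong {a : 𝓞 K}
    (ha : IsCoprime (Ideal.span {a}) (Ideal.span {(3 : 𝓞 K)})) :
    ∃ u : 𝓞 K, IsUnit u ∧ u * a - 1 ∈ Ideal.span {(3 : 𝓞 K)} := by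
  rw [isCoprime_span_iff] at ha
  obtain ⟨b, hb⟩ := ha
  obtain ⟨x, y, rfl⟩ := h.ex a
  obtain ⟨s, t, rfl⟩ := h.ex b
  have h1 : ((s + t * η) * (x + y * η) : 𝓞 K) - 1 =
      ((s * x - t * y - 1 : ℤ) + (s * y + t * x - t * y : ℤ) * η : 𝓞 K) := by
    push_cast
    linear_combination (t * y : 𝓞 K) * h.root
  rw [h1, h.mem_three] at hb
  obtain ⟨⟨m, hm⟩, ⟨n, hn⟩⟩ := hb
  have h2 : ¬ (3 : ℤ) ∣ x + y := by
    rintro ⟨c, hc⟩
    have h3 : 3 * ((s + t) * c - t * y - m - n) = 1 := by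
      linear_combination (-(s + t)) * hc + hm + hn
    omega
  have hη : IsUnit η := IsUnit.of_mul_eq_one (-1 - η) (by linear_combination -h.root)
  have hη2 : IsUnit (-1 - η) := IsUnit.of_mul_eq_one η (by linear_combination -h.root)
  have hx : x % 3 = 0 ∨ x % 3 = 1 ∨ x % 3 = 2 := by omega
  have hy : y % 3 = 0 ∨ y % 3 = 1 ∨ y % 3 = 2 := by omega
  rcases hx with hx | hx | hx <;> rcases hy with hy | hy | hy
  · exfalso
    omega
  · refine ⟨-1 - η, hη2, ?_⟩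
    have h3 : (-1 - η) * (x + y * η : 𝓞 K) - 1 = ((y - x - 1 : ℤ) + (-x : ℤ) * η : 𝓞 K) := by
      push_cast
      linear_combination (-y : 𝓞 K) * h.root
    rw [h3, h.mem_three]
    omega
  · refine ⟨-(-1 - η), hη2.neg, ?_⟩
    have h3 : -(-1 - η) * (x + y * η : 𝓞 K) - 1 = ((x - y - 1 : ℤ) + (x : ℤ) * η : 𝓞 K) := by
      push_cast
      linear_combination (y : 𝓞 K) * h.root
    rw [h3, h.mem_three]
    omega
  · refine ⟨1, isUnit_one, ?_⟩
    have h3 : 1 * (x + y * η : 𝓞 K) - 1 = ((x - 1 : ℤ) + (y : ℤ) * η : 𝓞 K) := by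
      push_cast
      ring
    rw [h3, h.mem_three]
    omega
  · refine ⟨-η, hη.neg, ?_⟩
    have h3 : -η * (x + y * η : 𝓞 K) - 1 = ((y - 1 : ℤ) + (y - x : ℤ) * η : 𝓞 K) := by
      push_cast
      linear_combination (-y : 𝓞 K) * h.root
    rw [h3, h.mem_three]
    omega
  · exfalso
    omega
  · refine ⟨-1, isUnit_one.neg, ?_⟩
    have h3 : -1 * (x + y * η : 𝓞 K) - 1 = ((-x - 1 : ℤ) + (-y : ℤ) * η : 𝓞 K) := by
      push_cast
      ring
    rw [h3, h.mem_three]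
    omega
  · exfalso
    omega
  · refine ⟨η, hη, ?_⟩
    have h3 : η * (x + y * η : 𝓞 K) - 1 = ((-y - 1 : ℤ) + (x - y : ℤ) * η : 𝓞 K) := by
      push_cast
      linear_combination (y : 𝓞 K) * h.root
    rw [h3, h.mem_three]
    omega

theorem exists_gen (I : Cop (Ideal.span {(3 : 𝓞 K)})) : ∃ a : 𝓞 K, a ≠ 0 ∧
    ((I.1 : (Ideal (𝓞 K))⁰) : Ideal (𝓞 K)) = Ideal.span {a} ∧
    a - 1 ∈ Ideal.span {(3 : 𝓞 K)} := by
  have hpid := h.pid
  obtain ⟨a, ha⟩ := (IsPrincipalIdealRing.principal ((I.1 : (Ideal (𝓞 K))⁰) : Ideal (𝓞 K))).principal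
  rw [← Ideal.span] at ha
  have h1 : IsCoprime (Ideal.span {a}) (Ideal.span {(3 : 𝓞 K)}) := by
    rw [← ha]
    exact I.2
  obtain ⟨u, hu, h2⟩ := h.exists_unit_cong h1
  have h3 : ((I.1 : (Ideal (𝓞 K))⁰) : Ideal (𝓞 K)) = Ideal.span {u * a} := by
    rw [ha, Ideal.span_singleton_mul_left_unit hu]
  refine ⟨u * a, ?_, h3, h2⟩
  intro h0
  rw [h0, Ideal.span_singleton_eq_bot.2 rfl] at h3
  exact nonZeroDivisors.coe_ne_zero I.1 h3

/-- one ray class modulo `3` -/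
theorem card_ray : Nat.card (Quot fun I J : Cop (Ideal.span {(3 : 𝓞 K)}) =>
    RayEq (Ideal.span {(3 : 𝓞 K)}) I.1 J.1) = 1 := by
  rw [Nat.card_eq_one_iff_unique]
  refine ⟨⟨fun p q => ?_⟩, ⟨Quot.mk _ 1⟩⟩
  induction p using Quot.ind with
  | mk I =>
    induction q using Quot.ind with
    | mk J =>
      refine Quot.sound ?_
      obtain ⟨a, ha0, ha, ha1⟩ := h.exists_gen I
      obtain ⟨b, hb0, hb, hb1⟩ := h.exists_gen J
      refine ⟨b, a, hb0, ha0, isCoprime_span_iff.2 ⟨1, by rwa [one_mul]⟩, ?_, ?_⟩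
      · have := Ideal.sub_mem _ hb1 ha1
        simpa using this
      · rw [ha, hb, mul_comm]

/-- the only unit `≡ 1 mod 3` -/
theorem card_units :
    Nat.card {v : (𝓞 K)ˣ // (v : 𝓞 K) - 1 ∈ Ideal.span {(3 : 𝓞 K)}} = 1 := by
  rw [Nat.card_eq_one_iff_unique]
  refine ⟨⟨fun v w => ?_⟩, ⟨1, by simp⟩⟩
  have key : ∀ v : {v : (𝓞 K)ˣ // (v : 𝓞 K) - 1 ∈ Ideal.span {(3 : 𝓞 K)}}, (v.1 : 𝓞 K) = 1 := by
    rintro ⟨v, hv⟩
    obtain ⟨x, y, hxy⟩ := h.ex (v : 𝓞 K)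
    simp only at hv ⊢
    rw [hxy] at hv ⊢
    have h1 : (Algebra.norm ℤ (x + y * η : 𝓞 K)).natAbs = 1 := by
      rw [← hxy]
      exact Int.isUnit_iff_natAbs_eq.1 (v.isUnit.map (Algebra.norm ℤ))
    rw [h.sub_one_mem] at hv
    obtain ⟨h2, h3⟩ := h.unit_cases h1 hv.2
    have h4 : x = 1 := by omega
    rw [h2, h4]
    simp
  exact Subtype.ext (Units.ext ((key v).trans (key w).symm))

/-! ### Prime elements -/

theorem prime_of_norm {z : 𝓞 K} (hz : (Algebra.norm ℤ z).natAbs.Prime) : Prime z := by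
  have h1 : (Ideal.span {z}).IsPrime := Ideal.isPrime_of_irreducible_absNorm (by
    rw [Ideal.absNorm_span_singleton]
    exact hz)
  have h0 : z ≠ 0 := by
    rintro rfl
    rw [Algebra.norm_zero] at hz
    exact Nat.not_prime_zero hz
  exact (Ideal.span_singleton_prime h0).1 h1

omit h in
theorem exists_prime_dvd {z : 𝓞 K} (hz : Prime z) : ∃ p : ℕ, p.Prime ∧ z ∣ (p : 𝓞 K) := by
  have h1 : (Ideal.absNorm (Ideal.span {z}) : 𝓞 K) ∈ Ideal.span {z} := Ideal.absNorm_mem _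
  rw [Ideal.mem_span_singleton] at h1
  have h0 : Ideal.absNorm (Ideal.span {z}) ≠ 0 := by
    rw [Ne, Ideal.absNorm_eq_zero_iff, Ideal.span_singleton_eq_bot]
    exact hz.ne_zero
  rw [← Nat.prod_primeFactorsList h0, Nat.cast_list_prod, hz.dvd_prod_iff] at h1
  obtain ⟨a, ha, hza⟩ := h1
  obtain ⟨p, hp, rfl⟩ := List.mem_map.1 ha
  exact ⟨p, Nat.prime_of_mem_primeFactorsList hp, hza⟩

/-- the norm of a prime element `≡ 1 mod 3`, not in `ℤ`, is a prime number -/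
theorem prime_norm {x y : ℤ} (hπ : Prime (x + y * η : 𝓞 K)) (hx : 3 ∣ x - 1) (hy : 3 ∣ y)
    (h0 : y ≠ 0) : (Algebra.norm ℤ (x + y * η : 𝓞 K)).natAbs.Prime := by
  obtain ⟨p, hp, w, hw⟩ := exists_prime_dvd hπ
  have hnp : (Algebra.norm ℤ (p : 𝓞 K)).natAbs = p ^ 2 := by
    have h1 := h.nat_norm p 0
    have h2 : (((p : ℤ) : 𝓞 K) + ((0 : ℤ) : 𝓞 K) * η) = (p : 𝓞 K) := by simp
    rw [h2] at h1
    refine Nat.cast_injective (R := ℤ) ?_
    rw [h1]
    push_cast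
    ring
  have h1 : p ^ 2 = (Algebra.norm ℤ (x + y * η : 𝓞 K)).natAbs * (Algebra.norm ℤ w).natAbs := by
    rw [← hnp, hw, map_mul, Int.natAbs_mul]
  obtain ⟨k, hk, hk'⟩ := (Nat.dvd_prime_pow hp).1 (Dvd.intro _ h1.symm)
  have h2 : (Algebra.norm ℤ (x + y * η : 𝓞 K)).natAbs ≠ 1 := fun h3 => by
    obtain ⟨h4, -⟩ := h.unit_cases h3 hy
    exact h0 h4
  interval_cases k
  · rw [pow_zero] at hk'
    exact absurd hk' h2
  · rw [hk', pow_one]
    exact hp
  · exfalso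
    have h3 : (Algebra.norm ℤ w).natAbs = 1 := by
      rw [hk'] at h1
      have h4 : 0 < p ^ 2 := by
        have := hp.pos
        positivity
      exact Nat.eq_of_mul_eq_mul_left h4 (by omega)
    obtain ⟨s, t, rfl⟩ := h.ex w
    have h4 : ((x + y * η) * (s + t * η) : 𝓞 K) =
        ((x * s - y * t : ℤ) + (x * t + y * s - y * t : ℤ) * η : 𝓞 K) := by
      push_cast
      linear_combination (y * t : 𝓞 K) * h.root
    have h5 : (((p : ℤ) : 𝓞 K) + ((0 : ℤ) : 𝓞 K) * η) = (p : 𝓞 K) := by simp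
    rw [h4, ← h5] at hw
    obtain ⟨h6, h7⟩ := h.ext hw
    obtain ⟨m, hm⟩ := hy
    obtain ⟨n, hn⟩ := hx
    have h8 : (3 : ℤ) ∣ t := by
      refine ⟨-(n * t + m * s - m * t), ?_⟩
      have hx' : x = 3 * n + 1 := by linarith
      rw [hx', hm] at h7
      linear_combination -h7
    obtain ⟨rfl, h9⟩ := h.unit_cases h3 h8
    rcases h9 with rfl | rfl
    · apply h0
      linarith
    · apply h0
      linarith

end EisDat

end Fermat.Agent.Cor.SectK
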