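import Fermat.Agent.Corollaries.SectK.Count

/-!
# Prime elements in a residue class: exponential sums

`∑ ang(π)^k` over the prime elements `π ≡ α` modulo `𝔪` of norm at most `x` is `o(x / log x)` for
`k ≠ 0`: if some unit `u ≡ 1` has `ang(u)^k ≠ 1`, the sum is zero; otherwise there is a Hecke
character `ψ` of type `k`, and the sum is a linear combination of the sums of `χψ(P)` over the
prime ideals, `χ` running through the characters of the ray class group.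
-/

set_option autoImplicit false
set_option linter.unusedSectionVars false

noncomputable section

namespace Fermat.Agent.Cor.SectK

open NumberField Filter Topology Fermat.Agent.Cor.Ray Fermat.Agent.ClassL
open scoped nonZeroDivisors Classical

universe u

variable {K : Type u} [Field K] [NumberField K] {𝔪 : Ideal (𝓞 K)} {α : 𝓞 K} {σ : K →+* ℂ}

theorem ang_mul (σ : K →+* ℂ) (a b : 𝓞 K) : ang σ (a * b) = ang σ a * ang σ b := by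
  have h : ((a * b : 𝓞 K) : K) = (a : K) * (b : K) := rfl
  unfold ang
  rw [h, map_mul, norm_mul, Complex.ofReal_mul, mul_div_mul_comm]

theorem ang_ne_zero (σ : K →+* ℂ) {a : 𝓞 K} (ha : a ≠ 0) : ang σ a ≠ 0 := by
  have h1 : σ (a : K) ≠ 0 := by
    rw [Ne, map_eq_zero]
    exact fun h => ha (RingOfIntegers.ext h)
  exact div_ne_zero h1 (Complex.ofReal_ne_zero.2 (norm_ne_zero_iff.2 h1))

/-! ### The unit part -/

/-- the exponential sum over prime elements is a product -/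
theorem tsum_ElP (h1 : IsTotallyComplex K) (h2 : Module.finrank ℚ K = 2)
    (hα : IsCoprime (Ideal.span {α}) 𝔪) (k : ℤ) (x : ℕ) :
    ∑' π : ElP 𝔪 α x, ang σ π ^ k = (∑' P : GenP 𝔪 α x, ang σ (gen P) ^ k) *
      ∑' v : UnP 𝔪, ang σ (v.1 : 𝓞 K) ^ k := by
  have := finite_units h1 h2
  have : Fintype (GenP 𝔪 α x) := Fintype.ofFinite _
  have : Fintype (UnP 𝔪) := Fintype.ofFinite _
  rw [← (elEquiv hα x).tsum_eq]
  simp only [elEquiv_apply, ang_mul, mul_zpow]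
  rw [tsum_fintype, tsum_fintype, tsum_fintype, Fintype.sum_prod_type, Finset.sum_mul_sum]

/-- the unit sum is zero if some `ang(u)^k` is not one -/
theorem tsum_UnP_eq_zero (h1 : IsTotallyComplex K) (h2 : Module.finrank ℚ K = 2) {k : ℤ}
    {u : (𝓞 K)ˣ} (hu : (u : 𝓞 K) - 1 ∈ 𝔪) (huk : ang σ (u : 𝓞 K) ^ k ≠ 1) :
    ∑' v : UnP 𝔪, ang σ (v.1 : 𝓞 K) ^ k = 0 := by
  have := finite_units h1 h2
  have : Fintype (UnP 𝔪) := Fintype.ofFinite _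
  rw [tsum_fintype]
  let f : UnP 𝔪 → UnP 𝔪 := fun v => ⟨u * v.1, by
    have h3 : ((u * v.1 : (𝓞 K)ˣ) : 𝓞 K) - 1 = (u : 𝓞 K) * ((v.1 : 𝓞 K) - 1) + ((u : 𝓞 K) - 1) := by
      push_cast
      ring
    rw [h3]
    exact 𝔪.add_mem (𝔪.mul_mem_left _ v.2) hu⟩
  have hf : Function.Bijective f := Finite.injective_iff_bijective.1 fun v w h =>
    Subtype.ext (mul_left_cancel (congrArg Subtype.val h))
  have h4 : ang σ (u : 𝓞 K) ^ k * ∑ v : UnP 𝔪, ang σ (v.1 : 𝓞 K) ^ k =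
      ∑ v : UnP 𝔪, ang σ (v.1 : 𝓞 K) ^ k := by
    rw [Finset.mul_sum]
    refine Fintype.sum_bijective f hf _ _ fun v => ?_
    change _ = ang σ ((u * v.1 : (𝓞 K)ˣ) : 𝓞 K) ^ k
    rw [Units.val_mul, ang_mul, mul_zpow]
  have h5 : (ang σ (u : 𝓞 K) ^ k - 1) * ∑ v : UnP 𝔪, ang σ (v.1 : 𝓞 K) ^ k = 0 := by
    rw [sub_mul, one_mul, h4, sub_self]
  exact (mul_eq_zero.1 h5).resolve_left (sub_ne_zero.2 huk)

/-! ### Twists of Hecke characters -/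

/-- the product of a Hecke character of type `k` and a ray class character -/
theorem hchar_mul {G : Type u} [CommGroup G] [Finite G] {cl : Cop 𝔪 →* G}
    (hcl : ∀ I J : Cop 𝔪, cl I = cl J ↔ RayEq 𝔪 I.1 J.1) (χ : G →* ℂˣ) {k : ℤ}
    {ψ : (Ideal (𝓞 K))⁰ →* ℂ} (hψ : HChar σ 𝔪 k ψ) : HChar σ 𝔪 k (Psi.psi (cl0 cl) χ * ψ) where
  norm_eq I hI := by
    rw [MonoidHom.mul_apply, norm_mul, hψ.norm_eq I hI, mul_one]
    rcases Psi.psi_eq_zero_or (cl0 cl) χ I with ⟨h, -⟩ | ⟨g, -, h⟩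
    · exact absurd hI ((cl0_eq_zero_iff cl).1 h)
    · rw [h, norm_char]
  eq_zero I hI := by rw [MonoidHom.mul_apply, hψ.eq_zero I hI, mul_zero]
  cong I a ha h1 := by
    rw [MonoidHom.mul_apply, (rayChar_psi cl hcl χ).cong I a ha h1, hψ.cong I a ha h1, one_mul]

/-- `ang(π)^k` is a constant times `ψ((π))` for `π ≡ α` -/
theorem exists_const (hα : IsCoprime (Ideal.span {α}) 𝔪) {k : ℤ} {ψ : (Ideal (𝓞 K))⁰ →* ℂ}
    (hψ : HChar σ 𝔪 k ψ) : ∃ c : ℂ, ∀ (x : ℕ) (P : GenP 𝔪 α x),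
      ang σ (gen P) ^ k = c * ψ P.1.1 := by
  obtain ⟨b, hb0, hb⟩ : ∃ b : 𝓞 K, b ≠ 0 ∧ b * α - 1 ∈ 𝔪 := by
    obtain ⟨c, hc⟩ := isCoprime_span_iff.mp hα
    by_cases h : c = 0
    · have h1 : (1 : 𝓞 K) ∈ 𝔪 := by
        rw [h, zero_mul, zero_sub] at hc
        have := 𝔪.neg_mem hc
        rwa [neg_neg] at this
      exact ⟨1, one_ne_zero, by rw [(Ideal.eq_top_iff_one 𝔪).2 h1]; exact Submodule.mem_top⟩
    · exact ⟨c, h, hc⟩
  have hB : Ideal.span {b} ∈ (Ideal (𝓞 K))⁰ := by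
    refine mem_nonZeroDivisors_of_ne_zero ?_
    rw [Ideal.zero_eq_bot, Ne, Ideal.span_singleton_eq_bot]
    exact hb0
  refine ⟨ψ ⟨Ideal.span {b}, hB⟩ / ang σ b ^ k, fun x P => ?_⟩
  have h1 : ψ (P.1.1 * ⟨Ideal.span {b}, hB⟩) = ang σ (gen P * b) ^ k := by
    refine hψ.cong _ _ ?_ ?_
    · rw [Submonoid.coe_mul, gen_span P, Ideal.span_singleton_mul_span_singleton]
    · have h2 : gen P * b - 1 = b * (gen P - α) + (b * α - 1) := by ring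
      rw [h2]
      exact 𝔪.add_mem (𝔪.mul_mem_left _ (gen_sub P)) hb
  rw [map_mul, ang_mul, mul_zpow] at h1
  have h3 : ang σ b ^ k ≠ 0 := zpow_ne_zero _ (ang_ne_zero σ hb0)
  rw [div_mul_eq_mul_div, eq_div_iff h3, ← h1]
  ring

instance finite_Y (x : ℕ) : Finite {P : Pr K //
    Ideal.absNorm ((P.1 : (Ideal (𝓞 K))⁰) : Ideal (𝓞 K)) ≤ x} := by
  have h := Ideal.finite_setOfPred_absNorm_le (S := 𝓞 K) x
  have := h.to_subtype
  refine Finite.of_injective (fun P : {P : Pr K //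
      Ideal.absNorm ((P.1 : (Ideal (𝓞 K))⁰) : Ideal (𝓞 K)) ≤ x} =>
    (⟨((P.1.1 : (Ideal (𝓞 K))⁰) : Ideal (𝓞 K)), P.2⟩ :
      {I : Ideal (𝓞 K) | Ideal.absNorm I ≤ x})) fun P Q h => ?_
  have h' : ((P.1.1 : (Ideal (𝓞 K))⁰) : Ideal (𝓞 K)) = ((Q.1.1 : (Ideal (𝓞 K))⁰) :
    Ideal (𝓞 K)) := congrArg (fun J : {I : Ideal (𝓞 K) | Ideal.absNorm I ≤ x} => J.1) h
  exact Subtype.ext (Subtype.ext (Subtype.ext h'))

/-- the sum over the prime ideals generated by an element `≡ α`, by the characters of the ray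
class group -/
theorem tsum_GenP {G : Type u} [CommGroup G] [Finite G] [Fintype (G →* ℂˣ)] {cl : Cop 𝔪 →* G}
    {g : G} (hg : ∀ P : Pr K, cl0 cl P.1 = (g : WithZero G) ↔
      ∃ π : 𝓞 K, π - α ∈ 𝔪 ∧ ((P.1 : (Ideal (𝓞 K))⁰) : Ideal (𝓞 K)) = Ideal.span {π})
    (ψ : (Ideal (𝓞 K))⁰ →* ℂ) (x : ℕ) :
    ∑' P : GenP 𝔪 α x, ψ P.1.1 = (Nat.card G : ℂ)⁻¹ * ∑ χ : G →* ℂˣ, ((χ g : ℂˣ) : ℂ)⁻¹ *
      ∑' P : {P : Pr K // Ideal.absNorm ((P.1 : (Ideal (𝓞 K))⁰) : Ideal (𝓞 K)) ≤ x},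
        (Psi.psi (cl0 cl) χ * ψ) P.1.1 := by
  have : Fintype {P : Pr K // Ideal.absNorm ((P.1 : (Ideal (𝓞 K))⁰) : Ideal (𝓞 K)) ≤ x} :=
    Fintype.ofFinite _
  have h0 : (Nat.card G : ℂ) ≠ 0 := by exact_mod_cast Nat.card_pos.ne'
  have h1 : ∑' P : GenP 𝔪 α x, ψ P.1.1 =
      ∑' P : {P : Pr K // Ideal.absNorm ((P.1 : (Ideal (𝓞 K))⁰) : Ideal (𝓞 K)) ≤ x},
        if cl0 cl P.1.1 = (g : WithZero G) then ψ P.1.1 else 0 := by
    have e1 : ∑' P : GenP 𝔪 α x, ψ P.1.1 = ∑' P : Pr K, ({P : Pr K |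
        Ideal.absNorm ((P.1 : (Ideal (𝓞 K))⁰) : Ideal (𝓞 K)) ≤ x ∧ ∃ π : 𝓞 K, π - α ∈ 𝔪 ∧
          ((P.1 : (Ideal (𝓞 K))⁰) : Ideal (𝓞 K)) = Ideal.span {π}} : Set (Pr K)).indicator
          (fun P : Pr K => ψ P.1) P :=
      tsum_subtype {P : Pr K |
        Ideal.absNorm ((P.1 : (Ideal (𝓞 K))⁰) : Ideal (𝓞 K)) ≤ x ∧ ∃ π : 𝓞 K, π - α ∈ 𝔪 ∧
          ((P.1 : (Ideal (𝓞 K))⁰) : Ideal (𝓞 K)) = Ideal.span {π}} (fun P : Pr K => ψ P.1)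
    have e2 : (∑' P : {P : Pr K // Ideal.absNorm ((P.1 : (Ideal (𝓞 K))⁰) : Ideal (𝓞 K)) ≤ x},
        if cl0 cl P.1.1 = (g : WithZero G) then ψ P.1.1 else 0) = ∑' P : Pr K, ({P : Pr K |
        Ideal.absNorm ((P.1 : (Ideal (𝓞 K))⁰) : Ideal (𝓞 K)) ≤ x} : Set (Pr K)).indicator
          (fun P : Pr K => if cl0 cl P.1 = (g : WithZero G) then ψ P.1 else 0) P :=
      tsum_subtype {P : Pr K | Ideal.absNorm ((P.1 : (Ideal (𝓞 K))⁰) : Ideal (𝓞 K)) ≤ x}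
        (fun P : Pr K => if cl0 cl P.1 = (g : WithZero G) then ψ P.1 else 0)
    rw [e1, e2]
    refine tsum_congr fun P => ?_
    simp only [Set.indicator_apply, Set.mem_setOf_eq, ← hg P]
    by_cases ha : Ideal.absNorm ((P.1 : (Ideal (𝓞 K))⁰) : Ideal (𝓞 K)) ≤ x
    · by_cases hb : cl0 cl P.1 = (g : WithZero G)
      · rw [if_pos ⟨ha, hb⟩, if_pos ha, if_pos hb]
      · rw [if_neg fun h => hb h.2, if_pos ha, if_neg hb]
    · rw [if_neg fun h => ha h.1, if_neg ha]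
  rw [h1, tsum_fintype, Finset.mul_sum]
  have h2 : ∀ P : {P : Pr K // Ideal.absNorm ((P.1 : (Ideal (𝓞 K))⁰) : Ideal (𝓞 K)) ≤ x},
      (if cl0 cl P.1.1 = (g : WithZero G) then ψ P.1.1 else 0) =
      ∑ χ : G →* ℂˣ, (Nat.card G : ℂ)⁻¹ * (((χ g : ℂˣ) : ℂ)⁻¹ *
        (Psi.psi (cl0 cl) χ * ψ) P.1.1) := by
    intro P
    have h3 := Psi.orth0 g (cl0 cl P.1.1)
    have h4 : ∀ χ : G →* ℂˣ, (Nat.card G : ℂ)⁻¹ * (((χ g : ℂˣ) : ℂ)⁻¹ *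
        (Psi.psi (cl0 cl) χ * ψ) P.1.1) =
        ((Nat.card G : ℂ)⁻¹ * ψ P.1.1) * (((χ g : ℂˣ) : ℂ)⁻¹ * Psi.chi0 χ (cl0 cl P.1.1)) := by
      intro χ
      rw [MonoidHom.mul_apply, Psi.psi, MonoidHom.comp_apply]
      ring
    simp only [h4]
    rw [← Finset.mul_sum, h3]
    split_ifs with h
    · rw [mul_right_comm, inv_mul_cancel₀ h0, one_mul]
    · rw [mul_zero]
  simp only [h2]
  rw [Finset.sum_comm]
  refine Finset.sum_congr rfl fun χ _ => ?_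
  rw [tsum_fintype, Finset.mul_sum, Finset.mul_sum]

/-- the prime ideals generated by an element `≡ α`, in terms of the ray class group -/
theorem class_iff {G : Type u} [CommGroup G] {cl : Cop 𝔪 →* G}
    (hcl : ∀ I J : Cop 𝔪, cl I = cl J ↔ RayEq 𝔪 I.1 J.1) {β : 𝓞 K}
    (hβ : IsCoprime (Ideal.span {β}) 𝔪) (hβ0 : β ≠ 0) (hβα : β - α ∈ 𝔪)
    (hmem : Ideal.span {β} ∈ (Ideal (𝓞 K))⁰)
    (hJ : (⟨Ideal.span {β}, hmem⟩ : (Ideal (𝓞 K))⁰) ∈ Cop 𝔪) (P : Pr K) :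
    cl0 cl P.1 = (cl ⟨⟨Ideal.span {β}, hmem⟩, hJ⟩ : WithZero G) ↔
      ∃ π : 𝓞 K, π - α ∈ 𝔪 ∧ ((P.1 : (Ideal (𝓞 K))⁰) : Ideal (𝓞 K)) = Ideal.span {π} := by
  have h2 := cl0_eq_iff cl hcl hJ P.1
  have h3 : (IsCoprime ((P.1 : (Ideal (𝓞 K))⁰) : Ideal (𝓞 K)) 𝔪 ∧
      RayEq 𝔪 P.1 ⟨Ideal.span {β}, hmem⟩) ↔ RayEq 𝔪 P.1 ⟨Ideal.span {β}, hmem⟩ :=
    ⟨fun h => h.2, fun h => ⟨h.coprime hJ, h⟩⟩
  rw [h2, h3, rayEq_span_iff hβ hβ0 rfl]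
  refine exists_congr fun π => and_congr_left fun _ => ?_
  constructor
  · intro h
    have := 𝔪.add_mem h hβα
    rwa [sub_add_sub_cancel] at this
  · intro h
    have := 𝔪.sub_mem h hβα
    rwa [sub_sub_sub_cancel_right] at this

/-- (S6): **the exponential sums over the prime elements in a residue class** -/
theorem elemStmt_of {K : Type u} [Field K] [NumberField K] (hPS : PrimeSumStmt K)
    (hE : ExtStmt K) : ElemStmt K := by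
  intro h1 h2 σ 𝔪 h𝔪 α hα k hk
  by_cases hu : ∀ v : (𝓞 K)ˣ, (v : 𝓞 K) - 1 ∈ 𝔪 → ang σ v ^ k = 1
  swap
  · push Not at hu
    obtain ⟨u, hu1, hu2⟩ := hu
    have h3 : ∀ x : ℕ, ∑' π : {π : 𝓞 K // Prime π ∧ π - α ∈ 𝔪 ∧
        (Algebra.norm ℤ π).natAbs ≤ x}, ang σ π ^ k = 0 := fun x => by
      have h4 := tsum_ElP (σ := σ) h1 h2 hα k x
      rw [tsum_UnP_eq_zero h1 h2 hu1 hu2, mul_zero] at h4
      exact h4
    simp only [h3, mul_zero]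
    exact tendsto_const_nhds
  · obtain ⟨ψ, hψ⟩ := hE σ 𝔪 h𝔪 k hu
    obtain ⟨c, hc⟩ := exists_const hα hψ
    obtain ⟨G, _, _, cl, hsurj, hcl⟩ := groupStmt K 𝔪 h𝔪
    have : Fintype (G →* ℂˣ) := Fintype.ofFinite _
    obtain ⟨β, hβ0, hβ, hβα⟩ : ∃ β : 𝓞 K, β ≠ 0 ∧ IsCoprime (Ideal.span {β}) 𝔪 ∧
        β - α ∈ 𝔪 := by
      by_cases h : α = 0
      · refine ⟨1, one_ne_zero, ?_, ?_⟩
        · rw [Ideal.span_singleton_one, ← Ideal.one_eq_top]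
          exact isCoprime_one_left
        · obtain ⟨b, hb⟩ := isCoprime_span_iff.mp hα
          rw [h, mul_zero, zero_sub] at hb
          rw [h, sub_zero]
          have := 𝔪.neg_mem hb
          rwa [neg_neg] at this
      · exact ⟨α, h, hα, by rw [sub_self]; exact 𝔪.zero_mem⟩
    have hmem : Ideal.span {β} ∈ (Ideal (𝓞 K))⁰ := by
      refine mem_nonZeroDivisors_of_ne_zero ?_
      rw [Ideal.zero_eq_bot, Ne, Ideal.span_singleton_eq_bot]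
      exact hβ0
    have hJ : (⟨Ideal.span {β}, hmem⟩ : (Ideal (𝓞 K))⁰) ∈ Cop 𝔪 := hβ
    have hg := class_iff hcl hβ hβ0 hβα hmem hJ
    generalize (cl ⟨⟨Ideal.span {β}, hmem⟩, hJ⟩ : G) = g at hg
    have key : Tendsto (fun x : ℕ => (c * (Nat.card G : ℂ)⁻¹ *
        ∑' v : UnP 𝔪, ang σ (v.1 : 𝓞 K) ^ k) * ∑ χ : G →* ℂˣ, ((χ g : ℂˣ) : ℂ)⁻¹ *
        ((((Real.log x / x : ℝ)) : ℂ) * ∑' P : {P : Pr K //
          Ideal.absNorm ((P.1 : (Ideal (𝓞 K))⁰) : Ideal (𝓞 K)) ≤ x},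
            (Psi.psi (cl0 cl) χ * ψ) P.1.1)) atTop (𝓝 ((c * (Nat.card G : ℂ)⁻¹ *
        ∑' v : UnP 𝔪, ang σ (v.1 : 𝓞 K) ^ k) * ∑ χ : G →* ℂˣ, ((χ g : ℂˣ) : ℂ)⁻¹ * 0)) :=
      (tendsto_finsetSum _ fun χ _ =>
        (hPS h1 h2 σ 𝔪 h𝔪 k hk _ (hchar_mul hcl χ hψ)).const_mul _).const_mul _
    simp only [mul_zero, Finset.sum_const_zero] at key
    refine key.congr fun x => ?_
    have h5 := tsum_ElP (σ := σ) h1 h2 hα k x
    have h6 : ∑' P : GenP 𝔪 α x, ang σ (gen P) ^ k = c * ∑' P : GenP 𝔪 α x, ψ P.1.1 := by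
      rw [← tsum_mul_left]
      exact tsum_congr fun P => hc x P
    rw [tsum_GenP hg ψ x] at h6
    rw [h6] at h5
    change _ = _ * ∑' π : ElP 𝔪 α x, ang σ π ^ k
    rw [h5]
    have h7 : ∀ χ : G →* ℂˣ, ((χ g : ℂˣ) : ℂ)⁻¹ *
        ((((Real.log x / x : ℝ)) : ℂ) * ∑' P : {P : Pr K //
          Ideal.absNorm ((P.1 : (Ideal (𝓞 K))⁰) : Ideal (𝓞 K)) ≤ x},
            (Psi.psi (cl0 cl) χ * ψ) P.1.1) = (((Real.log x / x : ℝ)) : ℂ) *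
        (((χ g : ℂˣ) : ℂ)⁻¹ * ∑' P : {P : Pr K //
          Ideal.absNorm ((P.1 : (Ideal (𝓞 K))⁰) : Ideal (𝓞 K)) ≤ x},
            (Psi.psi (cl0 cl) χ * ψ) P.1.1) := fun χ => by ring
    simp only [h7]
    rw [← Finset.mul_sum]
    ring

end Fermat.Agent.Cor.SectK

end
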