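import Fermat.Agent.Corollaries.SectK.Defs
import Mathlib

/-!
# Existence of Hecke characters of `∞`-type `k`

`extStmt`: if `(σ v / |σ v|) ^ k = 1` for all units `v ≡ 1 mod 𝔪`, then there is a character `ψ` of
the ideals prime to `𝔪` with `ψ((a)) = (σ a / |σ a|) ^ k` for `a ≡ 1 mod 𝔪`.

The circle is divisible, so the character `x ↦ (σ x / |σ x|) ^ k` of the group of all `x = a / b`,
`a ≡ b mod 𝔪`, `b` prime to `𝔪`, which only depends on the fractional ideal of `x`, extends to the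
group of all fractional ideals.
-/

set_option autoImplicit false

noncomputable section

namespace Fermat.Agent.Cor.SectK

open NumberField
open scoped nonZeroDivisors

universe u

/-! ### Extension of characters -/

theorem circle_zpow_surjective {n : ℤ} (hn : n ≠ 0) (z : Circle) : ∃ w : Circle, w ^ n = z := by
  refine ⟨Circle.exp (Complex.arg z / n), ?_⟩
  have hn' : (n : ℝ) ≠ 0 := by exact_mod_cast hn
  rw [← Circle.exp_zsmul, zsmul_eq_mul, mul_div_cancel₀ _ hn', Circle.exp_arg]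

/-- The circle is divisible. -/
@[reducible] def divCircle : DivisibleBy (Additive Circle) ℤ :=
  divisibleByOfSMulRightSurj _ _ fun {n} hn z => by
    obtain ⟨w, hw⟩ := circle_zpow_surjective hn z.toMul
    exact ⟨Additive.ofMul w, congrArg Additive.ofMul hw⟩

/-- Extension of characters of commutative groups. -/
theorem exists_extend_add {P G : Type*} [AddCommGroup P] [AddCommGroup G] (f : P →+ G)
    (g : P →+ Additive Circle) (hfg : ∀ p, f p = 0 → g p = 0) :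
    ∃ χ : G →+ Additive Circle, ∀ p, χ (f p) = g p := by
  let _ := divCircle
  let g₁ : P ⧸ f.ker →+ Additive Circle := QuotientAddGroup.lift f.ker g fun p hp => hfg p hp
  let f₁ : P ⧸ f.ker →+ G := QuotientAddGroup.kerLift f
  obtain ⟨h, hh⟩ := (Module.Baer.of_divisible (Additive Circle)).extension_property_addMonoidHom
    f₁ (QuotientAddGroup.kerLift_injective f) g₁
  exact ⟨h, fun p => DFunLike.congr_fun hh (QuotientAddGroup.mk p)⟩

theorem exists_extend {P G : Type*} [CommGroup P] [CommGroup G] (f : P →* G)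
    (g : P →* Circle) (hfg : ∀ p, f p = 1 → g p = 1) :
    ∃ χ : G →* Circle, ∀ p, χ (f p) = g p := by
  obtain ⟨χ, hχ⟩ := exists_extend_add (MonoidHom.toAdditive f) (MonoidHom.toAdditive g)
    (fun p hp => congrArg Additive.ofMul (hfg p.toMul (congrArg Additive.toMul hp)))
  exact ⟨MonoidHom.toAdditive.symm χ, fun p => congrArg Additive.toMul (hχ (Additive.ofMul p))⟩

/-! ### The direction -/

variable {K : Type u} [Field K] [NumberField K]

omit [NumberField K] in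
theorem map_mul_coe (a b : 𝓞 K) : ((a * b : 𝓞 K) : K) = (a : K) * (b : K) := rfl

/-- the direction of an element of `Kˣ` -/
def angH (σ : K →+* ℂ) : Kˣ →* Circle where
  toFun x := ⟨σ (x : K) / ‖σ (x : K)‖, by
    refine mem_sphere_zero_iff_norm.mpr ?_
    rw [norm_div, Complex.norm_real, norm_norm]
    exact div_self (norm_ne_zero_iff.mpr ((map_ne_zero σ).mpr x.ne_zero))⟩
  map_one' := by
    apply Subtype.ext
    simp
  map_mul' x y := by
    apply Subtype.ext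
    change σ ((x * y : Kˣ) : K) / ‖σ ((x * y : Kˣ) : K)‖ =
      σ (x : K) / ‖σ (x : K)‖ * (σ (y : K) / ‖σ (y : K)‖)
    rw [Units.val_mul, map_mul, norm_mul, Complex.ofReal_mul, mul_div_mul_comm]

omit [NumberField K] in
theorem coe_angH (σ : K →+* ℂ) (x : Kˣ) : (angH σ x : ℂ) = σ (x : K) / ‖σ (x : K)‖ := rfl

omit [NumberField K] in
theorem coe_angH_eq_ang (σ : K →+* ℂ) (x : Kˣ) (a : 𝓞 K) (h : (x : K) = a) :
    (angH σ x : ℂ) = ang σ a := by
  rw [coe_angH, ang, h]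

/-! ### Congruences -/

omit [NumberField K] in
theorem isCoprime_of_sub_mem {𝔪 : Ideal (𝓞 K)} {a b : 𝓞 K} (hb : IsCoprime (Ideal.span {b}) 𝔪)
    (h : a - b ∈ 𝔪) : IsCoprime (Ideal.span {a}) 𝔪 := by
  rw [Ideal.isCoprime_iff_exists] at hb ⊢
  obtain ⟨i, hi, j, hj, hij⟩ := hb
  obtain ⟨r, rfl⟩ := Ideal.mem_span_singleton'.mp hi
  refine ⟨r * a, Ideal.mul_mem_left _ r (Ideal.mem_span_singleton_self a), j - r * (a - b),
    𝔪.sub_mem hj (𝔪.mul_mem_left r h), ?_⟩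
  rw [← hij]
  ring

omit [NumberField K] in
theorem mem_of_mul_mem {𝔪 : Ideal (𝓞 K)} {x b : 𝓞 K} (hb : IsCoprime (Ideal.span {b}) 𝔪)
    (h : x * b ∈ 𝔪) : x ∈ 𝔪 := by
  rw [Ideal.isCoprime_iff_exists] at hb
  obtain ⟨i, hi, j, hj, hij⟩ := hb
  obtain ⟨r, rfl⟩ := Ideal.mem_span_singleton'.mp hi
  have h1 : x = r * (x * b) + x * j := by
    calc x = x * (r * b + j) := by rw [hij, mul_one]
      _ = _ := by ring
  rw [h1]
  exact 𝔪.add_mem (𝔪.mul_mem_left r h) (𝔪.mul_mem_left x hj)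

omit [NumberField K] in
theorem isCoprime_span_one (𝔪 : Ideal (𝓞 K)) : IsCoprime (Ideal.span {(1 : 𝓞 K)}) 𝔪 :=
  Ideal.isCoprime_iff_sup_eq.mpr (by rw [Ideal.span_singleton_one, top_sup_eq])

/-- `x = a / b`, `a ≡ b mod 𝔪`, `b` prime to `𝔪`. -/
def IsCong (𝔪 : Ideal (𝓞 K)) (x : K) : Prop :=
  ∃ a b : 𝓞 K, b ≠ 0 ∧ IsCoprime (Ideal.span {b}) 𝔪 ∧ a - b ∈ 𝔪 ∧ x * (b : K) = (a : K)

omit [NumberField K] in
theorem IsCong.one (𝔪 : Ideal (𝓞 K)) : IsCong 𝔪 (1 : K) := by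
  refine ⟨1, 1, one_ne_zero, isCoprime_span_one 𝔪, ?_, one_mul _⟩
  rw [sub_self]
  exact 𝔪.zero_mem

omit [NumberField K] in
theorem IsCong.mul {𝔪 : Ideal (𝓞 K)} {x y : K} (hx : IsCong 𝔪 x) (hy : IsCong 𝔪 y) :
    IsCong 𝔪 (x * y) := by
  obtain ⟨a, b, hb0, hb, hab, h⟩ := hx
  obtain ⟨a', b', hb0', hb', hab', h'⟩ := hy
  have h1 : a * a' - b * b' ∈ 𝔪 := by
    have h1 : a * a' - b * b' = a * (a' - b') + b' * (a - b) := by ring
    rw [h1]
    exact 𝔪.add_mem (𝔪.mul_mem_left _ hab') (𝔪.mul_mem_left _ hab)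
  have h3 : IsCoprime (Ideal.span {b * b'}) 𝔪 := by
    rw [← Ideal.span_singleton_mul_span_singleton]
    exact hb.mul_left hb'
  have h4 : x * y * ((b * b' : 𝓞 K) : K) = ((a * a' : 𝓞 K) : K) := by
    rw [map_mul_coe, map_mul_coe, ← h, ← h']
    ring
  exact ⟨a * a', b * b', mul_ne_zero hb0 hb0', h3, h1, h4⟩

omit [NumberField K] in
theorem IsCong.inv {𝔪 : Ideal (𝓞 K)} {x : K} (hx0 : x ≠ 0) (hx : IsCong 𝔪 x) :
    IsCong 𝔪 x⁻¹ := by
  obtain ⟨a, b, hb0, hb, hab, h⟩ := hx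
  have hbK : (b : K) ≠ 0 := fun h0 => hb0 (RingOfIntegers.ext h0)
  have ha0 : a ≠ 0 := by
    rintro rfl
    exact mul_ne_zero hx0 hbK h
  have h1 : b - a ∈ 𝔪 := by
    rw [← neg_sub]
    exact 𝔪.neg_mem hab
  exact ⟨b, a, ha0, isCoprime_of_sub_mem hb hab, h1, by rw [← h, inv_mul_cancel_left₀ hx0]⟩

/-- The group of all `a / b`, `a ≡ b mod 𝔪`, `b` prime to `𝔪`. -/
def congU (𝔪 : Ideal (𝓞 K)) : Subgroup Kˣ where
  carrier := {x | IsCong 𝔪 (x : K)}
  one_mem' := IsCong.one 𝔪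
  mul_mem' := fun {x y} (hx : IsCong 𝔪 (x : K)) (hy : IsCong 𝔪 (y : K)) => by
    change IsCong 𝔪 ((x * y : Kˣ) : K)
    rw [Units.val_mul]
    exact hx.mul hy
  inv_mem' := fun {x} (hx : IsCong 𝔪 (x : K)) => by
    change IsCong 𝔪 ((x⁻¹ : Kˣ) : K)
    rw [Units.val_inv_eq_inv_val]
    exact hx.inv x.ne_zero

omit [NumberField K] in
theorem mem_congU {𝔪 : Ideal (𝓞 K)} {x : Kˣ} : x ∈ congU 𝔪 ↔ IsCong 𝔪 (x : K) := Iff.rfl

/-- An element of `Kˣ` whose fractional ideal is `1` is a unit. -/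
theorem exists_unit_of_toPrincipalIdeal {x : Kˣ} (h : toPrincipalIdeal (𝓞 K) K x = 1) :
    ∃ v : (𝓞 K)ˣ, (x : K) = ((v : 𝓞 K) : K) := by
  have h1 : ∀ y : Kˣ, toPrincipalIdeal (𝓞 K) K y = 1 → ∃ a : 𝓞 K, (a : K) = y := by
    intro y hy
    have h3 : (y : K) ∈ (1 : FractionalIdeal (𝓞 K)⁰ K) := by
      have h4 : FractionalIdeal.spanSingleton (𝓞 K)⁰ (y : K) = 1 :=
        toPrincipalIdeal_eq_iff.mp hy
      rw [← h4]
      exact FractionalIdeal.mem_spanSingleton_self _ _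
    exact (FractionalIdeal.mem_one_iff _).mp h3
  obtain ⟨a, ha⟩ := h1 x h
  obtain ⟨b, hb⟩ := h1 x⁻¹ (by rw [map_inv, h, inv_one])
  have hab : a * b = 1 := by
    apply RingOfIntegers.ext
    change (a : K) * (b : K) = 1
    rw [ha, hb, Units.mul_inv]
  exact ⟨Units.mkOfMulEqOne a b hab, ha.symm⟩

/-! ### The statement -/

/-- **Existence of Hecke characters of `∞`-type `k`.** -/
theorem extStmt (K : Type u) [Field K] [NumberField K] : ExtStmt K := by
  classical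
  intro σ 𝔪 _ k hk
  let f : congU 𝔪 →* (FractionalIdeal (𝓞 K)⁰ K)ˣ := (toPrincipalIdeal (𝓞 K) K).comp
    (congU 𝔪).subtype
  let g : congU 𝔪 →* Circle := (zpowGroupHom k).comp ((angH σ).comp (congU 𝔪).subtype)
  have hfg : ∀ p, f p = 1 → g p = 1 := by
    rintro ⟨x, hx⟩ hp
    obtain ⟨v, hv⟩ := exists_unit_of_toPrincipalIdeal (x := x) hp
    obtain ⟨a, b, hb0, hb, hab, h⟩ := mem_congU.mp hx
    have h1 : (v : 𝓞 K) * b = a := by
      apply RingOfIntegers.ext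
      change ((v : 𝓞 K) : K) * (b : K) = (a : K)
      rw [← hv, h]
    have h3 : (v : 𝓞 K) - 1 ∈ 𝔪 := by
      apply mem_of_mul_mem hb
      rw [sub_mul, h1, one_mul]
      exact hab
    have h4 := hk v h3
    apply Subtype.ext
    change ((angH σ x : ℂ)) ^ k = 1
    rw [coe_angH_eq_ang σ x v hv, h4]
  obtain ⟨χ, hχ⟩ := exists_extend f g hfg
  have hcop1 : IsCoprime ((1 : (Ideal (𝓞 K))⁰) : Ideal (𝓞 K)) 𝔪 := isCoprime_one_left
  let ψ : (Ideal (𝓞 K))⁰ →* ℂ :=
    { toFun := fun I => if IsCoprime (I : Ideal (𝓞 K)) 𝔪 then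
        (χ (FractionalIdeal.mk0 K I) : ℂ) else 0
      map_one' := by
        rw [if_pos hcop1, map_one, map_one]
        rfl
      map_mul' := fun I J => by
        rw [Submonoid.coe_mul]
        by_cases hI : IsCoprime (I : Ideal (𝓞 K)) 𝔪
        · by_cases hJ : IsCoprime (J : Ideal (𝓞 K)) 𝔪
          · rw [if_pos (hI.mul_left hJ), if_pos hI, if_pos hJ, map_mul, map_mul]
            rfl
          · rw [if_neg (fun h => hJ (IsCoprime.mul_left_iff.mp h).2), if_neg hJ, mul_zero]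
        · rw [if_neg (fun h => hI (IsCoprime.mul_left_iff.mp h).1), if_neg hI, zero_mul] }
  refine ⟨ψ, fun I hI => ?_, fun I hI => if_neg hI, fun I a hIa ha => ?_⟩
  · change ‖(if IsCoprime (I : Ideal (𝓞 K)) 𝔪 then (χ (FractionalIdeal.mk0 K I) : ℂ) else 0)‖ = 1
    rw [if_pos hI]
    exact Circle.norm_coe _
  · have hone := isCoprime_span_one 𝔪
    have hcop : IsCoprime (I : Ideal (𝓞 K)) 𝔪 := by
      rw [hIa]
      exact isCoprime_of_sub_mem hone ha
    have ha0 : a ≠ 0 := by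
      rintro rfl
      apply nonZeroDivisors.coe_ne_zero I
      rw [hIa]
      simp
    have haK : (a : K) ≠ 0 := by simpa using ha0
    let x : Kˣ := Units.mk0 (a : K) haK
    have hx : x ∈ congU 𝔪 := mem_congU.mpr ⟨a, 1, one_ne_zero, hone, ha, by simp [x]⟩
    have h1 : f ⟨x, hx⟩ = FractionalIdeal.mk0 K I := by
      change toPrincipalIdeal (𝓞 K) K x = _
      rw [toPrincipalIdeal_eq_iff, FractionalIdeal.coe_mk0, hIa,
        FractionalIdeal.coeIdeal_span_singleton]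
      rfl
    change (if IsCoprime (I : Ideal (𝓞 K)) 𝔪 then (χ (FractionalIdeal.mk0 K I) : ℂ) else 0) = _
    rw [if_pos hcop, ← h1, hχ]
    change ((angH σ x : ℂ)) ^ k = _
    rw [coe_angH_eq_ang σ x a rfl]

end Fermat.Agent.Cor.SectK
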