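import Fermat.Agent.Corollaries.SectK.FermatCubicAux

/-!
# The Sato-Tate law for the Fermat cubic: closed intervals, all primes

`CubicStmt` : the statement for the primes `≡ 1 mod 3` and open intervals (`tendsto_splitT`).
-/

set_option autoImplicit false
set_option linter.unusedSectionVars false

noncomputable section

open Filter Topology

open scoped Classical

namespace Fermat.Agent.Cor.SectK

/-- the statement for open intervals -/
def CubicStmt : Prop := ∀ α β : ℝ, -1 ≤ α → α ≤ β → β ≤ 1 →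
  Tendsto (fun x : ℕ => (Nat.card (splitT α β x) : ℝ) * Real.log x / x) atTop
    (𝓝 ((Real.arccos α - Real.arccos β) / (2 * Real.pi)))

/-- Hecke's theorem for the field of third roots of unity -/
theorem cubicStmt_of {K : Type} [Field K] [NumberField K] [IsCyclotomicExtension {3} ℚ K]
    (hS : SectorStmt K) : CubicStmt := by
  intro α β h1 h2 h3
  obtain ⟨σ⟩ : Nonempty (K →+* ℂ) := inferInstance
  obtain ⟨η, hη⟩ := exists_eisDat (K := K) σ
  exact tendsto_splitT hS hη h1 h2 h3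

/-- `-1 < a_p / (2 √p) < 1` -/
theorem cP_lt {p : ℕ} (hp : p.Prime) (h3 : p % 3 = 1) : -1 < cP p ∧ cP p < 1 := by
  have : Fact p.Prime := ⟨hp⟩
  obtain ⟨L, ⟨hL, M, hM⟩, -⟩ := Diary.existsUnique_four_mul (p := p) h3
  have hM0 : M ≠ 0 := by
    rintro rfl
    have h3 : (2 : ℤ) ∣ L := by
      have h4 : (2 : ℤ) ∣ L ^ 2 := ⟨2 * p, by linarith⟩
      exact Int.prime_two.dvd_of_dvd_pow h4
    obtain ⟨l, rfl⟩ := h3
    have h5 : p = l.natAbs ^ 2 := by
      zify
      rw [sq_abs]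
      linarith
    rw [h5] at hp
    exact Nat.Prime.not_prime_pow (le_refl 2) hp
  have h4 : (L : ℝ) ^ 2 < 4 * p := by
    have h5 : 0 < M ^ 2 := by positivity
    have h6 : L ^ 2 < 4 * (p : ℤ) := by linarith
    exact_mod_cast h6
  have hp0 : (0 : ℝ) < p := by exact_mod_cast hp.pos
  have h5 : |(L : ℝ)| < 2 * Real.sqrt p := by
    refine abs_lt_of_sq_lt_sq ?_ (by positivity)
    rw [mul_pow, Real.sq_sqrt hp0.le]
    linarith
  have h6 : 0 < 2 * Real.sqrt p := by positivity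
  rw [abs_lt] at h5
  rw [cP, ap_E27_of_one hL hM]
  push_cast
  constructor
  · rw [lt_div_iff₀ h6]
    linarith [h5.2]
  · rw [div_lt_iff₀ h6]
    linarith [h5.1]

/-- the primes `≡ 1 mod 3` up to `x` -/
def spl (x : ℕ) : Finset ℕ := (Finset.Icc 1 x).filter fun p => p.Prime ∧ p % 3 = 1

theorem mem_spl {x p : ℕ} : p ∈ spl x ↔ p.Prime ∧ p ≤ x ∧ p % 3 = 1 := by
  rw [spl, Finset.mem_filter, Finset.mem_Icc]
  exact ⟨fun h => ⟨h.2.1, h.1.2, h.2.2⟩, fun h => ⟨⟨h.1.one_le, h.2.1⟩, h.1, h.2.2⟩⟩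

theorem card_splitT (α β : ℝ) (x : ℕ) :
    Nat.card (splitT α β x) = ((spl x).filter fun p => α < cP p ∧ cP p < β).card := by
  rw [← Nat.card_eq_finsetCard]
  refine Nat.card_congr (Equiv.subtypeEquivRight fun p => ?_)
  rw [Finset.mem_filter, mem_spl]
  tauto

/-- the primes `p ≡ 1 mod 3`, closed intervals -/
theorem tendsto_closed (hC : CubicStmt) {α β : ℝ} (hα : -1 ≤ α) (hαβ : α ≤ β) (hβ : β ≤ 1) :
    Tendsto (fun x : ℕ => (((spl x).filter fun p => α ≤ cP p ∧ cP p ≤ β).card : ℝ) *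
      Real.log x / x) atTop (𝓝 ((Real.arccos α - Real.arccos β) / (2 * Real.pi))) := by
  have h1 := hC (-1) 1 le_rfl (by norm_num) le_rfl
  have h2 := hC (-1) α le_rfl hα (hαβ.trans hβ)
  have h3 := hC β 1 (hα.trans hαβ) hβ le_rfl
  have h4 := (h1.sub h2).sub h3
  have h5 : (Real.arccos (-1) - Real.arccos 1) / (2 * Real.pi) -
      (Real.arccos (-1) - Real.arccos α) / (2 * Real.pi) -
      (Real.arccos β - Real.arccos 1) / (2 * Real.pi) =
      (Real.arccos α - Real.arccos β) / (2 * Real.pi) := by ring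
  rw [h5] at h4
  refine h4.congr fun x => ?_
  have e1 : ((spl x).filter fun p => -1 < cP p ∧ cP p < 1) = spl x := by
    refine Finset.filter_true_of_mem fun p hp => ?_
    rw [mem_spl] at hp
    exact cP_lt hp.1 hp.2.2
  have e2 : ((spl x).filter fun p => -1 < cP p ∧ cP p < α) = (spl x).filter fun p => cP p < α := by
    refine Finset.filter_congr fun p hp => ?_
    rw [mem_spl] at hp
    exact ⟨fun h => h.2, fun h => ⟨(cP_lt hp.1 hp.2.2).1, h⟩⟩
  have e3 : ((spl x).filter fun p => β < cP p ∧ cP p < 1) = (spl x).filter fun p => β < cP p := by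
    refine Finset.filter_congr fun p hp => ?_
    rw [mem_spl] at hp
    exact ⟨fun h => h.1, fun h => ⟨h, (cP_lt hp.1 hp.2.2).2⟩⟩
  have e4 : (spl x).card = ((spl x).filter fun p => cP p < α).card +
      (((spl x).filter fun p => α ≤ cP p ∧ cP p ≤ β).card +
        ((spl x).filter fun p => β < cP p).card) := by
    rw [← Finset.card_filter_add_card_filter_not (s := spl x) (fun p => cP p < α)]
    congr 1
    rw [← Finset.card_filter_add_card_filter_not
      (s := (spl x).filter fun p => ¬ cP p < α) (fun p => cP p ≤ β), Finset.filter_filter,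
      Finset.filter_filter]
    congr 1
    · congr 1
      refine Finset.filter_congr fun p _ => ?_
      rw [not_lt]
    · congr 1
      refine Finset.filter_congr fun p _ => ?_
      rw [not_lt, not_le]
      exact ⟨fun h => h.2, fun h => ⟨hαβ.trans h.le, h⟩⟩
  rw [card_splitT, card_splitT, card_splitT, e1, e2, e3, e4]
  push_cast
  ring

/-- the primes `≡ 2 mod 3`, except `2` -/
def ine (x : ℕ) : Finset ℕ :=
  ((Finset.Icc 1 x).filter fun p : ℕ => p.Prime ∧ (p : ZMod 3) = 2).erase 2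

theorem tendsto_ine :
    Tendsto (fun x : ℕ => ((ine x).card : ℝ) * Real.log x / x) atTop (𝓝 (1 / 2)) := by
  have h1 : IsUnit (2 : ZMod 3) := by decide
  have h2 := prime_number_theorem_ap_nat h1
  have h3 : Nat.totient 3 = 2 := by decide
  rw [h3] at h2
  have h4 : Tendsto (fun x : ℕ => Real.log x / x) atTop (𝓝 0) := by
    have h5 := Real.isLittleO_log_id_atTop.tendsto_div_nhds_zero.comp tendsto_natCast_atTop_atTop
    exact h5
  have h5 := h2.sub h4
  rw [sub_zero] at h5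
  have h7 : Tendsto (fun x : ℕ => (((Finset.Icc 1 x).filter
      fun p : ℕ => p.Prime ∧ (p : ZMod 3) = 2).card : ℝ) * Real.log x / x - Real.log x / x) atTop
      (𝓝 (1 / 2)) := by simpa using h5
  refine h7.congr' ?_
  filter_upwards [eventually_ge_atTop 2] with x hx
  have h8 : 2 ∈ (Finset.Icc 1 x).filter fun p : ℕ => p.Prime ∧ (p : ZMod 3) = 2 := by
    rw [Finset.mem_filter, Finset.mem_Icc]
    exact ⟨⟨by norm_num, hx⟩, Nat.prime_two, by norm_num⟩
  rw [ine, Finset.card_erase_of_mem h8, Nat.cast_sub (Finset.card_pos.2 ⟨2, h8⟩)]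
  push_cast
  ring

theorem mem_ine {x p : ℕ} : p ∈ ine x ↔ p ≠ 2 ∧ p.Prime ∧ p ≤ x ∧ p % 3 = 2 := by
  rw [ine, Finset.mem_erase, Finset.mem_filter, Finset.mem_Icc]
  have h3 : ((p : ZMod 3) = 2) ↔ p % 3 = 2 := by
    have := ZMod.natCast_eq_natCast_iff' p 2 3
    simpa using this
  rw [h3]
  exact ⟨fun h => ⟨h.1, h.2.2.1, h.2.1.2, h.2.2.2⟩, fun h => ⟨h.1, ⟨h.2.1.one_le, h.2.2.1⟩,
    h.2.1, h.2.2.2⟩⟩

/-- **The Sato-Tate law for the Fermat cubic**, all primes -/
theorem sato_tate_cubic_of (hC : CubicStmt) {α β : ℝ} (hα : -1 ≤ α) (hαβ : α ≤ β) (hβ : β ≤ 1) :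
    Tendsto (fun x : ℕ => (Nat.card {p : ℕ // p.Prime ∧ p ≠ 2 ∧ p ≠ 3 ∧ p ≤ x ∧
      α ≤ cP p ∧ cP p ≤ β} : ℝ) * Real.log x / x) atTop
      (𝓝 ((if α ≤ 0 ∧ 0 ≤ β then 1 / 2 else 0) +
        (Real.arccos α - Real.arccos β) / (2 * Real.pi))) := by
  have hcard : ∀ x : ℕ, Nat.card {p : ℕ // p.Prime ∧ p ≠ 2 ∧ p ≠ 3 ∧ p ≤ x ∧
      α ≤ cP p ∧ cP p ≤ β} = (if α ≤ 0 ∧ 0 ≤ β then (ine x).card else 0) +
        ((spl x).filter fun p => α ≤ cP p ∧ cP p ≤ β).card := by
    intro x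
    have e1 : (if α ≤ 0 ∧ 0 ≤ β then (ine x).card else 0) =
        ((ine x).filter fun p => α ≤ cP p ∧ cP p ≤ β).card := by
      have h1 : ∀ p ∈ ine x, cP p = 0 := by
        intro p hp
        rw [mem_ine] at hp
        have : Fact p.Prime := ⟨hp.2.1⟩
        rw [cP, ap_E27_of_two hp.2.2.2 hp.1]
        simp
      split_ifs with h
      · rw [Finset.filter_true_of_mem]
        intro p hp
        rw [h1 p hp]
        exact h
      · rw [Finset.filter_false_of_mem, Finset.card_empty]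
        intro p hp
        rw [h1 p hp]
        exact h
    rw [e1, ← Finset.card_union_of_disjoint, ← Nat.card_eq_finsetCard]
    · refine Nat.card_congr (Equiv.subtypeEquivRight fun p => ?_)
      rw [Finset.mem_union, Finset.mem_filter, Finset.mem_filter, mem_ine, mem_spl]
      constructor
      · rintro ⟨hp, h2, h3, hx, h4⟩
        have h5 : p % 3 ≠ 0 := by
          intro h6
          have h7 : 3 ∣ p := Nat.dvd_of_mod_eq_zero h6
          exact h3 ((Nat.prime_dvd_prime_iff_eq Nat.prime_three hp).1 h7).symm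
        have h6 : p % 3 = 1 ∨ p % 3 = 2 := by omega
        rcases h6 with h6 | h6
        · exact Or.inr ⟨⟨hp, hx, h6⟩, h4⟩
        · exact Or.inl ⟨⟨h2, hp, hx, h6⟩, h4⟩
      · rintro (⟨⟨h2, hp, hx, h6⟩, h4⟩ | ⟨⟨hp, hx, h6⟩, h4⟩)
        · exact ⟨hp, h2, by omega, hx, h4⟩
        · exact ⟨hp, by omega, by omega, hx, h4⟩
    · rw [Finset.disjoint_left]
      intro p hp hp'
      rw [Finset.mem_filter, mem_ine] at hp
      rw [Finset.mem_filter, mem_spl] at hp'
      omega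
  have h1 := tendsto_closed hC hα hαβ hβ
  by_cases h : α ≤ 0 ∧ 0 ≤ β
  · simp only [if_pos h] at hcard ⊢
    refine (tendsto_ine.add h1).congr fun x => ?_
    rw [hcard]
    push_cast
    ring
  · simp only [if_neg h, zero_add] at hcard ⊢
    refine h1.congr fun x => ?_
    rw [hcard]

/-- **The number of solutions of the Fermat cubic modulo `p`**: `p - 2 - 2 √p cos θ_p`, the `θ_p`
equidistributed. -/
theorem solutions_of (hC : CubicStmt) {α β : ℝ} (hα : -1 ≤ α) (hαβ : α ≤ β) (hβ : β ≤ 1) :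
    Tendsto (fun x : ℕ => (Nat.card {p : ℕ // p.Prime ∧ p % 3 = 1 ∧ p ≤ x ∧
      α ≤ (p - 2 - (Nat.card {P : ZMod p × ZMod p // P.1 ^ 3 + P.2 ^ 3 = 1} : ℝ)) /
        (2 * Real.sqrt p) ∧
      (p - 2 - (Nat.card {P : ZMod p × ZMod p // P.1 ^ 3 + P.2 ^ 3 = 1} : ℝ)) /
        (2 * Real.sqrt p) ≤ β} : ℝ) * Real.log x / x) atTop
      (𝓝 ((Real.arccos α - Real.arccos β) / (2 * Real.pi))) := by
  refine (tendsto_closed hC hα hαβ hβ).congr fun x => ?_
  congr 2
  rw [← Nat.card_eq_finsetCard, Nat.cast_inj]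
  refine Nat.card_congr (Equiv.subtypeEquivRight fun p => ?_)
  rw [Finset.mem_filter, mem_spl]
  have key : ∀ hp : p.Prime, p % 3 = 1 →
      cP p = (p - 2 - (Nat.card {P : ZMod p × ZMod p // P.1 ^ 3 + P.2 ^ 3 = 1} : ℝ)) /
        (2 * Real.sqrt p) := by
    intro hp h3
    have : Fact p.Prime := ⟨hp⟩
    have h4 := card_fermat_cubic (p := p) h3
    have h5 : Nat.card {P : ZMod p × ZMod p // P.1 ^ 3 + P.2 ^ 3 = 1} =
        (Finset.univ.filter fun P : ZMod p × ZMod p => P.1 ^ 3 + P.2 ^ 3 = 1).card := by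
      rw [Nat.card_eq_fintype_card, Fintype.card_subtype]
    have h6 : ((Nat.card {P : ZMod p × ZMod p // P.1 ^ 3 + P.2 ^ 3 = 1} : ℤ) : ℝ) =
        ((p - 2 - E27.apOfModel p : ℤ) : ℝ) := by
      rw [h5, h4]
    rw [Int.cast_natCast] at h6
    rw [h6, cP]
    push_cast
    congr 1
    ring
  constructor
  · rintro ⟨⟨hp, hx, h3⟩, h4, h5⟩
    rw [key hp h3] at h4 h5
    exact ⟨hp, h3, hx, h4, h5⟩
  · rintro ⟨hp, h3, hx, h4, h5⟩
    rw [← key hp h3] at h4 h5
    exact ⟨⟨hp, hx, h3⟩, h4, h5⟩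

end Fermat.Agent.Cor.SectK
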