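import Fermat.Agent.Corollaries.SectK.EisPrime
import Fermat.Agent.Corollaries.SectK.CurveCubic
import Fermat.Agent.Corollaries.ZetaK.PNTAP

/-!
# The Sato-Tate law for the Fermat cubic, from Hecke's theorem for `ℚ(√-3)`
-/

set_option autoImplicit false
set_option linter.unusedSectionVars false

noncomputable section

open NumberField nonZeroDivisors Complex Module Filter Topology

open scoped Classical

namespace Fermat.Agent.Cor.SectK

open Fermat.Agent.Cor.Ray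

universe u

variable {K : Type u} [Field K] [NumberField K]

/-- `a_p / (2 √p)` -/
def cP (p : ℕ) : ℝ := (E27.apOfModel p : ℝ) / (2 * Real.sqrt p)

/-! ### The inequalities -/

theorem arccos_lt_iff {θ β : ℝ} (h0 : 0 ≤ θ) (h1 : θ ≤ Real.pi) (h2 : -1 ≤ β) (h3 : β ≤ 1) :
    Real.arccos β < θ ↔ Real.cos θ < β := by
  have mb : Real.arccos β ∈ Set.Icc 0 Real.pi := ⟨Real.arccos_nonneg β, Real.arccos_le_pi β⟩
  have cb : Real.cos (Real.arccos β) = β := Real.cos_arccos h2 h3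
  have h4 := Real.strictAntiOn_cos.lt_iff_gt (a := θ) (b := Real.arccos β) ⟨h0, h1⟩ mb
  rw [cb] at h4
  exact h4.symm

theorem lt_arccos_iff {θ α : ℝ} (h0 : 0 ≤ θ) (h1 : θ ≤ Real.pi) (h2 : -1 ≤ α) (h3 : α ≤ 1) :
    θ < Real.arccos α ↔ α < Real.cos θ := by
  have mb : Real.arccos α ∈ Set.Icc 0 Real.pi := ⟨Real.arccos_nonneg α, Real.arccos_le_pi α⟩
  have cb : Real.cos (Real.arccos α) = α := Real.cos_arccos h2 h3
  have h4 := Real.strictAntiOn_cos.lt_iff_gt (a := Real.arccos α) (b := θ) mb ⟨h0, h1⟩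
  rw [cb] at h4
  exact h4.symm

theorem im_pos_of_arg {z : ℂ} (h0 : 0 < z.arg) (h1 : z.arg < Real.pi) : 0 < z.im := by
  have h2 := Real.sin_pos_of_pos_of_lt_pi h0 h1
  rw [Complex.sin_arg] at h2
  by_contra h3
  have h4 : z.im / ‖z‖ ≤ 0 := div_nonpos_of_nonpos_of_nonneg (not_lt.1 h3) (norm_nonneg z)
  linarith

theorem arg_of_im_pos {z : ℂ} (h : 0 < z.im) : 0 < z.arg ∧ z.arg < Real.pi := by
  constructor
  · rcases (Complex.arg_nonneg_iff.2 h.le).lt_or_eq with h2 | h2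
    · exact h2
    · exfalso
      have h3 := (Complex.arg_eq_zero_iff.1 h2.symm).2
      linarith
  · exact Complex.arg_lt_pi_iff.2 (Or.inr h.ne')

namespace EisDat

variable {σ : K →+* ℂ} {η : 𝓞 K} (h : EisDat σ η)

include h

/-- the norm -/
theorem four_norm {s m : ℤ} :
    4 * ((Algebra.norm ℤ (s + (3 * m : ℤ) * η : 𝓞 K)).natAbs : ℤ) =
      (3 * m - 2 * s) ^ 2 + 27 * m ^ 2 := by
  rw [h.nat_norm]
  ring

theorem key {s m : ℤ} (hπ : Prime (s + (3 * m : ℤ) * η : 𝓞 K)) (hs : s % 3 = 1) (hm : 0 < m)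
    {p : ℕ} (hp : (Algebra.norm ℤ (s + (3 * m : ℤ) * η : 𝓞 K)).natAbs = p) :
    p.Prime ∧ p % 3 = 1 ∧
      Real.cos (σ ((s + (3 * m : ℤ) * η : 𝓞 K) : K)).arg = cP p := by
  have h1 : p.Prime := by
    rw [← hp]
    exact h.prime_norm hπ (by omega) (Dvd.intro _ rfl) (by omega)
  have : Fact p.Prime := ⟨h1⟩
  have h4 := h.four_norm (s := s) (m := m)
  rw [hp] at h4
  have hn := h.nat_norm s (3 * m)
  rw [hp] at hn
  have hap : E27.apOfModel p = -(3 * m - 2 * s) := ap_E27_of_one (by omega) h4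
  refine ⟨h1, ?_, ?_⟩
  · obtain ⟨n, hn'⟩ : ∃ n, s = 3 * n + 1 := ⟨s / 3, by omega⟩
    have h5 : (p : ℤ) = 3 * (2 * n + 3 * n ^ 2 - m - 3 * m * n + 3 * m ^ 2) + 1 := by
      rw [hn, hn']
      ring
    omega
  · have hz : ‖σ ((s + (3 * m : ℤ) * η : 𝓞 K) : K)‖ ^ 2 = p := by
      rw [h.norm_sq]
      have h5 : ((p : ℤ) : ℝ) = ((s ^ 2 - s * (3 * m) + (3 * m) ^ 2 : ℤ) : ℝ) := by rw [hn]
      rw [Int.cast_natCast] at h5
      rw [h5]
      push_cast
      ring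
    have hz' : ‖σ ((s + (3 * m : ℤ) * η : 𝓞 K) : K)‖ = Real.sqrt p := by
      rw [← hz, Real.sqrt_sq (norm_nonneg _)]
    have h0 : σ ((s + (3 * m : ℤ) * η : 𝓞 K) : K) ≠ 0 := by
      intro h0
      rw [h0, norm_zero, zero_pow two_ne_zero] at hz
      have := h1.ne_zero
      exact this (by exact_mod_cast hz.symm)
    rw [Complex.cos_arg h0, h.sig_re, hz', cP, hap]
    have h6 : Real.sqrt p ≠ 0 := by
      rw [← hz']
      exact norm_ne_zero_iff.2 h0
    push_cast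
    field_simp
    ring

/-- the coordinates of an element `≡ 1 mod 3` -/
theorem exists_coord {z : 𝓞 K} (hz : z - 1 ∈ Ideal.span {(3 : 𝓞 K)}) :
    ∃ s m : ℤ, z = s + (3 * m : ℤ) * η ∧ s % 3 = 1 := by
  obtain ⟨s, t, rfl⟩ := h.ex z
  obtain ⟨h1, m, rfl⟩ := h.sub_one_mem.1 hz
  exact ⟨s, m, rfl, by omega⟩

theorem coord_pos {s m : ℤ} (h0 : 0 < (σ ((s + (3 * m : ℤ) * η : 𝓞 K) : K)).arg)
    (h1 : (σ ((s + (3 * m : ℤ) * η : 𝓞 K) : K)).arg < Real.pi) : 0 < m := by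
  have h2 := im_pos_of_arg h0 h1
  rw [h.sig_im] at h2
  have h3 : (0 : ℝ) < ((3 * m : ℤ) : ℝ) := by
    by_contra h4
    have := mul_nonpos_of_nonpos_of_nonneg (not_lt.1 h4) h.im.le
    linarith
  have h4 : 0 < 3 * m := by exact_mod_cast h3
  omega

/-- prime elements `≡ 1 mod 3` in a sector of the upper half plane -/
def secT (_h : EisDat σ η) (α β : ℝ) (x : ℕ) : Type u :=
  {π : 𝓞 K // Prime π ∧ π - 1 ∈ Ideal.span {(3 : 𝓞 K)} ∧ (Algebra.norm ℤ π).natAbs ≤ x ∧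
    Real.arccos β < (σ (π : K)).arg ∧ (σ (π : K)).arg < Real.arccos α}

end EisDat

/-- the primes `p ≡ 1 mod 3` with `α < a_p / (2 √p) < β` -/
def splitT (α β : ℝ) (x : ℕ) : Type :=
  {p : ℕ // p.Prime ∧ p ≤ x ∧ p % 3 = 1 ∧ α < cP p ∧ cP p < β}

theorem EisDat.card_secT {σ : K →+* ℂ} {η : 𝓞 K} (h : EisDat σ η) {α β : ℝ} (hα : -1 ≤ α)
    (hαβ : α ≤ β) (hβ : β ≤ 1) (x : ℕ) : Nat.card (h.secT α β x) = Nat.card (splitT α β x) := by
  have hα1 : α ≤ 1 := hαβ.trans hβ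
  have hβ1 : -1 ≤ β := hα.trans hαβ
  have hmem : ∀ z : h.secT α β x, ∃ s m : ℤ, z.1 = s + (3 * m : ℤ) * η ∧ s % 3 = 1 ∧ 0 < m := by
    rintro ⟨z, hz, hz1, -, h2, h3⟩
    obtain ⟨s, m, rfl, hs⟩ := h.exists_coord hz1
    exact ⟨s, m, rfl, hs, h.coord_pos ((Real.arccos_nonneg β).trans_lt h2)
      (h3.trans_le (Real.arccos_le_pi α))⟩
  refine Nat.card_congr (Equiv.ofBijective (fun z => ⟨(Algebra.norm ℤ z.1).natAbs, ?_⟩) ⟨?_, ?_⟩)
  · obtain ⟨s, m, hz, hs, hm⟩ := hmem z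
    have h1 := z.2.1
    have h2 := z.2.2.2.1
    have h3 := z.2.2.2.2.1
    have h4 := z.2.2.2.2.2
    rw [hz] at h1 h2 h3 h4 ⊢
    obtain ⟨h5, h6, h7⟩ := h.key h1 hs hm rfl
    have h8 : 0 ≤ (σ ((s + (3 * m : ℤ) * η : 𝓞 K) : K)).arg := (Real.arccos_nonneg β).trans h3.le
    have h9 : (σ ((s + (3 * m : ℤ) * η : 𝓞 K) : K)).arg ≤ Real.pi :=
      h4.le.trans (Real.arccos_le_pi α)
    rw [arccos_lt_iff h8 h9 hβ1 hβ, h7] at h3
    rw [lt_arccos_iff h8 h9 hα hα1, h7] at h4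
    exact ⟨h5, h2, h6, h4, h3⟩
  · intro z z' hzz
    obtain ⟨s, m, hz, hs, hm⟩ := hmem z
    obtain ⟨s', m', hz', hs', hm'⟩ := hmem z'
    have h1 : (Algebra.norm ℤ z.1).natAbs = (Algebra.norm ℤ z'.1).natAbs :=
      congrArg Subtype.val hzz
    have hp : (Algebra.norm ℤ (s + (3 * m : ℤ) * η : 𝓞 K)).natAbs.Prime :=
      (h.key (hz ▸ z.2.1) hs hm rfl).1
    rw [hz, hz'] at h1
    have h2 := h.four_norm (s := s) (m := m)
    have h3 := h.four_norm (s := s') (m := m')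
    rw [← h1] at h3
    have h4 := Diary.sq_eq_sq_of_four_mul hp h2 h3
    have h5 : 3 * m - 2 * s = 3 * m' - 2 * s' := by
      rcases sq_eq_sq_iff_eq_or_eq_neg.1 h4 with h6 | h6 <;> omega
    have h7 : m ^ 2 = m' ^ 2 := by
      rw [h2, h5] at h3
      linarith
    have h8 : m = m' := by
      rcases sq_eq_sq_iff_eq_or_eq_neg.1 h7 with h9 | h9 <;> omega
    have h9 : s = s' := by omega
    refine Subtype.ext ?_
    rw [hz, hz', h8, h9]
  · rintro ⟨p, hp, hpx, hp3, h1, h2⟩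
    have : Fact p.Prime := ⟨hp⟩
    obtain ⟨L, ⟨hL, M, hM⟩, -⟩ := Diary.existsUnique_four_mul (p := p) hp3
    have hM0 : M ≠ 0 := by
      rintro rfl
      have h3 : (2 : ℤ) ∣ L := by
        have h4 : (2 : ℤ) ∣ L ^ 2 := ⟨2 * p, by linarith⟩
        exact Int.prime_two.dvd_of_dvd_pow h4
      obtain ⟨l, rfl⟩ := h3
      have h5 : p = l.natAbs ^ 2 := by
        zify
        rw [sq_abs]
        linarith
      rw [h5] at hp
      exact Nat.Prime.not_prime_pow (le_refl 2) hp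
    have key : ∀ m : ℤ, 0 < m → 4 * (p : ℤ) = L ^ 2 + 27 * m ^ 2 →
        ∃ z : h.secT α β x, (Algebra.norm ℤ z.1).natAbs = p := by
      intro m hm h4
      have h5 : (3 * m - L) % 2 = 0 := by
        have h6 : (L ^ 2 + 27 * m ^ 2) % 2 = 0 := by omega
        rcases Int.even_or_odd' L with ⟨l, rfl | rfl⟩ <;>
          rcases Int.even_or_odd' m with ⟨n, rfl | rfl⟩
        · omega
        · exfalso
          have h7 : (2 * l) ^ 2 + 27 * (2 * n + 1) ^ 2 =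
              2 * (2 * l ^ 2 + 54 * n ^ 2 + 54 * n + 13) + 1 := by ring
          omega
        · exfalso
          have h7 : (2 * l + 1) ^ 2 + 27 * (2 * n) ^ 2 =
              2 * (2 * l ^ 2 + 2 * l + 54 * n ^ 2) + 1 := by ring
          omega
        · omega
      obtain ⟨s, hs⟩ : ∃ s, 3 * m - L = 2 * s := ⟨(3 * m - L) / 2, by omega⟩
      have hs3 : s % 3 = 1 := by omega
      have hN : (Algebra.norm ℤ (s + (3 * m : ℤ) * η : 𝓞 K)).natAbs = p := by
        have h6 := h.four_norm (s := s) (m := m)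
        have h7 : 3 * m - 2 * s = L := by linarith
        rw [h7, ← h4] at h6
        have h8 : ((Algebra.norm ℤ (s + (3 * m : ℤ) * η : 𝓞 K)).natAbs : ℤ) = (p : ℤ) := by
          linarith
        exact_mod_cast Nat.cast_injective (R := ℤ) h8
      have hπ : Prime (s + (3 * m : ℤ) * η : 𝓞 K) := prime_of_norm h (by rw [hN]; exact hp)
      obtain ⟨-, -, hc⟩ := h.key hπ hs3 hm hN
      have him : 0 < (σ ((s + (3 * m : ℤ) * η : 𝓞 K) : K)).im := by
        rw [h.sig_im]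
        have h9 : (0 : ℝ) < ((3 * m : ℤ) : ℝ) := by
          have : 0 < 3 * m := by omega
          exact_mod_cast this
        exact mul_pos h9 h.im
      obtain ⟨h10, h11⟩ := arg_of_im_pos him
      refine ⟨⟨_, hπ, ?_, by rw [hN]; exact hpx, ?_, ?_⟩, hN⟩
      · exact h.sub_one_mem.2 ⟨by omega, Dvd.intro _ rfl⟩
      · rw [arccos_lt_iff h10.le h11.le hβ1 hβ, hc]
        exact h2
      · rw [lt_arccos_iff h10.le h11.le hα hα1, hc]
        exact h1
    obtain ⟨z, hz⟩ : ∃ z : h.secT α β x, (Algebra.norm ℤ z.1).natAbs = p := by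
      rcases lt_or_gt_of_ne hM0 with h3 | h3
      · exact key (-M) (by omega) (by rw [hM]; ring)
      · exact key M h3 hM
    exact ⟨z, Subtype.ext hz⟩

/-- the split primes, open intervals -/
theorem tendsto_splitT (hS : SectorStmt K) {σ : K →+* ℂ} {η : 𝓞 K} (h : EisDat σ η) {α β : ℝ}
    (hα : -1 ≤ α) (hαβ : α ≤ β) (hβ : β ≤ 1) :
    Tendsto (fun x : ℕ => (Nat.card (splitT α β x) : ℝ) * Real.log x / x) atTop
      (𝓝 ((Real.arccos α - Real.arccos β) / (2 * Real.pi))) := by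
  have h3 : (Ideal.span {(3 : 𝓞 K)}) ≠ ⊥ := by
    rw [Ne, Ideal.span_singleton_eq_bot]
    norm_num
  have h1 := hS h.cpx h.rank σ (Ideal.span {(3 : 𝓞 K)}) h3 1
    (by rw [isCoprime_span_iff]; exact ⟨1, by simp⟩) (Real.arccos β) (Real.arccos α)
    (by have := Real.arccos_nonneg β; have := Real.pi_pos; linarith)
    (Real.antitone_arccos hαβ) (Real.arccos_le_pi α)
  rw [h.card_units, h.card_ray] at h1
  simp only [Nat.cast_one, div_one, one_mul] at h1
  refine h1.congr fun x => ?_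
  rw [← h.card_secT hα hαβ hβ]
  rfl

end Fermat.Agent.Cor.SectK
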