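import Fermat.Agent.Corollaries.SectK.Count
import Fermat.Agent.Corollaries.Gauss.Weyl

/-!
# Hecke's theorem: prime elements in sectors and residue classes

Weyl's criterion, applied to `θ z = (arg z + π) / (2 π)` (and `0` for `arg z = π`).
-/

set_option autoImplicit false
set_option linter.unusedSectionVars false

noncomputable section

namespace Fermat.Agent.Cor.SectK

open NumberField Filter Topology Fermat.Agent.Cor.Ray Fermat.Agent.ClassL
open scoped nonZeroDivisors Classical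

/-- the angle, normalised to `[0, 1)` -/
def theta (z : ℂ) : ℝ := if z.arg = Real.pi then 0 else (z.arg + Real.pi) / (2 * Real.pi)

theorem theta_nonneg (z : ℂ) : 0 ≤ theta z := by
  unfold theta
  split_ifs
  · exact le_rfl
  · have := Complex.neg_pi_lt_arg z
    have := Real.pi_pos
    exact div_nonneg (by linarith) (by linarith)

theorem theta_lt_one (z : ℂ) : theta z < 1 := by
  unfold theta
  split_ifs with h
  · exact zero_lt_one
  · have h1 := lt_of_le_of_ne (Complex.arg_le_pi z) h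
    have := Real.pi_pos
    rw [div_lt_one (by linarith)]
    linarith

theorem theta_iff {a b : ℝ} (ha : -Real.pi ≤ a) (hb : b ≤ Real.pi) (z : ℂ) :
    ((a + Real.pi) / (2 * Real.pi) < theta z ∧ theta z < (b + Real.pi) / (2 * Real.pi)) ↔
      a < z.arg ∧ z.arg < b := by
  have hpi := Real.pi_pos
  unfold theta
  split_ifs with h
  · rw [h]
    constructor
    · rintro ⟨h1, -⟩
      exact absurd h1 (not_lt.2 (div_nonneg (by linarith) (by linarith)))
    · rintro ⟨-, h1⟩
      exact absurd h1 (not_lt.2 hb)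
  · rw [div_lt_div_iff_of_pos_right (by linarith), div_lt_div_iff_of_pos_right (by linarith),
      add_lt_add_iff_right, add_lt_add_iff_right]

theorem exp_theta {z : ℂ} (hz : z ≠ 0) (k : ℤ) :
    Complex.exp (2 * Real.pi * Complex.I * k * theta z) = (-1) ^ k * (z / ‖z‖) ^ k := by
  have hpi : (Real.pi : ℂ) ≠ 0 := Complex.ofReal_ne_zero.2 Real.pi_ne_zero
  have h1 : z / ‖z‖ = Complex.exp (z.arg * Complex.I) := by
    have h2 : (‖z‖ : ℂ) ≠ 0 := Complex.ofReal_ne_zero.2 (norm_ne_zero_iff.2 hz)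
    rw [div_eq_iff h2, mul_comm, Complex.norm_mul_exp_arg_mul_I]
  rw [h1, ← mul_zpow, show (-1 : ℂ) = Complex.exp (Real.pi * Complex.I) from
    Complex.exp_pi_mul_I.symm, ← Complex.exp_add]
  unfold theta
  split_ifs with h
  · rw [h, ← two_mul, ← mul_assoc, Complex.exp_two_pi_mul_I, one_zpow, Complex.ofReal_zero,
      mul_zero, Complex.exp_zero]
  · rw [← Complex.exp_int_mul]
    congr 1
    push_cast
    field_simp
    ring

universe u

/-- (S8): **Hecke's theorem** from the exponential sums -/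
theorem sectorStmt_of {K : Type u} [Field K] [NumberField K] (hE : ElemStmt K)
    (hC : CountStmt K) : SectorStmt K := by
  intro h1 h2 σ 𝔪 h𝔪 α hα a b ha hab hb
  have hU := finite_units h1 h2
  obtain ⟨hfin, hcount⟩ := hC h1 h2 𝔪 h𝔪 α hα
  have hpi := Real.pi_pos
  set C : ℝ := (Nat.card {v : (𝓞 K)ˣ // (v : 𝓞 K) - 1 ∈ 𝔪} : ℝ) /
    Nat.card (Quot fun I J : Cop 𝔪 => RayEq 𝔪 I.1 J.1) with hCdef
  have hne : Nonempty (UnP 𝔪) := ⟨⟨1, by rw [Units.val_one, sub_self]; exact 𝔪.zero_mem⟩⟩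
  have hC0 : 0 < C := by
    have h3 : 0 < Nat.card (UnP 𝔪) := Nat.card_pos
    have h4 : 0 < rayNumber 𝔪 := Nat.pos_of_ne_zero (rayNumber_ne_zero h𝔪)
    exact div_pos (Nat.cast_pos.2 h3) (Nat.cast_pos.2 h4)
  let f : 𝓞 K → ℂ := fun π => σ (π : K)
  have hf : Function.Injective f := fun x y h => RingOfIntegers.ext (σ.injective h)
  let S : ℕ → Finset (𝓞 K) := fun x => (hfin x).toFinset
  have hS : ∀ (x : ℕ) (π : 𝓞 K), π ∈ S x ↔
      Prime π ∧ π - α ∈ 𝔪 ∧ (Algebra.norm ℤ π).natAbs ≤ x := fun x π => by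
    rw [Set.Finite.mem_toFinset]
    rfl
  have hcardS : ∀ x : ℕ, ((S x).card : ℝ) = Nat.card {π : 𝓞 K // Prime π ∧ π - α ∈ 𝔪 ∧
      (Algebra.norm ℤ π).natAbs ≤ x} := fun x => by
    rw [Nat.subtype_card (S x) fun π => hS x π]
  have hw := (Gauss.weylStmt ℂ theta (fun x => (S x).image f)
    (fun x => Real.log x / x / C) theta_nonneg theta_lt_one
    (fun x => div_nonneg (div_nonneg (Real.log_natCast_nonneg x) (Nat.cast_nonneg x)) hC0.le)
    ?_ ?_ ((a + Real.pi) / (2 * Real.pi)) ((b + Real.pi) / (2 * Real.pi))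
    (div_nonneg (by linarith) (by linarith))
    (div_le_div_of_nonneg_right (by linarith) (by linarith))
    ((div_le_one (by linarith)).2 (by linarith))).1
  · have hw' := hw.const_mul C
    have e1 : C * ((b + Real.pi) / (2 * Real.pi) - (a + Real.pi) / (2 * Real.pi)) =
        C * ((b - a) / (2 * Real.pi)) := by
      rw [← sub_div]
      ring_nf
    rw [e1] at hw'
    refine hw'.congr fun x => ?_
    have e2 : Nat.card {z : ℂ // z ∈ (S x).image f ∧ (a + Real.pi) / (2 * Real.pi) < theta z ∧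
        theta z < (b + Real.pi) / (2 * Real.pi)} = Nat.card {π : 𝓞 K // Prime π ∧ π - α ∈ 𝔪 ∧
        (Algebra.norm ℤ π).natAbs ≤ x ∧ a < (σ (π : K)).arg ∧ (σ (π : K)).arg < b} := by
      refine (Nat.card_congr (Equiv.ofBijective (fun π => ⟨f π.1,
        Finset.mem_image_of_mem f ((hS x π.1).2 ⟨π.2.1, π.2.2.1, π.2.2.2.1⟩),
        (theta_iff ha hb _).2 π.2.2.2.2⟩) ⟨?_, ?_⟩)).symm
      · intro π π' h
        exact Subtype.ext (hf (Subtype.mk.inj h))
      · rintro ⟨z, hz, hz'⟩
        obtain ⟨π, hπ, rfl⟩ := Finset.mem_image.1 hz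
        obtain ⟨h3, h4, h5⟩ := (hS x π).1 hπ
        obtain ⟨h6, h7⟩ := (theta_iff ha hb _).1 hz'
        exact ⟨⟨π, h3, h4, h5, h6, h7⟩, rfl⟩
    rw [e2]
    field_simp
  · have h3 := hcount.div_const C
    rw [div_self hC0.ne'] at h3
    refine h3.congr fun x => ?_
    rw [Finset.card_image_of_injective _ hf, hcardS]
    field_simp
  · intro k hk
    have h3 := (hE h1 h2 σ 𝔪 h𝔪 α hα k hk).const_mul ((-1 : ℂ) ^ k / C)
    rw [mul_zero] at h3
    refine h3.congr fun x => ?_
    rw [Finset.sum_image hf.injOn]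
    have h4 : ∀ π ∈ S x, Complex.exp (2 * Real.pi * Complex.I * k * theta (f π)) =
        (-1) ^ k * ang σ π ^ k := fun π hπ => by
      refine exp_theta ?_ k
      rw [← map_zero σ]
      intro h
      exact ((hS x π).1 hπ).1.ne_zero (RingOfIntegers.ext (σ.injective h))
    rw [Finset.sum_congr rfl h4, ← Finset.mul_sum]
    have h5 : ∑' π : {π : 𝓞 K // Prime π ∧ π - α ∈ 𝔪 ∧ (Algebra.norm ℤ π).natAbs ≤ x},
        ang σ π ^ k = ∑ π ∈ S x, ang σ π ^ k := by
      have h6 := Finset.tsum_subtype (S x) (fun π : 𝓞 K => ang σ π ^ k)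
      rw [← h6]
      exact (Equiv.subtypeEquivRight fun π => (hS x π).symm).tsum_eq
        (fun π : {π : 𝓞 K // π ∈ S x} => ang σ (π : 𝓞 K) ^ k)
    rw [h5]
    push_cast
    ring

end Fermat.Agent.Cor.SectK

end
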