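import Fermat.Agent.Corollaries.SectK.Cont
import Fermat.Agent.Corollaries.Ray.NonVan
import Fermat.Agent.Corollaries.Gauss.CharPNT

/-!
# The prime number theorem for Hecke characters of infinite order

`hpow 𝔪 ψ j` is the `j`-th power of the Hecke character `ψ` modulo `𝔪`, `j : ℤ`.
-/

set_option autoImplicit false
set_option linter.unusedSectionVars false

noncomputable section

open NumberField nonZeroDivisors Complex Filter Topology Asymptotics

open scoped Classical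

namespace Fermat.Agent.Cor.SectK

open Fermat.Agent.ClassL Fermat.Agent.Cor.Ray Fermat.Agent.Classic.Zeta

universe u

variable {K : Type u} [Field K] [NumberField K]

/-! ### Powers of a Hecke character -/

/-- the `j`-th power, zero on the ideals which are not prime to `𝔪` -/
def hpow (𝔪 : Ideal (𝓞 K)) (ψ : (Ideal (𝓞 K))⁰ →* ℂ) (j : ℤ) : (Ideal (𝓞 K))⁰ →* ℂ where
  toFun I := if IsCoprime (I : Ideal (𝓞 K)) 𝔪 then ψ I ^ j else 0
  map_one' := by
    rw [if_pos (by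
      rw [Submonoid.coe_one]
      exact isCoprime_one_left), map_one, one_zpow]
  map_mul' I J := by
    simp only [Submonoid.coe_mul, map_mul]
    by_cases hI : IsCoprime (I : Ideal (𝓞 K)) 𝔪
    · by_cases hJ : IsCoprime (J : Ideal (𝓞 K)) 𝔪
      · rw [if_pos (IsCoprime.mul_left hI hJ), if_pos hI, if_pos hJ, mul_zpow]
      · rw [if_neg (fun h => hJ h.of_mul_left_right), if_neg hJ, mul_zero]
    · rw [if_neg (fun h => hI h.of_mul_left_left), if_neg hI, zero_mul]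

theorem hpow_of {𝔪 : Ideal (𝓞 K)} (ψ : (Ideal (𝓞 K))⁰ →* ℂ) (j : ℤ) {I : (Ideal (𝓞 K))⁰}
    (hI : IsCoprime (I : Ideal (𝓞 K)) 𝔪) : hpow 𝔪 ψ j I = ψ I ^ j := if_pos hI

theorem hpow_not {𝔪 : Ideal (𝓞 K)} (ψ : (Ideal (𝓞 K))⁰ →* ℂ) (j : ℤ) {I : (Ideal (𝓞 K))⁰}
    (hI : ¬ IsCoprime (I : Ideal (𝓞 K)) 𝔪) : hpow 𝔪 ψ j I = 0 := if_neg hI

theorem HChar.hpow {σ : K →+* ℂ} {𝔪 : Ideal (𝓞 K)} {k : ℤ} {ψ : (Ideal (𝓞 K))⁰ →* ℂ}
    (hψ : HChar σ 𝔪 k ψ) (j : ℤ) : HChar σ 𝔪 (k * j) (SectK.hpow 𝔪 ψ j) where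
  norm_eq I hI := by rw [hpow_of ψ j hI, norm_zpow, hψ.norm_eq I hI, one_zpow]
  eq_zero I hI := hpow_not ψ j hI
  cong I a ha ha1 := by
    have hI : IsCoprime (I : Ideal (𝓞 K)) 𝔪 := by
      rw [ha, isCoprime_span_iff]
      exact ⟨1, by rwa [one_mul]⟩
    rw [hpow_of ψ j hI, hψ.cong I a ha ha1, zpow_mul]

/-! ### Prime ideals prime to the modulus -/

/-- the prime ideals prime to `𝔪` -/
abbrev PrC (𝔪 : Ideal (𝓞 K)) : Type u :=
  {P : Pr K // IsCoprime ((P.1 : (Ideal (𝓞 K))⁰) : Ideal (𝓞 K)) 𝔪}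

theorem exists_isCountC (𝔪 : Ideal (𝓞 K)) :
    ∃ D : ℝ, IsCount (fun P : PrC 𝔪 => nP P.1) D := by
  obtain ⟨D, hD⟩ := exists_isCount K
  refine ⟨D, fun P => hD.two_le P.1, fun x => ?_, fun x => le_trans ?_ (hD.card x)⟩
  · exact (hD.fin x).preimage (f := fun P : PrC 𝔪 => P.1) Subtype.val_injective.injOn
  · have h1 : ((fun P : PrC 𝔪 => P.1) '' {P : PrC 𝔪 | nP P.1 ≤ x}).ncard ≤
        {P : Pr K | nP P ≤ x}.ncard := by
      refine Set.ncard_le_ncard ?_ (hD.fin x)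
      rintro _ ⟨P, hP, rfl⟩
      exact hP
    rw [Set.ncard_image_of_injective _ Subtype.val_injective] at h1
    exact_mod_cast h1

theorem WK_one_ne_zero : WK (K := K) (fun _ => 1) 1 ≠ 0 := by
  have h1 : Tendsto (WK (K := K) fun _ => 1) (𝓝[≠] 1) (𝓝 (dedekindZeta_residue K : ℂ)) := by
    refine (tendsto_sub_one_mul_zetaK K).congr' ?_
    filter_upwards [self_mem_nhdsWithin] with s hs
    exact (WK_eq _ hs).symm
  have h2 : Tendsto (WK (K := K) fun _ => 1) (𝓝[≠] 1) (𝓝 (WK (K := K) (fun _ => 1) 1)) :=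
    ((differentiable_WK (K := K) fun _ => 1).continuous.tendsto 1).mono_left nhdsWithin_le_nhds
  rw [tendsto_nhds_unique h2 h1]
  exact_mod_cast (dedekindZeta_residue_pos K).ne'

/-! ### The data of Hecke -/

theorem eul_hpow (𝔪 : Ideal (𝓞 K)) (ψ : (Ideal (𝓞 K))⁰ →* ℂ) (j : ℤ) (s : ℂ) :
    Gauss.eul (fun P : PrC 𝔪 => nP P.1) (fun P : PrC 𝔪 => ψ P.1.1 ^ j) s =
      ∑' P : Pr K, -Complex.log (1 - Psi.psHom (hpow 𝔪 ψ j) s P.1) := by
  rw [Gauss.eul, ← Function.Injective.tsum_eq (g := fun P : PrC 𝔪 => P.1)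
    Subtype.val_injective]
  · refine tsum_congr fun P => ?_
    rw [Psi.psHom_pr, hpow_of ψ j P.2]
  · intro P hP
    by_contra h
    apply hP
    have h1 : ¬ IsCoprime ((P.1 : (Ideal (𝓞 K))⁰) : Ideal (𝓞 K)) 𝔪 := fun h2 => h ⟨⟨P, h2⟩, rfl⟩
    change -Complex.log (1 - Psi.psHom (hpow 𝔪 ψ j) s P.1) = 0
    rw [Psi.psHom_pr, hpow_not ψ j h1, zero_mul, sub_zero, Complex.log_one, neg_zero]

theorem exists_heckeDat (h : ContStmt K) (hc : IsTotallyComplex K) (h2 : Module.finrank ℚ K = 2)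
    {σ : K →+* ℂ} {𝔪 : Ideal (𝓞 K)} (h𝔪 : 𝔪 ≠ ⊥) {k : ℤ} (hk : k ≠ 0)
    {ψ : (Ideal (𝓞 K))⁰ →* ℂ} (hψ : HChar σ 𝔪 k ψ) : ∃ (L : ℤ → ℂ → ℂ) (Z : ℂ → ℂ),
    Gauss.HeckeDat (fun P : PrC 𝔪 => nP P.1) (fun P : PrC 𝔪 => ψ P.1.1) L Z
      {s : ℂ | 1 / 2 < s.re} := by
  have hopen : IsOpen {s : ℂ | 1 / 2 < s.re} := isOpen_lt continuous_const continuous_re
  set S : Finset (Pr K) := (finite_bad h𝔪).toFinset with hS
  have key : ∀ j : ℤ, ∃ L : ℂ → ℂ, (j ≠ 0 → DifferentiableOn ℂ L {s : ℂ | 1 / 2 < s.re}) ∧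
      (∀ s : ℂ, 1 < s.re → L s = Psi.Lp (hpow 𝔪 ψ j) s) ∧
      (j = 0 → ∀ s, L s = zetaK K s * Psi.badE S s) := by
    intro j
    rcases eq_or_ne j 0 with rfl | hj
    · refine ⟨fun s => zetaK K s * Psi.badE S s, fun h => absurd rfl h, fun s hs => ?_,
        fun _ s => rfl⟩
      refine (Psi.Lp_eq_badE (hψ.hpow 0).isUnitary (fun P hP => ?_) (fun P hP => ?_) hs).symm
      · rw [hS, Set.Finite.mem_toFinset] at hP
        exact hpow_not ψ 0 hP
      · rw [hS, Set.Finite.mem_toFinset] at hP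
        rw [hpow_of ψ 0 (not_not.mp hP), zpow_zero]
    · obtain ⟨L, hL, hL'⟩ := h hc h2 σ 𝔪 h𝔪 (k * j) (mul_ne_zero hk hj) _ (hψ.hpow j)
      exact ⟨L, fun _ => hL, hL', fun h => absurd h hj⟩
  choose L hL1 hL2 hL3 using key
  refine ⟨L, fun s => WK (K := K) (fun _ => 1) s * Psi.badE S s, ?_⟩
  exact
    { two_le := fun P => two_le_nP P.1
      norm_z := fun P => hψ.norm_eq P.1.1 P.2
      summable := fun t ht => (summable_pr_rpow ht).comp_injective Subtype.val_injective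
      isOpen := hopen
      subset := fun s hs => by
        have h1 : (1 : ℝ) ≤ s.re := hs
        change (1 / 2 : ℝ) < s.re
        linarith
      euler := fun j => ⟨1, one_ne_zero, fun s hs => by
        rw [one_mul, eul_hpow, Psi.exp_tsum_log_ps (hψ.hpow j).isUnitary.le hs, hL2 j s hs]⟩
      diff := fun j s hs h' => by
        rcases eq_or_ne j 0 with rfl | hj
        · have h1 : s ≠ 1 := by
            rcases h' with h' | h'
            · exact h'
            · exact absurd rfl h'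
          have h3 : L 0 = fun s => zetaK K s * Psi.badE S s := funext (hL3 0 rfl)
          rw [h3]
          exact (differentiableAt_LF (K := K) (fun _ => 1) h1).mul
            (Psi.differentiable_badE S).differentiableAt
        · exact (hL1 j hj).differentiableAt (hopen.mem_nhds hs)
      diffZ := ((differentiable_WK (K := K) fun _ => 1).mul
        (Psi.differentiable_badE S)).differentiableOn
      Z_one := mul_ne_zero WK_one_ne_zero (Psi.badE_ne_zero S (by norm_num))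
      Z_eq := fun s _ h1 => by
        rw [WK_eq _ h1, hL3 0 rfl, mul_assoc]
        rfl }

/-- (S4) **The prime number theorem for Hecke characters of infinite order.** -/
theorem primeSumStmt_of (h : ContStmt K) : PrimeSumStmt K := by
  intro hc h2 σ 𝔪 h𝔪 k hk ψ hψ
  obtain ⟨L, Z, hd⟩ := exists_heckeDat h hc h2 h𝔪 hk hψ
  obtain ⟨D, hD⟩ := exists_isCountC 𝔪
  refine (hd.tendsto_sum hD (one_ne_zero : (1 : ℤ) ≠ 0)).congr fun x => ?_
  congr 1
  have h3 := tsum_subtype {P : Pr K | nP P ≤ x} (fun P => ψ P.1)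
  refine Eq.trans ?_ h3.symm
  rw [← Function.Injective.tsum_eq (g := fun P : PrC 𝔪 => P.1) Subtype.val_injective]
  · rw [tsum_eq_sum (s := hD.F x)]
    · refine Finset.sum_congr rfl fun P hP => ?_
      rw [Set.indicator_of_mem (show P.1 ∈ {P : Pr K | nP P ≤ x} from hD.mem_F.1 hP), zpow_one]
    · intro P hP
      have h5 : P.1 ∉ {P : Pr K | nP P ≤ x} := fun h4 => hP (hD.mem_F.2 h4)
      exact Set.indicator_of_notMem h5 (fun P : Pr K => ψ P.1)
  · intro P hP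
    by_contra h4
    apply hP
    have h1 : ¬ IsCoprime ((P.1 : (Ideal (𝓞 K))⁰) : Ideal (𝓞 K)) 𝔪 := fun h5 => h4 ⟨⟨P, h5⟩, rfl⟩
    change Set.indicator {P : Pr K | nP P ≤ x} (fun P => ψ P.1) P = 0
    rw [Set.indicator_apply]
    split_ifs
    · exact hψ.eq_zero P.1 h1
    · rfl

end Fermat.Agent.Cor.SectK
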