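import Fermat.Agent.Corollaries.SectK.Sum
import Fermat.Agent.Corollaries.SectK.PrimeSum
import Fermat.Agent.Corollaries.SectK.Ext
import Fermat.Agent.Corollaries.SectK.Elem
import Fermat.Agent.Corollaries.SectK.Main

/-!
# Hecke (1920): prime elements of imaginary quadratic fields in sectors and residue classes

No hypotheses.
-/

set_option autoImplicit false

noncomputable section

namespace Fermat.Agent.Cor.SectK

open NumberField Filter Topology Fermat.Agent.Cor.Ray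
open scoped nonZeroDivisors

universe u

theorem contStmt (K : Type u) [Field K] [NumberField K] : ContStmt K := contStmt_of (sumStmt K)

theorem primeSumStmt (K : Type u) [Field K] [NumberField K] : PrimeSumStmt K :=
  primeSumStmt_of (contStmt K)

theorem elemStmt (K : Type u) [Field K] [NumberField K] : ElemStmt K :=
  elemStmt_of (primeSumStmt K) (extStmt K)

theorem sectorStmt (K : Type u) [Field K] [NumberField K] : SectorStmt K :=
  sectorStmt_of (elemStmt K) (countStmt K)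

variable {K : Type u} [Field K] [NumberField K]

/-- **Hecke's theorem (1920).** `K` an imaginary quadratic field embedded in `ℂ` by `σ`, `𝔪 ≠ 0` an
ideal of `𝓞 K`, `α` prime to `𝔪`, `-π ≤ a ≤ b ≤ π`: the number of prime elements `π ≡ α mod 𝔪` of
norm at most `x` with argument in `(a, b)` is asymptotic to
`(w_𝔪 / h_𝔪) * ((b - a) / 2π) * x / log x`, where `w_𝔪` is the number of units `≡ 1 mod 𝔪` and `h_𝔪`
the ray class number. -/
theorem hecke_sector (hK : IsTotallyComplex K) (h2 : Module.finrank ℚ K = 2) (σ : K →+* ℂ)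
    {𝔪 : Ideal (𝓞 K)} (h𝔪 : 𝔪 ≠ ⊥) {α : 𝓞 K} (hα : IsCoprime (Ideal.span {α}) 𝔪) {a b : ℝ}
    (ha : -Real.pi ≤ a) (hab : a ≤ b) (hb : b ≤ Real.pi) :
    Tendsto (fun x : ℕ => (Nat.card {π : 𝓞 K // Prime π ∧ π - α ∈ 𝔪 ∧
      (Algebra.norm ℤ π).natAbs ≤ x ∧ a < (σ (π : K)).arg ∧ (σ (π : K)).arg < b} : ℝ) *
        Real.log x / x) atTop
      (𝓝 ((Nat.card {v : (𝓞 K)ˣ // (v : 𝓞 K) - 1 ∈ 𝔪} : ℝ) /
        Nat.card (Quot fun I J : Cop 𝔪 => RayEq 𝔪 I.1 J.1) * ((b - a) / (2 * Real.pi)))) :=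
  sectorStmt K hK h2 σ 𝔪 h𝔪 α hα a b ha hab hb

/-- **The prime number theorem for Hecke characters of infinite order** of an imaginary quadratic
field: `∑_{N P ≤ x} ψ(P) = o(x / log x)`. -/
theorem tendsto_prime_sum (hK : IsTotallyComplex K) (h2 : Module.finrank ℚ K = 2) {σ : K →+* ℂ}
    {𝔪 : Ideal (𝓞 K)} (h𝔪 : 𝔪 ≠ ⊥) {k : ℤ} (hk : k ≠ 0) {ψ : (Ideal (𝓞 K))⁰ →* ℂ}
    (hψ : HChar σ 𝔪 k ψ) : Tendsto (fun x : ℕ => (((Real.log x / x : ℝ)) : ℂ) *
      ∑' P : {P : ClassL.Pr K // Ideal.absNorm ((P.1 : (Ideal (𝓞 K))⁰) : Ideal (𝓞 K)) ≤ x},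
        ψ P.1.1) atTop (𝓝 0) :=
  primeSumStmt K hK h2 σ 𝔪 h𝔪 k hk ψ hψ

end Fermat.Agent.Cor.SectK
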