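import Fermat.Agent.Corollaries.SectK.PrimeSum
import Fermat.Agent.Corollaries.SectK.Main

/-!
# The values of a Hecke character of infinite order are equidistributed on the circle

`K` imaginary quadratic, `ψ` a Hecke character modulo `𝔪` of `∞`-type `k ≠ 0`.

* `tendsto_theta_closed`, `tendsto_theta_open` : the arguments of the `ψ(P)` are equidistributed.
* `tendsto_re` : `#{P : N P ≤ x, α ≤ Re ψ(P) ≤ β} ~ ((arccos α - arccos β) / π) x / log x`.
-/

set_option autoImplicit false
set_option linter.unusedSectionVars false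

noncomputable section

open NumberField nonZeroDivisors Complex Filter Topology Asymptotics

open scoped Classical

namespace Fermat.Agent.Cor.SectK

open Fermat.Agent.ClassL Fermat.Agent.Cor.Ray Fermat.Agent.Classic.Zeta

/-! ### Arc cosine and the normalised argument -/

theorem arccos_le_iff {t β : ℝ} (h0 : 0 ≤ t) (h1 : t ≤ Real.pi) (h2 : -1 ≤ β) (h3 : β ≤ 1) :
    Real.arccos β ≤ t ↔ Real.cos t ≤ β := by
  have mb : Real.arccos β ∈ Set.Icc 0 Real.pi := ⟨Real.arccos_nonneg β, Real.arccos_le_pi β⟩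
  have cb : Real.cos (Real.arccos β) = β := Real.cos_arccos h2 h3
  have h4 := Real.strictAntiOn_cos.le_iff_ge (a := t) (b := Real.arccos β) ⟨h0, h1⟩ mb
  rw [cb] at h4
  exact h4.symm

theorem le_arccos_iff {t α : ℝ} (h0 : 0 ≤ t) (h1 : t ≤ Real.pi) (h2 : -1 ≤ α) (h3 : α ≤ 1) :
    t ≤ Real.arccos α ↔ α ≤ Real.cos t := by
  have mb : Real.arccos α ∈ Set.Icc 0 Real.pi := ⟨Real.arccos_nonneg α, Real.arccos_le_pi α⟩
  have cb : Real.cos (Real.arccos α) = α := Real.cos_arccos h2 h3
  have h4 := Real.strictAntiOn_cos.le_iff_ge (a := Real.arccos α) (b := t) mb ⟨h0, h1⟩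
  rw [cb] at h4
  exact h4.symm

theorem re_eq_cos {z : ℂ} (hz : ‖z‖ = 1) : z.re = Real.cos z.arg := by
  have h0 : z ≠ 0 := by
    rintro rfl
    rw [norm_zero] at hz
    exact zero_ne_one hz
  rw [Complex.cos_arg h0, hz, div_one]

theorem theta_of_ne {z : ℂ} (h : z.arg ≠ Real.pi) : theta z = (z.arg + Real.pi) / (2 * Real.pi) :=
  if_neg h

theorem theta_of_eq {z : ℂ} (h : z.arg = Real.pi) : theta z = 0 := if_pos h

theorem theta_of_re {z : ℂ} (hz : ‖z‖ = 1) {α β : ℝ} (hα : -1 ≤ α) (hαβ : α ≤ β) (hβ : β ≤ 1)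
    (h1 : α ≤ z.re) (h2 : z.re ≤ β) :
    ((Real.pi - Real.arccos α) / (2 * Real.pi) ≤ theta z ∧
      theta z ≤ (Real.pi - Real.arccos β) / (2 * Real.pi)) ∨
    ((Real.pi + Real.arccos β) / (2 * Real.pi) ≤ theta z ∧
      theta z ≤ (Real.pi + Real.arccos α) / (2 * Real.pi)) := by
  have hpi := Real.pi_pos
  have h2pi : 0 < 2 * Real.pi := by linarith
  rw [re_eq_cos hz] at h1 h2
  have hle := Complex.arg_le_pi z
  have hlt := Complex.neg_pi_lt_arg z
  rcases lt_or_ge z.arg 0 with h3 | h3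
  · left
    rw [theta_of_ne (by linarith), div_le_div_iff_of_pos_right h2pi,
      div_le_div_iff_of_pos_right h2pi]
    rw [← Real.cos_neg] at h1 h2
    rw [← le_arccos_iff (by linarith) (by linarith) hα (hαβ.trans hβ)] at h1
    rw [← arccos_le_iff (by linarith) (by linarith) (hα.trans hαβ) hβ] at h2
    constructor <;> linarith
  · rw [← le_arccos_iff h3 hle hα (hαβ.trans hβ)] at h1
    rw [← arccos_le_iff h3 hle (hα.trans hαβ) hβ] at h2
    by_cases h4 : z.arg = Real.pi
    · left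
      rw [theta_of_eq h4]
      have h5 : Real.arccos α = Real.pi := le_antisymm (Real.arccos_le_pi α) (h4 ▸ h1)
      rw [h5, sub_self, zero_div]
      refine ⟨le_rfl, div_nonneg ?_ h2pi.le⟩
      linarith [Real.arccos_le_pi β]
    · right
      rw [theta_of_ne h4, div_le_div_iff_of_pos_right h2pi, div_le_div_iff_of_pos_right h2pi]
      constructor <;> linarith

theorem re_of_theta {z : ℂ} (hz : ‖z‖ = 1) {α β : ℝ} (hα : -1 ≤ α) (hαβ : α ≤ β) (hβ : β ≤ 1)
    (h : ((Real.pi - Real.arccos α) / (2 * Real.pi) < theta z ∧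
      theta z < (Real.pi - Real.arccos β) / (2 * Real.pi)) ∨
    ((Real.pi + Real.arccos β) / (2 * Real.pi) < theta z ∧
      theta z < (Real.pi + Real.arccos α) / (2 * Real.pi))) : α ≤ z.re ∧ z.re ≤ β := by
  have hpi := Real.pi_pos
  have h2pi : 0 < 2 * Real.pi := by linarith
  have hA := Real.arccos_le_pi α
  have hB := Real.arccos_nonneg β
  rw [re_eq_cos hz]
  have hne : z.arg ≠ Real.pi := by
    intro h4
    rw [theta_of_eq h4] at h
    rcases h with ⟨h, -⟩ | ⟨h, -⟩
    · exact absurd h (not_lt.2 (div_nonneg (by linarith) h2pi.le))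
    · exact absurd h (not_lt.2 (div_nonneg (by linarith) h2pi.le))
  rw [theta_of_ne hne, div_lt_div_iff_of_pos_right h2pi, div_lt_div_iff_of_pos_right h2pi,
    div_lt_div_iff_of_pos_right h2pi, div_lt_div_iff_of_pos_right h2pi] at h
  rcases h with ⟨h1, h2⟩ | ⟨h1, h2⟩
  · rw [← Real.cos_neg, ← le_arccos_iff (by linarith) (by linarith) hα (hαβ.trans hβ),
      ← arccos_le_iff (by linarith) (by linarith) (hα.trans hαβ) hβ]
    constructor <;> linarith
  · rw [← le_arccos_iff (by linarith) (by linarith) hα (hαβ.trans hβ),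
      ← arccos_le_iff (by linarith) (by linarith) (hα.trans hαβ) hβ]
    constructor <;> linarith

/-! ### Equidistribution -/

variable {K : Type} [Field K] [NumberField K]

section

variable (h : ContStmt K) (hc : IsTotallyComplex K) (h2 : Module.finrank ℚ K = 2)
  {σ : K →+* ℂ} {𝔪 : Ideal (𝓞 K)} (h𝔪 : 𝔪 ≠ ⊥) {k : ℤ} (hk : k ≠ 0)
  {ψ : (Ideal (𝓞 K))⁰ →* ℂ} (hψ : HChar σ 𝔪 k ψ)

include h hc h2 h𝔪 hk hψ

theorem tendsto_theta {D : ℝ} (hD : IsCount (fun P : PrC 𝔪 => nP P.1) D) {a b : ℝ} (ha : 0 ≤ a)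
    (hab : a ≤ b) (hb : b ≤ 1) :
    Tendsto (fun x : ℕ => Real.log x / x * (((hD.F x).filter fun P =>
      a < theta (ψ P.1.1) ∧ theta (ψ P.1.1) < b).card : ℝ)) atTop (𝓝 (b - a)) ∧
    Tendsto (fun x : ℕ => Real.log x / x * (((hD.F x).filter fun P =>
      a ≤ theta (ψ P.1.1) ∧ theta (ψ P.1.1) ≤ b).card : ℝ)) atTop (𝓝 (b - a)) := by
  obtain ⟨L, Z, hd⟩ := exists_heckeDat h hc h2 h𝔪 hk hψ
  have hw := Gauss.weylStmt (PrC 𝔪) (fun P => theta (ψ P.1.1)) hD.F (fun n => Real.log n / n)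
    (fun P => theta_nonneg _) (fun P => theta_lt_one _)
    (fun n => div_nonneg (Real.log_natCast_nonneg n) (Nat.cast_nonneg n)) ?_ ?_ a b ha hab hb
  · have e1 : ∀ n : ℕ, Nat.card {P : PrC 𝔪 // P ∈ hD.F n ∧ a < theta (ψ P.1.1) ∧
        theta (ψ P.1.1) < b} = ((hD.F n).filter fun P =>
          a < theta (ψ P.1.1) ∧ theta (ψ P.1.1) < b).card := fun n => by
      rw [← Nat.card_eq_finsetCard]
      exact Nat.card_congr (Equiv.subtypeEquivRight fun P => by rw [Finset.mem_filter])
    have e2 : ∀ n : ℕ, Nat.card {P : PrC 𝔪 // P ∈ hD.F n ∧ a ≤ theta (ψ P.1.1) ∧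
        theta (ψ P.1.1) ≤ b} = ((hD.F n).filter fun P =>
          a ≤ theta (ψ P.1.1) ∧ theta (ψ P.1.1) ≤ b).card := fun n => by
      rw [← Nat.card_eq_finsetCard]
      exact Nat.card_congr (Equiv.subtypeEquivRight fun P => by rw [Finset.mem_filter])
    simp only [e1, e2] at hw
    exact hw
  · refine (hd.tendsto_card hD).congr fun x => ?_
    ring
  · intro j hj
    have h3 := (hd.tendsto_sum hD hj).const_mul ((-1 : ℂ) ^ j)
    rw [mul_zero] at h3
    refine h3.congr fun x => ?_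
    have h4 : ∀ P ∈ hD.F x, Complex.exp (2 * Real.pi * Complex.I * j * theta (ψ P.1.1)) =
        (-1) ^ j * ψ P.1.1 ^ j := fun P _ => by
      have h5 := hψ.norm_eq P.1.1 P.2
      have h6 : ψ P.1.1 ≠ 0 := fun h7 => by
        rw [h7, norm_zero] at h5
        exact zero_ne_one h5
      rw [exp_theta h6, h5, Complex.ofReal_one, div_one]
    rw [Finset.sum_congr rfl h4, ← Finset.mul_sum]
    ring

/-- **The real parts** of the values of a Hecke character. -/
theorem tendsto_re {D : ℝ} (hD : IsCount (fun P : PrC 𝔪 => nP P.1) D) {α β : ℝ} (hα : -1 ≤ α)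
    (hαβ : α ≤ β) (hβ : β ≤ 1) :
    Tendsto (fun x : ℕ => Real.log x / x * (((hD.F x).filter fun P =>
      α ≤ (ψ P.1.1).re ∧ (ψ P.1.1).re ≤ β).card : ℝ)) atTop
      (𝓝 ((Real.arccos α - Real.arccos β) / Real.pi)) := by
  have hpi := Real.pi_pos
  have h2pi : 0 < 2 * Real.pi := by linarith
  have hA := Real.arccos_le_pi α
  have hB := Real.arccos_nonneg β
  have hAB : Real.arccos β ≤ Real.arccos α := Real.antitone_arccos hαβ
  have t1 := tendsto_theta h hc h2 h𝔪 hk hψ hD
    (a := (Real.pi - Real.arccos α) / (2 * Real.pi))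
    (b := (Real.pi - Real.arccos β) / (2 * Real.pi)) (div_nonneg (by linarith) h2pi.le)
    (div_le_div_of_nonneg_right (by linarith) h2pi.le) ((div_le_one h2pi).2 (by linarith))
  have t2 := tendsto_theta h hc h2 h𝔪 hk hψ hD
    (a := (Real.pi + Real.arccos β) / (2 * Real.pi))
    (b := (Real.pi + Real.arccos α) / (2 * Real.pi)) (div_nonneg (by linarith) h2pi.le)
    (div_le_div_of_nonneg_right (by linarith) h2pi.le) ((div_le_one h2pi).2 (by linarith))
  have e : (Real.pi - Real.arccos β) / (2 * Real.pi) - (Real.pi - Real.arccos α) / (2 * Real.pi) +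
      ((Real.pi + Real.arccos α) / (2 * Real.pi) - (Real.pi + Real.arccos β) / (2 * Real.pi)) =
      (Real.arccos α - Real.arccos β) / Real.pi := by
    field_simp
    ring
  have lo := t1.1.add t2.1
  have hi := t1.2.add t2.2
  rw [e] at lo hi
  refine tendsto_of_tendsto_of_tendsto_of_le_of_le lo hi (fun n => ?_) fun n => ?_
  · have h7 : 0 ≤ Real.log n / n := div_nonneg (Real.log_natCast_nonneg n) (Nat.cast_nonneg n)
    simp only
    rw [← mul_add]
    refine mul_le_mul_of_nonneg_left ?_ h7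
    rw [← Nat.cast_add, Nat.cast_le, ← Finset.card_union_of_disjoint]
    · refine Finset.card_le_card fun P hP => ?_
      rw [Finset.mem_union, Finset.mem_filter, Finset.mem_filter, ← and_or_left] at hP
      rw [Finset.mem_filter]
      exact ⟨hP.1, re_of_theta (hψ.norm_eq P.1.1 P.2) hα hαβ hβ hP.2⟩
    · rw [Finset.disjoint_filter]
      rintro P - ⟨-, h3⟩ ⟨h4, -⟩
      have h5 : (Real.pi - Real.arccos β) / (2 * Real.pi) ≤
          (Real.pi + Real.arccos β) / (2 * Real.pi) :=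
        div_le_div_of_nonneg_right (by linarith) h2pi.le
      linarith
  · have h7 : 0 ≤ Real.log n / n := div_nonneg (Real.log_natCast_nonneg n) (Nat.cast_nonneg n)
    simp only
    rw [← mul_add]
    refine mul_le_mul_of_nonneg_left ?_ h7
    rw [← Nat.cast_add, Nat.cast_le]
    refine le_trans (Finset.card_le_card fun P hP => ?_) (Finset.card_union_le _ _)
    rw [Finset.mem_filter] at hP
    rw [Finset.mem_union, Finset.mem_filter, Finset.mem_filter, ← and_or_left]
    exact ⟨hP.1, theta_of_re (hψ.norm_eq P.1.1 P.2) hα hαβ hβ hP.2.1 hP.2.2⟩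

end

end Fermat.Agent.Cor.SectK
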