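import Fermat.Agent.Corollaries.SectK.SatoTate

/-!
# Twists of Hecke characters by Dirichlet characters

`ψ` a Hecke character modulo `𝔪` of type `k`, `χ` a Dirichlet character modulo `m`: then
`I ↦ ψ(I) χ(N I)` is a Hecke character modulo `𝔪 (m)` of type `k`.
-/

set_option autoImplicit false
set_option linter.unusedSectionVars false

noncomputable section

open NumberField nonZeroDivisors Complex Filter Topology Module

open scoped Classical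

namespace Fermat.Agent.Cor.SectK

open Fermat.Agent.ClassL Fermat.Agent.Cor.Ray

universe u

variable {K : Type u} [Field K] [NumberField K]

/-! ### Norms -/

/-- the norm of an ideal prime to `(m)` is prime to `m` -/
theorem coprime_absNorm {m : ℕ} {I : Ideal (𝓞 K)} (hI0 : I ≠ ⊥)
    (hI : IsCoprime I (Ideal.span {(m : 𝓞 K)})) : (Ideal.absNorm I).Coprime m := by
  by_contra hc
  obtain ⟨q, hq, hqN, hqm⟩ := Nat.Prime.not_coprime_iff_dvd.1 hc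
  have : Fact q.Prime := ⟨hq⟩
  have hfin : Finite (𝓞 K ⧸ I) := Ideal.finiteQuotientOfFreeOfNeBot I hI0
  have hcard : q ∣ Nat.card (𝓞 K ⧸ I) := by
    have h1 : Ideal.absNorm I = Nat.card (𝓞 K ⧸ I) := rfl
    rwa [← h1]
  obtain ⟨x, hx⟩ := exists_prime_addOrderOf_dvd_card' q hcard
  have h1 : (q : ℕ) • x = 0 := by
    rw [← hx]
    exact addOrderOf_nsmul_eq_zero x
  obtain ⟨i, hi, j, hj, hij⟩ := Ideal.isCoprime_iff_exists.1 hI
  obtain ⟨c, rfl⟩ := Ideal.mem_span_singleton'.1 hj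
  obtain ⟨r, rfl⟩ := hqm
  have h2 : Ideal.Quotient.mk I (c * ((q * r : ℕ) : 𝓞 K)) = 1 := by
    rw [← map_one (Ideal.Quotient.mk I), Ideal.Quotient.eq]
    have : c * ((q * r : ℕ) : 𝓞 K) - 1 = -i := by linear_combination hij
    rw [this]
    exact I.neg_mem hi
  have h3 : x = 0 := by
    calc x = Ideal.Quotient.mk I (c * ((q * r : ℕ) : 𝓞 K)) * x := by rw [h2, one_mul]
      _ = Ideal.Quotient.mk I (c * r) * ((q : ℕ) • x) := by
        rw [nsmul_eq_mul, ← mul_assoc]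
        congr 1
        push_cast
        rw [map_mul, map_mul, map_mul, map_natCast, map_natCast]
        ring
      _ = 0 := by rw [h1, mul_zero]
  rw [h3, addOrderOf_zero] at hx
  exact hq.one_lt.ne hx

/-- `a ≡ 1 mod m` implies `N a ≡ 1 mod m` -/
theorem norm_cong (hc : IsTotallyComplex K) (h2 : finrank ℚ K = 2) (σ : K →+* ℂ) {m : ℕ}
    {a : 𝓞 K} (ha : a - 1 ∈ Ideal.span {(m : 𝓞 K)}) :
    (((Algebra.norm ℤ a).natAbs : ℕ) : ZMod m) = 1 := by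
  obtain ⟨c, hc'⟩ := Ideal.mem_span_singleton'.1 ha
  have hn := Kron.norm_eq h2 σ (a : K)
  have hcn := Kron.norm_eq h2 σ (c : K)
  have hct := Kron.trace_eq h2 σ (c : K)
  rw [← Algebra.coe_norm_int] at hn hcn
  rw [← Algebra.coe_trace_int] at hct
  have h3 : σ (a : K) = 1 + m * σ (c : K) := by
    have h4 : a = 1 + c * (m : 𝓞 K) := by linear_combination -hc'
    rw [h4]
    simp
    ring
  have h4 : (Algebra.norm ℤ a : ℤ) = 1 + m * Algebra.trace ℤ (𝓞 K) c +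
      (m : ℤ) ^ 2 * Algebra.norm ℤ c := by
    have h5 : ((Algebra.norm ℤ a : ℤ) : ℝ) = ‖σ (a : K)‖ ^ 2 := by
      rw [← hn]
      norm_cast
    have h6 : ((Algebra.norm ℤ c : ℤ) : ℝ) = ‖σ (c : K)‖ ^ 2 := by
      rw [← hcn]
      norm_cast
    have h7 : ((Algebra.trace ℤ (𝓞 K) c : ℤ) : ℝ) = 2 * (σ (c : K)).re := by
      have h8 := congrArg Complex.re hct
      rw [Complex.add_re, Complex.conj_re] at h8
      have h9 : (((((Algebra.trace ℤ (𝓞 K) c : ℤ) : ℚ)) : ℂ)).re =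
          ((Algebra.trace ℤ (𝓞 K) c : ℤ) : ℝ) := by
        have : (((((Algebra.trace ℤ (𝓞 K) c : ℤ) : ℚ)) : ℂ)) =
            ((((Algebra.trace ℤ (𝓞 K) c : ℤ) : ℝ)) : ℂ) := by push_cast; rfl
        rw [this, Complex.ofReal_re]
      rw [h9] at h8
      linarith
    have h8 : ((Algebra.norm ℤ a : ℤ) : ℝ) = ((1 + m * Algebra.trace ℤ (𝓞 K) c +
      (m : ℤ) ^ 2 * Algebra.norm ℤ c : ℤ) : ℝ) := by
      push_cast
      rw [h5, h6, h7, h3, ← Complex.normSq_eq_norm_sq, ← Complex.normSq_eq_norm_sq,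
        Complex.normSq_apply, Complex.normSq_apply]
      simp
      ring
    exact_mod_cast h8
  have h5 : 0 ≤ Algebra.norm ℤ a := by
    have h6 : ((Algebra.norm ℤ a : ℤ) : ℝ) = ‖σ (a : K)‖ ^ 2 := by
      rw [← hn]
      norm_cast
    have h7 : (0 : ℝ) ≤ ((Algebra.norm ℤ a : ℤ) : ℝ) := by
      rw [h6]
      positivity
    exact_mod_cast h7
  have h6 : (((Algebra.norm ℤ a).natAbs : ℕ) : ZMod m) = ((Algebra.norm ℤ a : ℤ) : ZMod m) := by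
    rw [← Int.natAbs_of_nonneg h5]
    simp
  rw [h6, h4]
  push_cast
  rw [ZMod.natCast_self]
  ring

/-! ### The twist -/

/-- the twist of `ψ` by `χ ∘ N` -/
def twist (𝔪 : Ideal (𝓞 K)) {m : ℕ} (χ : DirichletCharacter ℂ m) (ψ : (Ideal (𝓞 K))⁰ →* ℂ) :
    (Ideal (𝓞 K))⁰ →* ℂ where
  toFun I := if IsCoprime (I : Ideal (𝓞 K)) (𝔪 * Ideal.span {(m : 𝓞 K)}) then
    ψ I * χ (Ideal.absNorm (I : Ideal (𝓞 K)) : ZMod m) else 0
  map_one' := by
    rw [if_pos (by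
      rw [Submonoid.coe_one]
      exact isCoprime_one_left), map_one, Submonoid.coe_one, map_one, Nat.cast_one, map_one,
      one_mul]
  map_mul' I J := by
    simp only [Submonoid.coe_mul, map_mul]
    by_cases hI : IsCoprime (I : Ideal (𝓞 K)) (𝔪 * Ideal.span {(m : 𝓞 K)})
    · by_cases hJ : IsCoprime (J : Ideal (𝓞 K)) (𝔪 * Ideal.span {(m : 𝓞 K)})
      · rw [if_pos (IsCoprime.mul_left hI hJ), if_pos hI, if_pos hJ, Nat.cast_mul, map_mul]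
        ring
      · rw [if_neg (fun h => hJ h.of_mul_left_right), if_neg hJ, mul_zero]
    · rw [if_neg (fun h => hI h.of_mul_left_left), if_neg hI, zero_mul]

theorem twist_of {𝔪 : Ideal (𝓞 K)} {m : ℕ} (χ : DirichletCharacter ℂ m)
    (ψ : (Ideal (𝓞 K))⁰ →* ℂ) {I : (Ideal (𝓞 K))⁰}
    (hI : IsCoprime (I : Ideal (𝓞 K)) (𝔪 * Ideal.span {(m : 𝓞 K)})) :
    twist 𝔪 χ ψ I = ψ I * χ (Ideal.absNorm (I : Ideal (𝓞 K)) : ZMod m) := if_pos hI

theorem twist_not {𝔪 : Ideal (𝓞 K)} {m : ℕ} (χ : DirichletCharacter ℂ m)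
    (ψ : (Ideal (𝓞 K))⁰ →* ℂ) {I : (Ideal (𝓞 K))⁰}
    (hI : ¬ IsCoprime (I : Ideal (𝓞 K)) (𝔪 * Ideal.span {(m : 𝓞 K)})) :
    twist 𝔪 χ ψ I = 0 := if_neg hI

theorem norm_dirichlet {m : ℕ} (χ : DirichletCharacter ℂ m) {n : ℕ} (hn : n.Coprime m) :
    ‖χ (n : ZMod m)‖ = 1 := by
  obtain ⟨v, hv⟩ := (ZMod.isUnit_iff_coprime n m).2 hn
  rw [← hv]
  exact DirichletCharacter.unit_norm_eq_one χ v

theorem HChar.twist_norm_eq {σ : K →+* ℂ}
    {𝔪 : Ideal (𝓞 K)} {k : ℤ} {ψ : (Ideal (𝓞 K))⁰ →* ℂ} (hψ : HChar σ 𝔪 k ψ) {m : ℕ}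
    (χ : DirichletCharacter ℂ m) (I : (Ideal (𝓞 K))⁰)
    (hI : IsCoprime (I : Ideal (𝓞 K)) (𝔪 * Ideal.span {(m : 𝓞 K)})) :
    ‖SectK.twist 𝔪 χ ψ I‖ = 1 := by
  have h1 : IsCoprime (I : Ideal (𝓞 K)) 𝔪 := hI.of_mul_right_left
  have h3 : IsCoprime (I : Ideal (𝓞 K)) (Ideal.span {(m : 𝓞 K)}) := hI.of_mul_right_right
  have h4 := coprime_absNorm (nonZeroDivisors.coe_ne_zero I) h3
  have h5 := norm_dirichlet χ h4
  have h6 := hψ.norm_eq I h1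
  rw [twist_of χ ψ hI, norm_mul, h6, h5, one_mul]

theorem twist_cong (hc : IsTotallyComplex K) (h2 : finrank ℚ K = 2) (σ : K →+* ℂ)
    {𝔪 : Ideal (𝓞 K)} (ψ : (Ideal (𝓞 K))⁰ →* ℂ) {m : ℕ}
    (χ : DirichletCharacter ℂ m) (I : (Ideal (𝓞 K))⁰) (a : 𝓞 K)
    (ha : (I : Ideal (𝓞 K)) = Ideal.span {a}) (ha1 : a - 1 ∈ 𝔪 * Ideal.span {(m : 𝓞 K)}) :
    SectK.twist 𝔪 χ ψ I = ψ I := by
  have hI : IsCoprime (I : Ideal (𝓞 K)) (𝔪 * Ideal.span {(m : 𝓞 K)}) := by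
    rw [ha, isCoprime_span_iff]
    exact ⟨1, by rwa [one_mul]⟩
  have h4 : a - 1 ∈ Ideal.span {(m : 𝓞 K)} := Ideal.mul_le_right ha1
  have h5 : ((Ideal.absNorm (I : Ideal (𝓞 K)) : ℕ) : ZMod m) = 1 := by
    have h6 : Ideal.absNorm (I : Ideal (𝓞 K)) = (Algebra.norm ℤ a).natAbs := by
      rw [ha]
      exact Ideal.absNorm_span_singleton a
    rw [h6]
    exact norm_cong hc h2 σ h4
  rw [twist_of χ ψ hI, h5, map_one, mul_one]

/-- **The twist of a Hecke character by a Dirichlet character is a Hecke character.** -/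
theorem HChar.twist (hc : IsTotallyComplex K) (h2 : finrank ℚ K = 2) {σ : K →+* ℂ}
    {𝔪 : Ideal (𝓞 K)} {k : ℤ} {ψ : (Ideal (𝓞 K))⁰ →* ℂ} (hψ : HChar σ 𝔪 k ψ) {m : ℕ}
    (χ : DirichletCharacter ℂ m) :
    HChar σ (𝔪 * Ideal.span {(m : 𝓞 K)}) k (SectK.twist 𝔪 χ ψ) where
  norm_eq I hI := hψ.twist_norm_eq χ I hI
  eq_zero I hI := twist_not χ ψ hI
  cong I a ha ha1 := by
    rw [SectK.twist_cong hc h2 σ ψ χ I a ha ha1]
    exact hψ.cong I a ha (Ideal.mul_le_left ha1)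

/-! ### Sato-Tate for the twists -/

/-- **The Sato-Tate law for the twists**: if the `a p` are given by the Hecke character `ψ`, then
the law of Sato-Tate holds for the `χ(p) a p`, `χ` a real Dirichlet character. -/
theorem sato_tate_of_hecke_twist {K : Type} [Field K] [NumberField K] (hK : IsTotallyComplex K)
    (h2 : finrank ℚ K = 2) {σ : K →+* ℂ} {𝔪 : Ideal (𝓞 K)} (h𝔪 : 𝔪 ≠ ⊥) {k : ℤ}
    (hk : k ≠ 0) {ψ : (Ideal (𝓞 K))⁰ →* ℂ} (hψ : HChar σ 𝔪 k ψ) (S : Finset ℕ) {a : ℕ → ℝ}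
    (hsplit : ∀ (p : ℕ) (P : Pr K), p.Prime → p ∉ S →
      Ideal.absNorm ((P.1 : (Ideal (𝓞 K))⁰) : Ideal (𝓞 K)) = p →
        a p = 2 * Real.sqrt p * (ψ P.1).re)
    (hinert : ∀ p : ℕ, p.Prime → p ∉ S →
      (∀ P : Pr K, Ideal.absNorm ((P.1 : (Ideal (𝓞 K))⁰) : Ideal (𝓞 K)) ≠ p) → a p = 0)
    {m : ℕ} [NeZero m] (χ : DirichletCharacter ℂ m) (c : ℕ → ℝ)
    (hc : ∀ p : ℕ, p.Prime → ¬ p ∣ m → χ (p : ZMod m) = (c p : ℂ)) {b : ℕ → ℝ}
    (hb : ∀ p : ℕ, p.Prime → p ∉ S → ¬ p ∣ m → b p = c p * a p)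
    {α β : ℝ} (hα : -1 ≤ α) (hαβ : α ≤ β) (hβ : β ≤ 1) :
    Tendsto (fun x : ℕ => (Nat.card {p : ℕ // p.Prime ∧ p ∉ S ∪ m.primeFactors ∧ p ≤ x ∧
      α ≤ b p / (2 * Real.sqrt p) ∧ b p / (2 * Real.sqrt p) ≤ β} : ℝ) * Real.log x / x) atTop
      (𝓝 ((if α ≤ 0 ∧ 0 ≤ β then 1 / 2 else 0) +
        (Real.arccos α - Real.arccos β) / (2 * Real.pi))) := by
  have hm0 : (m : 𝓞 K) ≠ 0 := by exact_mod_cast NeZero.ne m
  have h𝔪' : 𝔪 * Ideal.span {(m : 𝓞 K)} ≠ ⊥ := by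
    refine mul_ne_zero h𝔪 ?_
    change Ideal.span {(m : 𝓞 K)} ≠ ⊥
    rwa [Ne, Ideal.span_singleton_eq_bot]
  have hmem : ∀ p : ℕ, p.Prime → p ∉ S ∪ m.primeFactors → p ∉ S ∧ ¬ p ∣ m := by
    intro p hp h
    rw [Finset.mem_union, not_or, Nat.mem_primeFactors] at h
    exact ⟨h.1, fun hd => h.2 ⟨hp, hd, NeZero.ne m⟩⟩
  refine sato_tate_of_hecke hK h2 h𝔪' hk (hψ.twist hK h2 χ) (S ∪ m.primeFactors) ?_ ?_ hα hαβ hβ
  · intro p P hp hpS hP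
    obtain ⟨h3, h4⟩ := hmem p hp hpS
    rw [hb p hp h3 h4, hsplit p P hp h3 hP]
    by_cases hcop : IsCoprime ((P.1 : (Ideal (𝓞 K))⁰) : Ideal (𝓞 K))
        (𝔪 * Ideal.span {(m : 𝓞 K)})
    · rw [twist_of χ ψ hcop, hP, hc p hp h4, Complex.re_mul_ofReal]
      ring
    · rw [twist_not χ ψ hcop]
      have h5 : ¬ IsCoprime ((P.1 : (Ideal (𝓞 K))⁰) : Ideal (𝓞 K)) 𝔪 := by
        intro h6
        apply hcop
        refine h6.mul_right ?_
        have hpr : ((P.1 : (Ideal (𝓞 K))⁰) : Ideal (𝓞 K)).IsPrime := Ideal.isPrime_of_prime P.2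
        have hmax : ((P.1 : (Ideal (𝓞 K))⁰) : Ideal (𝓞 K)).IsMaximal :=
          hpr.isMaximal (nonZeroDivisors.coe_ne_zero P.1)
        rw [Ideal.isCoprime_iff_sup_eq]
        refine hmax.1.2 _ (lt_of_le_of_ne le_sup_left fun h7 => h4 ?_)
        have h8 : (m : 𝓞 K) ∈ ((P.1 : (Ideal (𝓞 K))⁰) : Ideal (𝓞 K)) := by
          rw [h7]
          exact Ideal.mem_sup_right (Ideal.mem_span_singleton_self _)
        have h9 : (p : 𝓞 K) ∈ ((P.1 : (Ideal (𝓞 K))⁰) : Ideal (𝓞 K)) := by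
          have := Ideal.absNorm_mem ((P.1 : (Ideal (𝓞 K))⁰) : Ideal (𝓞 K))
          rwa [hP] at this
        by_contra h10
        have h11 : (m.Coprime p) := ((Nat.Prime.coprime_iff_not_dvd hp).2 h10).symm
        obtain ⟨u, v, huv⟩ := Nat.isCoprime_iff_coprime.2 h11
        apply hpr.ne_top
        rw [Ideal.eq_top_iff_one]
        have h12 : ((u : 𝓞 K)) * m + (v : 𝓞 K) * p = 1 := by exact_mod_cast congrArg (Int.cast : ℤ → 𝓞 K) huv
        rw [← h12]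
        exact Ideal.add_mem _ (Ideal.mul_mem_left _ _ h8) (Ideal.mul_mem_left _ _ h9)
      rw [hψ.eq_zero P.1 h5]
      simp
  · intro p hp hpS hP
    obtain ⟨h3, h4⟩ := hmem p hp hpS
    rw [hb p hp h3 h4, hinert p hp h3 hP, mul_zero]

end Fermat.Agent.Cor.SectK
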