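import Fermat.Agent.Corollaries.Diary.Count

/-!
# The number of points of `y ^ 2 = x ^ 3 + m`

`card_jzero`: over `ZMod p`, `χ` a cubic character: the number of affine points is
`p + (m / p) (χ (4 m) J (χ, χ) + conjugate)`.
-/

set_option autoImplicit false

noncomputable section

namespace Fermat.Agent.Cor.SectK.Jz

open Finset Diary

section General

variable {F : Type*} [Field F] [Fintype F] [DecidableEq F] {χ : MulChar F ℂ}

variable (F) in
/-- The quadratic character with values in `ℂ`. -/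
def rho : MulChar F ℂ := (quadraticChar F).ringHomComp (Int.castRingHom ℂ)

theorem rho_apply (a : F) : rho F a = (quadraticChar F a : ℂ) := rfl

theorem rho_ne_one (h2 : ringChar F ≠ 2) : rho F ≠ 1 := by
  intro h
  apply quadraticChar_ne_one h2
  ext a
  have := DFunLike.congr_fun h (a : F)
  rw [rho_apply, MulChar.one_apply_coe] at this
  rw [MulChar.one_apply_coe]
  exact_mod_cast this

theorem card_sq_eq (h2 : ringChar F ≠ 2) (v : F) :
    ((univ.filter fun y : F => y ^ 2 = v).card : ℂ) = 1 + rho F v := by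
  have h := quadraticChar_card_sqrts h2 v
  have h1 : ({x : F | x ^ 2 = v}.toFinset) = univ.filter fun y : F => y ^ 2 = v := by
    ext x
    simp
  rw [h1] at h
  have h3 : (((univ.filter fun y : F => y ^ 2 = v).card : ℤ) : ℂ) =
      ((quadraticChar F v + 1 : ℤ) : ℂ) := by rw [h]
  push_cast at h3
  rw [h3, rho_apply, add_comm]

omit [Fintype F] [DecidableEq F] in
theorem orderOf_eq_three (hχ : χ ≠ 1) (h3 : χ ^ 3 = 1) : orderOf χ = 3 :=
  orderOf_eq_prime h3 hχ

/-- `J(χ, χ) = χ(4)⁻¹ J(χ, ρ)`. -/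
theorem jacobiSum_self (h2 : ringChar F ≠ 2) (hχ : χ ≠ 1) :
    χ 4 * jacobiSum χ χ = jacobiSum χ (rho F) := by
  have h20 : (2 : F) ≠ 0 := Ring.two_ne_zero h2
  have h40 : (4 : F) ≠ 0 := by
    have : (4 : F) = 2 * 2 := by norm_num
    rw [this]
    exact mul_ne_zero h20 h20
  have h1 : jacobiSum χ χ = ∑ t : F, χ t * (1 + rho F (1 - 4 * t)) := by
    rw [jacobiSum, ← sum_fiberwise (s := univ) (g := fun x : F => x * (1 - x))]
    refine sum_congr rfl fun t _ => ?_
    rw [sum_congr rfl (g := fun _ => χ t) fun x hx => by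
      rw [← map_mul, (mem_filter.mp hx).2], sum_const, nsmul_eq_mul, mul_comm,
      ← card_sq_eq h2]
    congr 2
    refine card_bij (fun x _ => 1 - 2 * x) ?_ ?_ ?_
    · intro x hx
      simp only [mem_filter, mem_univ, true_and] at hx ⊢
      rw [← hx]
      ring
    · intro x _ y _ h
      have : 2 * (x - y) = 0 := by linear_combination -h
      rcases mul_eq_zero.mp this with h' | h'
      · exact absurd h' h20
      · exact sub_eq_zero.mp h'
    · intro z hz
      simp only [mem_filter, mem_univ, true_and] at hz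
      refine ⟨(1 - z) / 2, ?_, ?_⟩
      · simp only [mem_filter, mem_univ, true_and]
        field_simp
        linear_combination -hz
      · field_simp
        ring
  have h5 : ∑ t : F, χ t * (1 + rho F (1 - 4 * t)) = ∑ t : F, χ t * rho F (1 - 4 * t) := by
    simp_rw [mul_add, mul_one]
    rw [sum_add_distrib, MulChar.sum_eq_zero_of_ne_one hχ, zero_add]
  rw [h1, h5, mul_sum, jacobiSum,
    ← Equiv.sum_comp (Equiv.mulLeft₀ (4 : F) h40) (fun x => χ x * rho F (1 - x))]
  refine sum_congr rfl fun t _ => ?_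
  change _ = χ (4 * t) * rho F (1 - 4 * t)
  rw [map_mul]
  ring

theorem card_general (h2 : ringChar F ≠ 2) (hχ : χ ≠ 1) (h3 : χ ^ 3 = 1) {m : F} (hm : m ≠ 0) :
    ((univ.filter fun P : F × F => P.2 ^ 2 = P.1 ^ 3 + m).card : ℂ) =
      Fintype.card F + rho F m * (χ (4 * m) * jacobiSum χ χ +
        (starRingEnd ℂ) (χ (4 * m) * jacobiSum χ χ)) := by
  have hord := orderOf_eq_three hχ h3
  have hχ2 : χ ^ 2 ≠ 1 := by
    intro h
    have := Nat.le_of_dvd two_pos (hord ▸ orderOf_dvd_of_pow_eq_one h)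
    omega
  have h1 : ((univ.filter fun P : F × F => P.2 ^ 2 = P.1 ^ 3 + m).card : ℂ) =
      ∑ u : F, ((univ.filter fun x : F => x ^ 3 = u).card : ℂ) *
        ((univ.filter fun y : F => y ^ 2 = u + m).card : ℂ) := by
    rw [card_eq_sum_card_fiberwise (f := fun P : F × F => P.1 ^ 3) (t := univ)
      (fun _ _ => by simp)]
    push_cast
    refine sum_congr rfl fun u _ => ?_
    rw [← Nat.cast_mul, ← card_product]
    congr 2
    ext ⟨x, y⟩
    simp only [mem_filter, mem_univ, true_and, mem_product]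
    constructor
    · rintro ⟨h1, rfl⟩
      exact ⟨rfl, h1⟩
    · rintro ⟨rfl, h2⟩
      exact ⟨h2, rfl⟩
  have hneg : χ (-1) = 1 := by
    have h4 : χ (-1) ^ 2 = 1 := by rw [← map_pow, neg_one_sq, map_one]
    have h5 : χ (-1) ^ 3 = 1 := by
      rw [← MulChar.pow_apply' _ three_ne_zero, h3,
        MulChar.one_apply (isUnit_iff_ne_zero.mpr (neg_ne_zero.mpr one_ne_zero))]
    calc χ (-1) = χ (-1) ^ 3 := by rw [pow_succ, h4, one_mul]
      _ = 1 := h5
  -- the mixed sums
  have hmix : ∀ φ : MulChar F ℂ, φ (-1) = 1 →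
      ∑ u : F, φ u * rho F (u + m) = rho F m * φ m * jacobiSum φ (rho F) := by
    intro φ hφ
    rw [jacobiSum, mul_sum, ← Equiv.sum_comp (Equiv.mulLeft₀ (-m : F) (neg_ne_zero.mpr hm))
      (fun u => φ u * rho F (u + m))]
    refine sum_congr rfl fun w _ => ?_
    change φ (-m * w) * rho F (-m * w + m) = _
    rw [show -m * w + m = m * (1 - w) by ring, map_mul (rho F),
      show -m * w = -1 * (m * w) by ring, map_mul φ, hφ, map_mul φ]
    ring
  have hinv : χ ^ 2 = χ⁻¹ := by
    rw [eq_inv_iff_mul_eq_one, ← pow_succ, h3]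
  have hrinv : (rho F)⁻¹ = rho F := by
    have h4 : rho F ^ 2 = 1 := by
      ext a
      rw [MulChar.pow_apply_coe, MulChar.one_apply_coe, rho_apply]
      have := quadraticChar_sq_one (F := F) a.ne_zero
      exact_mod_cast this
    rw [inv_eq_iff_mul_eq_one, ← pow_two, h4]
  rw [h1]
  have hstep : ∀ u : F, ((univ.filter fun x : F => x ^ 3 = u).card : ℂ) *
      ((univ.filter fun y : F => y ^ 2 = u + m).card : ℂ) =
      1 + χ u + (χ ^ 2) u + rho F (u + m) + χ u * rho F (u + m) + (χ ^ 2) u * rho F (u + m) := by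
    intro u
    have h8 : ∑ i ∈ range 3, χ u ^ i = 1 + χ u + χ u ^ 2 := by
      simp [sum_range_succ]
    rw [card_pow_eq three_pos hord, card_sq_eq h2, h8, MulChar.pow_apply' _ two_ne_zero]
    ring
  simp_rw [hstep]
  rw [sum_add_distrib, sum_add_distrib, sum_add_distrib, sum_add_distrib, sum_add_distrib,
    MulChar.sum_eq_zero_of_ne_one hχ, MulChar.sum_eq_zero_of_ne_one hχ2, hmix χ hneg, hmix (χ ^ 2)
      (by rw [MulChar.pow_apply' _ two_ne_zero, hneg, one_pow])]
  have h6 : ∑ u : F, rho F (u + m) = 0 := by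
    rw [← MulChar.sum_eq_zero_of_ne_one (rho_ne_one h2),
      ← Equiv.sum_comp (Equiv.addRight m) (fun u => rho F u)]
    rfl
  rw [h6, ← jacobiSum_self h2 hχ, hinv, ← hrinv, jacobiSum_inv_eq_conj, hrinv,
    ← jacobiSum_self h2 hχ]
  have h7 : χ⁻¹ m = (starRingEnd ℂ) (χ m) := (MulChar.star_apply' χ m).symm
  rw [h7, map_mul χ, map_mul, map_mul, map_mul]
  simp only [sum_const, card_univ, nsmul_eq_mul, mul_one]
  ring

end General

theorem card_jzero {p : ℕ} [Fact p.Prime] (h2 : p ≠ 2) {χ : MulChar (ZMod p) ℂ} (hχ : χ ≠ 1)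
    (h3 : χ ^ 3 = 1) {m : ZMod p} (hm : m ≠ 0) :
    (Nat.card {P : ZMod p × ZMod p // P.2 ^ 2 = P.1 ^ 3 + m} : ℂ) =
      p + (quadraticChar (ZMod p) m : ℂ) * (χ (4 * m) * jacobiSum χ χ +
        (starRingEnd ℂ) (χ (4 * m) * jacobiSum χ χ)) := by
  have h := card_general (F := ZMod p) (by rwa [ZMod.ringChar_zmod_n]) hχ h3 hm
  rw [Nat.card_eq_fintype_card, Fintype.card_subtype, h, ZMod.card, rho_apply]

end Fermat.Agent.Cor.SectK.Jz
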