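import Fermat.Agent.Corollaries.SectK.CurveCubic

/-!
# The elliptic curves `y² = x³ + m`

* `ap_E0` : `a_p = p - #{(x, y) : y² = x³ + m}` for the primes `p` prime to `6 m`.
* `ap_E0_of_two` : `a_p = 0` for the primes `p ≡ 2 mod 3` prime to `6 m`.
-/

set_option autoImplicit false

noncomputable section

open scoped Classical

namespace Fermat.Agent.Cor.SectK

open WeierstrassCurve

/-- the curve `y² = x³ + m` over `ℤ` -/
def E0 (m : ℤ) : WeierstrassCurve ℤ := ⟨0, 0, 0, 0, m⟩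

/-- `Δ(y² = x³ + m) = -432 m²` -/
theorem E0_Δ (m : ℤ) : (E0 m).Δ = -432 * m ^ 2 := by
  simp only [E0, WeierstrassCurve.Δ, WeierstrassCurve.b₂, WeierstrassCurve.b₄,
    WeierstrassCurve.b₆, WeierstrassCurve.b₈]
  ring

variable {p : ℕ} [hp : Fact p.Prime] {m : ℤ}

theorem E0_equation (x y : ZMod p) :
    ((E0 m).reductionMod p).toAffine.Equation x y ↔ y ^ 2 = x ^ 3 + (m : ZMod p) := by
  rw [Affine.equation_iff]
  simp [reductionMod, E0, WeierstrassCurve.map]

theorem intCast_ne_zero_of_not_dvd (h : ¬ (p : ℤ) ∣ 6 * m) : (m : ZMod p) ≠ 0 := fun h1 =>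
  h (((ZMod.intCast_zmod_eq_zero_iff_dvd m p).1 h1).mul_left 6)

theorem ne_two_of_not_dvd (h : ¬ (p : ℤ) ∣ 6 * m) : p ≠ 2 := by
  rintro rfl
  exact h ⟨3 * m, by push_cast; ring⟩

theorem ne_three_of_not_dvd (h : ¬ (p : ℤ) ∣ 6 * m) : p ≠ 3 := by
  rintro rfl
  exact h ⟨2 * m, by push_cast; ring⟩

theorem E0_Δ_ne (h : ¬ (p : ℤ) ∣ 6 * m) : ((E0 m).reductionMod p).Δ ≠ 0 := by
  have h1 : ((E0 m).reductionMod p).Δ = ((-432 * m ^ 2 : ℤ) : ZMod p) := by
    rw [reductionMod, WeierstrassCurve.map_Δ, E0_Δ]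
    rfl
  have h4 : ((-432 * m ^ 2 : ℤ) : ZMod p) = -(2 ^ 4 * 3 ^ 3 * (m : ZMod p) ^ 2) := by
    push_cast
    ring
  rw [h1, h4]
  exact neg_ne_zero.2 (mul_ne_zero (mul_ne_zero (pow_ne_zero _ (two_ne (ne_two_of_not_dvd h)))
    (pow_ne_zero _ (three_ne (ne_three_of_not_dvd h))))
    (pow_ne_zero _ (intCast_ne_zero_of_not_dvd h)))

/-- the points, except the origin -/
def ptEquivE0 (h : ¬ (p : ℤ) ∣ 6 * m) : ((E0 m).reductionMod p).toAffine.Point ≃
    Option {P : ZMod p × ZMod p // P.2 ^ 2 = P.1 ^ 3 + (m : ZMod p)} where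
  toFun P := match P with
    | .zero => none
    | .some x y h => some ⟨(x, y), (E0_equation x y).1 h.1⟩
  invFun P := match P with
    | none => .zero
    | some P => .some P.1.1 P.1.2
      ((Affine.equation_iff_nonsingular_of_Δ_ne_zero (E0_Δ_ne h)).1 ((E0_equation _ _).2 P.2))
  left_inv P := by
    match P with
    | .zero => rfl
    | .some x y h => rfl
  right_inv P := by
    match P with
    | none => rfl
    | some P => rfl

/-- `a_p = p - #{(x, y) : y² = x³ + m}` -/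
theorem ap_E0 (h : ¬ (p : ℤ) ∣ 6 * m) : (E0 m).apOfModel p =
    p - (Nat.card {P : ZMod p × ZMod p // P.2 ^ 2 = P.1 ^ 3 + (m : ZMod p)} : ℤ) := by
  have h1 : Nat.card ((E0 m).reductionMod p).toAffine.Point =
      Nat.card {P : ZMod p × ZMod p // P.2 ^ 2 = P.1 ^ 3 + (m : ZMod p)} + 1 := by
    rw [Nat.card_congr (ptEquivE0 h), Nat.card_eq_fintype_card, Fintype.card_option,
      Nat.card_eq_fintype_card]
  rw [apOfModel, traceOfFrobenius, card, h1, Nat.card_zmod]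
  push_cast
  ring

/-- `a_p = 0` for `p ≡ 2 mod 3` -/
theorem ap_E0_of_two (h1 : p % 3 = 2) (h : ¬ (p : ℤ) ∣ 6 * m) : (E0 m).apOfModel p = 0 := by
  rw [ap_E0 h, sub_eq_zero]
  have h4 : Nat.card {P : ZMod p × ZMod p // P.2 ^ 2 = P.1 ^ 3 + (m : ZMod p)} = p := by
    have e := Nat.card_eq_of_bijective
      (fun P : {P : ZMod p × ZMod p // P.2 ^ 2 = P.1 ^ 3 + (m : ZMod p)} => P.1.2) ?_
    · rw [e, Nat.card_zmod]
    · constructor
      · rintro ⟨⟨x, y⟩, h⟩ ⟨⟨x', y'⟩, h'⟩ hy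
        simp only at h h' hy
        subst hy
        have h5 : x ^ 3 = x' ^ 3 := by linear_combination h' - h
        have h6 := (cube_bijective h1).1 h5
        subst h6
        rfl
      · intro y
        obtain ⟨x, hx⟩ := (cube_bijective h1).2 (y ^ 2 - (m : ZMod p))
        simp only at hx
        exact ⟨⟨(x, y), by linear_combination -hx⟩, rfl⟩
  rw [h4]

end Fermat.Agent.Cor.SectK
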