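import Fermat.Agent.Corollaries.SectK.HeckeEqui
import Fermat.Agent.Corollaries.ZetaK.ClassDensity
import Fermat.Agent.Corollaries.ZetaK.PNTAP

/-!
# The Sato-Tate law for coefficients given by a Hecke character

`K` imaginary quadratic, `ψ` a Hecke character modulo `𝔪` of `∞`-type `k ≠ 0`, `a : ℕ → ℝ` such
that, up to finitely many `p`, `a p = 2 √p Re ψ(P)` if `P` is a prime ideal of norm `p`, and
`a p = 0` if there is no such prime ideal. Then the `a p / (2 √p)` are distributed according to the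
measure `(1 / 2) δ_0 + (1 / (2 π)) dt / √(1 - t²)`.
-/

set_option autoImplicit false
set_option linter.unusedSectionVars false

noncomputable section

open NumberField nonZeroDivisors Complex Filter Topology Module

open scoped Classical

namespace Fermat.Agent.Cor.SectK

open Fermat.Agent.ClassL Fermat.Agent.Cor.Ray Fermat.Agent.Classic.Zeta

variable {K : Type} [Field K] [NumberField K]

/-- exactly two prime ideals of norm `p`, if there is one and `p` is unramified -/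
theorem card_norm_eq (h2 : finrank ℚ K = 2) {p : ℕ} (hp : p.Prime)
    (hpd : ¬ p ∣ (discr K).natAbs) {P : Pr K} (hP : nP P = p) {F : Finset (Pr K)}
    (hF : ∀ Q, Q ∈ F ↔ nP Q = p) : F.card = 2 := by
  obtain ⟨Q, hQ, -, hPQ, hall⟩ := exists_conj_prime h2 hp hP
  have hne : P ≠ Q := by
    rintro rfl
    exact span_ne_mul_self hpd hP hp hPQ
  have h1 : F = {P, Q} := by
    ext R
    rw [hF, Finset.mem_insert, Finset.mem_singleton]
    constructor
    · exact hall R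
    · rintro (rfl | rfl)
      · exact hP
      · exact hQ
  rw [h1, Finset.card_pair hne]

section

variable {𝔪 : Ideal (𝓞 K)} (h𝔪 : 𝔪 ≠ ⊥) (S : Finset ℕ)

/-- the bad primes: `S`, the ramified ones and those dividing `𝔪` -/
def badS : Finset ℕ :=
  S ∪ (discr K).natAbs.primeFactors ∪ (finite_bad h𝔪).toFinset.image nP

theorem notMem_badS {p : ℕ} (hp : p.Prime) (h : p ∉ badS h𝔪 S) :
    p ∉ S ∧ ¬ p ∣ (discr K).natAbs ∧
      ∀ P : Pr K, nP P = p → IsCoprime ((P.1 : (Ideal (𝓞 K))⁰) : Ideal (𝓞 K)) 𝔪 := by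
  rw [badS, Finset.mem_union, Finset.mem_union, not_or, not_or] at h
  obtain ⟨⟨h1, h2⟩, h3⟩ := h
  refine ⟨h1, fun hd => h2 ?_, fun P hP => ?_⟩
  · rw [Nat.mem_primeFactors]
    exact ⟨hp, hd, Int.natAbs_ne_zero.2 (discr_ne_zero K)⟩
  · by_contra hc
    refine h3 (Finset.mem_image.2 ⟨P, ?_, hP⟩)
    rw [Set.Finite.mem_toFinset]
    exact hc

/-- the good prime ideals of degree one and norm `≤ x` -/
def goodP (x : ℕ) : Finset (Pr K) := (prLe K x).filter fun P => (nP P).Prime ∧ nP P ∉ badS h𝔪 S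

theorem mem_goodP {x : ℕ} {P : Pr K} :
    P ∈ goodP h𝔪 S x ↔ nP P ≤ x ∧ (nP P).Prime ∧ nP P ∉ badS h𝔪 S := by
  rw [goodP, Finset.mem_filter, mem_prLe]
  rfl

/-- the good split primes `≤ x` -/
def goodN (x : ℕ) : Finset ℕ := (goodP h𝔪 S x).image nP

theorem mem_goodN {x p : ℕ} :
    p ∈ goodN h𝔪 S x ↔ p.Prime ∧ p ≤ x ∧ p ∉ badS h𝔪 S ∧ ∃ P : Pr K, nP P = p := by
  rw [goodN, Finset.mem_image]
  constructor
  · rintro ⟨P, hP, rfl⟩
    rw [mem_goodP] at hP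
    exact ⟨hP.2.1, hP.1, hP.2.2, P, rfl⟩
  · rintro ⟨h1, h2, h3, P, rfl⟩
    exact ⟨P, (mem_goodP h𝔪 S).2 ⟨h2, h1, h3⟩, rfl⟩

theorem finite_badP : {P : Pr K | nP P ∈ badS h𝔪 S}.Finite := by
  refine (finite_nP K ((badS h𝔪 S).sup id)).subset fun P hP => ?_
  exact Finset.le_sup (f := id) hP

/-- counting the good split primes twice -/
theorem card_goodP (h2 : finrank ℚ K = 2) {r : ℕ → ℝ} {ψ : (Ideal (𝓞 K))⁰ →* ℂ}
    (hr : ∀ P : Pr K, (nP P).Prime → nP P ∉ badS h𝔪 S → r (nP P) = (ψ P.1).re) (α β : ℝ) (x : ℕ) :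
    ((goodP h𝔪 S x).filter fun P => α ≤ (ψ P.1).re ∧ (ψ P.1).re ≤ β).card =
      2 * ((goodN h𝔪 S x).filter fun p => α ≤ r p ∧ r p ≤ β).card := by
  rw [Finset.card_eq_sum_card_fiberwise (f := nP)
    (t := (goodN h𝔪 S x).filter fun p => α ≤ r p ∧ r p ≤ β)]
  · rw [Finset.sum_congr rfl (g := fun _ => 2), Finset.sum_const, smul_eq_mul, mul_comm]
    intro p hp
    rw [Finset.mem_filter, mem_goodN] at hp
    obtain ⟨⟨h3, h4, h5, P, hP⟩, h6⟩ := hp
    refine card_norm_eq h2 h3 (notMem_badS h𝔪 S h3 h5).2.1 hP fun Q => ?_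
    rw [Finset.mem_filter, Finset.mem_filter, mem_goodP]
    constructor
    · exact fun h => h.2
    · intro h
      have h7 : (nP Q).Prime := by rw [h]; exact h3
      have h8 : nP Q ∉ badS h𝔪 S := by rw [h]; exact h5
      refine ⟨⟨⟨by rw [h]; exact h4, h7, h8⟩, ?_⟩, h⟩
      rw [← hr Q h7 h8, h]
      exact h6
  · intro P hP
    rw [Finset.mem_coe, Finset.mem_filter, mem_goodP] at hP
    rw [Finset.mem_coe, Finset.mem_filter, mem_goodN]
    refine ⟨⟨hP.1.2.1, hP.1.1, hP.1.2.2, P, rfl⟩, ?_⟩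
    rw [hr P hP.1.2.1 hP.1.2.2]
    exact hP.2

end

section

variable (h : ContStmt K) (hc : IsTotallyComplex K) (h2 : finrank ℚ K = 2)
  {σ : K →+* ℂ} {𝔪 : Ideal (𝓞 K)} (h𝔪 : 𝔪 ≠ ⊥) {k : ℤ} (hk : k ≠ 0)
  {ψ : (Ideal (𝓞 K))⁰ →* ℂ} (hψ : HChar σ 𝔪 k ψ) (S : Finset ℕ)

include h hc h2 h𝔪 hk hψ

theorem tendsto_goodP {α β : ℝ} (hα : -1 ≤ α) (hαβ : α ≤ β) (hβ : β ≤ 1) :
    Tendsto (fun x : ℕ => (((goodP h𝔪 S x).filter fun P =>
      α ≤ (ψ P.1).re ∧ (ψ P.1).re ≤ β).card : ℝ) * Real.log x / x) atTop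
      (𝓝 ((Real.arccos α - Real.arccos β) / Real.pi)) := by
  obtain ⟨D, hD⟩ := exists_isCountC 𝔪
  have h1 := tendsto_re h hc h2 h𝔪 hk hψ hD hα hαβ hβ
  have h3 : Tendsto (fun x : ℕ => (((hD.F x).filter fun P =>
      α ≤ (ψ P.1.1).re ∧ (ψ P.1.1).re ≤ β).card : ℝ) * Real.log x / x) atTop
      (𝓝 ((Real.arccos α - Real.arccos β) / Real.pi)) := h1.congr fun x => by ring
  refine qd_tendsto_of_bounded (A := finrank ℚ K)
    (B := finrank ℚ K + (finite_badP h𝔪 S).toFinset.card) (fun x => ?_) h3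
  set H : Finset (Pr K) := ((hD.F x).filter fun P =>
      α ≤ (ψ P.1.1).re ∧ (ψ P.1.1).re ≤ β).image fun P => P.1 with hH
  have e1 : ((hD.F x).filter fun P =>
      α ≤ (ψ P.1.1).re ∧ (ψ P.1.1).re ≤ β).card = H.card :=
    (Finset.card_image_of_injective _ Subtype.val_injective).symm
  have hmem : ∀ P : Pr K, P ∈ H ↔ IsCoprime ((P.1 : (Ideal (𝓞 K))⁰) : Ideal (𝓞 K)) 𝔪 ∧
      nP P ≤ x ∧ α ≤ (ψ P.1).re ∧ (ψ P.1).re ≤ β := by
    intro P
    rw [hH, Finset.mem_image]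
    constructor
    · rintro ⟨Q, hQ, rfl⟩
      rw [Finset.mem_filter, hD.mem_F] at hQ
      exact ⟨Q.2, hQ⟩
    · rintro ⟨h4, h5⟩
      exact ⟨⟨P, h4⟩, by rw [Finset.mem_filter, hD.mem_F]; exact h5, rfl⟩
  set G : Finset (Pr K) := (goodP h𝔪 S x).filter fun P =>
      α ≤ (ψ P.1).re ∧ (ψ P.1).re ≤ β with hG
  have hGH : G ⊆ H := by
    intro P hP
    rw [hG, Finset.mem_filter, mem_goodP] at hP
    exact (hmem P).2 ⟨(notMem_badS h𝔪 S hP.1.2.1 hP.1.2.2).2.2 P rfl, hP.1.1, hP.2⟩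
  have hsub : H \ G ⊆ ((prLe K x).filter fun P =>
      ¬ (Ideal.absNorm (P.1 : Ideal (𝓞 K))).Prime) ∪ (finite_badP h𝔪 S).toFinset := by
    intro P hP
    rw [Finset.mem_sdiff, hmem, hG, Finset.mem_filter, mem_goodP] at hP
    obtain ⟨⟨h4, h5, h6⟩, h7⟩ := hP
    rw [Finset.mem_union, Finset.mem_filter, mem_prLe, Set.Finite.mem_toFinset]
    by_cases h8 : (nP P).Prime
    · right
      by_contra h9
      exact h7 ⟨⟨h5, h8, h9⟩, h6⟩
    · left
      exact ⟨h5, h8⟩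
  have h4 : H.card = G.card + (H \ G).card := by
    rw [Finset.card_sdiff_of_subset hGH]
    have := Finset.card_le_card hGH
    omega
  have h5 : (H \ G).card ≤ finrank ℚ K * (Nat.sqrt x + 1) + (finite_badP h𝔪 S).toFinset.card :=
    (Finset.card_le_card hsub).trans ((Finset.card_union_le _ _).trans
      (Nat.add_le_add_right (card_deg_two_le x) _))
  rw [e1, h4]
  push_cast
  rw [add_sub_cancel_left, abs_of_nonneg (Nat.cast_nonneg _)]
  have h6 : ((H \ G).card : ℝ) ≤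
      finrank ℚ K * (Nat.sqrt x + 1) + (finite_badP h𝔪 S).toFinset.card := by exact_mod_cast h5
  linarith

theorem tendsto_goodN {r : ℕ → ℝ}
    (hr : ∀ P : Pr K, (nP P).Prime → nP P ∉ badS h𝔪 S → r (nP P) = (ψ P.1).re) {α β : ℝ}
    (hα : -1 ≤ α) (hαβ : α ≤ β) (hβ : β ≤ 1) :
    Tendsto (fun x : ℕ => (((goodN h𝔪 S x).filter fun p => α ≤ r p ∧ r p ≤ β).card : ℝ) *
      Real.log x / x) atTop (𝓝 ((Real.arccos α - Real.arccos β) / (2 * Real.pi))) := by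
  have h1 := (tendsto_goodP h hc h2 h𝔪 hk hψ S hα hαβ hβ).const_mul (1 / 2)
  have h3 : (1 / 2 : ℝ) * ((Real.arccos α - Real.arccos β) / Real.pi) =
      (Real.arccos α - Real.arccos β) / (2 * Real.pi) := by
    have := Real.pi_ne_zero
    field_simp
  rw [h3] at h1
  refine h1.congr fun x => ?_
  rw [card_goodP h𝔪 S h2 hr]
  push_cast
  ring

/-- half of the primes split -/
theorem tendsto_card_goodN :
    Tendsto (fun x : ℕ => ((goodN h𝔪 S x).card : ℝ) * Real.log x / x) atTop (𝓝 (1 / 2)) := by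
  have key : ∀ P : Pr K, (nP P).Prime → nP P ∉ badS h𝔪 S →
      -1 ≤ (ψ P.1).re ∧ (ψ P.1).re ≤ 1 := by
    intro P h3 h4
    have h5 := hψ.norm_eq P.1 ((notMem_badS h𝔪 S h3 h4).2.2 P rfl)
    have h6 := Complex.abs_re_le_norm (ψ P.1)
    rw [h5, abs_le] at h6
    exact h6
  have h1 := (tendsto_goodP h hc h2 h𝔪 hk hψ S (α := -1) (β := 1) le_rfl (by norm_num)
    le_rfl).const_mul (1 / 2)
  have h3 : (1 / 2 : ℝ) * ((Real.arccos (-1) - Real.arccos 1) / Real.pi) = 1 / 2 := by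
    rw [Real.arccos_neg_one, Real.arccos_one, sub_zero, div_self Real.pi_ne_zero, mul_one]
  rw [h3] at h1
  refine h1.congr fun x => ?_
  have h4 : ((goodP h𝔪 S x).filter fun P => -1 ≤ (ψ P.1).re ∧ (ψ P.1).re ≤ 1) =
      (goodP h𝔪 S x).filter fun P => (-1 : ℝ) ≤ ((1 : (Ideal (𝓞 K))⁰ →* ℂ) P.1).re ∧
        ((1 : (Ideal (𝓞 K))⁰ →* ℂ) P.1).re ≤ 1 := by
    refine Finset.filter_congr fun P hP => ?_
    rw [mem_goodP] at hP
    simp [key P hP.2.1 hP.2.2]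
  have h5 := card_goodP h𝔪 S h2 (r := fun _ => 1) (ψ := (1 : (Ideal (𝓞 K))⁰ →* ℂ))
    (fun P _ _ => by simp) (-1) 1 x
  have h6 : ((goodN h𝔪 S x).filter fun p => (-1 : ℝ) ≤ (fun _ => (1 : ℝ)) p ∧
      (fun _ => (1 : ℝ)) p ≤ 1) = goodN h𝔪 S x := by
    refine Finset.filter_true_of_mem fun p _ => ?_
    norm_num
  rw [h4, h5, h6]
  push_cast
  ring

omit h hc h2 hk hψ in
/-- the good primes which do not split -/
def inertN (x : ℕ) : Finset ℕ :=
  ((Finset.Icc 1 x).filter fun p => p.Prime ∧ p ∉ badS h𝔪 S) \ goodN h𝔪 S x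

omit h hc h2 hk hψ in
theorem mem_inertN {x p : ℕ} :
    p ∈ inertN h𝔪 S x ↔ p.Prime ∧ p ≤ x ∧ p ∉ badS h𝔪 S ∧ ∀ P : Pr K, nP P ≠ p := by
  rw [inertN, Finset.mem_sdiff, Finset.mem_filter, Finset.mem_Icc, mem_goodN]
  constructor
  · rintro ⟨⟨⟨-, h1⟩, h3, h4⟩, h5⟩
    exact ⟨h3, h1, h4, fun P hP => h5 ⟨h3, h1, h4, P, hP⟩⟩
  · rintro ⟨h1, h3, h4, h5⟩
    refine ⟨⟨⟨h1.one_le, h3⟩, h1, h4⟩, ?_⟩
    rintro ⟨-, -, -, P, hP⟩
    exact h5 P hP

theorem tendsto_card_inertN :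
    Tendsto (fun x : ℕ => ((inertN h𝔪 S x).card : ℝ) * Real.log x / x) atTop (𝓝 (1 / 2)) := by
  have h1 : Tendsto (fun x : ℕ => (((Finset.Icc 1 x).filter Nat.Prime).card : ℝ) *
      Real.log x / x) atTop (𝓝 1) := by
    have h3 := prime_number_theorem_ap_nat (q := 1) (a := 1) isUnit_one
    rw [Nat.totient_one, Nat.cast_one, inv_one] at h3
    refine h3.congr fun x => ?_
    congr 4
    refine Finset.filter_congr fun p _ => ?_
    exact ⟨fun h4 => h4.1, fun h4 => ⟨h4, Subsingleton.elim _ _⟩⟩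
  have h3 := h1.sub (tendsto_card_goodN h hc h2 h𝔪 hk hψ S)
  rw [show (1 : ℝ) - 1 / 2 = 1 / 2 by norm_num] at h3
  have h4 : Tendsto (fun x : ℕ => ((((Finset.Icc 1 x).filter Nat.Prime).card : ℝ) -
      (goodN h𝔪 S x).card) * Real.log x / x) atTop (𝓝 (1 / 2)) := h3.congr fun x => by ring
  refine qd_tendsto_of_bounded (A := 0) (B := (badS h𝔪 S).card) (fun x => ?_) h4
  have h5 : goodN h𝔪 S x ⊆ (Finset.Icc 1 x).filter fun p => p.Prime ∧ p ∉ badS h𝔪 S := by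
    intro p hp
    rw [mem_goodN] at hp
    rw [Finset.mem_filter, Finset.mem_Icc]
    exact ⟨⟨hp.1.one_le, hp.2.1⟩, hp.1, hp.2.2.1⟩
  have h6 : (inertN h𝔪 S x).card + (goodN h𝔪 S x).card =
      ((Finset.Icc 1 x).filter fun p => p.Prime ∧ p ∉ badS h𝔪 S).card := by
    rw [inertN, Finset.card_sdiff_add_card_eq_card h5]
  have h7 : ((Finset.Icc 1 x).filter fun p => p.Prime ∧ p ∉ badS h𝔪 S).card ≤
      ((Finset.Icc 1 x).filter Nat.Prime).card := by
    refine Finset.card_le_card fun p hp => ?_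
    rw [Finset.mem_filter] at hp ⊢
    exact ⟨hp.1, hp.2.1⟩
  have h8 : ((Finset.Icc 1 x).filter Nat.Prime).card ≤
      ((Finset.Icc 1 x).filter fun p => p.Prime ∧ p ∉ badS h𝔪 S).card + (badS h𝔪 S).card := by
    refine le_trans (Finset.card_le_card fun p hp => ?_) (Finset.card_union_le _ _)
    rw [Finset.mem_filter] at hp
    rw [Finset.mem_union, Finset.mem_filter]
    by_cases h9 : p ∈ badS h𝔪 S
    · exact Or.inr h9
    · exact Or.inl ⟨hp.1, hp.2, h9⟩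
  have h9 : ((inertN h𝔪 S x).card : ℝ) + (goodN h𝔪 S x).card =
      ((Finset.Icc 1 x).filter fun p => p.Prime ∧ p ∉ badS h𝔪 S).card := by exact_mod_cast h6
  have h7' : (((Finset.Icc 1 x).filter fun p => p.Prime ∧ p ∉ badS h𝔪 S).card : ℝ) ≤
      ((Finset.Icc 1 x).filter Nat.Prime).card := by exact_mod_cast h7
  have h8' : (((Finset.Icc 1 x).filter Nat.Prime).card : ℝ) ≤
      ((Finset.Icc 1 x).filter fun p => p.Prime ∧ p ∉ badS h𝔪 S).card + (badS h𝔪 S).card := by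
    exact_mod_cast h8
  rw [abs_le]
  constructor <;> linarith

/-- **The Sato-Tate law for coefficients given by a Hecke character**, from the continuation of the
`L`-functions. -/
theorem satoTate_of_cont {a : ℕ → ℝ}
    (hsplit : ∀ P : Pr K, (nP P).Prime → nP P ∉ S →
      a (nP P) = 2 * Real.sqrt (nP P) * (ψ P.1).re)
    (hinert : ∀ p : ℕ, p.Prime → p ∉ S → (∀ P : Pr K, nP P ≠ p) → a p = 0) {α β : ℝ}
    (hα : -1 ≤ α) (hαβ : α ≤ β) (hβ : β ≤ 1) :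
    Tendsto (fun x : ℕ => (Nat.card {p : ℕ // p.Prime ∧ p ∉ S ∧ p ≤ x ∧
      α ≤ a p / (2 * Real.sqrt p) ∧ a p / (2 * Real.sqrt p) ≤ β} : ℝ) * Real.log x / x) atTop
      (𝓝 ((if α ≤ 0 ∧ 0 ≤ β then 1 / 2 else 0) +
        (Real.arccos α - Real.arccos β) / (2 * Real.pi))) := by
  set r : ℕ → ℝ := fun p => a p / (2 * Real.sqrt p) with hrdef
  have hr : ∀ P : Pr K, (nP P).Prime → nP P ∉ badS h𝔪 S → r (nP P) = (ψ P.1).re := by
    intro P h3 h4
    have h5 := hsplit P h3 (notMem_badS h𝔪 S h3 h4).1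
    have h6 : (0 : ℝ) < nP P := by exact_mod_cast h3.pos
    have h7 : 2 * Real.sqrt (nP P) ≠ 0 := by positivity
    simp only [hrdef]
    rw [h5, mul_div_cancel_left₀ _ h7]
  have t1 := tendsto_goodN h hc h2 h𝔪 hk hψ S hr hα hαβ hβ
  have t2 := tendsto_card_inertN h hc h2 h𝔪 hk hψ S
  have t3 : Tendsto (fun x : ℕ => ((if α ≤ 0 ∧ 0 ≤ β then ((inertN h𝔪 S x).card : ℝ) else 0) +
      (((goodN h𝔪 S x).filter fun p => α ≤ r p ∧ r p ≤ β).card : ℝ)) * Real.log x / x) atTop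
      (𝓝 ((if α ≤ 0 ∧ 0 ≤ β then 1 / 2 else 0) +
        (Real.arccos α - Real.arccos β) / (2 * Real.pi))) := by
    by_cases h0 : α ≤ 0 ∧ 0 ≤ β
    · simp only [if_pos h0]
      refine (t2.add t1).congr fun x => ?_
      ring
    · simp only [if_neg h0, zero_add]
      exact t1
  refine qd_tendsto_of_bounded (A := 0) (B := (badS h𝔪 S).card) (fun x => ?_) t3
  set M : Finset ℕ := (Finset.Icc 1 x).filter fun p => p.Prime ∧ p ∉ S ∧ α ≤ r p ∧ r p ≤ β with hM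
  have e1 : Nat.card {p : ℕ // p.Prime ∧ p ∉ S ∧ p ≤ x ∧ α ≤ r p ∧ r p ≤ β} = M.card := by
    rw [← Nat.card_eq_finsetCard]
    refine Nat.card_congr (Equiv.subtypeEquivRight fun p => ?_)
    rw [hM, Finset.mem_filter, Finset.mem_Icc]
    exact ⟨fun h3 => ⟨⟨h3.1.one_le, h3.2.2.1⟩, h3.1, h3.2.1, h3.2.2.2⟩,
      fun h3 => ⟨h3.2.1, h3.2.2.1, h3.1.2, h3.2.2.2⟩⟩
  have e2 : (M.filter fun p => p ∉ badS h𝔪 S) =
      (if α ≤ 0 ∧ 0 ≤ β then inertN h𝔪 S x else ∅) ∪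
        (goodN h𝔪 S x).filter fun p => α ≤ r p ∧ r p ≤ β := by
    ext p
    rw [Finset.mem_filter, hM, Finset.mem_filter, Finset.mem_Icc, Finset.mem_union,
      Finset.mem_filter, mem_goodN]
    have h0 : (∀ P : Pr K, nP P ≠ p) → p.Prime → p ∉ badS h𝔪 S → r p = 0 := by
      intro h3 h4 h5
      simp only [hrdef]
      rw [hinert p h4 (notMem_badS h𝔪 S h4 h5).1 h3, zero_div]
    constructor
    · rintro ⟨⟨⟨h3, h4⟩, h5, h6, h7⟩, h8⟩
      by_cases h9 : ∃ P : Pr K, nP P = p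
      · exact Or.inr ⟨⟨h5, h4, h8, h9⟩, h7⟩
      · left
        have h10 : ∀ P : Pr K, nP P ≠ p := fun P hP => h9 ⟨P, hP⟩
        rw [h0 h10 h5 h8] at h7
        rw [if_pos h7, mem_inertN]
        exact ⟨h5, h4, h8, h10⟩
    · rintro (h3 | ⟨⟨h3, h4, h5, h6⟩, h7⟩)
      · split_ifs at h3 with h4
        · rw [mem_inertN] at h3
          obtain ⟨h5, h6, h7, h8⟩ := h3
          refine ⟨⟨⟨h5.one_le, h6⟩, h5, (notMem_badS h𝔪 S h5 h7).1, ?_⟩, h7⟩
          rw [h0 h8 h5 h7]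
          exact h4
        · exact absurd h3 (Finset.notMem_empty p)
      · exact ⟨⟨⟨h3.one_le, h4⟩, h3, (notMem_badS h𝔪 S h3 h5).1, h7⟩, h5⟩
  have e3 : (M.filter fun p => p ∉ badS h𝔪 S).card =
      (if α ≤ 0 ∧ 0 ≤ β then (inertN h𝔪 S x).card else 0) +
        ((goodN h𝔪 S x).filter fun p => α ≤ r p ∧ r p ≤ β).card := by
    rw [e2, Finset.card_union_of_disjoint]
    · split_ifs <;> simp
    · rw [Finset.disjoint_left]
      intro p hp hp'
      rw [Finset.mem_filter, mem_goodN] at hp'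
      split_ifs at hp
      · rw [mem_inertN] at hp
        obtain ⟨P, hP⟩ := hp'.1.2.2.2
        exact hp.2.2.2 P hP
      · exact absurd hp (Finset.notMem_empty p)
  have e4 : M.card = (M.filter fun p => p ∉ badS h𝔪 S).card +
      (M.filter fun p => ¬ p ∉ badS h𝔪 S).card :=
    (Finset.card_filter_add_card_filter_not _).symm
  have e5 : (M.filter fun p => ¬ p ∉ badS h𝔪 S).card ≤ (badS h𝔪 S).card := by
    refine Finset.card_le_card fun p hp => ?_
    rw [Finset.mem_filter, not_not] at hp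
    exact hp.2
  have e6 : ((M.filter fun p => ¬ p ∉ badS h𝔪 S).card : ℝ) ≤ (badS h𝔪 S).card := by
    exact_mod_cast e5
  rw [e1, e4, e3]
  push_cast
  rw [abs_le]
  constructor
  · linarith
  · have : (0 : ℝ) ≤ (M.filter fun p => ¬ p ∉ badS h𝔪 S).card := Nat.cast_nonneg _
    have h0 : (0 : ℝ) ≤ (badS h𝔪 S).card := Nat.cast_nonneg _
    linarith

end

end Fermat.Agent.Cor.SectK
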