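import Fermat.Agent.Corollaries.SectK.Final
import Fermat.Agent.Corollaries.SectK.FermatCubic
import Fermat.Agent.Corollaries.SectK.SatoTateCM

/-!
# Sato-Tate laws with complex multiplication, without hypotheses

* `hecke_equidistribution` : the arguments of the values `ψ(P)` of a Hecke character of infinite
  order of an imaginary quadratic field are equidistributed.
* `sato_tate_of_hecke` : the Sato-Tate law for coefficients given by such a character.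
* `sato_tate_fermat_cubic` : the Sato-Tate law for `E27 : y² = x³ - 432`, the Jacobian of the
  Fermat cubic, all primes; `sato_tate_fermat_cubic_split` : the primes `≡ 1 mod 3`.
* `fermat_cubic_solutions` : the number of solutions of `x³ + y³ = 1` modulo `p ≡ 1 mod 3`.
-/

set_option autoImplicit false

noncomputable section

open NumberField nonZeroDivisors Filter Topology

namespace Fermat.Agent.Cor.SectK

open Fermat.Agent.ClassL

/-- **Hecke's equidistribution theorem**: `K` imaginary quadratic, `ψ` a Hecke character modulo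
`𝔪` of type `k ≠ 0`, `-π ≤ a ≤ b ≤ π`: the number of the prime ideals `P`, prime to `𝔪`, of norm
`≤ x` with `a < arg ψ(P) < b` is asymptotic to `((b - a) / 2π) x / log x`. -/
theorem hecke_equidistribution {K : Type} [Field K] [NumberField K] (hK : IsTotallyComplex K)
    (h2 : Module.finrank ℚ K = 2) {σ : K →+* ℂ} {𝔪 : Ideal (𝓞 K)} (h𝔪 : 𝔪 ≠ ⊥) {k : ℤ}
    (hk : k ≠ 0) {ψ : (Ideal (𝓞 K))⁰ →* ℂ} (hψ : HChar σ 𝔪 k ψ) {a b : ℝ} (ha : -Real.pi ≤ a)
    (hab : a ≤ b) (hb : b ≤ Real.pi) :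
    Tendsto (fun x : ℕ => (Nat.card {P : Pr K //
      IsCoprime ((P.1 : (Ideal (𝓞 K))⁰) : Ideal (𝓞 K)) 𝔪 ∧
      Ideal.absNorm ((P.1 : (Ideal (𝓞 K))⁰) : Ideal (𝓞 K)) ≤ x ∧
      a < (ψ P.1).arg ∧ (ψ P.1).arg < b} : ℝ) * Real.log x / x) atTop
      (𝓝 ((b - a) / (2 * Real.pi))) := by
  classical
  have hpi := Real.pi_pos
  obtain ⟨D, hD⟩ := exists_isCountC 𝔪
  have h1 := (tendsto_theta (contStmt K) hK h2 h𝔪 hk hψ hD
    (a := (a + Real.pi) / (2 * Real.pi)) (b := (b + Real.pi) / (2 * Real.pi))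
    (div_nonneg (by linarith) (by linarith))
    (div_le_div_of_nonneg_right (by linarith) (by linarith))
    ((div_le_one (by linarith)).2 (by linarith))).1
  have e1 : (b + Real.pi) / (2 * Real.pi) - (a + Real.pi) / (2 * Real.pi) =
      (b - a) / (2 * Real.pi) := by
    rw [← sub_div]
    congr 1
    ring
  rw [e1] at h1
  refine h1.congr fun x => ?_
  have e2 : Nat.card {P : Pr K //
      IsCoprime ((P.1 : (Ideal (𝓞 K))⁰) : Ideal (𝓞 K)) 𝔪 ∧
      Ideal.absNorm ((P.1 : (Ideal (𝓞 K))⁰) : Ideal (𝓞 K)) ≤ x ∧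
      a < (ψ P.1).arg ∧ (ψ P.1).arg < b} = ((hD.F x).filter fun P =>
        (a + Real.pi) / (2 * Real.pi) < theta (ψ P.1.1) ∧
          theta (ψ P.1.1) < (b + Real.pi) / (2 * Real.pi)).card := by
    rw [← Finset.card_image_of_injective _ (Subtype.val_injective : Function.Injective
      fun P : PrC 𝔪 => P.1), ← Nat.card_eq_finsetCard]
    refine Nat.card_congr (Equiv.subtypeEquivRight fun P => ?_)
    rw [Finset.mem_image]
    constructor
    · rintro ⟨h3, h4, h5⟩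
      refine ⟨⟨P, h3⟩, ?_, rfl⟩
      rw [Finset.mem_filter, hD.mem_F, theta_iff ha hb]
      exact ⟨h4, h5⟩
    · rintro ⟨Q, hQ, rfl⟩
      rw [Finset.mem_filter, hD.mem_F, theta_iff ha hb] at hQ
      exact ⟨Q.2, hQ⟩
  rw [e2]
  ring

/-- **The Sato-Tate law for coefficients given by a Hecke character of infinite order.** `K`
imaginary quadratic, `ψ` a Hecke character modulo `𝔪` of type `k ≠ 0`, `a : ℕ → ℝ` with
`a p = 2 √p Re ψ(P)` if `P` is a prime ideal of norm `p ∉ S`, and `a p = 0` if `p ∉ S` is not the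
norm of a prime ideal. Then `a p / (2 √p)` has the distribution `(1/2) δ₀ + dt / (2π √(1 - t²))`. -/
theorem sato_tate_of_hecke {K : Type} [Field K] [NumberField K] (hK : IsTotallyComplex K)
    (h2 : Module.finrank ℚ K = 2) {σ : K →+* ℂ} {𝔪 : Ideal (𝓞 K)} (h𝔪 : 𝔪 ≠ ⊥) {k : ℤ}
    (hk : k ≠ 0) {ψ : (Ideal (𝓞 K))⁰ →* ℂ} (hψ : HChar σ 𝔪 k ψ) (S : Finset ℕ) {a : ℕ → ℝ}
    (hsplit : ∀ (p : ℕ) (P : Pr K), p.Prime → p ∉ S →
      Ideal.absNorm ((P.1 : (Ideal (𝓞 K))⁰) : Ideal (𝓞 K)) = p →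
        a p = 2 * Real.sqrt p * (ψ P.1).re)
    (hinert : ∀ p : ℕ, p.Prime → p ∉ S →
      (∀ P : Pr K, Ideal.absNorm ((P.1 : (Ideal (𝓞 K))⁰) : Ideal (𝓞 K)) ≠ p) → a p = 0)
    {α β : ℝ} (hα : -1 ≤ α) (hαβ : α ≤ β) (hβ : β ≤ 1) :
    Tendsto (fun x : ℕ => (Nat.card {p : ℕ // p.Prime ∧ p ∉ S ∧ p ≤ x ∧
      α ≤ a p / (2 * Real.sqrt p) ∧ a p / (2 * Real.sqrt p) ≤ β} : ℝ) * Real.log x / x) atTop
      (𝓝 ((if α ≤ 0 ∧ 0 ≤ β then 1 / 2 else 0) +
        (Real.arccos α - Real.arccos β) / (2 * Real.pi))) := by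
  classical
  have h := satoTate_of_cont (contStmt K) hK h2 h𝔪 hk hψ S (a := a)
    (fun P h3 h4 => hsplit _ P h3 h4 rfl) (fun p h3 h4 h5 => hinert p h3 h4 h5) hα hαβ hβ
  convert h using 4

/-- the field of third roots of unity -/
theorem cubicStmt : CubicStmt := by
  have : NeZero ((3 : ℕ) : ℚ) := ⟨by norm_num⟩
  have : IsCyclotomicExtension {3} ℚ (CyclotomicField 3 ℚ) :=
    CyclotomicField.isCyclotomicExtension 3 ℚ
  exact cubicStmt_of (K := CyclotomicField 3 ℚ) (sectorStmt _)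

/-- **The Sato-Tate law for the Fermat cubic** (its Jacobian is `E27 : y² = x³ - 432`), all
primes. -/
theorem sato_tate_fermat_cubic {α β : ℝ} (hα : -1 ≤ α) (hαβ : α ≤ β) (hβ : β ≤ 1) :
    Tendsto (fun x : ℕ => (Nat.card {p : ℕ // p.Prime ∧ p ≠ 2 ∧ p ≠ 3 ∧ p ≤ x ∧
      α ≤ (E27.apOfModel p : ℝ) / (2 * Real.sqrt p) ∧
      (E27.apOfModel p : ℝ) / (2 * Real.sqrt p) ≤ β} : ℝ) * Real.log x / x) atTop
      (𝓝 ((if α ≤ 0 ∧ 0 ≤ β then 1 / 2 else 0) +
        (Real.arccos α - Real.arccos β) / (2 * Real.pi))) := by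
  have h := sato_tate_cubic_of cubicStmt hα hαβ hβ
  simp only [cP] at h
  convert h using 4

/-- the primes `≡ 1 mod 3` -/
theorem sato_tate_fermat_cubic_split {α β : ℝ} (hα : -1 ≤ α) (hαβ : α ≤ β) (hβ : β ≤ 1) :
    Tendsto (fun x : ℕ => (Nat.card {p : ℕ // p.Prime ∧ p ≤ x ∧ p % 3 = 1 ∧
      α < (E27.apOfModel p : ℝ) / (2 * Real.sqrt p) ∧
      (E27.apOfModel p : ℝ) / (2 * Real.sqrt p) < β} : ℝ) * Real.log x / x) atTop
      (𝓝 ((Real.arccos α - Real.arccos β) / (2 * Real.pi))) :=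
  cubicStmt α β hα hαβ hβ

/-- **The number of solutions of `x³ + y³ = 1` modulo a prime `p ≡ 1 mod 3`** is
`p - 2 - 2 √p cos θ_p`, and `cos θ_p` has the distribution `dt / (π √(1 - t²))`. -/
theorem fermat_cubic_solutions {α β : ℝ} (hα : -1 ≤ α) (hαβ : α ≤ β) (hβ : β ≤ 1) :
    Tendsto (fun x : ℕ => (Nat.card {p : ℕ // p.Prime ∧ p % 3 = 1 ∧ p ≤ x ∧
      α ≤ (p - 2 - (Nat.card {P : ZMod p × ZMod p // P.1 ^ 3 + P.2 ^ 3 = 1} : ℝ)) /
        (2 * Real.sqrt p) ∧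
      (p - 2 - (Nat.card {P : ZMod p × ZMod p // P.1 ^ 3 + P.2 ^ 3 = 1} : ℝ)) /
        (2 * Real.sqrt p) ≤ β} : ℝ) * Real.log x / x) atTop
      (𝓝 ((Real.arccos α - Real.arccos β) / (2 * Real.pi))) :=
  solutions_of cubicStmt hα hαβ hβ

end Fermat.Agent.Cor.SectK
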