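import Fermat.Agent.Corollaries.SectK.JzJac
import Fermat.Agent.Corollaries.SectK.JzCount
import Fermat.Agent.Corollaries.SectK.JzCurve
import Fermat.Agent.Corollaries.SectK.SatoTate

/-!
# The Sato-Tate law for all elliptic curves over `ℚ` with `j = 0`: `y² = x³ + m`

* `ap_E0_eq` : `a_p = 2 Re ((m / p) (4 m / π)₃ π)` for `p = N π`, `π ≡ 1 mod 3`, `p ∤ 6 m`
  (Gauss, Eisenstein, Davenport-Hasse).
* `sato_tate_jzero` : the Sato-Tate law for `y² = x³ + m`, `m ≠ 0`.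
-/

set_option autoImplicit false
set_option linter.unusedSectionVars false

noncomputable section

namespace Fermat.Agent.Cor.SectK

open NumberField nonZeroDivisors IsDedekindDomain Filter Topology Fermat.Agent.ClassL
open Fermat.Agent.Cor.Recip
open scoped NumberTheorySymbols

namespace Jz

variable {K : Type} [Field K] [NumberField K] {σ : K →+* ℂ} {η : 𝓞 K}

/-- the primes `p ≡ 1 mod 3` are norms of prime ideals -/
theorem exists_pr (h : EisDat σ η) {p : ℕ} (hp : p.Prime) (hp3 : p % 3 = 1) :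
    ∃ P : Pr K, Ideal.absNorm ((P.1 : (Ideal (𝓞 K))⁰) : Ideal (𝓞 K)) = p := by
  have : Fact p.Prime := ⟨hp⟩
  obtain ⟨L, ⟨hL, M, hM⟩, -⟩ := Diary.existsUnique_four_mul (p := p) hp3
  have h5 : (3 * M - L) % 2 = 0 := by
    have h6 : (L ^ 2 + 27 * M ^ 2) % 2 = 0 := by omega
    rcases Int.even_or_odd' L with ⟨l, rfl | rfl⟩ <;>
      rcases Int.even_or_odd' M with ⟨n, rfl | rfl⟩
    · omega
    · exfalso
      have h7 : (2 * l) ^ 2 + 27 * (2 * n + 1) ^ 2 =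
          2 * (2 * l ^ 2 + 54 * n ^ 2 + 54 * n + 13) + 1 := by ring
      omega
    · exfalso
      have h7 : (2 * l + 1) ^ 2 + 27 * (2 * n) ^ 2 =
          2 * (2 * l ^ 2 + 2 * l + 54 * n ^ 2) + 1 := by ring
      omega
    · omega
  obtain ⟨s, hs⟩ : ∃ s, 3 * M - L = 2 * s := ⟨(3 * M - L) / 2, by omega⟩
  have hN : (Algebra.norm ℤ (s + (3 * M : ℤ) * η : 𝓞 K)).natAbs = p := by
    have h6 := h.four_norm (s := s) (m := M)
    have h7 : 3 * M - 2 * s = L := by linarith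
    rw [h7, ← hM] at h6
    have h8 : ((Algebra.norm ℤ (s + (3 * M : ℤ) * η : 𝓞 K)).natAbs : ℤ) = (p : ℤ) := by
      linarith
    exact_mod_cast Nat.cast_injective (R := ℤ) h8
  have hπ : Prime (s + (3 * M : ℤ) * η : 𝓞 K) := EisDat.prime_of_norm h (by rw [hN]; exact hp)
  have hne : (Ideal.span {(s + (3 * M : ℤ) * η : 𝓞 K)}) ≠ ⊥ := by
    rw [Ne, Ideal.span_singleton_eq_bot]
    exact hπ.ne_zero
  have hpr : (Ideal.span {(s + (3 * M : ℤ) * η : 𝓞 K)}).IsPrime :=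
    (Ideal.span_singleton_prime hπ.ne_zero).2 hπ
  refine ⟨⟨⟨_, mem_nonZeroDivisors_of_ne_zero hne⟩, Ideal.prime_of_isPrime hne hpr⟩, ?_⟩
  change Ideal.absNorm (Ideal.span {(s + (3 * M : ℤ) * η : 𝓞 K)}) = p
  rw [Ideal.absNorm_span_singleton, hN]

/-- `|σ π|² = p` -/
theorem norm_sq_gen (h : EisDat σ η) {v : HeightOneSpectrum (𝓞 K)} {p : ℕ}
    (hv : Ideal.absNorm v.asIdeal = p) {π : 𝓞 K} (hπ : v.asIdeal = Ideal.span {π}) :
    ‖σ (π : K)‖ ^ 2 = p := by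
  obtain ⟨s, t, hst⟩ := h.ex π
  have h2 := h.nat_norm s t
  rw [← hst, ← Ideal.absNorm_span_singleton, ← hπ, hv] at h2
  have h4 := h.norm_sq s t
  rw [← hst] at h4
  rw [h4]
  exact_mod_cast h2.symm

/-- **The trace of Frobenius of `y² = x³ + m`** at a prime `p = N v`, `v = (π)`, `π ≡ 1 mod 3`. -/
theorem ap_E0_eq (h : EisDat σ η) {v : HeightOneSpectrum (𝓞 K)} {p : ℕ} [hp : Fact p.Prime]
    (hv : Ideal.absNorm v.asIdeal = p) {m : ℤ} (hm : ¬ (p : ℤ) ∣ 6 * m) {π : 𝓞 K}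
    (hπ : v.asIdeal = Ideal.span {π}) (hπ3 : π - 1 ∈ Ideal.span {(3 : 𝓞 K)}) :
    ((E0 m).apOfModel p : ℝ) = 2 * Real.sqrt p *
      ((J(m | p) : ℂ) * σ ((resAt 3 η ((4 * m : ℤ) : 𝓞 K) v : 𝓞 K) : K) * ang σ π).re := by
  have h2 : p ≠ 2 := by
    rintro rfl
    exact hm ⟨3 * m, by push_cast; ring⟩
  have hp3 : ((3 : ℤ) : ZMod p) ≠ 0 := by
    rw [Ne, ZMod.intCast_zmod_eq_zero_iff_dvd]
    intro h3
    apply hm
    have h4 : (6 * m : ℤ) = 3 * (2 * m) := by ring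
    rw [h4]
    exact Dvd.dvd.mul_right h3 _
  have h3 : ((3 : ℕ) : 𝓞 K) ∉ v.asIdeal := by
    have h4 := int_notMem hv hp3
    push_cast at h4
    exact h4
  have hm0 : (m : ZMod p) ≠ 0 := by
    rw [Ne, ZMod.intCast_zmod_eq_zero_iff_dvd]
    intro h4
    exact hm (Dvd.dvd.mul_left h4 _)
  have hN := card_jzero (p := p) h2 (chi_ne_one h h3 hv) (chi_pow h h3 hv) hm0
  rw [jacobiSum_chi h h3 hv hπ hπ3] at hN
  have hχ : chi h h3 hv (4 * (m : ZMod p)) =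
      σ ((resAt 3 η ((4 * m : ℤ) : 𝓞 K) v : 𝓞 K) : K) := by
    rw [← chi_int h h3 hv]
    congr 1
    push_cast
    rfl
  rw [hχ] at hN
  have hρ : (quadraticChar (ZMod p) (m : ZMod p) : ℂ) = (J(m | p) : ℂ) := by
    rw [← jacobiSym.legendreSym.to_jacobiSym]
    rfl
  rw [hρ] at hN
  set ρ : ℤ := J(m | p) with hρdef
  set c : ℂ := σ ((resAt 3 η ((4 * m : ℤ) : 𝓞 K) v : 𝓞 K) : K) with hc
  have hap : ((E0 m).apOfModel p : ℂ) = ρ * (c * σ (π : K) +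
      (starRingEnd ℂ) (c * σ (π : K))) := by
    rw [ap_E0 hm]
    push_cast
    rw [hN, mul_neg, map_neg]
    ring
  rw [Complex.add_conj] at hap
  have hap' : ((E0 m).apOfModel p : ℝ) = ρ * (2 * (c * σ (π : K)).re) := by
    exact_mod_cast hap
  have hn : ‖σ (π : K)‖ = Real.sqrt p := by
    rw [← norm_sq_gen h hv hπ, Real.sqrt_sq (norm_nonneg _)]
  have hp0 : (0 : ℝ) < p := by exact_mod_cast hp.out.pos
  have h6 : Real.sqrt p ≠ 0 := (Real.sqrt_pos.2 hp0).ne'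
  have h7 : (ρ : ℂ) * c * ang σ π = ((ρ : ℝ) : ℂ) * (c * σ (π : K)) / ((Real.sqrt p : ℝ) : ℂ) := by
    rw [ang, hn]
    push_cast
    ring
  rw [h7, Complex.div_ofReal_re, Complex.re_ofReal_mul, hap']
  field_simp

end Jz

open Jz

/-- **The Sato-Tate law for the elliptic curves over `ℚ` with `j`-invariant `0`**: for every integer
`m ≠ 0` and `[α, β] ⊆ [-1, 1]`, the number of the primes `p ≤ x`, `p ∤ 6 m`, with
`α ≤ a_p / (2 √p) ≤ β`, `a_p` the trace of Frobenius of `y² = x³ + m`, is asymptotic to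
`μ([α, β]) x / log x`, where `μ` is `(1/2) δ₀ + dt / (2π √(1 - t²))`. -/
theorem sato_tate_jzero {m : ℤ} (hm : m ≠ 0) {α β : ℝ} (hα : -1 ≤ α) (hαβ : α ≤ β) (hβ : β ≤ 1) :
    Tendsto (fun x : ℕ => (Nat.card {p : ℕ // p.Prime ∧ ¬ (p : ℤ) ∣ 6 * m ∧ p ≤ x ∧
      α ≤ ((E0 m).apOfModel p : ℝ) / (2 * Real.sqrt p) ∧
      ((E0 m).apOfModel p : ℝ) / (2 * Real.sqrt p) ≤ β} : ℝ) * Real.log x / x) atTop
      (𝓝 ((if α ≤ 0 ∧ 0 ≤ β then 1 / 2 else 0) +
        (Real.arccos α - Real.arccos β) / (2 * Real.pi))) := by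
  have : NeZero ((3 : ℕ) : ℚ) := ⟨by norm_num⟩
  have : IsCyclotomicExtension {3} ℚ (CyclotomicField 3 ℚ) :=
    CyclotomicField.isCyclotomicExtension 3 ℚ
  obtain ⟨σ⟩ : Nonempty (CyclotomicField 3 ℚ →+* ℂ) := inferInstance
  obtain ⟨η, h⟩ := exists_eisDat (K := CyclotomicField 3 ℚ) σ
  obtain ⟨𝔪, ψ, h𝔪, hψ, hval⟩ := exists_hChar h hm
  have h6m : (6 * m).natAbs ≠ 0 := by
    rw [Ne, Int.natAbs_eq_zero]
    omega
  have hS : ∀ p : ℕ, p.Prime → (p ∉ (6 * m).natAbs.primeFactors ↔ ¬ (p : ℤ) ∣ 6 * m) := by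
    intro p hp
    rw [Nat.mem_primeFactors, Int.natCast_dvd]
    exact not_congr ⟨fun h1 => h1.2.1, fun h1 => ⟨hp, h1, h6m⟩⟩
  have key := sato_tate_of_hecke h.cpx h.rank h𝔪 one_ne_zero hψ (6 * m).natAbs.primeFactors
    (a := fun p => ((E0 m).apOfModel p : ℝ)) ?_ ?_ hα hαβ hβ
  · refine key.congr fun x => ?_
    congr 2
    rw [Nat.cast_inj]
    refine Nat.card_congr (Equiv.subtypeEquivRight fun p => ?_)
    exact and_congr_right fun hp => and_congr_left fun _ => hS p hp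
  · intro p P hp hpS hP
    have hpF : Fact p.Prime := ⟨hp⟩
    rw [hS p hp] at hpS
    have hPi : ((P.1 : (Ideal (𝓞 (CyclotomicField 3 ℚ)))⁰) :
        Ideal (𝓞 (CyclotomicField 3 ℚ))).IsPrime := Ideal.isPrime_of_prime P.2
    let v : HeightOneSpectrum (𝓞 (CyclotomicField 3 ℚ)) :=
      ⟨((P.1 : (Ideal (𝓞 (CyclotomicField 3 ℚ)))⁰) : Ideal (𝓞 (CyclotomicField 3 ℚ))), hPi,
        P.2.ne_zero⟩
    have hv : Ideal.absNorm v.asIdeal = p := hP
    have h6 : ((6 * m : ℤ) : 𝓞 (CyclotomicField 3 ℚ)) ∉ v.asIdeal := by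
      apply int_notMem hv
      rwa [Ne, ZMod.intCast_zmod_eq_zero_iff_dvd]
    have h3 : (3 : 𝓞 (CyclotomicField 3 ℚ)) ∉ v.asIdeal := by
      intro h3
      apply h6
      have h4 : ((6 * m : ℤ) : 𝓞 (CyclotomicField 3 ℚ)) = 3 * (2 * m) := by
        push_cast
        ring
      rw [h4]
      exact Ideal.mul_mem_right _ _ h3
    obtain ⟨π, -, hπ, hπ3⟩ := h.exists_gen ⟨P.1, isCoprime_of_notMem (v := v) h3⟩
    have h7 := hval v P.1 rfl h6 π hπ hπ3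
    change ((E0 m).apOfModel p : ℝ) = 2 * Real.sqrt p * (ψ P.1).re
    rw [h7, hv]
    exact ap_E0_eq h hv hpS hπ hπ3
  · intro p hp hpS hP
    have hpF : Fact p.Prime := ⟨hp⟩
    rw [hS p hp] at hpS
    have h5 : p % 3 ≠ 0 := by
      intro h6
      have h7 : 3 ∣ p := Nat.dvd_of_mod_eq_zero h6
      have h8 : 3 = p := (Nat.prime_dvd_prime_iff_eq Nat.prime_three hp).1 h7
      apply hpS
      rw [← h8]
      exact ⟨2 * m, by push_cast; ring⟩
    have h6 : p % 3 ≠ 1 := by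
      intro h6
      obtain ⟨P, hP'⟩ := exists_pr h hp h6
      exact hP P hP'
    have h7 : (E0 m).apOfModel p = 0 := ap_E0_of_two (by omega) hpS
    change ((E0 m).apOfModel p : ℝ) = 0
    rw [h7, Int.cast_zero]

end Fermat.Agent.Cor.SectK
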