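import Fermat.Agent.Corollaries.SectK.JzRay
import Fermat.Agent.Corollaries.Diary.Count

/-!
# The Jacobi sum of the cubic residue character modulo a prime of `ℤ[ω]`

`jacobiSum_chi`: `J(χ, χ) = -π` for `v = (π)` of prime norm, `π ≡ 1 mod 3`,
`χ(a) = (a / v)₃` (Gauss, Eisenstein).
-/

set_option autoImplicit false
set_option linter.unusedSectionVars false

noncomputable section

namespace Fermat.Agent.Cor.SectK

open NumberField nonZeroDivisors IsDedekindDomain Fermat.Agent.Cor.Recip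

namespace Jz

variable {K : Type} [Field K] [NumberField K] {σ : K →+* ℂ} {η : 𝓞 K}
  {v : HeightOneSpectrum (𝓞 K)} {p : ℕ} [hp : Fact p.Prime]

theorem cast_mem (hv : Ideal.absNorm v.asIdeal = p) : (p : 𝓞 K) ∈ v.asIdeal := by
  rw [← hv]
  exact Ideal.absNorm_mem _

theorem int_mem (hv : Ideal.absNorm v.asIdeal = p) {a : ℤ} (ha : (a : ZMod p) = 0) :
    (a : 𝓞 K) ∈ v.asIdeal := by
  rw [ZMod.intCast_zmod_eq_zero_iff_dvd] at ha
  obtain ⟨c, rfl⟩ := ha
  push_cast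
  exact Ideal.mul_mem_right _ _ (cast_mem hv)

theorem int_notMem (hv : Ideal.absNorm v.asIdeal = p) {a : ℤ} (ha : (a : ZMod p) ≠ 0) :
    (a : 𝓞 K) ∉ v.asIdeal := by
  intro h
  apply ha
  rw [ZMod.intCast_zmod_eq_zero_iff_dvd]
  by_contra h1
  have h2 : IsCoprime (p : ℤ) a :=
    (Nat.prime_iff_prime_int.1 hp.out).coprime_iff_not_dvd.2 h1
  obtain ⟨s, t, hst⟩ := h2
  apply v.isPrime.ne_top
  rw [Ideal.eq_top_iff_one]
  have h3 : (s : 𝓞 K) * (p : 𝓞 K) + t * a = 1 := by exact_mod_cast congrArg (Int.cast : ℤ → 𝓞 K) hst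
  rw [← h3]
  exact Ideal.add_mem _ (Ideal.mul_mem_left _ _ (cast_mem hv)) (Ideal.mul_mem_left _ _ h)

theorem val_sub_mem (hv : Ideal.absNorm v.asIdeal = p) {a : ZMod p} {b : ℤ} (h : a = (b : ZMod p)) :
    ((a.val : ℕ) : 𝓞 K) - (b : 𝓞 K) ∈ v.asIdeal := by
  have h1 : ((((a.val : ℕ) : ℤ) - b : ℤ) : ZMod p) = 0 := by
    push_cast
    rw [ZMod.natCast_zmod_val, h, sub_self]
  have h2 := int_mem hv h1
  push_cast at h2
  exact h2

theorem resAt_one (h : EisDat σ η) (h3 : ((3 : ℕ) : 𝓞 K) ∉ v.asIdeal) : resAt 3 η 1 v = 1 := by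
  have := Fact.mk Nat.prime_three
  have h1 : (1 : 𝓞 K) ∉ v.asIdeal := fun h1 => v.isPrime.ne_top ((Ideal.eq_top_iff_one _).2 h1)
  exact (resAt_eq_one_iff (isPrimitiveRoot h) h3 h1).2 ⟨1, by simp⟩

/-- the cubic residue character -/
def chi (h : EisDat σ η) (h3 : ((3 : ℕ) : 𝓞 K) ∉ v.asIdeal) (hv : Ideal.absNorm v.asIdeal = p) :
    MulChar (ZMod p) ℂ where
  toFun a := σ ((resAt 3 η ((a.val : ℕ) : 𝓞 K) v : 𝓞 K) : K)
  map_one' := by
    have := Fact.mk hp.out.one_lt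
    rw [ZMod.val_one, Nat.cast_one, resAt_one h h3]
    simp
  map_mul' a b := by
    have h3p := Fact.mk Nat.prime_three
    have h1 : (((a * b).val : ℕ) : 𝓞 K) - ((a.val : ℕ) : 𝓞 K) * ((b.val : ℕ) : 𝓞 K) ∈ v.asIdeal := by
      have h2 : a * b = (((a.val : ℤ) * (b.val : ℤ) : ℤ) : ZMod p) := by
        push_cast
        rw [ZMod.natCast_zmod_val, ZMod.natCast_zmod_val]
      have h4 := val_sub_mem hv h2
      push_cast at h4
      exact h4
    rw [resAt_congr (isPrimitiveRoot h) h3 h1, resAt_mul (isPrimitiveRoot h) h3]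
    simp
  map_nonunit' a ha := by
    rw [isUnit_iff_ne_zero, not_not] at ha
    rw [ha, ZMod.val_zero, Nat.cast_zero, resAt_of_mem v.asIdeal.zero_mem]
    simp

section

variable (h : EisDat σ η) (h3 : ((3 : ℕ) : 𝓞 K) ∉ v.asIdeal) (hv : Ideal.absNorm v.asIdeal = p)

theorem chi_apply (a : ZMod p) :
    chi h h3 hv a = σ ((resAt 3 η ((a.val : ℕ) : 𝓞 K) v : 𝓞 K) : K) := rfl

theorem chi_int (a : ℤ) :
    chi h h3 hv (a : ZMod p) = σ ((resAt 3 η (a : 𝓞 K) v : 𝓞 K) : K) := by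
  have h3p := Fact.mk Nat.prime_three
  rw [chi_apply, resAt_congr (isPrimitiveRoot h) h3 (val_sub_mem hv rfl)]

theorem chi_pow : chi h h3 hv ^ 3 = 1 := by
  have h3p := Fact.mk Nat.prime_three
  refine MulChar.ext fun a => ?_
  rw [MulChar.pow_apply_coe, MulChar.one_apply_coe, chi_apply]
  have h1 : (((a : ZMod p).val : ℕ) : 𝓞 K) ∉ v.asIdeal := by
    have h2 : ((((a : ZMod p).val : ℕ) : ℤ) : ZMod p) ≠ 0 := by
      push_cast
      rw [ZMod.natCast_zmod_val]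
      exact a.ne_zero
    have h4 := int_notMem hv h2
    push_cast at h4
    exact h4
  have h2 := congrArg (fun z : 𝓞 K => σ (z : K)) (resAt_pow (isPrimitiveRoot h) h1)
  simpa using h2

include h h3 hv in
theorem three_dvd : 3 ∣ p - 1 := by
  have h3p := Fact.mk Nat.prime_three
  have h1 := dvd_absNorm_sub_one (isPrimitiveRoot h) h3
  rwa [hv] at h1

theorem chi_ne_one : chi h h3 hv ≠ 1 := by
  have h3p := Fact.mk Nat.prime_three
  intro h0
  obtain ⟨g, hg⟩ := IsCyclic.exists_generator (α := (ZMod p)ˣ)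
  have hord : orderOf g = p - 1 := by
    rw [orderOf_eq_card_of_forall_mem_zpowers hg, Nat.card_eq_fintype_card, ZMod.card_units]
  have h1 : (((g : ZMod p).val : ℕ) : 𝓞 K) ^ ((p - 1) / 3) - 1 ∈ v.asIdeal := by
    have h2 := resAt_spec (isPrimitiveRoot h) h3 (((g : ZMod p).val : ℕ) : 𝓞 K)
    rw [hv] at h2
    have h4 : chi h h3 hv (g : ZMod p) = 1 := by
      rw [h0, MulChar.one_apply_coe]
    rw [chi_apply] at h4
    have h5 : resAt 3 η (((g : ZMod p).val : ℕ) : 𝓞 K) v = 1 := by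
      have h6 : σ ((resAt 3 η (((g : ZMod p).val : ℕ) : 𝓞 K) v : 𝓞 K) : K) = σ ((1 : 𝓞 K) : K) := by
        rw [h4]
        simp
      exact RingOfIntegers.coe_injective (σ.injective h6)
    rwa [h5] at h2
  have h2 : g ^ ((p - 1) / 3) = 1 := by
    apply Units.ext
    by_contra h4
    rw [Units.val_pow_eq_pow_val, Units.val_one, ← sub_eq_zero] at h4
    have h5 : (((((g : ZMod p).val : ℕ) : ℤ) ^ ((p - 1) / 3) - 1 : ℤ) : ZMod p) ≠ 0 := by
      push_cast
      rwa [ZMod.natCast_zmod_val]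
    have h6 := int_notMem hv h5
    push_cast at h6
    exact h6 h1
  have h4 := orderOf_dvd_of_pow_eq_one h2
  rw [hord] at h4
  have h5 := three_dvd h h3 hv
  have h6 := hp.out.two_le
  have h7 := Nat.le_of_dvd (Nat.div_pos (Nat.le_of_dvd (by omega) h5) (by norm_num)) h4
  omega

theorem chi_sq_ne_one : chi h h3 hv * chi h h3 hv ≠ 1 := by
  intro h0
  have h1 := chi_pow h h3 hv
  rw [pow_succ, pow_two, h0, one_mul] at h1
  exact chi_ne_one h h3 hv h1

/-- `∑ t ^ e (1 - t) ^ e = 0` in `𝔽_p` for `2 e < p - 1` -/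
theorem sum_pow_mul {e : ℕ} (he : 2 * e < p - 1) :
    ∑ t : ZMod p, t ^ e * (1 - t) ^ e = 0 := by
  have h1 : ∀ t : ZMod p, t ^ e * (1 - t) ^ e =
      ∑ k ∈ Finset.range (e + 1), ((-1) ^ k * (e.choose k : ZMod p)) * t ^ (e + k) := by
    intro t
    rw [show (1 - t) = (-t + 1) by ring, add_pow, Finset.mul_sum]
    refine Finset.sum_congr rfl fun k _ => ?_
    rw [one_pow, mul_one, neg_pow, pow_add]
    ring
  simp_rw [h1]
  rw [Finset.sum_comm]
  refine Finset.sum_eq_zero fun k hk => ?_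
  rw [← Finset.mul_sum, FiniteField.sum_pow_lt_card_sub_one (ZMod p) (e + k) ?_, mul_zero]
  rw [ZMod.card]
  have := Finset.mem_range.1 hk
  omega

/-- the Jacobi sum in `𝓞 K` -/
def jac (η : 𝓞 K) (v : HeightOneSpectrum (𝓞 K)) (p : ℕ) [Fact p.Prime] : 𝓞 K :=
  ∑ t : ZMod p, resAt 3 η ((t.val : ℕ) : 𝓞 K) v * resAt 3 η (((1 - t).val : ℕ) : 𝓞 K) v

theorem sigma_jac : σ (jac η v p : K) = jacobiSum (chi h h3 hv) (chi h h3 hv) := by
  rw [jacobiSum, jac]
  simp only [chi_apply]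
  simp

include h h3 hv in
theorem jac_mem : jac η v p ∈ v.asIdeal := by
  have h3p := Fact.mk Nat.prime_three
  set e := (p - 1) / 3 with he
  have h2 := three_dvd h h3 hv
  have h4 := hp.out.two_le
  have h5 : 2 * e < p - 1 := by omega
  have h6 : ∀ a : 𝓞 K, resAt 3 η a v - a ^ e ∈ v.asIdeal := by
    intro a
    have h7 := resAt_spec (isPrimitiveRoot h) h3 a
    rw [hv, ← he] at h7
    rw [← neg_sub]
    exact v.asIdeal.neg_mem h7
  have h7 : jac η v p - ((∑ t : ZMod p, (t.val : ℤ) ^ e * ((1 - t).val : ℤ) ^ e : ℤ) : 𝓞 K) ∈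
      v.asIdeal := by
    push_cast
    rw [jac, ← Finset.sum_sub_distrib]
    refine Ideal.sum_mem _ fun t _ => ?_
    have h8 := h6 ((t.val : ℕ) : 𝓞 K)
    have h9 := h6 (((1 - t).val : ℕ) : 𝓞 K)
    have h10 : resAt 3 η ((t.val : ℕ) : 𝓞 K) v * resAt 3 η (((1 - t).val : ℕ) : 𝓞 K) v -
        ((t.val : ℕ) : 𝓞 K) ^ e * (((1 - t).val : ℕ) : 𝓞 K) ^ e =
        (resAt 3 η ((t.val : ℕ) : 𝓞 K) v - ((t.val : ℕ) : 𝓞 K) ^ e) *
          resAt 3 η (((1 - t).val : ℕ) : 𝓞 K) v +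
        ((t.val : ℕ) : 𝓞 K) ^ e *
          (resAt 3 η (((1 - t).val : ℕ) : 𝓞 K) v - (((1 - t).val : ℕ) : 𝓞 K) ^ e) := by ring
    rw [h10]
    exact Ideal.add_mem _ (Ideal.mul_mem_right _ _ h8) (Ideal.mul_mem_left _ _ h9)
  have h8 : ((∑ t : ZMod p, (t.val : ℤ) ^ e * ((1 - t).val : ℤ) ^ e : ℤ) : 𝓞 K) ∈ v.asIdeal := by
    apply int_mem hv
    push_cast
    simp only [ZMod.natCast_zmod_val]
    exact sum_pow_mul h5
  have h9 := Ideal.add_mem _ h7 h8
  rwa [sub_add_cancel] at h9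

include h h3 hv in
theorem jac_add_one_mem : jac η v p + 1 ∈ Ideal.span {(3 : 𝓞 K)} := by
  have h3p := Fact.mk Nat.prime_three
  have hμ : IsPrimitiveRoot (σ (η : K)) 3 := by
    have h1 := (isPrimitiveRoot h).map_of_injective (f := algebraMap (𝓞 K) K)
      RingOfIntegers.coe_injective
    exact h1.map_of_injective σ.injective
  have hdvd : 3 ∣ Fintype.card (ZMod p) - 1 := by
    rw [ZMod.card]
    exact three_dvd h h3 hv
  obtain ⟨z, hz, hJ⟩ := exists_jacobiSum_eq_neg_one_add (F := ZMod p) (R := ℂ) (by norm_num)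
    (chi_pow h h3 hv) (chi_pow h h3 hv) hdvd hμ
  have hμ2 := h.sig_root
  obtain ⟨a, b, rfl⟩ := Diary.mem_adjoin_quadratic (μ := σ (η : K)) (r := -1) (t := -1)
    (by push_cast; linear_combination hμ2) hz
  have h1 : σ ((jac η v p + 1 : 𝓞 K) : K) = σ ((3 * (-(a + b * η) * η) : 𝓞 K) : K) := by
    have h2 := sigma_jac h h3 hv
    rw [hJ] at h2
    have h4 : σ ((jac η v p + 1 : 𝓞 K) : K) = σ (jac η v p : K) + 1 := by simp
    have h5 : σ ((3 * (-(a + b * η) * η) : 𝓞 K) : K) =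
        3 * (-(a + b * σ (η : K)) * σ (η : K)) := by
      have h6 : ((3 * (-(a + b * η) * η) : 𝓞 K) : K) = 3 * (-(a + b * (η : K)) * (η : K)) := by
        push_cast
        rfl
      rw [h6]
      simp only [map_mul, map_neg, map_add, map_ofNat, map_intCast]
    rw [h4, h2, h5]
    linear_combination ((a : ℂ) + b * σ (η : K)) * hμ2
  have h2 : jac η v p + 1 = 3 * (-(a + b * η) * η) :=
    RingOfIntegers.coe_injective (σ.injective h1)
  rw [h2]
  exact Ideal.mul_mem_right _ _ (Ideal.mem_span_singleton_self _)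

include h h3 hv in
theorem norm_jac : ‖σ (jac η v p : K)‖ ^ 2 = p := by
  have h1 := Diary.jacobiSum_mul_conj (chi_ne_one h h3 hv) (chi_ne_one h h3 hv)
    (chi_sq_ne_one h h3 hv)
  rw [← sigma_jac h h3 hv, Complex.mul_conj, ZMod.card] at h1
  rw [← Complex.normSq_eq_norm_sq]
  exact_mod_cast h1

/-- **Gauss, Eisenstein**: `J(χ, χ) = -π` -/
theorem jacobiSum_chi {π : 𝓞 K} (hπ : v.asIdeal = Ideal.span {π})
    (hπ3 : π - 1 ∈ Ideal.span {(3 : 𝓞 K)}) :
    jacobiSum (chi h h3 hv) (chi h h3 hv) = -σ (π : K) := by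
  have h1 : jac η v p ∈ v.asIdeal := jac_mem h h3 hv
  rw [hπ, Ideal.mem_span_singleton'] at h1
  obtain ⟨c, hc⟩ := h1
  obtain ⟨s, t, hst⟩ := h.ex π
  obtain ⟨x, y, hxy⟩ := h.ex (-c)
  have hnπ : ‖σ (π : K)‖ ^ 2 = p := by
    have h2 := h.nat_norm s t
    rw [← hst, ← Ideal.absNorm_span_singleton, ← hπ, hv] at h2
    have h4 := h.norm_sq s t
    rw [← hst] at h4
    rw [h4]
    exact_mod_cast h2.symm
  have hp0 : (p : ℝ) ≠ 0 := by exact_mod_cast hp.out.ne_zero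
  have hnc : ‖σ ((-c : 𝓞 K) : K)‖ ^ 2 = 1 := by
    have h2 := norm_jac h h3 hv
    rw [← hc] at h2
    have h4 : σ ((c * π : 𝓞 K) : K) = σ (c : K) * σ (π : K) := by simp
    rw [h4, norm_mul, mul_pow, hnπ] at h2
    have h5 : σ ((-c : 𝓞 K) : K) = -σ (c : K) := by simp
    rw [h5, norm_neg]
    have h6 : (‖σ (c : K)‖ ^ 2 - 1) * (p : ℝ) = 0 := by linear_combination h2
    rcases mul_eq_zero.1 h6 with h7 | h7
    · linarith
    · exact absurd h7 hp0
  have h2 : (-c) - 1 ∈ Ideal.span {(3 : 𝓞 K)} := by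
    have h4 := jac_add_one_mem h h3 hv
    have h5 : (-c) - 1 = -(jac η v p + 1) + c * (π - 1) := by
      rw [← hc]
      ring
    rw [h5]
    exact Ideal.add_mem _ (neg_mem h4) (Ideal.mul_mem_left _ _ hπ3)
  have h4 : -c = 1 := by
    have h5 : (Algebra.norm ℤ (x + y * η : 𝓞 K)).natAbs = 1 := by
      have h6 := h.nat_norm x y
      have h7 := h.norm_sq x y
      rw [← hxy, hnc] at h7
      rw [← hxy] at h6 ⊢
      have h8 : (x ^ 2 - x * y + y ^ 2 : ℤ) = 1 := by exact_mod_cast h7.symm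
      rw [h8] at h6
      exact_mod_cast h6
    rw [hxy, h.sub_one_mem] at h2
    obtain ⟨h6, h7⟩ := h.unit_cases h5 h2.2
    have h8 : x = 1 := by
      rcases h7 with h7 | h7
      · exact h7
      · obtain ⟨d, hd⟩ := h2.1
        omega
    rw [hxy, h6, h8]
    simp
  have h5 : jac η v p = -π := by
    rw [← hc]
    linear_combination (-π) * h4
  rw [← sigma_jac h h3 hv, h5]
  simp

end

end Jz

end Fermat.Agent.Cor.SectK
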