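import Fermat.Agent.Corollaries.SectK.EisPrime
import Fermat.Agent.Corollaries.SectK.Ext

/-!
# Products of Hecke characters; the quadratic symbol of the norm; the Hecke character modulo `3`

* `mul_hChar` : the product of two Hecke characters.
* `EisDat.jacChar` : `I ↦ (m / N I)` modulo `4 m`, a Hecke character of type `0`.
* `EisDat.exists_psi` : the Hecke character `(a) ↦ σ a / |σ a|`, `a ≡ 1 mod 3`.
-/

set_option autoImplicit false
set_option linter.unusedSectionVars false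

noncomputable section

namespace Fermat.Agent.Cor.SectK

open NumberField nonZeroDivisors
open scoped NumberTheorySymbols

namespace Jz

universe u

section General

variable {K : Type u} [Field K] [NumberField K] {σ : K →+* ℂ}

theorem ang_ne_zero {a : 𝓞 K} (ha : a ≠ 0) : ang σ a ≠ 0 := by
  have h1 : σ (a : K) ≠ 0 := by
    rw [Ne, map_eq_zero]
    exact_mod_cast ha
  exact div_ne_zero h1 (by exact_mod_cast norm_ne_zero_iff.2 h1)

theorem ne_zero_of_eq_span {I : (Ideal (𝓞 K))⁰} {a : 𝓞 K}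
    (h : (I : Ideal (𝓞 K)) = Ideal.span {a}) : a ≠ 0 := by
  rintro rfl
  rw [Ideal.span_singleton_eq_bot.2 rfl] at h
  exact nonZeroDivisors.coe_ne_zero I h

/-- the product of two Hecke characters -/
theorem mul_hChar {𝔪 𝔫 : Ideal (𝓞 K)} {k l : ℤ} {ψ φ : (Ideal (𝓞 K))⁰ →* ℂ}
    (hψ : HChar σ 𝔪 k ψ) (hφ : HChar σ 𝔫 l φ) : HChar σ (𝔪 * 𝔫) (k + l) (ψ * φ) where
  norm_eq I hI := by
    rw [MonoidHom.mul_apply, norm_mul, hψ.norm_eq I (IsCoprime.of_mul_right_left hI),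
      hφ.norm_eq I (IsCoprime.of_mul_right_right hI), one_mul]
  eq_zero I hI := by
    rw [MonoidHom.mul_apply]
    by_cases h1 : IsCoprime (I : Ideal (𝓞 K)) 𝔪
    · have h2 : ¬ IsCoprime (I : Ideal (𝓞 K)) 𝔫 := fun h2 => hI (h1.mul_right h2)
      rw [hφ.eq_zero I h2, mul_zero]
    · rw [hψ.eq_zero I h1, zero_mul]
  cong I a hIa ha := by
    have e1 : 𝔪 * 𝔫 ≤ 𝔪 := Ideal.mul_le_left
    have e2 : 𝔪 * 𝔫 ≤ 𝔫 := Ideal.mul_le_right
    rw [MonoidHom.mul_apply, hψ.cong I a hIa (e1 ha), hφ.cong I a hIa (e2 ha),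
      zpow_add₀ (ang_ne_zero (ne_zero_of_eq_span hIa))]

/-- a multiplicative function, set to zero at the ideals which are not prime to `𝔪` -/
def ofFun (𝔪 : Ideal (𝓞 K)) (f : (Ideal (𝓞 K))⁰ → ℂ) (h1 : f 1 = 1)
    (hmul : ∀ I J, f (I * J) = f I * f J) : (Ideal (𝓞 K))⁰ →* ℂ := by
  classical
  exact
  { toFun := fun I => if IsCoprime (I : Ideal (𝓞 K)) 𝔪 then f I else 0
    map_one' := by
      have h2 : IsCoprime (((1 : (Ideal (𝓞 K))⁰)) : Ideal (𝓞 K)) 𝔪 := by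
        rw [Submonoid.coe_one]
        exact isCoprime_one_left
      rw [if_pos h2, h1]
    map_mul' := fun I J => by
      have h2 : IsCoprime ((I * J : (Ideal (𝓞 K))⁰) : Ideal (𝓞 K)) 𝔪 ↔
          IsCoprime (I : Ideal (𝓞 K)) 𝔪 ∧ IsCoprime (J : Ideal (𝓞 K)) 𝔪 := by
        rw [Submonoid.coe_mul]
        exact IsCoprime.mul_left_iff
      by_cases h3 : IsCoprime (I : Ideal (𝓞 K)) 𝔪
      · by_cases h4 : IsCoprime (J : Ideal (𝓞 K)) 𝔪
        · rw [if_pos (h2.2 ⟨h3, h4⟩), if_pos h3, if_pos h4, hmul]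
        · rw [if_neg (fun h => h4 (h2.1 h).2), if_neg h4, mul_zero]
      · rw [if_neg (fun h => h3 (h2.1 h).1), if_neg h3, zero_mul] }

theorem ofFun_apply {𝔪 : Ideal (𝓞 K)} {f : (Ideal (𝓞 K))⁰ → ℂ} {h1 : f 1 = 1}
    {hmul : ∀ I J, f (I * J) = f I * f J} {I : (Ideal (𝓞 K))⁰}
    (hI : IsCoprime (I : Ideal (𝓞 K)) 𝔪) : ofFun 𝔪 f h1 hmul I = f I := by
  classical
  exact if_pos hI

theorem ofFun_eq_zero {𝔪 : Ideal (𝓞 K)} {f : (Ideal (𝓞 K))⁰ → ℂ} {h1 : f 1 = 1}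
    {hmul : ∀ I J, f (I * J) = f I * f J} {I : (Ideal (𝓞 K))⁰}
    (hI : ¬ IsCoprime (I : Ideal (𝓞 K)) 𝔪) : ofFun 𝔪 f h1 hmul I = 0 := by
  classical
  exact if_neg hI

theorem isCoprime_of_cong {𝔪 : Ideal (𝓞 K)} {I : (Ideal (𝓞 K))⁰} {a : 𝓞 K}
    (h : (I : Ideal (𝓞 K)) = Ideal.span {a}) (ha : a - 1 ∈ 𝔪) :
    IsCoprime (I : Ideal (𝓞 K)) 𝔪 := by
  rw [h, Ideal.isCoprime_iff_exists]
  exact ⟨a, Ideal.mem_span_singleton_self a, 1 - a, by rw [← neg_sub]; exact 𝔪.neg_mem ha, by ring⟩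

theorem hChar_ofFun {𝔪 : Ideal (𝓞 K)} {f : (Ideal (𝓞 K))⁰ → ℂ} (h1 : f 1 = 1)
    (hmul : ∀ I J, f (I * J) = f I * f J)
    (hn : ∀ I : (Ideal (𝓞 K))⁰, IsCoprime (I : Ideal (𝓞 K)) 𝔪 → ‖f I‖ = 1)
    (hc : ∀ (I : (Ideal (𝓞 K))⁰) (a : 𝓞 K), (I : Ideal (𝓞 K)) = Ideal.span {a} → a - 1 ∈ 𝔪 →
      f I = 1) : HChar σ 𝔪 0 (ofFun 𝔪 f h1 hmul) where
  norm_eq I hI := by rw [ofFun_apply hI, hn I hI]
  eq_zero I hI := ofFun_eq_zero hI
  cong I a hIa ha := by rw [ofFun_apply (isCoprime_of_cong hIa ha), hc I a hIa ha, zpow_zero]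

/-- an ideal prime to the integer `n` has norm prime to `n` -/
theorem coprime_absNorm {I : (Ideal (𝓞 K))⁰} {n : ℕ}
    (h : IsCoprime (I : Ideal (𝓞 K)) (Ideal.span {(n : 𝓞 K)})) :
    Nat.Coprime (Ideal.absNorm (I : Ideal (𝓞 K))) n := by
  refine Nat.Coprime.symm (Nat.coprime_of_dvd fun q hq hqn hqI => ?_)
  obtain ⟨P, hP, hu, hPI⟩ := Ideal.exists_isMaximal_dvd_of_dvd_absNorm' hq _ hqI
  have hqP : (q : 𝓞 K) ∈ P := by
    have h2 : (q : ℤ) ∈ P.under ℤ := by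
      rw [hu]
      exact Ideal.mem_span_singleton_self _
    have h3 := Ideal.mem_comap.1 h2
    simpa using h3
  have hnP : (n : 𝓞 K) ∈ P := by
    obtain ⟨c, rfl⟩ := hqn
    push_cast
    exact Ideal.mul_mem_right _ _ hqP
  apply hP.ne_top
  rw [Ideal.isCoprime_iff_sup_eq] at h
  rw [eq_top_iff, ← h, sup_le_iff]
  exact ⟨Ideal.dvd_iff_le.1 hPI, (Ideal.span_singleton_le_iff_mem _).2 hnP⟩

end General

section Eis

variable {K : Type u} [Field K] [NumberField K] {σ : K →+* ℂ} {η : 𝓞 K}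

theorem mem_span_int (h : EisDat σ η) {d x y : ℤ} :
    (x + y * η : 𝓞 K) ∈ Ideal.span {(d : 𝓞 K)} ↔ d ∣ x ∧ d ∣ y := by
  rw [Ideal.mem_span_singleton']
  constructor
  · rintro ⟨c, hc⟩
    obtain ⟨s, t, rfl⟩ := h.ex c
    have h1 : ((d * s : ℤ) + (d * t : ℤ) * η : 𝓞 K) = x + y * η := by
      rw [← hc]
      push_cast
      ring
    obtain ⟨h2, h3⟩ := h.ext h1
    exact ⟨⟨s, h2.symm⟩, ⟨t, h3.symm⟩⟩
  · rintro ⟨⟨s, rfl⟩, ⟨t, rfl⟩⟩
    exact ⟨s + t * η, by push_cast; ring⟩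

/-- the norm of `a ≡ 1 mod d` is `≡ 1 mod d` -/
theorem norm_modEq (h : EisDat σ η) {d : ℤ} {a : 𝓞 K} (ha : a - 1 ∈ Ideal.span {(d : 𝓞 K)}) :
    ((Algebra.norm ℤ a).natAbs : ℤ) ≡ 1 [ZMOD d] := by
  obtain ⟨x, y, rfl⟩ := h.ex a
  have h1 : (x + y * η : 𝓞 K) - 1 = ((x - 1 : ℤ) + y * η : 𝓞 K) := by
    push_cast
    ring
  rw [h1, mem_span_int h] at ha
  obtain ⟨⟨s, hs⟩, ⟨t, rfl⟩⟩ := ha
  rw [h.nat_norm]
  have hx : x = 1 + d * s := by linarith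
  subst hx
  refine (Int.modEq_iff_dvd.2 ⟨-(2 * s + d * s ^ 2 - (1 + d * s) * t + d * t ^ 2), by ring⟩)

/-- the quadratic symbol of the norm -/
theorem hChar_jac (h : EisDat σ η) (m : ℤ) : ∃ φ : (Ideal (𝓞 K))⁰ →* ℂ,
    HChar σ (Ideal.span {((4 * m : ℤ) : 𝓞 K)}) 0 φ ∧ ∀ I : (Ideal (𝓞 K))⁰,
      IsCoprime (I : Ideal (𝓞 K)) (Ideal.span {((4 * m : ℤ) : 𝓞 K)}) →
        φ I = (J(m | Ideal.absNorm (I : Ideal (𝓞 K))) : ℂ) := by
  let f : (Ideal (𝓞 K))⁰ → ℂ := fun I => (J(m | Ideal.absNorm (I : Ideal (𝓞 K))) : ℂ)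
  have hne : ∀ I : (Ideal (𝓞 K))⁰, Ideal.absNorm (I : Ideal (𝓞 K)) ≠ 0 := fun I => by
    rw [Ne, Ideal.absNorm_eq_zero_iff]
    exact nonZeroDivisors.coe_ne_zero I
  have h1 : f 1 = 1 := by
    simp only [f, Submonoid.coe_one]
    rw [Ideal.one_eq_top, Ideal.absNorm_top, jacobiSym.one_right, Int.cast_one]
  have hmul : ∀ I J, f (I * J) = f I * f J := fun I J => by
    simp only [f, Submonoid.coe_mul]
    rw [map_mul, jacobiSym.mul_right' m (hne I) (hne J), Int.cast_mul]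
  have hcop : ∀ I : (Ideal (𝓞 K))⁰,
      IsCoprime (I : Ideal (𝓞 K)) (Ideal.span {((4 * m : ℤ) : 𝓞 K)}) →
        Nat.Coprime (Ideal.absNorm (I : Ideal (𝓞 K))) (4 * m.natAbs) := by
    intro I hI
    apply coprime_absNorm
    have e : Ideal.span {((4 * m.natAbs : ℕ) : 𝓞 K)} = Ideal.span {((4 * m : ℤ) : 𝓞 K)} := by
      obtain ⟨k, hk⟩ := Int.eq_nat_or_neg m
      rcases hk with hk | hk
      · rw [hk, Int.natAbs_natCast]
        congr 1
        push_cast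
        rfl
      · rw [hk, Int.natAbs_neg, Int.natAbs_natCast, ← Ideal.span_singleton_neg]
        congr 1
        push_cast
        rw [mul_neg]
    rw [e]
    exact hI
  refine ⟨ofFun _ f h1 hmul, hChar_ofFun h1 hmul ?_ ?_, fun I hI => ofFun_apply hI⟩
  · intro I hI
    have h2 : Int.gcd m (Ideal.absNorm (I : Ideal (𝓞 K))) = 1 := by
      have h3 := Nat.Coprime.coprime_mul_left_right (hcop I hI)
      rw [Int.gcd, Int.natAbs_natCast]
      exact h3.symm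
    simp only [f]
    rcases jacobiSym.eq_one_or_neg_one h2 with h3 | h3 <;> rw [h3] <;> simp
  · intro I a hIa ha
    simp only [f]
    rw [hIa, Ideal.absNorm_span_singleton]
    have h2 := norm_modEq h ha
    have h3 : Nat.Coprime (Algebra.norm ℤ a).natAbs (4 * m.natAbs) := by
      have h4 := hcop I (isCoprime_of_cong hIa ha)
      rwa [hIa, Ideal.absNorm_span_singleton] at h4
    have hodd : Odd (Algebra.norm ℤ a).natAbs := by
      have h4 : Nat.Coprime (Algebra.norm ℤ a).natAbs 2 := by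
        refine Nat.Coprime.coprime_dvd_right ?_ h3
        exact ⟨2 * m.natAbs, by ring⟩
      rwa [Nat.coprime_two_right] at h4
    have h5 : (Algebra.norm ℤ a).natAbs % (4 * m.natAbs) = 1 % (4 * m.natAbs) := by
      have h6 : ((Algebra.norm ℤ a).natAbs : ℤ) ≡ ((1 : ℕ) : ℤ) [ZMOD ((4 * m.natAbs : ℕ) : ℤ)] := by
        have h7 : ((4 * m.natAbs : ℕ) : ℤ) ∣ 4 * m := by
          rw [Int.natCast_dvd, Int.natAbs_mul]
          exact dvd_refl _
        exact (h2.of_dvd h7)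
      exact (Int.natCast_modEq_iff.1 h6)
    rw [jacobiSym.mod_right m hodd, h5, ← jacobiSym.mod_right m odd_one, jacobiSym.one_right,
      Int.cast_one]

/-- the Hecke character modulo `3` of type `1` -/
theorem exists_psi (h : EisDat σ η) : ∃ ψ : (Ideal (𝓞 K))⁰ →* ℂ,
    HChar σ (Ideal.span {(3 : 𝓞 K)}) 1 ψ := by
  refine extStmt K σ _ ?_ 1 fun v hv => ?_
  · rw [Ne, Ideal.span_singleton_eq_bot]
    norm_num
  · obtain ⟨x, y, hxy⟩ := h.ex (v : 𝓞 K)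
    rw [hxy, h.sub_one_mem] at hv
    have h1 : (Algebra.norm ℤ (x + y * η : 𝓞 K)).natAbs = 1 := by
      rw [← hxy]
      exact Int.isUnit_iff_natAbs_eq.1 (v.isUnit.map (Algebra.norm ℤ))
    obtain ⟨h2, h3⟩ := h.unit_cases h1 hv.2
    have h4 : x = 1 := by
      rcases h3 with h3 | h3
      · exact h3
      · obtain ⟨c, hc⟩ := hv.1
        omega
    have h5 : (v : 𝓞 K) = 1 := by
      rw [hxy, h2, h4]
      simp
    rw [h5, zpow_one, ang]
    simp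

end Eis

end Jz

end Fermat.Agent.Cor.SectK
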