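import Fermat.Agent.Corollaries.SectK.JzMul
import Fermat.Agent.Corollaries.Recip.Every

/-!
# The cubic symbol as a Hecke character; the Hecke character of `y² = x³ + m`

`exists_hChar`: `ψ(P) = (m / N P) (4 m / P)₃ σ π / |σ π|` for `P = (π)`, `π ≡ 1 mod 3`, extends to a
Hecke character of type `1` (by Artin's reciprocity law in the form of
`Recip.exists_pow_resSym_eq_one`).
-/

set_option autoImplicit false
set_option linter.unusedSectionVars false

noncomputable section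

namespace Fermat.Agent.Cor.SectK

open NumberField nonZeroDivisors IsDedekindDomain Fermat.Agent.Cor.Recip
open scoped NumberTheorySymbols

namespace Jz

variable {K : Type} [Field K] [NumberField K] {σ : K →+* ℂ} {η : 𝓞 K}

theorem isPrimitiveRoot (h : EisDat σ η) : IsPrimitiveRoot η 3 := by
  have := Fact.mk Nat.prime_three
  have h3 : η ^ 3 = 1 := by linear_combination (η - 1) * h.root
  have h1 : η ≠ 1 := by
    rintro rfl
    have h2 := h.root
    norm_num at h2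
  have h4 := orderOf_eq_prime h3 h1
  have h5 := IsPrimitiveRoot.orderOf η
  rwa [h4] at h5

theorem norm_root (h : EisDat σ η) : ‖σ (η : K)‖ = 1 := by
  have h1 := congrArg (fun z : 𝓞 K => σ (z : K)) (isPrimitiveRoot h).pow_eq_one
  have h2 : σ (η : K) ^ 3 = 1 := by simpa using h1
  exact Complex.norm_eq_one_of_pow_eq_one h2 (by norm_num)

theorem isCoprime_of_notMem {v : HeightOneSpectrum (𝓞 K)} {x : 𝓞 K} (hx : x ∉ v.asIdeal) :
    IsCoprime v.asIdeal (Ideal.span {x}) := by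
  obtain ⟨y, i, hi, h1⟩ := v.isMaximal.exists_inv hx
  rw [Ideal.isCoprime_iff_exists]
  exact ⟨i, hi, y * x, Ideal.mul_mem_left _ _ (Ideal.mem_span_singleton_self x), by
    rw [add_comm]
    exact h1⟩

/-- the cubic symbol `(a / I)` is a ray class character -/
theorem hChar_cubic (h : EisDat σ η) {a : 𝓞 K} (ha : a ≠ 0) :
    ∃ (n : ℕ) (φ : (Ideal (𝓞 K))⁰ →* ℂ),
      HChar σ (Ideal.span {3 * a} ^ (n + 1)) 0 φ ∧ ∀ I : (Ideal (𝓞 K))⁰,
        IsCoprime (I : Ideal (𝓞 K)) (Ideal.span {3 * a} ^ (n + 1)) →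
          φ I = σ ((resSym 3 η a (I : Ideal (𝓞 K)) : 𝓞 K) : K) := by
  have hp := Fact.mk Nat.prime_three
  have hcpx := h.cpx
  have hζ := isPrimitiveRoot h
  obtain ⟨n, hn⟩ := exists_pow_resSym_eq_one (p := 3) hζ ha
  let f : (Ideal (𝓞 K))⁰ → ℂ := fun I => σ ((resSym 3 η a (I : Ideal (𝓞 K)) : 𝓞 K) : K)
  have hne : ∀ I : (Ideal (𝓞 K))⁰, (I : Ideal (𝓞 K)) ≠ ⊥ := fun I =>
    nonZeroDivisors.coe_ne_zero I
  have h1 : f 1 = 1 := by
    simp only [f, Submonoid.coe_one]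
    rw [Ideal.one_eq_top, resSym_top]
    simp
  have hmul : ∀ I J, f (I * J) = f I * f J := fun I J => by
    simp only [f, Submonoid.coe_mul]
    rw [resSym_mul a (hne I) (hne J)]
    simp
  refine ⟨n, ofFun _ f h1 hmul, hChar_ofFun h1 hmul ?_ ?_, fun I hI => ofFun_apply hI⟩
  · intro I hI
    have hI' : ∀ v : HeightOneSpectrum (𝓞 K), expo v (I : Ideal (𝓞 K)) ≠ 0 → a ∉ v.asIdeal := by
      intro v hv hav
      have h2 : (I : Ideal (𝓞 K)) ≤ v.asIdeal := by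
        by_contra h3
        exact hv ((expo_eq_zero_iff (hne I)).2 h3)
      have h3 : Ideal.span {3 * a} ^ (n + 1) ≤ v.asIdeal :=
        (Ideal.pow_le_self (Nat.succ_ne_zero n)).trans
          ((Ideal.span_singleton_le_iff_mem _).2 (Ideal.mul_mem_left _ _ hav))
      rw [Ideal.isCoprime_iff_sup_eq] at hI
      apply v.isPrime.ne_top
      rw [eq_top_iff, ← hI, sup_le_iff]
      exact ⟨h2, h3⟩
    have h4 := resSym_eq_zhom hζ hI' (finite_expo_ne_zero (I : Ideal (𝓞 K))).toFinset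
      (fun v hv => by simpa using hv)
    simp only [f]
    rw [h4, zhom_ofAdd]
    push_cast
    rw [map_pow, norm_pow, norm_root h, one_pow]
  · intro I x hIx hx
    have hx0 : x ≠ 0 := ne_zero_of_eq_span hIx
    simp only [f]
    rw [hIx, hn x hx0 fun v hv => ?_]
    · simp
    · have h2 : Ideal.span {3 * a} ≤ v.asIdeal := by
        rw [Ideal.span_singleton_le_iff_mem]
        simpa using hv
      exact Ideal.pow_right_mono h2 _ hx

/-- **The Hecke character of `y² = x³ + m`** -/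
theorem exists_hChar (h : EisDat σ η) {m : ℤ} (hm : m ≠ 0) :
    ∃ (𝔪 : Ideal (𝓞 K)) (ψ : (Ideal (𝓞 K))⁰ →* ℂ), 𝔪 ≠ ⊥ ∧ HChar σ 𝔪 1 ψ ∧
      ∀ (v : HeightOneSpectrum (𝓞 K)) (P : (Ideal (𝓞 K))⁰), (P : Ideal (𝓞 K)) = v.asIdeal →
        ((6 * m : ℤ) : 𝓞 K) ∉ v.asIdeal → ∀ π : 𝓞 K, v.asIdeal = Ideal.span {π} →
          π - 1 ∈ Ideal.span {(3 : 𝓞 K)} →
            ψ P = (J(m | Ideal.absNorm v.asIdeal) : ℂ) *
              σ ((resAt 3 η ((4 * m : ℤ) : 𝓞 K) v : 𝓞 K) : K) * ang σ π := by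
  have h4m : ((4 * m : ℤ) : 𝓞 K) ≠ 0 := by
    rw [Ne, Int.cast_eq_zero]
    omega
  obtain ⟨ψ, hψ⟩ := exists_psi h
  obtain ⟨φ, hφ, hφ'⟩ := hChar_jac h m
  obtain ⟨n, χ, hχ, hχ'⟩ := hChar_cubic h h4m
  refine ⟨_, _, ?_, mul_hChar (mul_hChar hφ hχ) hψ, ?_⟩
  · have h3 : (3 : 𝓞 K) ≠ 0 := by norm_num
    refine mul_ne_zero (mul_ne_zero ?_ (pow_ne_zero _ ?_)) ?_
    · rw [Ne, Ideal.zero_eq_bot, Ideal.span_singleton_eq_bot]
      exact h4m
    · rw [Ne, Ideal.zero_eq_bot, Ideal.span_singleton_eq_bot]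
      exact mul_ne_zero h3 h4m
    · rw [Ne, Ideal.zero_eq_bot, Ideal.span_singleton_eq_bot]
      exact h3
  · intro v P hP h6 π hπ hπ3
    have h12 : ∀ x : 𝓞 K, x ∣ 3 * ((4 * m : ℤ) : 𝓞 K) → x ∉ v.asIdeal := by
      intro x hx hxv
      have h1 : 3 * ((4 * m : ℤ) : 𝓞 K) ∈ v.asIdeal := v.asIdeal.mem_of_dvd hx hxv
      have h2 : (3 * ((4 * m : ℤ) : 𝓞 K)) = 2 * ((6 * m : ℤ) : 𝓞 K) := by
        push_cast
        ring
      rw [h2] at h1
      rcases v.isPrime.mem_or_mem h1 with h3 | h3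
      · apply h6
        have h4 : ((6 * m : ℤ) : 𝓞 K) = 2 * (3 * (m : 𝓞 K)) := by
          push_cast
          ring
        rw [h4]
        exact Ideal.mul_mem_right _ _ h3
      · exact h6 h3
    have hc1 : IsCoprime (P : Ideal (𝓞 K)) (Ideal.span {((4 * m : ℤ) : 𝓞 K)}) := by
      rw [hP]
      exact isCoprime_of_notMem (h12 _ (dvd_mul_left _ _))
    have hc2 : IsCoprime (P : Ideal (𝓞 K))
        (Ideal.span {3 * ((4 * m : ℤ) : 𝓞 K)} ^ (n + 1)) := by
      rw [hP]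
      exact (isCoprime_of_notMem (h12 _ dvd_rfl)).pow_right
    rw [MonoidHom.mul_apply, MonoidHom.mul_apply, hφ' P hc1, hχ' P hc2, hψ.cong P π
      (hP.trans hπ) hπ3, zpow_one, hP, resSym_asIdeal]

end Jz

end Fermat.Agent.Cor.SectK
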