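import Fermat.Agent.Corollaries.Gauss.LatShift

/-!
# The lattice point estimate for the translates of any lattice in `ℂ`

`B` a basis of `ℂ` over `ℝ` with `|B 0| + |B 1| ≤ 2`, `δ : ℂ`, `j ≠ 0`:
`∑_{n ∈ ℤ²} g_R(n₀ B 0 + n₁ B 1 + δ) = O(R)`, where `g_R(p) = (p / |p|) ^ j` for `0 < |p| ≤ R`.
-/

set_option autoImplicit false

noncomputable section

open Filter Topology MeasureTheory Set Fermat.Agent.Cor.Gauss.Lat

namespace Fermat.Agent.Cor.SectK

variable (B : Module.Basis (Fin 2) ℝ ℂ)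

/-- the coordinates of the corner of the cell of `w` -/
def flB (w : ℂ) : Fin 2 → ℤ := fun i => ⌊B.repr w i⌋

/-- the lattice points -/
def vec (n : Fin 2 → ℤ) : ℂ := ∑ i, (n i : ℝ) • B i

theorem repr_vec (n : Fin 2 → ℤ) (i : Fin 2) : B.repr (vec B n) i = n i := by
  rw [vec, B.repr_sum_self]

theorem vec_injective : Function.Injective (vec B) := by
  intro n m h
  funext i
  have := congrArg (fun z => B.repr z i) h
  simp only [repr_vec] at this
  exact_mod_cast this

theorem norm_vec_flB_sub_le (w : ℂ) : ‖vec B (flB B w) - w‖ ≤ ‖B 0‖ + ‖B 1‖ := by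
  have h1 : vec B (flB B w) - w = ∑ i, ((⌊B.repr w i⌋ : ℝ) - B.repr w i) • B i := by
    simp only [sub_smul, Finset.sum_sub_distrib, B.sum_repr w]
    rfl
  rw [h1]
  refine (norm_sum_le _ _).trans ?_
  rw [Fin.sum_univ_two]
  have h2 : ∀ i, ‖((⌊B.repr w i⌋ : ℝ) - B.repr w i) • B i‖ ≤ ‖B i‖ := by
    intro i
    rw [norm_smul, Real.norm_eq_abs]
    refine mul_le_of_le_one_left (norm_nonneg _) ?_
    rw [abs_le]
    constructor <;> linarith [Int.floor_le (B.repr w i), Int.lt_floor_add_one (B.repr w i)]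
  exact add_le_add (h2 0) (h2 1)

/-- the cells -/
def cellB (n : Fin 2 → ℤ) : Set ℂ := flB B ⁻¹' {n}

theorem cellB_eq (n : Fin 2 → ℤ) :
    cellB B n = (fun w => w + -vec B n) ⁻¹' ZSpan.fundamentalDomain B := by
  ext w
  simp only [cellB, flB, mem_preimage, mem_singleton_iff, ZSpan.mem_fundamentalDomain, mem_Ico,
    funext_iff, Int.floor_eq_iff, map_add, map_neg, Finsupp.add_apply, Finsupp.neg_apply,
    repr_vec]
  refine forall_congr' fun i => ?_
  constructor
  · rintro ⟨h1, h2⟩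
    constructor <;> linarith
  · rintro ⟨h1, h2⟩
    constructor <;> linarith

theorem measurableSet_cellB (n : Fin 2 → ℤ) : MeasurableSet (cellB B n) := by
  rw [cellB_eq]
  exact (measurable_id.add_const _) (ZSpan.fundamentalDomain_measurableSet B)

theorem volume_cellB (n : Fin 2 → ℤ) :
    volume (cellB B n) = volume (ZSpan.fundamentalDomain B) := by
  rw [cellB_eq]
  exact measure_preimage_add_right volume _ _

theorem volume_ne_top : volume (ZSpan.fundamentalDomain B) ≠ ⊤ :=
  (ZSpan.fundamentalDomain_isBounded B).measure_lt_top.ne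

theorem volume_real_pos : 0 < volume.real (ZSpan.fundamentalDomain B) :=
  ENNReal.toReal_pos (ZSpan.measure_fundamentalDomain_ne_zero B) (volume_ne_top B)

theorem comp_flB_eq (S : Finset (Fin 2 → ℤ)) (f : (Fin 2 → ℤ) → ℂ) (hf : ∀ n ∉ S, f n = 0) :
    (fun w => f (flB B w)) = fun w => ∑ n ∈ S, (cellB B n).indicator (fun _ => f n) w := by
  funext w
  by_cases hw : flB B w ∈ S
  · rw [Finset.sum_eq_single (flB B w)]
    · rw [indicator_of_mem]
      exact rfl
    · intro n _ hn
      rw [indicator_of_notMem]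
      exact fun h => hn (mem_singleton_iff.1 h).symm
    · exact fun h => absurd hw h
  · rw [hf _ hw, Finset.sum_eq_zero]
    intro n hn
    rw [indicator_of_notMem]
    intro h
    rw [cellB, mem_preimage, mem_singleton_iff] at h
    exact hw (h ▸ hn)

theorem integrable_indicator_cellB (n : Fin 2 → ℤ) (c : ℂ) :
    Integrable ((cellB B n).indicator fun _ => c) := by
  rw [integrable_indicator_iff (measurableSet_cellB B n)]
  exact integrableOn_const (by rw [volume_cellB]; exact volume_ne_top B)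

theorem integrable_comp_flB (S : Finset (Fin 2 → ℤ)) (f : (Fin 2 → ℤ) → ℂ)
    (hf : ∀ n ∉ S, f n = 0) : Integrable fun w => f (flB B w) := by
  rw [comp_flB_eq B S f hf]
  exact integrable_finsetSum _ fun n _ => integrable_indicator_cellB B n _

theorem integral_comp_flB (S : Finset (Fin 2 → ℤ)) (f : (Fin 2 → ℤ) → ℂ)
    (hf : ∀ n ∉ S, f n = 0) :
    ∫ w, f (flB B w) = (volume.real (ZSpan.fundamentalDomain B) : ℂ) * ∑ n ∈ S, f n := by
  rw [comp_flB_eq B S f hf, integral_finsetSum _ fun n _ => integrable_indicator_cellB B n _,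
    Finset.mul_sum]
  refine Finset.sum_congr rfl fun n _ => ?_
  rw [integral_indicator (measurableSet_cellB B n), setIntegral_const, measureReal_def,
    volume_cellB, Complex.real_smul, measureReal_def]

/-- finitely many lattice points in a disc -/
theorem finite_vec (δ : ℂ) (R : ℝ) : {n : Fin 2 → ℤ | ‖vec B n + δ‖ ≤ R}.Finite := by
  have h1 := ZSpan.setFinite_inter B (Metric.isBounded_closedBall (x := (0 : ℂ)) (r := R + ‖δ‖))
  refine Finite.of_injOn (f := vec B) ?_ (vec_injective B).injOn h1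
  intro n hn
  refine ⟨?_, ?_⟩
  · rw [mem_closedBall_zero_iff]
    have h2 := norm_sub_le (vec B n + δ) δ
    rw [add_sub_cancel_right] at h2
    have h3 : ‖vec B n + δ‖ ≤ R := hn
    linarith
  · rw [vec]
    refine Submodule.sum_mem _ fun i _ => ?_
    have h4 : (n i : ℝ) • B i = n i • B i := by
      rw [← Int.cast_smul_eq_zsmul ℝ]
    rw [h4]
    exact Submodule.smul_mem _ _ (Submodule.subset_span ⟨i, rfl⟩)

/-- **the estimate** -/
theorem norm_tsum_le (hB : ‖B 0‖ + ‖B 1‖ ≤ 2) (δ : ℂ) {j : ℤ} (hj : j ≠ 0) {R : ℝ}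
    (hR : 0 ≤ R) : volume.real (ZSpan.fundamentalDomain B) *
      ‖∑' n : Fin 2 → ℤ, gR j R (vec B n + δ)‖ ≤
        2 * Real.pi * (((2 + 4 * |(j : ℝ)|) + 4) * (R + 2)) := by
  have hfin := finite_vec B δ R
  have hfS : ∀ n ∉ hfin.toFinset, gR j R (vec B n + δ) = 0 := fun n hn =>
    gR_neg fun h => hn (hfin.mem_toFinset.2 h.2)
  have h1 : ∫ w, gR j R (vec B (flB B w) + δ) =
      (volume.real (ZSpan.fundamentalDomain B) : ℂ) *
        ∑' n : Fin 2 → ℤ, gR j R (vec B n + δ) := by
    rw [integral_comp_flB B hfin.toFinset (fun n => gR j R (vec B n + δ)) hfS]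
    congr 1
    exact (tsum_eq_sum hfS).symm
  have h2 : ∫ w, (Metric.closedBall (0 : ℂ) R).indicator (angJ j) (w + δ) = 0 := by
    rw [integral_add_right_eq_self, integral_discJ j hj]
  have h5 : ∀ᵐ w : ℂ, ‖gR j R (vec B (flB B w) + δ) -
      (Metric.closedBall (0 : ℂ) R).indicator (angJ j) (w + δ)‖ ≤
        maj (2 + 4 * |(j : ℝ)|) R ‖w + δ‖ := by
    have h0 : ∀ᵐ w : ℂ, w ≠ -δ := Measure.ae_ne volume (-δ)
    filter_upwards [h0] with w hw
    refine norm_gR_sub_le j hR (fun h => hw (eq_neg_of_add_eq_zero_left h)) ?_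
    rw [add_sub_add_right_eq_sub]
    exact (norm_vec_flB_sub_le B w).trans hB
  have h3 : ‖∫ w, gR j R (vec B (flB B w) + δ)‖ ≤
      2 * Real.pi * (((2 + 4 * |(j : ℝ)|) + 4) * (R + 2)) := by
    have h6 : ∫ w : ℂ, maj (2 + 4 * |(j : ℝ)|) R ‖w + δ‖ =
        ∫ w : ℂ, maj (2 + 4 * |(j : ℝ)|) R ‖w‖ :=
      integral_add_right_eq_self (fun w : ℂ => maj (2 + 4 * |(j : ℝ)|) R ‖w‖) δ
    rw [← sub_zero (∫ w, gR j R (vec B (flB B w) + δ)), ← h2, ← integral_sub
      (integrable_comp_flB B hfin.toFinset (fun n => gR j R (vec B n + δ)) hfS)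
      ((integrable_discJ j R).comp_add_right δ)]
    refine (norm_integral_le_of_norm_le ((integrable_maj _ _).comp_add_right δ) h5).trans ?_
    rw [h6]
    exact integral_maj_le hR
  rw [h1, norm_mul, Complex.norm_real, Real.norm_of_nonneg (volume_real_pos B).le] at h3
  exact h3

end Fermat.Agent.Cor.SectK
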