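import Fermat.Agent.Corollaries.SectK.Defs
import Fermat.Agent.Corollaries.SectK.LatBasis

/-!
# The elements of a coset of an ideal of an imaginary quadratic field in a disc

`∑ (σ a / |σ a|) ^ j = O(R)` over the `a ≡ b mod I`, `0 < |σ a| ≤ R`, for `j ≠ 0`.
-/

set_option autoImplicit false
set_option linter.unusedSectionVars false

noncomputable section

open Filter Topology MeasureTheory Set NumberField Fermat.Agent.Cor.Gauss.Lat
open scoped nonZeroDivisors

namespace Fermat.Agent.Cor.SectK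

universe u

variable {K : Type u} [Field K] [NumberField K]

/-- an embedding of a totally complex field is not real -/
theorem exists_im_ne_zero (hK : IsTotallyComplex K) (σ : K →+* ℂ) : ∃ x : K, (σ x).im ≠ 0 := by
  by_contra h
  push Not at h
  have h1 : ComplexEmbedding.IsReal σ := by
    rw [ComplexEmbedding.isReal_iff]
    ext x
    rw [ComplexEmbedding.conjugate_coe_eq]
    exact Complex.conj_eq_iff_im.2 (h x)
  have h2 := hK.isComplex (InfinitePlace.mk σ)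
  rw [InfinitePlace.isComplex_mk_iff] at h2
  exact h2 h1

/-- a `ℤ`-basis of an ideal is a basis of `ℂ` -/
theorem linearIndependent_basis (hK : IsTotallyComplex K) (σ : K →+* ℂ) {I : Ideal (𝓞 K)}
    (bI : Module.Basis (Fin 2) ℤ I) :
    LinearIndependent ℝ fun i : Fin 2 => σ ((bI i : 𝓞 K) : K) := by
  have hσ : Function.Injective σ := σ.injective
  have h0 : σ ((bI 0 : 𝓞 K) : K) ≠ 0 := by
    rw [Ne, map_eq_zero_iff σ hσ, RingOfIntegers.coe_eq_zero_iff, ZeroMemClass.coe_eq_zero]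
    exact bI.ne_zero 0
  have e : (fun i : Fin 2 => σ ((bI i : 𝓞 K) : K)) =
      ![σ ((bI 0 : 𝓞 K) : K), σ ((bI 1 : 𝓞 K) : K)] := by
    funext i
    fin_cases i <;> rfl
  rw [e, LinearIndependent.pair_iff' h0]
  intro r hr
  have h1 : ∀ a : I, ∃ s : ℝ, σ ((a : 𝓞 K) : K) = s * σ ((bI 0 : 𝓞 K) : K) := by
    intro a
    have h2 : a = bI.repr a 0 • bI 0 + bI.repr a 1 • bI 1 := by
      conv_lhs => rw [← bI.sum_repr a]
      rw [Fin.sum_univ_two]
    refine ⟨bI.repr a 0 + bI.repr a 1 * r, ?_⟩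
    have h3 : ((a : 𝓞 K) : K) = (bI.repr a 0 : K) * ((bI 0 : 𝓞 K) : K) +
        (bI.repr a 1 : K) * ((bI 1 : 𝓞 K) : K) := by
      conv_lhs => rw [h2]
      simp
    rw [h3, map_add, map_mul, map_mul, map_intCast, map_intCast, ← hr]
    push_cast
    rw [Complex.real_smul]
    ring
  have h4 : ∀ x : 𝓞 K, (σ (x : K)).im = 0 := by
    intro x
    obtain ⟨s, hs⟩ := h1 ⟨x * (bI 0 : 𝓞 K), I.mul_mem_left x (bI 0).2⟩
    have h5 : σ ((x * (bI 0 : 𝓞 K) : 𝓞 K) : K) = σ (x : K) * σ ((bI 0 : 𝓞 K) : K) := by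
      have : ((x * (bI 0 : 𝓞 K) : 𝓞 K) : K) = (x : K) * ((bI 0 : 𝓞 K) : K) := rfl
      rw [this, map_mul]
    have h6 : σ (x : K) = s := mul_right_cancel₀ h0 (h5.symm.trans hs)
    rw [h6, Complex.ofReal_im]
  obtain ⟨x, hx⟩ := exists_im_ne_zero hK σ
  obtain ⟨p, q, _, rfl⟩ := IsFractionRing.div_surjective (A := 𝓞 K) x
  apply hx
  have hp : σ (algebraMap (𝓞 K) K p) = ((σ (algebraMap (𝓞 K) K p)).re : ℂ) :=
    (Complex.conj_eq_iff_real.1 (Complex.conj_eq_iff_im.2 (h4 p))).elim fun r hr => by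
      rw [hr, Complex.ofReal_re]
  have hq : σ (algebraMap (𝓞 K) K q) = ((σ (algebraMap (𝓞 K) K q)).re : ℂ) :=
    (Complex.conj_eq_iff_real.1 (Complex.conj_eq_iff_im.2 (h4 q))).elim fun r hr => by
      rw [hr, Complex.ofReal_re]
  rw [map_div₀, hp, hq, ← Complex.ofReal_div, Complex.ofReal_im]

/-! ### The parametrization of a coset -/

section Coset

variable {I : Ideal (𝓞 K)} (bI : Module.Basis (Fin 2) ℤ I) (b : 𝓞 K)

/-- `n ↦ n₀ β₀ + n₁ β₁ + b` -/
def cosetMap (n : Fin 2 → ℤ) : 𝓞 K := ((bI.equivFun.symm n : I) : 𝓞 K) + b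

theorem cosetMap_injective : Function.Injective (cosetMap bI b) := by
  intro n m h
  have h1 : bI.equivFun.symm n = bI.equivFun.symm m := Subtype.ext (add_right_cancel h)
  exact bI.equivFun.symm.injective h1

theorem mem_range_cosetMap {a : 𝓞 K} : a ∈ range (cosetMap bI b) ↔ a - b ∈ I := by
  constructor
  · rintro ⟨n, rfl⟩
    rw [cosetMap, add_sub_cancel_right]
    exact Subtype.mem _
  · intro h
    refine ⟨bI.equivFun ⟨a - b, h⟩, ?_⟩
    rw [cosetMap, LinearEquiv.symm_apply_apply]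
    exact sub_add_cancel a b

theorem embed_cosetMap (σ : K →+* ℂ) (n : Fin 2 → ℤ) : σ (cosetMap bI b n : K) =
    (n 0 : ℂ) * σ ((bI 0 : 𝓞 K) : K) + (n 1 : ℂ) * σ ((bI 1 : 𝓞 K) : K) + σ (b : K) := by
  have h2 : bI.equivFun.symm n = n 0 • bI 0 + n 1 • bI 1 := by
    rw [bI.equivFun_symm_apply, Fin.sum_univ_two]
  have h3 : (cosetMap bI b n : K) = (n 0 : K) * ((bI 0 : 𝓞 K) : K) +
      (n 1 : K) * ((bI 1 : 𝓞 K) : K) + (b : K) := by
    rw [cosetMap, h2]
    simp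
  rw [h3, map_add, map_add, map_mul, map_mul, map_intCast, map_intCast]

end Coset

theorem ang_eq_angJ (σ : K →+* ℂ) (a : 𝓞 K) {t : ℝ} (ht : 0 < t) (j : ℤ) :
    angJ j (t * σ (a : K)) = ang σ a ^ j := by
  rw [angJ, ang, norm_mul, Complex.norm_real, Real.norm_of_nonneg ht.le, Complex.ofReal_mul,
    mul_div_mul_left _ _ (by exact_mod_cast ht.ne')]

/-- **(S1)** -/
theorem latStmt (K : Type u) [Field K] [NumberField K] : LatStmt K := by
  classical
  intro hK h2 σ I hI b j hj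
  have hσ : Function.Injective σ := σ.injective
  have hrank : Module.finrank ℤ (𝓞 K) = 2 := by rw [RingOfIntegers.rank, h2]
  let bI : Module.Basis (Fin 2) ℤ I :=
    I.selfBasis (Module.finBasisOfFinrankEq ℤ (𝓞 K) hrank) hI
  set ω : Fin 2 → ℂ := fun i => σ ((bI i : 𝓞 K) : K) with hω
  have hli : LinearIndependent ℝ ω := linearIndependent_basis hK σ bI
  -- the scaling factor
  set t : ℝ := 2 / (‖ω 0‖ + ‖ω 1‖ + 2) with ht
  have hden : 0 < ‖ω 0‖ + ‖ω 1‖ + 2 := by positivity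
  have ht0 : 0 < t := by positivity
  have ht1 : t ≤ 1 := by
    rw [ht, div_le_one hden]
    linarith [norm_nonneg (ω 0), norm_nonneg (ω 1)]
  have ht2 : t * ‖ω 0‖ + t * ‖ω 1‖ ≤ 2 := by
    have h3 : t * (‖ω 0‖ + ‖ω 1‖ + 2) = 2 := by
      rw [ht]
      field_simp
    linarith
  have hli' : LinearIndependent ℝ fun i => (t : ℝ) • ω i :=
    hli.units_smul (fun _ => Units.mk0 t ht0.ne')
  let B : Module.Basis (Fin 2) ℝ ℂ := basisOfLinearIndependentOfCardEqFinrank hli'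
    (by rw [Fintype.card_fin, Complex.finrank_real_complex])
  have hBi : ∀ i, B i = (t : ℂ) * ω i := fun i => by
    rw [coe_basisOfLinearIndependentOfCardEqFinrank, Complex.real_smul]
  have hB : ‖B 0‖ + ‖B 1‖ ≤ 2 := by
    rw [hBi, hBi, norm_mul, norm_mul, Complex.norm_real, Real.norm_of_nonneg ht0.le]
    exact ht2
  have hvec : ∀ n : Fin 2 → ℤ, vec B n + (t : ℂ) * σ (b : K) =
      (t : ℂ) * σ (cosetMap bI b n : K) := by
    intro n
    rw [vec, Fin.sum_univ_two, hBi, hBi, embed_cosetMap, Complex.real_smul, Complex.real_smul]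
    push_cast
    ring
  have hcond : ∀ (a : 𝓞 K) (R : ℝ), ((t : ℂ) * σ (a : K) ≠ 0 ∧ ‖(t : ℂ) * σ (a : K)‖ ≤ t * R) ↔
      (a ≠ 0 ∧ ‖σ (a : K)‖ ≤ R) := by
    intro a R
    rw [norm_mul, Complex.norm_real, Real.norm_of_nonneg ht0.le, mul_le_mul_iff_right₀ ht0,
      mul_ne_zero_iff, Ne, Ne, map_eq_zero_iff σ hσ, RingOfIntegers.coe_eq_zero_iff]
    have : (t : ℂ) ≠ 0 := by exact_mod_cast ht0.ne'
    tauto
  refine ⟨2 * Real.pi * (((2 + 4 * |(j : ℝ)|) + 4) * 3) /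
    volume.real (ZSpan.fundamentalDomain B), fun R hR => ⟨?_, ?_⟩⟩
  · refine ((finite_vec B ((t : ℂ) * σ (b : K)) (t * R)).image (cosetMap bI b)).subset ?_
    rintro a ⟨h3, h4, h5⟩
    obtain ⟨n, rfl⟩ := (mem_range_cosetMap bI b).2 h3
    refine ⟨n, ?_, rfl⟩
    rw [mem_ofPred_eq, hvec]
    exact ((hcond _ R).2 ⟨h4, h5⟩).2
  · have h3 : ∑' a : {a : 𝓞 K // a - b ∈ I ∧ a ≠ 0 ∧ ‖σ (a : K)‖ ≤ R}, ang σ a ^ j =
        ∑' n : Fin 2 → ℤ, gR j (t * R) (vec B n + (t : ℂ) * σ (b : K)) := by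
      have h4 := tsum_subtype {a : 𝓞 K | a - b ∈ I ∧ a ≠ 0 ∧ ‖σ (a : K)‖ ≤ R}
        (fun a => ang σ a ^ j)
      refine h4.trans ?_
      rw [← (cosetMap_injective bI b).tsum_eq]
      · refine tsum_congr fun n => ?_
        rw [hvec]
        by_cases hn : cosetMap bI b n ≠ 0 ∧ ‖σ (cosetMap bI b n : K)‖ ≤ R
        · rw [indicator_of_mem (by exact ⟨(mem_range_cosetMap bI b).1 ⟨n, rfl⟩, hn⟩),
            gR_pos ((hcond _ R).2 hn), ang_eq_angJ σ _ ht0]
        · rw [indicator_of_notMem (fun h => hn h.2), gR_neg (fun h => hn ((hcond _ R).1 h))]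
      · intro a ha
        rw [mem_range_cosetMap]
        by_contra h
        exact ha (indicator_of_notMem (fun h' => h h'.1) _)
    have h6 := norm_tsum_le B hB ((t : ℂ) * σ (b : K)) hj (R := t * R)
      (mul_nonneg ht0.le (by linarith))
    rw [h3]
    have h7 : 0 ≤ 2 * Real.pi * ((2 + 4 * |(j : ℝ)|) + 4) := by positivity
    have h8 : t * R ≤ R := mul_le_of_le_one_left (by linarith) ht1
    have h9 : 2 * Real.pi * (((2 + 4 * |(j : ℝ)|) + 4) * (t * R + 2)) ≤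
        2 * Real.pi * (((2 + 4 * |(j : ℝ)|) + 4) * 3) * R := by nlinarith
    have h10 := (mul_comm _ _).trans_le (h6.trans h9)
    have h11 := (le_div_iff₀ (volume_real_pos B)).2 h10
    exact h11.trans (le_of_eq (by ring))

end Fermat.Agent.Cor.SectK
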