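import Fermat.Agent.Corollaries.SectK.QuAll

/-!
# The moments of the coefficients of the elliptic curves with `j = 0` and `j = 1728`

* `sum_of_hecke` : test functions in the Sato-Tate law for coefficients given by a Hecke
  character;
* `moments_of_hecke` : the `n`-th moment of `a_p / √p` is `(1/2) C(n, n/2)` for even `n > 0` and
  zero for odd `n`;
* `moments_j` : the same for every integral Weierstrass equation with `c₄ c₆ = 0`.
-/

set_option autoImplicit false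
set_option linter.unusedSectionVars false

noncomputable section

open NumberField nonZeroDivisors Complex Filter Topology Module

open scoped Classical

namespace Fermat.Agent.Cor.SectK

open Fermat.Agent.ClassL Fermat.Agent.Cor.Ray Fermat.Agent.Classic.Zeta

variable {K : Type} [Field K] [NumberField K]

/-- the binomial theorem for `2 cos` -/
theorem two_re_pow {z : ℂ} (hz : ‖z‖ = 1) (n : ℕ) :
    (((2 * z.re) ^ n : ℝ) : ℂ) =
      ∑ j ∈ Finset.range (n + 1), (n.choose j : ℂ) * z ^ (2 * (j : ℤ) - n) := by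
  have h0 : z ≠ 0 := by
    rintro rfl
    rw [norm_zero] at hz
    exact zero_ne_one hz
  have h1 : ((2 * z.re : ℝ) : ℂ) = z + z⁻¹ := by
    have h2 : z⁻¹ = (starRingEnd ℂ) z := by
      rw [Complex.inv_def, Complex.normSq_eq_norm_sq, hz]
      simp
    rw [h2, Complex.add_conj]
  rw [Complex.ofReal_pow, h1, add_pow]
  refine Finset.sum_congr rfl fun j hj => ?_
  have hj' : j ≤ n := Nat.lt_succ_iff.1 (Finset.mem_range.1 hj)
  rw [mul_comm]
  congr 1
  rw [inv_pow, ← zpow_natCast, ← zpow_natCast, ← zpow_neg, ← zpow_add₀ h0]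
  congr 1
  push_cast [Nat.cast_sub hj']
  ring

/-- the central binomial coefficient -/
theorem sum_choose (n : ℕ) : ∑ j ∈ Finset.range (n + 1),
    (n.choose j : ℂ) * (if 2 * (j : ℤ) - n = 0 then 1 else 0) =
      ((if Even n then (n.choose (n / 2) : ℝ) else 0 : ℝ) : ℂ) := by
  by_cases hn : Even n
  · rw [if_pos hn]
    obtain ⟨m, rfl⟩ := hn
    have e : (m + m) / 2 = m := by omega
    rw [e, Finset.sum_eq_single m]
    · rw [if_pos (by push_cast; ring), mul_one]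
      simp
    · intro j _ hj
      rw [if_neg (by intro h; apply hj; push_cast at h; omega), mul_zero]
    · intro h
      exact absurd (Finset.mem_range.2 (by omega)) h
  · rw [if_neg hn]
    rw [Finset.sum_eq_zero]
    · simp
    · intro j _
      rw [if_neg, mul_zero]
      intro h
      apply hn
      exact ⟨j, by omega⟩

section

variable (hc : IsTotallyComplex K) (h2 : finrank ℚ K = 2)
  {σ : K →+* ℂ} {𝔪 : Ideal (𝓞 K)} (h𝔪 : 𝔪 ≠ ⊥) {k : ℤ} (hk : k ≠ 0)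
  {ψ : (Ideal (𝓞 K))⁰ →* ℂ} (hψ : HChar σ 𝔪 k ψ) (S : Finset ℕ)

include hc h2 h𝔪 hk hψ

/-- the moments of the real parts of the values of a Hecke character -/
theorem tendsto_moment {D : ℝ} (hD : IsCount (fun P : PrC 𝔪 => nP P.1) D) (n : ℕ) :
    Tendsto (fun x : ℕ => (∑ P ∈ hD.F x, (2 * (ψ P.1.1).re) ^ n) * Real.log x / x) atTop
      (𝓝 (if Even n then (n.choose (n / 2) : ℝ) else 0)) := by
  obtain ⟨L, Z, hd⟩ := exists_heckeDat (contStmt K) hc h2 h𝔪 hk hψ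
  have h3 : ∀ j : ℤ, Tendsto (fun x : ℕ => (((Real.log x / x : ℝ)) : ℂ) *
      ∑ P ∈ hD.F x, (ψ P.1.1) ^ j) atTop (𝓝 (if j = 0 then 1 else 0)) := by
    intro j
    by_cases hj : j = 0
    · subst hj
      rw [if_pos rfl]
      have h4 := (Complex.continuous_ofReal.tendsto _).comp (hd.tendsto_card hD)
      rw [Complex.ofReal_one] at h4
      refine h4.congr fun x => ?_
      simp only [Function.comp, zpow_zero, Finset.sum_const, nsmul_eq_mul, mul_one]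
      push_cast
      ring
    · rw [if_neg hj]
      refine (hd.tendsto_sum hD hj).congr fun x => ?_
      rfl
  have h4 : Tendsto (fun x : ℕ => ∑ j ∈ Finset.range (n + 1), (n.choose j : ℂ) *
      ((((Real.log x / x : ℝ)) : ℂ) * ∑ P ∈ hD.F x, (ψ P.1.1) ^ (2 * (j : ℤ) - n))) atTop
      (𝓝 ((if Even n then (n.choose (n / 2) : ℝ) else 0 : ℝ) : ℂ)) := by
    rw [← sum_choose]
    exact tendsto_finsetSum _ fun j _ => (h3 _).const_mul _
  have h5 := (Complex.continuous_re.tendsto _).comp h4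
  rw [Complex.ofReal_re] at h5
  refine h5.congr fun x => ?_
  have h6 : ∑ j ∈ Finset.range (n + 1), (n.choose j : ℂ) *
      ((((Real.log x / x : ℝ)) : ℂ) * ∑ P ∈ hD.F x, (ψ P.1.1) ^ (2 * (j : ℤ) - n)) =
      (((∑ P ∈ hD.F x, (2 * (ψ P.1.1).re) ^ n) * Real.log x / x : ℝ) : ℂ) := by
    rw [mul_div_assoc, Complex.ofReal_mul, Complex.ofReal_sum, mul_comm]
    rw [Finset.sum_congr rfl fun P (_ : P ∈ hD.F x) => two_re_pow (hψ.norm_eq P.1.1 P.2) n,
      Finset.sum_comm, Finset.mul_sum]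
    refine Finset.sum_congr rfl fun j _ => ?_
    rw [← Finset.mul_sum]
    ring
  simp only [Function.comp]
  rw [h6, Complex.ofReal_re]

/-- test functions: from the prime ideals to the primes -/
theorem tendsto_test {D : ℝ} (hD : IsCount (fun P : PrC 𝔪 => nP P.1) D) {φ : ℝ → ℝ} {M l : ℝ}
    (hM : ∀ t, |t| ≤ 1 → |φ t| ≤ M)
    (hφ : Tendsto (fun x : ℕ => (∑ P ∈ hD.F x, φ (ψ P.1.1).re) * Real.log x / x) atTop (𝓝 l))
    {r : ℕ → ℝ} (hr : ∀ P : Pr K, (nP P).Prime → nP P ∉ S → r (nP P) = (ψ P.1).re)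
    (hr0 : ∀ p : ℕ, p.Prime → p ∉ S → (∀ P : Pr K, nP P ≠ p) → r p = 0) :
    Tendsto (fun x : ℕ => (∑ p ∈ (Finset.Icc 1 x).filter (fun p => p.Prime ∧ p ∉ S), φ (r p)) *
      Real.log x / x) atTop (𝓝 (φ 0 / 2 + l / 2)) := by
  have hM0 : 0 ≤ M := (abs_nonneg _).trans (hM 0 (by norm_num))
  have hre : ∀ P : Pr K, IsCoprime ((P.1 : (Ideal (𝓞 K))⁰) : Ideal (𝓞 K)) 𝔪 →
      |φ (ψ P.1).re| ≤ M := by
    intro P hP
    apply hM
    have h6 := Complex.abs_re_le_norm (ψ P.1)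
    rwa [hψ.norm_eq P.1 hP] at h6
  -- step 1: good prime ideals of degree one
  have t1 : Tendsto (fun x : ℕ => (∑ P ∈ goodP h𝔪 S x, φ (ψ P.1).re) * Real.log x / x) atTop
      (𝓝 l) := by
    refine qd_tendsto_of_bounded (A := M * finrank ℚ K)
      (B := M * (finrank ℚ K + (finite_badP h𝔪 S).toFinset.card)) (fun x => ?_) hφ
    set H : Finset (Pr K) := (hD.F x).image fun P => P.1 with hH
    have e1 : ∑ P ∈ hD.F x, φ (ψ P.1.1).re = ∑ P ∈ H, φ (ψ P.1).re := by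
      rw [hH, Finset.sum_image fun a _ b _ h => Subtype.val_injective h]
    have hmem : ∀ P : Pr K, P ∈ H ↔ IsCoprime ((P.1 : (Ideal (𝓞 K))⁰) : Ideal (𝓞 K)) 𝔪 ∧
        nP P ≤ x := by
      intro P
      rw [hH, Finset.mem_image]
      constructor
      · rintro ⟨Q, hQ, rfl⟩
        rw [hD.mem_F] at hQ
        exact ⟨Q.2, hQ⟩
      · rintro ⟨h4, h5⟩
        exact ⟨⟨P, h4⟩, by rw [hD.mem_F]; exact h5, rfl⟩
    have hGH : goodP h𝔪 S x ⊆ H := by
      intro P hP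
      rw [mem_goodP] at hP
      exact (hmem P).2 ⟨(notMem_badS h𝔪 S hP.2.1 hP.2.2).2.2 P rfl, hP.1⟩
    have hsub : H \ goodP h𝔪 S x ⊆ ((prLe K x).filter fun P =>
        ¬ (Ideal.absNorm (P.1 : Ideal (𝓞 K))).Prime) ∪ (finite_badP h𝔪 S).toFinset := by
      intro P hP
      rw [Finset.mem_sdiff, hmem, mem_goodP] at hP
      obtain ⟨⟨h4, h5⟩, h7⟩ := hP
      rw [Finset.mem_union, Finset.mem_filter, mem_prLe, Set.Finite.mem_toFinset]
      by_cases h8 : (nP P).Prime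
      · right
        by_contra h9
        exact h7 ⟨h5, h8, h9⟩
      · left
        exact ⟨h5, h8⟩
    have h5 : (H \ goodP h𝔪 S x).card ≤
        finrank ℚ K * (Nat.sqrt x + 1) + (finite_badP h𝔪 S).toFinset.card :=
      (Finset.card_le_card hsub).trans ((Finset.card_union_le _ _).trans
        (Nat.add_le_add_right (card_deg_two_le x) _))
    have h6 : ((H \ goodP h𝔪 S x).card : ℝ) ≤
        finrank ℚ K * (Nat.sqrt x + 1) + (finite_badP h𝔪 S).toFinset.card := by exact_mod_cast h5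
    rw [e1, ← Finset.sum_sdiff hGH, add_sub_cancel_right]
    calc |∑ P ∈ H \ goodP h𝔪 S x, φ (ψ P.1).re| ≤ ∑ P ∈ H \ goodP h𝔪 S x, |φ (ψ P.1).re| :=
          Finset.abs_sum_le_sum_abs _ _
      _ ≤ ∑ P ∈ H \ goodP h𝔪 S x, M := by
          refine Finset.sum_le_sum fun P hP => hre P ?_
          rw [Finset.mem_sdiff, hmem] at hP
          exact hP.1.1
      _ = M * ((H \ goodP h𝔪 S x).card : ℝ) := by
          rw [Finset.sum_const, nsmul_eq_mul, mul_comm]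
      _ ≤ M * (finrank ℚ K * (Nat.sqrt x + 1) + (finite_badP h𝔪 S).toFinset.card) :=
          mul_le_mul_of_nonneg_left h6 hM0
      _ = _ := by ring
  -- step 2: two prime ideals over each good split prime
  have e2 : ∀ x : ℕ, ∑ P ∈ goodP h𝔪 S x, φ (ψ P.1).re = 2 * ∑ p ∈ goodN h𝔪 S x, φ (r p) := by
    intro x
    rw [← Finset.sum_fiberwise_of_maps_to (s := goodP h𝔪 S x) (t := goodN h𝔪 S x) (g := nP)
      (fun P hP => Finset.mem_image_of_mem _ hP), Finset.mul_sum]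
    refine Finset.sum_congr rfl fun p hp => ?_
    rw [mem_goodN] at hp
    obtain ⟨h3, h4, h5, P, hP⟩ := hp
    have hcard : ((goodP h𝔪 S x).filter fun Q => nP Q = p).card = 2 := by
      refine card_norm_eq h2 h3 (notMem_badS h𝔪 S h3 h5).2.1 hP fun Q => ?_
      rw [Finset.mem_filter, mem_goodP]
      constructor
      · exact fun h => h.2
      · intro h
        exact ⟨⟨by rw [h]; exact h4, by rw [h]; exact h3, by rw [h]; exact h5⟩, h⟩
    rw [Finset.sum_congr rfl (g := fun _ => φ (r p)), Finset.sum_const, hcard, nsmul_eq_mul]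
    · push_cast
      ring
    · intro Q hQ
      rw [Finset.mem_filter, mem_goodP] at hQ
      rw [← hQ.2, hr Q hQ.1.2.1 (notMem_badS h𝔪 S hQ.1.2.1 hQ.1.2.2).1]
  -- step 3: all the primes
  have t2 := tendsto_card_inertN (contStmt K) hc h2 h𝔪 hk hψ S
  have t3 : Tendsto (fun x : ℕ => (φ 0 * ((inertN h𝔪 S x).card : ℝ) +
      ∑ p ∈ goodN h𝔪 S x, φ (r p)) * Real.log x / x) atTop (𝓝 (φ 0 / 2 + l / 2)) := by
    have h3 := (t2.const_mul (φ 0)).add (t1.const_mul (1 / 2))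
    have e : φ 0 * (1 / 2) + 1 / 2 * l = φ 0 / 2 + l / 2 := by ring
    rw [e] at h3
    refine h3.congr fun x => ?_
    rw [e2]
    ring
  refine qd_tendsto_of_bounded (A := 0) (B := ∑ p ∈ badS h𝔪 S, |φ (r p)|) (fun x => ?_) t3
  set T : Finset ℕ := (Finset.Icc 1 x).filter (fun p => p.Prime ∧ p ∉ S) with hT
  have hsub : inertN h𝔪 S x ∪ goodN h𝔪 S x ⊆ T := by
    intro p hp
    rw [Finset.mem_union, mem_inertN, mem_goodN] at hp
    rw [hT, Finset.mem_filter, Finset.mem_Icc]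
    rcases hp with ⟨h3, h4, h5, -⟩ | ⟨h3, h4, h5, -⟩
    · exact ⟨⟨h3.one_le, h4⟩, h3, (notMem_badS h𝔪 S h3 h5).1⟩
    · exact ⟨⟨h3.one_le, h4⟩, h3, (notMem_badS h𝔪 S h3 h5).1⟩
  have hdis : Disjoint (inertN h𝔪 S x) (goodN h𝔪 S x) := by
    rw [Finset.disjoint_left]
    intro p hp hp'
    rw [mem_inertN] at hp
    rw [mem_goodN] at hp'
    obtain ⟨P, hP⟩ := hp'.2.2.2
    exact hp.2.2.2 P hP
  have e3 : φ 0 * ((inertN h𝔪 S x).card : ℝ) = ∑ p ∈ inertN h𝔪 S x, φ (r p) := by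
    rw [Finset.sum_congr rfl (g := fun _ => φ 0), Finset.sum_const, nsmul_eq_mul, mul_comm]
    intro p hp
    rw [mem_inertN] at hp
    rw [hr0 p hp.1 (notMem_badS h𝔪 S hp.1 hp.2.2.1).1 hp.2.2.2]
  rw [e3, ← Finset.sum_union hdis, ← Finset.sum_sdiff hsub, sub_add_cancel_right, abs_neg,
    zero_mul, zero_add]
  refine (Finset.abs_sum_le_sum_abs _ _).trans (Finset.sum_le_sum_of_subset_of_nonneg ?_
    fun _ _ _ => abs_nonneg _)
  intro p hp
  rw [Finset.mem_sdiff, Finset.mem_union, mem_inertN, mem_goodN, hT, Finset.mem_filter,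
    Finset.mem_Icc] at hp
  obtain ⟨⟨⟨-, h3⟩, h4, h5⟩, h6⟩ := hp
  by_contra h7
  apply h6
  by_cases h8 : ∃ P : Pr K, nP P = p
  · exact Or.inr ⟨h4, h3, h7, h8⟩
  · exact Or.inl ⟨h4, h3, h7, fun P hP => h8 ⟨P, hP⟩⟩

end

/-- **The moments of coefficients given by a Hecke character** of an imaginary quadratic field,
of infinite order: the `n`-th moment of `a_p / √p` is `(1/2) C(n, n/2)` for even `n > 0` and `0`
for odd `n`. -/
theorem moments_of_hecke {K : Type} [Field K] [NumberField K] (hK : IsTotallyComplex K)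
    (h2 : Module.finrank ℚ K = 2) {σ : K →+* ℂ} {𝔪 : Ideal (𝓞 K)} (h𝔪 : 𝔪 ≠ ⊥) {k : ℤ}
    (hk : k ≠ 0) {ψ : (Ideal (𝓞 K))⁰ →* ℂ} (hψ : HChar σ 𝔪 k ψ) (S : Finset ℕ) {a : ℕ → ℝ}
    (hsplit : ∀ (p : ℕ) (P : Pr K), p.Prime → p ∉ S →
      Ideal.absNorm ((P.1 : (Ideal (𝓞 K))⁰) : Ideal (𝓞 K)) = p →
        a p = 2 * Real.sqrt p * (ψ P.1).re)
    (hinert : ∀ p : ℕ, p.Prime → p ∉ S →
      (∀ P : Pr K, Ideal.absNorm ((P.1 : (Ideal (𝓞 K))⁰) : Ideal (𝓞 K)) ≠ p) → a p = 0)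
    (n : ℕ) :
    Tendsto (fun x : ℕ => (∑ p ∈ (Finset.Icc 1 x).filter (fun p => p.Prime ∧ p ∉ S),
      (a p / Real.sqrt p) ^ n) * Real.log x / x) atTop
      (𝓝 ((if n = 0 then 1 / 2 else 0) + (if Even n then (n.choose (n / 2) : ℝ) / 2 else 0))) := by
  obtain ⟨D, hD⟩ := exists_isCountC 𝔪
  have h3 := tendsto_test hK h2 h𝔪 hk hψ S hD (φ := fun t => (2 * t) ^ n) (M := 2 ^ n)
    (fun t ht => by
      rw [abs_pow, abs_mul]
      refine pow_le_pow_left₀ (by positivity) ?_ n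
      rw [abs_of_pos (by norm_num : (0 : ℝ) < 2)]
      linarith) (tendsto_moment hK h2 h𝔪 hk hψ hD n)
    (r := fun p => a p / (2 * Real.sqrt p)) (fun P h3 h4 => ?_) (fun p h3 h4 h5 => ?_)
  · have e1 : ((2 * (0 : ℝ)) ^ n / 2 + (if Even n then (n.choose (n / 2) : ℝ) else 0) / 2) =
        (if n = 0 then 1 / 2 else 0) + (if Even n then (n.choose (n / 2) : ℝ) / 2 else 0) := by
      by_cases hn : n = 0
      · subst hn
        simp
      · rw [mul_zero, zero_pow hn, if_neg hn, zero_div]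
        split_ifs <;> simp
    rw [← e1]
    refine h3.congr fun x => ?_
    congr 2
    refine Finset.sum_congr rfl fun p hp => ?_
    rw [Finset.mem_filter, Finset.mem_Icc] at hp
    have h6 : (0 : ℝ) < p := by exact_mod_cast hp.1.1
    have h7 : Real.sqrt p ≠ 0 := (Real.sqrt_pos.2 h6).ne'
    congr 1
    field_simp
  · have h6 : (0 : ℝ) < nP P := by exact_mod_cast h3.pos
    have h7 : 2 * Real.sqrt (nP P) ≠ 0 := by
      have := Real.sqrt_pos.2 h6
      positivity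
    change a (nP P) / (2 * Real.sqrt (nP P)) = _
    rw [hsplit (nP P) P h3 h4 rfl, mul_div_cancel_left₀ _ h7]
  · rw [hinert p h3 h4 h5, zero_div]

/-! ### The elliptic curves with `j = 0` and `j = 1728` -/

/-- The numbers `a p`, `p ∤ N` prime, come from a Hecke character: there are an imaginary quadratic
field `K` and a Hecke character `ψ` of `K` of `∞`-type `1` such that `a p = 2 √p Re ψ(P)` if `P` is
a prime ideal of `K` of norm `p`, and `a p = 0` if there is no such prime ideal. -/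
def IsHecke (a : ℕ → ℝ) (N : ℤ) : Prop :=
  ∃ (K : Type) (_ : Field K) (_ : NumberField K) (σ : K →+* ℂ) (𝔪 : Ideal (𝓞 K))
    (ψ : (Ideal (𝓞 K))⁰ →* ℂ), IsTotallyComplex K ∧ Module.finrank ℚ K = 2 ∧ 𝔪 ≠ ⊥ ∧
      HChar σ 𝔪 1 ψ ∧
      (∀ (p : ℕ) (P : Pr K), p.Prime → ¬ (p : ℤ) ∣ N →
        Ideal.absNorm ((P.1 : (Ideal (𝓞 K))⁰) : Ideal (𝓞 K)) = p →
          a p = 2 * Real.sqrt p * (ψ P.1).re) ∧
      (∀ p : ℕ, p.Prime → ¬ (p : ℤ) ∣ N →
        (∀ P : Pr K, Ideal.absNorm ((P.1 : (Ideal (𝓞 K))⁰) : Ideal (𝓞 K)) ≠ p) → a p = 0)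

theorem notMem_primeFactors_iff {N : ℤ} (hN : N ≠ 0) {p : ℕ} (hp : p.Prime) :
    p ∉ N.natAbs.primeFactors ↔ ¬ (p : ℤ) ∣ N := by
  rw [Nat.mem_primeFactors, Int.natCast_dvd]
  exact not_congr ⟨fun h1 => h1.2.1, fun h1 => ⟨hp, h1, Int.natAbs_ne_zero.2 hN⟩⟩

/-- the moments -/
theorem IsHecke.moments {a : ℕ → ℝ} {N : ℤ} (h : IsHecke a N) (hN : N ≠ 0) (n : ℕ) :
    Tendsto (fun x : ℕ => (∑ p ∈ (Finset.Icc 1 x).filter (fun p : ℕ => p.Prime ∧ ¬ (p : ℤ) ∣ N),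
      (a p / Real.sqrt p) ^ n) * Real.log x / x) atTop
      (𝓝 ((if n = 0 then 1 / 2 else 0) + (if Even n then (n.choose (n / 2) : ℝ) / 2 else 0))) := by
  obtain ⟨K, _, _, σ, 𝔪, ψ, hK, h2, h𝔪, hψ, h3, h4⟩ := h
  refine (moments_of_hecke hK h2 h𝔪 one_ne_zero hψ N.natAbs.primeFactors
    (fun p P hp hpS hP => h3 p P hp ((notMem_primeFactors_iff hN hp).1 hpS) hP)
    (fun p hp hpS hP => h4 p hp ((notMem_primeFactors_iff hN hp).1 hpS) hP) n).congr fun x => ?_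
  congr 3
  refine Finset.filter_congr fun p _ => and_congr_right fun hp => ?_
  exact notMem_primeFactors_iff hN hp

/-- **Deuring's theorem for `y² = x³ + m`** -/
theorem isHecke_E0 {m : ℤ} (hm : m ≠ 0) : IsHecke (fun p => ((E0 m).apOfModel p : ℝ)) (6 * m) := by
  have : NeZero ((3 : ℕ) : ℚ) := ⟨by norm_num⟩
  have : IsCyclotomicExtension {3} ℚ (CyclotomicField 3 ℚ) :=
    CyclotomicField.isCyclotomicExtension 3 ℚ
  obtain ⟨σ⟩ : Nonempty (CyclotomicField 3 ℚ →+* ℂ) := inferInstance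
  obtain ⟨η, h⟩ := exists_eisDat (K := CyclotomicField 3 ℚ) σ
  obtain ⟨𝔪, ψ, h𝔪, hψ, hval⟩ := Jz.exists_hChar h hm
  refine ⟨CyclotomicField 3 ℚ, inferInstance, inferInstance, σ, 𝔪, ψ, h.cpx, h.rank, h𝔪, hψ,
    ?_, ?_⟩
  · intro p P hp hpS hP
    have hpF : Fact p.Prime := ⟨hp⟩
    have hPi : ((P.1 : (Ideal (𝓞 (CyclotomicField 3 ℚ)))⁰) :
        Ideal (𝓞 (CyclotomicField 3 ℚ))).IsPrime := Ideal.isPrime_of_prime P.2
    let v : IsDedekindDomain.HeightOneSpectrum (𝓞 (CyclotomicField 3 ℚ)) :=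
      ⟨((P.1 : (Ideal (𝓞 (CyclotomicField 3 ℚ)))⁰) : Ideal (𝓞 (CyclotomicField 3 ℚ))), hPi,
        P.2.ne_zero⟩
    have hv : Ideal.absNorm v.asIdeal = p := hP
    have h6 : ((6 * m : ℤ) : 𝓞 (CyclotomicField 3 ℚ)) ∉ v.asIdeal := by
      apply Jz.int_notMem hv
      rwa [Ne, ZMod.intCast_zmod_eq_zero_iff_dvd]
    have h3 : (3 : 𝓞 (CyclotomicField 3 ℚ)) ∉ v.asIdeal := by
      intro h3
      apply h6
      have h4 : ((6 * m : ℤ) : 𝓞 (CyclotomicField 3 ℚ)) = 3 * (2 * m) := by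
        push_cast
        ring
      rw [h4]
      exact Ideal.mul_mem_right _ _ h3
    obtain ⟨π, -, hπ, hπ3⟩ := h.exists_gen ⟨P.1, Jz.isCoprime_of_notMem (v := v) h3⟩
    have h7 := hval v P.1 rfl h6 π hπ hπ3
    change ((E0 m).apOfModel p : ℝ) = 2 * Real.sqrt p * (ψ P.1).re
    rw [h7, hv]
    exact Jz.ap_E0_eq h hv hpS hπ hπ3
  · intro p hp hpS hP
    have hpF : Fact p.Prime := ⟨hp⟩
    have h5 : p % 3 ≠ 0 := by
      intro h6
      have h7 : 3 ∣ p := Nat.dvd_of_mod_eq_zero h6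
      have h8 : 3 = p := (Nat.prime_dvd_prime_iff_eq Nat.prime_three hp).1 h7
      apply hpS
      rw [← h8]
      exact ⟨2 * m, by push_cast; ring⟩
    have h6 : p % 3 ≠ 1 := by
      intro h6
      obtain ⟨P, hP'⟩ := Jz.exists_pr h hp h6
      exact hP P hP'
    have h7 : (E0 m).apOfModel p = 0 := ap_E0_of_two (by omega) hpS
    change ((E0 m).apOfModel p : ℝ) = 0
    rw [h7, Int.cast_zero]

/-- **Deuring's theorem for `y² = x³ + m x`** -/
theorem isHecke_E1728 {m : ℤ} (hm : m ≠ 0) :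
    IsHecke (fun p => ((E1728 m).apOfModel p : ℝ)) (2 * m) := by
  have : NeZero ((4 : ℕ) : ℚ) := ⟨by norm_num⟩
  have : IsCyclotomicExtension {4} ℚ (CyclotomicField 4 ℚ) :=
    CyclotomicField.isCyclotomicExtension 4 ℚ
  obtain ⟨σ⟩ : Nonempty (CyclotomicField 4 ℚ →+* ℂ) := inferInstance
  obtain ⟨η, h⟩ := exists_gausDat (K := CyclotomicField 4 ℚ) σ
  obtain ⟨𝔪, ψ, h𝔪, hψ, hap⟩ := exists_hChar_E1728 h hm
  have hsep : ∀ {p : ℕ}, p.Prime → ¬ (p : ℤ) ∣ 2 * m → p ≠ 2 ∧ ¬ (p : ℤ) ∣ m := by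
    intro p hp h1
    refine ⟨?_, fun h3 => h1 (h3.mul_left _)⟩
    rintro rfl
    exact h1 (Dvd.intro _ rfl)
  refine ⟨CyclotomicField 4 ℚ, inferInstance, inferInstance, σ, 𝔪, ψ, h.cpx, h.rank, h𝔪, hψ,
    ?_, ?_⟩
  · intro p P hp hpS hP
    obtain ⟨h1, h3⟩ := hsep hp hpS
    exact hap p hp h1 h3 P.1 hP
  · intro p hp hpS hP
    obtain ⟨h1, h3⟩ := hsep hp hpS
    have : Fact p.Prime := ⟨hp⟩
    have h5 : p % 2 = 1 := Nat.odd_iff.1 (hp.odd_of_ne_two h1)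
    have h6 : p % 4 ≠ 1 := by
      intro h6
      obtain ⟨P, hP'⟩ := h.exists_pr hp h6
      exact hP P hP'
    have h7 : (E1728 m).apOfModel p = 0 := ap_E1728_of_three (by omega) h3
    simp [h7]

theorem IsHecke.congr {a b : ℕ → ℝ} {M N : ℤ} (h : IsHecke a M)
    (hd : ∀ p : ℕ, p.Prime → ¬ (p : ℤ) ∣ N → ¬ (p : ℤ) ∣ M ∧ b p = a p) : IsHecke b N := by
  obtain ⟨K, i1, i2, σ, 𝔪, ψ, hK, h2, h𝔪, hψ, h3, h4⟩ := h
  refine ⟨K, i1, i2, σ, 𝔪, ψ, hK, h2, h𝔪, hψ, fun p P hp hpN hP => ?_, fun p hp hpN hP => ?_⟩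
  · rw [(hd p hp hpN).2]
    exact h3 p P hp (hd p hp hpN).1 hP
  · rw [(hd p hp hpN).2]
    exact h4 p hp (hd p hp hpN).1 hP

/-- **Deuring's theorem for the elliptic curves over `ℚ` with `j = 0` or `j = 1728`**: the traces
of Frobenius of an integral Weierstrass equation with `Δ ≠ 0` and `c₄ c₆ = 0` at the primes
`p ∤ 6 Δ` come from a Hecke character of an imaginary quadratic field. -/
theorem isHecke_j {W : WeierstrassCurve ℤ} (hΔ : W.Δ ≠ 0) (hc : W.c₄ * W.c₆ = 0) :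
    IsHecke (fun p => (W.apOfModel p : ℝ)) (6 * W.Δ) := by
  rcases mul_eq_zero.1 hc with h | h
  · have hm : -54 * W.c₆ ≠ 0 := by
      intro h0
      apply hΔ
      have h1 := W.c_relation
      have h2 : W.c₆ = 0 := by omega
      rw [h, h2] at h1
      omega
    refine (isHecke_E0 hm).congr fun p hp hpN => ?_
    have hpF : Fact p.Prime := ⟨hp⟩
    exact ⟨fun h3 => hpN ((Jz.dvd_iff h).1 h3), by rw [Jz.ap_eq_ap_E0 h hpN]⟩
  · have hm : -27 * W.c₄ ≠ 0 := by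
      intro h0
      apply hΔ
      have h1 := W.c_relation
      have h2 : W.c₄ = 0 := by omega
      rw [h, h2] at h1
      omega
    refine (isHecke_E1728 hm).congr fun p hp hpN => ?_
    have hpF : Fact p.Prime := ⟨hp⟩
    exact ⟨fun h3 => hpN ((Qc.dvd_iff_of_c6 hp h).1 h3), by rw [Qc.ap_eq_ap_E1728 h hpN]⟩

/-- **The moments of the traces of Frobenius of the elliptic curves over `ℚ` with `j = 0` or
`j = 1728`**: the mean of `(a_p / √p)^n` over the primes `p ≤ x`, `p ∤ 6 Δ`, tends to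
`(1/2) C(n, n/2)` for even `n > 0` and to `0` for odd `n`. -/
theorem moments_j {W : WeierstrassCurve ℤ} (hΔ : W.Δ ≠ 0) (hc : W.c₄ * W.c₆ = 0) (n : ℕ) :
    Tendsto (fun x : ℕ => (∑ p ∈ (Finset.Icc 1 x).filter (fun p : ℕ => p.Prime ∧
      ¬ (p : ℤ) ∣ 6 * W.Δ), ((W.apOfModel p : ℝ) / Real.sqrt p) ^ n) * Real.log x / x) atTop
      (𝓝 ((if n = 0 then 1 / 2 else 0) + (if Even n then (n.choose (n / 2) : ℝ) / 2 else 0))) :=
  (isHecke_j hΔ hc).moments (mul_ne_zero (by norm_num) hΔ) n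

/-- the mean of `a_p² / p` is one -/
theorem mean_sq_j {W : WeierstrassCurve ℤ} (hΔ : W.Δ ≠ 0) (hc : W.c₄ * W.c₆ = 0) :
    Tendsto (fun x : ℕ => (∑ p ∈ (Finset.Icc 1 x).filter (fun p : ℕ => p.Prime ∧
      ¬ (p : ℤ) ∣ 6 * W.Δ), (W.apOfModel p : ℝ) ^ 2 / p) * Real.log x / x) atTop (𝓝 1) := by
  have h := moments_j hΔ hc 2
  have e : (if 2 = 0 then (1 / 2 : ℝ) else 0) +
      (if Even 2 then (((2 : ℕ).choose (2 / 2) : ℕ) : ℝ) / 2 else 0) = 1 := by
    rw [if_neg (by norm_num), if_pos even_two]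
    norm_num
  rw [e] at h
  refine h.congr fun x => ?_
  congr 2
  refine Finset.sum_congr rfl fun p _ => ?_
  rw [div_pow, Real.sq_sqrt (Nat.cast_nonneg p)]

end Fermat.Agent.Cor.SectK
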