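import Fermat.Agent.Corollaries.SectK.QuDefs

/-!
# The quartic residue symbol modulo a primary prime: existence
-/

set_option autoImplicit false
set_option linter.unusedSectionVars false

noncomputable section

open NumberField nonZeroDivisors Complex Module

namespace Fermat.Agent.Cor.SectK

variable {K : Type} [Field K] [NumberField K] {σ : K →+* ℂ} {η : 𝓞 K}

theorem p_mod_four {p : ℕ} {x y : ℤ} (h : (p : ℤ) = x ^ 2 + y ^ 2) (hy : y % 2 = 0)
    (hx : (x + y) % 4 = 1) : p % 4 = 1 := by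
  obtain ⟨m, rfl⟩ : ∃ s, y = 2 * s := ⟨y / 2, by omega⟩
  obtain ⟨l, rfl⟩ : ∃ s, x = 2 * s + 1 := ⟨x / 2, by omega⟩
  have h6 : (p : ℤ) = 4 * (l ^ 2 + l + m ^ 2) + 1 := by
    rw [h]
    ring
  omega

/-- the reduction modulo `π` -/
theorem exists_red (h : GausDat σ η) {p : ℕ} [hp : Fact p.Prime] {x y : ℤ}
    (hxy : (p : ℤ) = x ^ 2 + y ^ 2) : ∃ r : 𝓞 K →+* ZMod p, r (x + y * η) = 0 := by
  set P : Ideal (𝓞 K) := Ideal.span {(x + y * η : 𝓞 K)} with hP
  have hN : Ideal.absNorm P = p := by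
    rw [hP, Ideal.absNorm_span_singleton]
    refine Nat.cast_injective (R := ℤ) ?_
    rw [h.nat_norm, hxy]
  have hne : P ≠ ⊥ := by
    intro h0
    rw [h0, Ideal.absNorm_bot] at hN
    exact hp.out.ne_zero hN.symm
  have hfin : Finite (𝓞 K ⧸ P) := Ideal.finiteQuotientOfFreeOfNeBot P hne
  have : Fintype (𝓞 K ⧸ P) := Fintype.ofFinite _
  have hcard : Fintype.card (𝓞 K ⧸ P) = p := by
    rw [← Nat.card_eq_fintype_card, ← hN]
    rfl
  refine ⟨((ZMod.ringEquivOfPrime (𝓞 K ⧸ P) hp.out hcard).symm : (𝓞 K ⧸ P) →+* ZMod p).comp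
    (Ideal.Quotient.mk P), ?_⟩
  rw [RingHom.comp_apply, Ideal.Quotient.eq_zero_iff_mem.2 (Ideal.mem_span_singleton_self _),
    map_zero]

open Classical in
/-- the fourth root of unity of `𝓞 K` above `t` -/
def lift4 (η : 𝓞 K) {p : ℕ} (r : 𝓞 K →+* ZMod p) (t : ZMod p) : 𝓞 K :=
  if t = 1 then 1 else if t = r η then η else if t = -1 then -1 else -η

theorem lift4_four (η : 𝓞 K) {p : ℕ} (r : 𝓞 K →+* ZMod p) (t : ZMod p) :
    lift4 η r t = 1 ∨ lift4 η r t = η ∨ lift4 η r t = -1 ∨ lift4 η r t = -η := by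
  unfold lift4
  split_ifs <;> simp

theorem two_ne' {p : ℕ} [hp : Fact p.Prime] (h2 : p ≠ 2) : (2 : ZMod p) ≠ 0 := by
  intro h
  have h1 : ((2 : ℕ) : ZMod p) = 0 := by exact_mod_cast h
  rw [ZMod.natCast_eq_zero_iff] at h1
  exact h2 ((Nat.prime_dvd_prime_iff_eq hp.out Nat.prime_two).1 h1)

/-- `r` is injective on the fourth roots of unity -/
theorem r_inj (hη : η ^ 2 + 1 = 0) {p : ℕ} [hp : Fact p.Prime] (h2 : p ≠ 2) (r : 𝓞 K →+* ZMod p)
    {a b : 𝓞 K} (ha : a = 1 ∨ a = η ∨ a = -1 ∨ a = -η) (hb : b = 1 ∨ b = η ∨ b = -1 ∨ b = -η)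
    (h : r a = r b) : a = b := by
  have hi : r η ^ 2 + 1 = 0 := by
    rw [← map_pow, ← map_one r, ← map_add, hη, map_zero]
  have h2' := two_ne' h2
  have k1 : r η ≠ 1 := fun h0 => h2' (by rw [h0] at hi; linear_combination hi)
  have k2 : r η ≠ -1 := fun h0 => h2' (by rw [h0] at hi; linear_combination hi)
  have k3 : (1 : ZMod p) ≠ -1 := fun h0 => h2' (by linear_combination h0)
  have k4 : r η ≠ -r η := by
    intro h0
    have h1 : 2 * r η = 0 := by linear_combination h0
    rcases mul_eq_zero.1 h1 with h3 | h3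
    · exact h2' h3
    · rw [h3] at hi
      norm_num at hi
  rcases ha with rfl | rfl | rfl | rfl <;> rcases hb with rfl | rfl | rfl | rfl <;>
    first
    | rfl
    | (exfalso
       simp only [map_one, map_neg] at h
       first
       | exact k1 h
       | exact k1 h.symm
       | exact k2 h
       | exact k2 h.symm
       | exact k3 h
       | exact k3 h.symm
       | exact k4 h
       | exact k4 h.symm
       | exact k1 (neg_injective h)
       | exact k1 (neg_injective h).symm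
       | exact k2 (by linear_combination -h)
       | exact k2 (by linear_combination h))

theorem r_lift4 (hη : η ^ 2 + 1 = 0) {p : ℕ} [hp : Fact p.Prime] (r : 𝓞 K →+* ZMod p)
    {t : ZMod p} (ht : t ^ 4 = 1) : r (lift4 η r t) = t := by
  have hi : r η ^ 2 + 1 = 0 := by
    rw [← map_pow, ← map_one r, ← map_add, hη, map_zero]
  have h1 : (t - 1) * ((t + 1) * ((t - r η) * (t + r η))) = 0 := by
    linear_combination ht - (t ^ 2 - 1) * hi
  unfold lift4
  split_ifs with h2 h3 h4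
  · rw [h2, map_one]
  · rw [h3]
  · rw [h4, map_neg, map_one]
  · rcases mul_eq_zero.1 h1 with h5 | h5
    · exact absurd (sub_eq_zero.1 h5) h2
    · rcases mul_eq_zero.1 h5 with h6 | h6
      · exact absurd (by linear_combination h6) h4
      · rcases mul_eq_zero.1 h6 with h7 | h7
        · exact absurd (sub_eq_zero.1 h7) h3
        · rw [map_neg]
          linear_combination -h7

theorem four_mul {a b : 𝓞 K} (hη : η ^ 2 + 1 = 0) (ha : a = 1 ∨ a = η ∨ a = -1 ∨ a = -η)
    (hb : b = 1 ∨ b = η ∨ b = -1 ∨ b = -η) :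
    a * b = 1 ∨ a * b = η ∨ a * b = -1 ∨ a * b = -η := by
  have h : η * η = -1 := by linear_combination hη
  rcases ha with rfl | rfl | rfl | rfl <;> rcases hb with rfl | rfl | rfl | rfl <;> simp [h]

theorem pow_card_four {p : ℕ} [hp : Fact p.Prime] (h4 : p % 4 = 1) {a : ZMod p} (ha : a ≠ 0) :
    (a ^ ((p - 1) / 4)) ^ 4 = 1 := by
  rw [← pow_mul, Nat.div_mul_cancel (by omega)]
  exact ZMod.pow_card_sub_one_eq_one ha

open Classical in
/-- the quartic residue symbol -/
def quChi (hη : η ^ 2 + 1 = 0) {p : ℕ} [hp : Fact p.Prime] (h4 : p % 4 = 1)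
    (r : 𝓞 K →+* ZMod p) : MulChar (ZMod p) (𝓞 K) where
  toFun a := if a = 0 then 0 else lift4 η r (a ^ ((p - 1) / 4))
  map_one' := by
    rw [if_neg one_ne_zero, one_pow, lift4, if_pos rfl]
  map_mul' a b := by
    have h2 : p ≠ 2 := by omega
    by_cases ha : a = 0
    · rw [ha, zero_mul, if_pos rfl, zero_mul]
    · by_cases hb : b = 0
      · rw [hb, mul_zero, if_pos rfl, mul_zero]
      · rw [if_neg (mul_ne_zero ha hb), if_neg ha, if_neg hb]
        refine r_inj hη h2 r (lift4_four _ _ _) (four_mul hη (lift4_four _ _ _)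
          (lift4_four _ _ _)) ?_
        rw [map_mul, r_lift4 hη r (pow_card_four h4 (mul_ne_zero ha hb)),
          r_lift4 hη r (pow_card_four h4 ha), r_lift4 hη r (pow_card_four h4 hb), mul_pow]
  map_nonunit' a ha := by
    rw [isUnit_iff_ne_zero, not_not] at ha
    exact if_pos ha

theorem quChi_apply (hη : η ^ 2 + 1 = 0) {p : ℕ} [hp : Fact p.Prime] (h4 : p % 4 = 1)
    (r : 𝓞 K →+* ZMod p) {a : ZMod p} (ha : a ≠ 0) :
    quChi hη h4 r a = lift4 η r (a ^ ((p - 1) / 4)) := if_neg ha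

/-- (P2) -/
theorem exQuStmt (σ : K →+* ℂ) (η : 𝓞 K) : ExQuStmt σ η := by
  intro h p hp x y hxy hy hx
  obtain ⟨r, hr⟩ := exists_red h hxy
  have h4 := p_mod_four hxy hy hx
  refine ⟨r, quChi h.root h4 r, h.root, hxy, hy, hx, hr, fun a ha => ?_, fun a => ?_⟩
  · rw [quChi_apply h.root h4 r ha]
    exact lift4_four _ _ _
  · by_cases ha : a = 0
    · rw [ha, MulChar.map_zero, map_zero, zero_pow]
      have := hp.out.two_le
      omega
    · rw [quChi_apply h.root h4 r ha, r_lift4 h.root r (pow_card_four h4 ha)]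

/-! ### Consequences -/

namespace QuDat

variable {p : ℕ} [hp : Fact p.Prime] {x y : ℤ} {r : 𝓞 K →+* ZMod p} {χ : MulChar (ZMod p) (𝓞 K)}
  (Q : QuDat η p x y r χ)

include Q

theorem mod_four : p % 4 = 1 := p_mod_four Q.eq Q.hy Q.hx

theorem ne_two : p ≠ 2 := by
  have := Q.mod_four
  omega

theorem mul_self : η * η = -1 := by linear_combination Q.root

/-- `χ ^ 4 = 1` -/
theorem pow_four {a : ZMod p} (ha : a ≠ 0) : χ a ^ 4 = 1 := by
  have h : η ^ 4 = 1 := by linear_combination (η ^ 2 - 1) * Q.root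
  rcases Q.four a ha with h1 | h1 | h1 | h1 <;> rw [h1]
  · exact one_pow 4
  · exact h
  · norm_num
  · rw [neg_pow, h]
    norm_num

/-- a fourth root of unity of `𝓞 K` which reduces to `a ^ ((p - 1) / 4)` is `χ a` -/
theorem eq_of_red {a : ZMod p} (ha : a ≠ 0) {z : 𝓞 K} (hz : z = 1 ∨ z = η ∨ z = -1 ∨ z = -η)
    (h : r z = a ^ ((p - 1) / 4)) : χ a = z :=
  r_inj Q.root Q.ne_two r (Q.four a ha) hz (by rw [Q.spec, h])

/-- the square of the quartic symbol is the quadratic symbol -/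
theorem sq_apply (a : ZMod p) : χ a ^ 2 = ((quadraticChar (ZMod p) a : ℤ) : 𝓞 K) := by
  by_cases ha : a = 0
  · rw [ha, MulChar.map_zero, MulChar.map_zero]
    simp
  · have h4 := Q.mod_four
    have h2 : (2 : ZMod p) ≠ 0 := two_ne' Q.ne_two
    have hF : ringChar (ZMod p) ≠ 2 := by
      rw [ZMod.ringChar_zmod_n]
      exact Q.ne_two
    have hred : r (χ a ^ 2) = r ((quadraticChar (ZMod p) a : ℤ) : 𝓞 K) := by
      rw [map_pow, Q.spec, map_intCast, quadraticChar_eq_pow_of_char_ne_two' hF, ZMod.card,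
        ← pow_mul]
      congr 1
      omega
    refine r_inj Q.root Q.ne_two r ?_ ?_ hred
    · rw [pow_two]
      exact four_mul Q.root (Q.four a ha) (Q.four a ha)
    · rcases quadraticChar_dichotomy ha with h1 | h1 <;> rw [h1] <;> simp

theorem sq_eq : χ ^ 2 = (quadraticChar (ZMod p)).ringHomComp (Int.castRingHom (𝓞 K)) := by
  ext a
  rw [MulChar.pow_apply_coe, Q.sq_apply, MulChar.ringHomComp_apply]
  rfl

theorem pow_eq_one : χ ^ 4 = 1 := by
  ext a
  rw [MulChar.pow_apply_coe, Q.pow_four a.ne_zero, MulChar.one_apply_coe]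

end QuDat

end Fermat.Agent.Cor.SectK
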