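import Fermat.Agent.Corollaries.SectK.GausK
import Fermat.Agent.Corollaries.SectK.Defs

/-!
# Sato-Tate for the curves `y² = x³ + m x`: definitions

`QuDat η p x y r χ`: `p = x² + y²`, `π = x + y η ≡ 1 mod 2 + 2 η`, `r : 𝓞 K → ZMod p` the reduction
modulo `π`, `χ` the quartic residue symbol modulo `π`, with values in `𝓞 K`.
-/

set_option autoImplicit false

noncomputable section

open NumberField nonZeroDivisors Complex Module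

namespace Fermat.Agent.Cor.SectK

variable {K : Type} [Field K] [NumberField K]

/-- a primary prime `π = x + y η` of norm `p` and its quartic residue symbol -/
structure QuDat (η : 𝓞 K) (p : ℕ) [Fact p.Prime] (x y : ℤ) (r : 𝓞 K →+* ZMod p)
    (χ : MulChar (ZMod p) (𝓞 K)) : Prop where
  root : η ^ 2 + 1 = 0
  eq : (p : ℤ) = x ^ 2 + y ^ 2
  hy : y % 2 = 0
  hx : (x + y) % 4 = 1
  red : r (x + y * η) = 0
  four : ∀ a : ZMod p, a ≠ 0 → χ a = 1 ∨ χ a = η ∨ χ a = -1 ∨ χ a = -η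
  spec : ∀ a : ZMod p, r (χ a) = a ^ ((p - 1) / 4)

/-- (P2) `SectK/QuChi.lean` -/
def ExQuStmt (σ : K →+* ℂ) (η : 𝓞 K) : Prop :=
  GausDat σ η → ∀ (p : ℕ) [Fact p.Prime] (x y : ℤ), (p : ℤ) = x ^ 2 + y ^ 2 → y % 2 = 0 →
    (x + y) % 4 = 1 → ∃ r χ, QuDat η p x y r χ

/-- (P3) `SectK/QuJac.lean`: **the quartic Jacobi sum** -/
def JacQuStmt (σ : K →+* ℂ) (η : 𝓞 K) : Prop :=
  GausDat σ η → ∀ (p : ℕ) [Fact p.Prime] (x y : ℤ) r χ, QuDat η p x y r χ →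
    jacobiSum χ (χ ^ 2) = -(x + y * η : 𝓞 K)

/-- (P4) `SectK/QuRec.lean`: rational quartic reciprocity, odd primes `q` -/
def RecOddStmt (σ : K →+* ℂ) (η : 𝓞 K) : Prop :=
  GausDat σ η → ∀ (p : ℕ) [Fact p.Prime] (x y : ℤ) r χ, QuDat η p x y r χ →
    jacobiSum χ (χ ^ 2) = -(x + y * η : 𝓞 K) →
    ∀ (q : ℕ) [Fact q.Prime], q ≠ 2 → q ≠ p →
    ∀ (F : Type) [Field F] [CharP F q] [IsAlgClosed F] (s : 𝓞 K →+* F),
      (q % 4 = 1 → s (χ (q : ZMod p)) ^ 3 =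
        s (x + y * η) ^ (3 * ((q - 1) / 4)) * s (x - y * η) ^ ((q - 1) / 4)) ∧
      (q % 4 = 3 → s (χ (-q : ZMod p)) * (s (x + y * η) * s (x - y * η)) =
        s (x + y * η) ^ (3 * ((q + 1) / 4)) * s (x - y * η) ^ ((q + 1) / 4))

/-- (P5) `SectK/QuTwo.lean`: the supplementary laws -/
def RecTwoStmt (η : 𝓞 K) : Prop :=
  ∀ (p : ℕ) [Fact p.Prime] (x y : ℤ) r χ, QuDat η p x y r χ →
    χ (-1) = (-1) ^ ((p - 1) / 4) ∧
    χ 2 * η ^ ((p - 1) / 4) = (-1) ^ (((x + y) ^ 2 - 1) / 8).toNat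

/-- (P6) `SectK/QuHecke.lean`: the quartic symbol `(m / π)` is a Hecke character of type `0` -/
def HeckeQuStmt (σ : K →+* ℂ) (η : 𝓞 K) (m : ℤ) : Prop :=
  GausDat σ η → ∃ (𝔪 : Ideal (𝓞 K)) (φ : (Ideal (𝓞 K))⁰ →* ℂ), 𝔪 ≠ ⊥ ∧ HChar σ 𝔪 0 φ ∧
    ∀ (p : ℕ) [Fact p.Prime] (x y : ℤ) r χ, QuDat η p x y r χ → ¬ (p : ℤ) ∣ m →
      ∀ I : (Ideal (𝓞 K))⁰, (I : Ideal (𝓞 K)) = Ideal.span {(x + y * η : 𝓞 K)} →
        φ I = σ (χ (m : ZMod p) : K)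

end Fermat.Agent.Cor.SectK
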