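import Fermat.Agent.Corollaries.SectK.QuDefs
import Fermat.Agent.Corollaries.SectK.HeckeTwist
import Fermat.Agent.Corollaries.SectK.JzMul

/-!
# Hecke characters of type `0` of `ℚ(i)` from multiplicative functions on the primary elements
-/

set_option autoImplicit false
set_option linter.unusedSectionVars false

noncomputable section

open NumberField nonZeroDivisors Complex Module

open scoped Classical

namespace Fermat.Agent.Cor.SectK

variable {K : Type} [Field K] [NumberField K] {σ : K →+* ℂ} {η : 𝓞 K}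

/-- primary elements: `a ≡ 1 mod 2 + 2 i` -/
def IsPri (η a : 𝓞 K) : Prop := a - 1 ∈ Ideal.span {(2 + 2 * η : 𝓞 K)}

theorem IsPri.one : IsPri η 1 := by
  rw [IsPri, sub_self]
  exact zero_mem _

theorem IsPri.mul {a b : 𝓞 K} (ha : IsPri η a) (hb : IsPri η b) : IsPri η (a * b) := by
  have h : a * b - 1 = a * (b - 1) + (a - 1) := by ring
  rw [IsPri, h]
  exact Ideal.add_mem _ (Ideal.mul_mem_left _ _ hb) ha

namespace GausDat

variable (h : GausDat σ η)

include h

theorem ext {x y x' y' : ℤ} (h0 : (x + y * η : 𝓞 K) = x' + y' * η) : x = x' ∧ y = y' := by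
  have h1 : ((x - x' : ℤ) + (y - y' : ℤ) * η : 𝓞 K) = 0 := by
    push_cast
    linear_combination h0
  have h2 := h.norm_eq (x - x') (y - y')
  rw [h1, Algebra.norm_zero] at h2
  have h3 : (x - x') ^ 2 = 0 := by nlinarith [sq_nonneg (x - x'), sq_nonneg (y - y')]
  have h4 : (y - y') ^ 2 = 0 := by nlinarith [sq_nonneg (x - x'), sq_nonneg (y - y')]
  have h5 := pow_eq_zero_iff two_ne_zero |>.1 h3
  have h6 := pow_eq_zero_iff two_ne_zero |>.1 h4
  exact ⟨by linarith, by linarith⟩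

/-- two primary generators are equal -/
theorem pri_unique {a b : 𝓞 K} (ha : IsPri η a) (hb : IsPri η b)
    (hab : Ideal.span {a} = Ideal.span {b}) : a = b := by
  rw [Ideal.span_singleton_eq_span_singleton] at hab
  obtain ⟨u, hu⟩ := hab
  have h1 : (u : 𝓞 K) - 1 ∈ Ideal.span {(2 + 2 * η : 𝓞 K)} := by
    have h2 : (u : 𝓞 K) - 1 = (b - 1) - u * (a - 1) := by
      rw [← hu]
      ring
    rw [h2]
    exact Ideal.sub_mem _ hb (Ideal.mul_mem_left _ _ ha)
  rw [← hu, h.unit_eq_one h1, mul_one]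

/-- the existence of a primary generator -/
theorem exists_pri {I : Ideal (𝓞 K)} (hI0 : I ≠ ⊥)
    (hI : IsCoprime I (Ideal.span {(2 + 2 * η : 𝓞 K)})) :
    ∃ a, IsPri η a ∧ I = Ideal.span {a} := by
  have h1 : IsCoprime I (Ideal.span {((2 : ℕ) : 𝓞 K)}) := by
    have hle : Ideal.span {(2 + 2 * η : 𝓞 K)} ≤ Ideal.span {((2 : ℕ) : 𝓞 K)} := by
      rw [Ideal.span_singleton_le_iff_mem, Ideal.mem_span_singleton]
      exact ⟨1 + η, by push_cast; ring⟩
    rw [Ideal.isCoprime_iff_sup_eq] at hI ⊢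
    rw [eq_top_iff, ← hI]
    exact sup_le_sup_left hle I
  have h2 := coprime_absNorm hI0 h1
  obtain ⟨x, y, h3, h4, h5, -⟩ := h.exists_gen (I := I) rfl (Nat.odd_iff.1 (Nat.coprime_two_right.1 h2))
  exact ⟨_, h.sub_one_mem h4 h5, h3⟩

/-- A multiplicative function on the primary elements, equal to `1` at the elements `≡ 1 mod 𝔪`, is
a Hecke character of type `0`. -/
theorem exists_hChar_of {𝔪 : Ideal (𝓞 K)} (hle : 𝔪 ≤ Ideal.span {(2 + 2 * η : 𝓞 K)})
    (f : 𝓞 K → ℂ) (h1 : f 1 = 1)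
    (hmul : ∀ a b, IsPri η a → IsPri η b → IsCoprime (Ideal.span {a}) 𝔪 →
      IsCoprime (Ideal.span {b}) 𝔪 → f (a * b) = f a * f b)
    (hn : ∀ a, IsPri η a → IsCoprime (Ideal.span {a}) 𝔪 → ‖f a‖ = 1)
    (hc : ∀ a, a - 1 ∈ 𝔪 → f a = 1) :
    ∃ φ : (Ideal (𝓞 K))⁰ →* ℂ, HChar σ 𝔪 0 φ ∧ ∀ (I : (Ideal (𝓞 K))⁰) (a : 𝓞 K),
      (I : Ideal (𝓞 K)) = Ideal.span {a} → IsPri η a → IsCoprime (I : Ideal (𝓞 K)) 𝔪 →
        φ I = f a := by
  have hcop : ∀ I : (Ideal (𝓞 K))⁰, IsCoprime (I : Ideal (𝓞 K)) 𝔪 →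
      ∃ a, IsPri η a ∧ (I : Ideal (𝓞 K)) = Ideal.span {a} := by
    intro I hI
    refine h.exists_pri (nonZeroDivisors.coe_ne_zero I) ?_
    rw [Ideal.isCoprime_iff_sup_eq] at hI ⊢
    rw [eq_top_iff, ← hI]
    exact sup_le_sup_left hle _
  let g : (Ideal (𝓞 K))⁰ → ℂ := fun I =>
    if hI : IsCoprime (I : Ideal (𝓞 K)) 𝔪 then f (Classical.choose (hcop I hI)) else 0
  have hg : ∀ (I : (Ideal (𝓞 K))⁰) (a : 𝓞 K), (I : Ideal (𝓞 K)) = Ideal.span {a} → IsPri η a →
      IsCoprime (I : Ideal (𝓞 K)) 𝔪 → g I = f a := by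
    intro I a hIa ha hI
    have h2 := Classical.choose_spec (hcop I hI)
    simp only [g]
    rw [dif_pos hI]
    congr 1
    exact h.pri_unique h2.1 ha (h2.2.symm.trans hIa)
  have hg0 : ∀ I : (Ideal (𝓞 K))⁰, ¬ IsCoprime (I : Ideal (𝓞 K)) 𝔪 → g I = 0 :=
    fun I hI => dif_neg hI
  let φ : (Ideal (𝓞 K))⁰ →* ℂ :=
    { toFun := g
      map_one' := by
        rw [hg 1 1 (by rw [Submonoid.coe_one, Ideal.span_singleton_one, Ideal.one_eq_top])
          IsPri.one (by rw [Submonoid.coe_one]; exact isCoprime_one_left), h1]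
      map_mul' := by
        intro I J
        by_cases hI : IsCoprime (I : Ideal (𝓞 K)) 𝔪
        · by_cases hJ : IsCoprime (J : Ideal (𝓞 K)) 𝔪
          · obtain ⟨a, ha, hIa⟩ := hcop I hI
            obtain ⟨b, hb, hJb⟩ := hcop J hJ
            have hIJ : ((I * J : (Ideal (𝓞 K))⁰) : Ideal (𝓞 K)) = Ideal.span {a * b} := by
              rw [Submonoid.coe_mul, hIa, hJb, Ideal.span_singleton_mul_span_singleton]
            rw [hg (I * J) (a * b) hIJ (ha.mul hb)
              (by rw [Submonoid.coe_mul]; exact hI.mul_left hJ), hg I a hIa ha hI,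
              hg J b hJb hb hJ]
            exact hmul a b ha hb (hIa ▸ hI) (hJb ▸ hJ)
          · rw [hg0 J hJ, mul_zero, hg0]
            intro h2
            rw [Submonoid.coe_mul] at h2
            exact hJ h2.of_mul_left_right
        · rw [hg0 I hI, zero_mul, hg0]
          intro h2
          rw [Submonoid.coe_mul] at h2
          exact hI h2.of_mul_left_left }
  refine ⟨φ, ⟨fun I hI => ?_, fun I hI => hg0 I hI, fun I a hIa ha => ?_⟩, hg⟩
  · obtain ⟨a, ha, hIa⟩ := hcop I hI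
    change ‖g I‖ = 1
    rw [hg I a hIa ha hI]
    exact hn a ha (hIa ▸ hI)
  · change g I = _
    rw [hg I a hIa (hle ha) (Jz.isCoprime_of_cong hIa ha), hc a ha, zpow_zero]

/-! ### Ring homomorphisms from `ℤ[i]` -/

/-- the ring homomorphism `x + y η ↦ x + y j` -/
theorem exists_hom {R : Type*} [CommRing R] {j : R} (hj : j ^ 2 + 1 = 0) :
    ∃ s : 𝓞 K →+* R, ∀ x y : ℤ, s (x + y * η) = x + y * j := by
  choose c d hcd using h.ex
  have key : ∀ x y : ℤ, (c (x + y * η) : R) + (d (x + y * η) : R) * j = x + y * j := by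
    intro x y
    obtain ⟨h1, h2⟩ := h.ext (hcd (x + y * η))
    rw [← h1, ← h2]
  refine ⟨{ toFun := fun a => (c a : R) + (d a : R) * j
            map_one' := ?_
            map_mul' := fun a b => ?_
            map_zero' := ?_
            map_add' := fun a b => ?_ }, key⟩
  · have := key 1 0
    simpa using this
  · have h1 := key (c a * c b - d a * d b) (c a * d b + d a * c b)
    have h2 : (((c a * c b - d a * d b : ℤ) : 𝓞 K) + ((c a * d b + d a * c b : ℤ) : 𝓞 K) * η) =
        a * b := by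
      conv_rhs => rw [hcd a, hcd b]
      push_cast
      linear_combination (-(d a : 𝓞 K) * d b) * h.root
    rw [h2] at h1
    rw [h1]
    push_cast
    linear_combination (-(d a : R) * d b) * hj
  · have := key 0 0
    simpa using this
  · have h1 := key (c a + c b) (d a + d b)
    have h2 : (((c a + c b : ℤ) : 𝓞 K) + ((d a + d b : ℤ) : 𝓞 K) * η) = a + b := by
      conv_rhs => rw [hcd a, hcd b]
      push_cast
      ring
    rw [h2] at h1
    rw [h1]
    push_cast
    ring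

end GausDat

end Fermat.Agent.Cor.SectK
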