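import Mathlib

/-!
# The Gauss sum of a quartic character in characteristic `q`

`F` a field of characteristic `q`, `p ≠ q` primes, `χ : MulChar (ZMod p) F` with `χ ^ 4 = 1`,
`χ ^ 2 ≠ 1`, `J = J(χ, χ ^ 2)`.

* `gauss_pow_four` : `g(χ) ^ 4 = p J ^ 2`.
* `recip_one` : `q = 4 k + 1`: `χ(q) (p J ^ 2) ^ k = 1`.
* `recip_three` : `q = 4 k + 3`: `(p J ^ 2) ^ (k + 1) = χ(-q) p`.
-/

set_option autoImplicit false
set_option linter.unusedSectionVars false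

noncomputable section

namespace Fermat.Agent.Cor.SectK.Qu

open AddChar MulChar

variable {p q : ℕ} [hp : Fact p.Prime] {F : Type*} [Field F] {χ : MulChar (ZMod p) F}
  {ψ : AddChar (ZMod p) F}

/-- `g(φ) g(φ⁻¹) = φ(-1) p` -/
theorem gauss_mul_inv {φ : MulChar (ZMod p) F} (hφ : φ ≠ 1) (hψ : ψ.IsPrimitive) :
    gaussSum φ ψ * gaussSum φ⁻¹ ψ = φ (-1) * p := by
  have h1 := gaussSum_mul_gaussSum_eq_card hφ hψ
  rw [ZMod.card, AddChar.inv_mulShift] at h1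
  have h2 := gaussSum_mulShift φ⁻¹ ψ (-1 : (ZMod p)ˣ)
  rw [Units.val_neg, Units.val_one] at h2
  have h3 : φ⁻¹ (-1) = φ (-1) := by
    rw [MulChar.inv_apply']
    congr 1
    rw [inv_neg, inv_one]
  rw [← h2, h3, ← h1]
  ring

section

variable (h4 : χ ^ 4 = 1) (h2 : χ ^ 2 ≠ 1)

include h4

theorem inv_eq : χ⁻¹ = χ ^ 3 := by
  rw [inv_eq_iff_mul_eq_one, ← pow_succ']
  exact h4

theorem neg_one_sq : χ (-1) * χ (-1) = 1 := by
  rw [← map_mul, neg_mul_neg, one_mul, map_one]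

include h2

theorem ne_one : χ ≠ 1 := by
  rintro rfl
  exact h2 (one_pow 2)

/-- `g(χ) ^ 4 = p J(χ, χ ^ 2) ^ 2` -/
theorem gauss_pow_four (hψ : ψ.IsPrimitive) (hpF : (p : F) ≠ 0) :
    gaussSum χ ψ ^ 4 = p * jacobiSum χ (χ ^ 2) ^ 2 := by
  have e1 := gauss_mul_inv (ne_one h4 h2) hψ
  have h3 : χ * χ ^ 2 = χ⁻¹ := by rw [inv_eq h4, ← pow_succ']
  have h5 : χ * χ ^ 2 ≠ 1 := by
    rw [h3, Ne, inv_eq_one]
    exact ne_one h4 h2
  have e2 := jacobiSum_mul_nontrivial h5 ψ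
  rw [h3] at e2
  have e3 := gauss_mul_inv h2 hψ
  have h6 : (χ ^ 2)⁻¹ = χ ^ 2 := by
    rw [inv_eq_iff_mul_eq_one, ← pow_add]
    exact h4
  have h7 : (χ ^ 2) (-1) = 1 := by
    rw [MulChar.pow_apply' _ two_ne_zero, sq]
    exact neg_one_sq h4
  rw [h6, h7, one_mul] at e3
  have h8 := neg_one_sq h4
  set g := gaussSum χ ψ
  set g' := gaussSum χ⁻¹ ψ
  set g₂ := gaussSum (χ ^ 2) ψ
  set J := jacobiSum χ (χ ^ 2)
  apply mul_right_cancel₀ hpF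
  have e4 : χ (-1) * p * J = g * (g * g₂) := by
    rw [← e2, ← e1]
    ring
  calc g ^ 4 * p = (g * (g * g₂)) ^ 2 := by
        rw [← e3]
        ring
    _ = (χ (-1) * χ (-1)) * (p * p * J ^ 2) := by
        rw [← e4]
        ring
    _ = p * J ^ 2 * p := by
        rw [h8]
        ring

theorem gauss_ne_zero (hψ : ψ.IsPrimitive) (hpF : (p : F) ≠ 0) : gaussSum χ ψ ≠ 0 := by
  intro h
  have e1 := gauss_mul_inv (ne_one h4 h2) hψ
  rw [h, zero_mul] at e1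
  have h8 := neg_one_sq h4
  rcases mul_eq_zero.1 e1.symm with h9 | h9
  · rw [h9, zero_mul] at h8
    exact zero_ne_one h8
  · exact hpF h9

variable [hq : Fact q.Prime] [CharP F q]

/-- `q = 4 k + 1`: `χ(q) (p J ^ 2) ^ k = 1` -/
theorem recip_one (hψ : ψ.IsPrimitive) (hpF : (p : F) ≠ 0) (hpq : (q : ZMod p) ≠ 0) {k : ℕ}
    (hk : q = 4 * k + 1) : χ (q : ZMod p) * (p * jacobiSum χ (χ ^ 2) ^ 2) ^ k = 1 := by
  have h5 := gaussSum_frob q χ ψ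
  have h6 : χ ^ q = χ := by
    rw [hk, pow_add, pow_mul, h4, one_pow, one_mul, pow_one]
  rw [h6, AddChar.pow_mulShift] at h5
  have h7 := gaussSum_mulShift χ ψ (Units.mk0 _ hpq)
  rw [Units.val_mk0, ← h5] at h7
  have h8 := gauss_ne_zero h4 h2 hψ hpF
  rw [← gauss_pow_four h4 h2 hψ hpF]
  apply mul_right_cancel₀ h8
  rw [one_mul]
  conv_rhs => rw [← h7]
  have h9 : gaussSum χ ψ ^ q = (gaussSum χ ψ ^ 4) ^ k * gaussSum χ ψ := by
    conv_lhs => rw [hk]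
    rw [pow_add, pow_mul, pow_one]
  rw [h9, mul_assoc]

/-- `q = 4 k + 3`: `(p J ^ 2) ^ (k + 1) = χ(-q) p` -/
theorem recip_three (hψ : ψ.IsPrimitive) (hpF : (p : F) ≠ 0) (hpq : (q : ZMod p) ≠ 0) {k : ℕ}
    (hk : q = 4 * k + 3) :
    (p * jacobiSum χ (χ ^ 2) ^ 2) ^ (k + 1) = χ (-(q : ZMod p)) * p := by
  have h5 := gaussSum_frob q χ ψ
  have h6 : χ ^ q = χ⁻¹ := by
    rw [hk, pow_add, pow_mul, h4, one_pow, one_mul, inv_eq h4]
  rw [h6, AddChar.pow_mulShift] at h5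
  have h7 := gaussSum_mulShift χ⁻¹ ψ (Units.mk0 _ hpq)
  rw [Units.val_mk0, ← h5] at h7
  have e1 := gauss_mul_inv (ne_one h4 h2) hψ
  rw [← h7] at e1
  have h9 : χ (q : ZMod p) * χ⁻¹ (q : ZMod p) = 1 := by
    rw [← MulChar.mul_apply, mul_inv_cancel, MulChar.one_apply (Ne.isUnit hpq)]
  rw [← gauss_pow_four h4 h2 hψ hpF, ← pow_mul, show 4 * (k + 1) = q + 1 by omega, pow_succ]
  have h10 : χ (-(q : ZMod p)) = χ (-1) * χ (q : ZMod p) := by
    rw [← map_mul, neg_one_mul]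
  rw [h10]
  calc gaussSum χ ψ ^ q * gaussSum χ ψ =
        (χ (q : ZMod p) * χ⁻¹ (q : ZMod p)) * (gaussSum χ ψ ^ q * gaussSum χ ψ) := by
          rw [h9, one_mul]
    _ = χ (q : ZMod p) * (gaussSum χ ψ * (χ⁻¹ (q : ZMod p) * gaussSum χ ψ ^ q)) := by ring
    _ = χ (-1) * χ (q : ZMod p) * p := by
          rw [e1]
          ring

end

/-- a primitive additive character -/
theorem exists_primitive [IsAlgClosed F] (hpF : (p : F) ≠ 0) :
    ∃ ψ : AddChar (ZMod p) F, ψ.IsPrimitive := by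
  have : NeZero (p : F) := ⟨hpF⟩
  obtain ⟨ζ, hζ⟩ := HasEnoughRootsOfUnity.exists_primitiveRoot F p
  exact ⟨_, AddChar.zmodChar_primitive_of_primitive_root p hζ⟩

end Fermat.Agent.Cor.SectK.Qu
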