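import Fermat.Agent.Corollaries.SectK.QuDefs
import Fermat.Agent.Corollaries.SectK.QuGauss

/-!
# Rational quartic reciprocity: the odd primes `q`

`recOddStmt : RecOddStmt σ η`.
-/

set_option autoImplicit false
set_option linter.unusedSectionVars false

noncomputable section

open NumberField nonZeroDivisors

namespace Fermat.Agent.Cor.SectK

variable {K : Type} [Field K] [NumberField K]

namespace QuDat

variable {η : 𝓞 K} {p : ℕ} [hp : Fact p.Prime] {x y : ℤ} {r : 𝓞 K →+* ZMod p}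
  {χ : MulChar (ZMod p) (𝓞 K)} (h : QuDat η p x y r χ)

include h

theorem p_mod_four : p % 4 = 1 := by
  have h1 := h.eq
  obtain ⟨s, hs⟩ : ∃ s, y = 2 * s := ⟨y / 2, by have := h.hy; omega⟩
  obtain ⟨t, ht⟩ : ∃ t, x = 2 * t + 1 := ⟨x / 2, by have := h.hy; have := h.hx; omega⟩
  have h2 : (p : ℤ) = 4 * (t ^ 2 + t + s ^ 2) + 1 := by
    rw [h1, hs, ht]
    ring
  omega

theorem eta_sq : η ^ 2 = -1 := eq_neg_of_add_eq_zero_left h.root

theorem pow_four_apply {a : ZMod p} (ha : a ≠ 0) : χ a ^ 4 = 1 := by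
  have h1 := h.eta_sq
  have h2 : η ^ 4 = 1 := by
    rw [show (4 : ℕ) = 2 * 2 by norm_num, pow_mul, h1]
    norm_num
  rcases h.four a ha with h3 | h3 | h3 | h3 <;> rw [h3]
  · norm_num
  · exact h2
  · norm_num
  · rw [neg_pow, h2]
    norm_num

theorem pow_four_eq : χ ^ 4 = 1 := by
  refine MulChar.ext fun a => ?_
  rw [MulChar.pow_apply_coe, MulChar.one_apply_coe]
  exact h.pow_four_apply a.ne_zero

/-- there is `a` with `χ a = ± η` -/
theorem exists_apply : ∃ a : ZMod p, a ≠ 0 ∧ χ a ^ 2 = -1 := by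
  have h4 := h.p_mod_four
  have h5 : ringChar (ZMod p) ≠ 2 := by
    rw [ZMod.ringChar_zmod_n]
    omega
  obtain ⟨a, ha⟩ := FiniteField.exists_nonsquare h5
  have ha0 : a ≠ 0 := by
    rintro rfl
    exact ha ⟨0, by simp⟩
  refine ⟨a, ha0, ?_⟩
  have h6 : a ^ (p / 2) ≠ 1 := fun h7 => ha ((ZMod.euler_criterion p ha0).2 h7)
  have h7 : a ^ (p / 2) = (r (χ a)) ^ 2 := by
    rw [h.spec a, ← pow_mul]
    congr 1
    omega
  rw [h7] at h6
  rcases h.four a ha0 with h8 | h8 | h8 | h8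
  · exfalso
    apply h6
    rw [h8, map_one, one_pow]
  · rw [h8, h.eta_sq]
  · exfalso
    apply h6
    rw [h8, map_neg, map_one]
    ring
  · rw [h8, neg_pow, h.eta_sq]
    norm_num

end QuDat

/-- (P4) rational quartic reciprocity -/
theorem recOddStmt (σ : K →+* ℂ) (η : 𝓞 K) : RecOddStmt σ η := by
  intro _ p hp x y r χ h hJ q hq hq2 hqp F _ _ _ s
  have h4 : χ.ringHomComp s ^ 4 = 1 := by
    rw [MulChar.ringHomComp_pow, h.pow_four_eq, MulChar.ringHomComp_one]
  have h20 : (2 : F) ≠ 0 := by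
    intro h0
    have h1 : ((2 : ℕ) : F) = 0 := by exact_mod_cast h0
    rw [CharP.cast_eq_zero_iff F q] at h1
    exact hq2 ((Nat.prime_dvd_prime_iff_eq hq.out Nat.prime_two).1 h1)
  have h2 : χ.ringHomComp s ^ 2 ≠ 1 := by
    intro h0
    obtain ⟨a, ha0, ha⟩ := h.exists_apply
    have h1 : (χ.ringHomComp s ^ 2) a = 1 := by
      rw [h0, MulChar.one_apply (Ne.isUnit ha0)]
    rw [MulChar.pow_apply' _ two_ne_zero, MulChar.ringHomComp_apply, ← map_pow, ha, map_neg,
      map_one] at h1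
    apply h20
    linear_combination -h1
  have hpF : (p : F) ≠ 0 := by
    intro h0
    rw [CharP.cast_eq_zero_iff F q] at h0
    exact hqp ((Nat.prime_dvd_prime_iff_eq hq.out hp.out).1 h0)
  have hpq : (q : ZMod p) ≠ 0 := by
    intro h0
    rw [ZMod.natCast_eq_zero_iff] at h0
    exact hqp ((Nat.prime_dvd_prime_iff_eq hp.out hq.out).1 h0).symm
  obtain ⟨ψ, hψ⟩ := Qu.exists_primitive (F := F) hpF
  have hJF : jacobiSum (χ.ringHomComp s) (χ.ringHomComp s ^ 2) = -s (x + y * η) := by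
    rw [MulChar.ringHomComp_pow, jacobiSum_ringHomComp, hJ, map_neg]
  have hn : (p : F) = s (x + y * η) * s (x - y * η) := by
    rw [← map_mul]
    have h5 : ((x : 𝓞 K) + y * η) * (x - y * η) = ((x ^ 2 + y ^ 2 : ℤ) : 𝓞 K) := by
      push_cast
      linear_combination (-(y : 𝓞 K) ^ 2) * h.root
    rw [h5, ← h.eq]
    simp
  refine ⟨fun hq1 => ?_, fun hq3 => ?_⟩
  · have h5 := Qu.recip_one (q := q) h4 h2 hψ hpF hpq (k := (q - 1) / 4) (by omega)
    rw [hJF, MulChar.ringHomComp_apply, hn] at h5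
    have h6 : s (χ (q : ZMod p)) ^ 4 = 1 := by
      rw [← map_pow, h.pow_four_apply hpq, map_one]
    set c := s (χ (q : ZMod p))
    set A := s (x + y * η)
    set B := s (x - y * η)
    have h7 : A ^ (3 * ((q - 1) / 4)) * B ^ ((q - 1) / 4) = (A * B * (-A) ^ 2) ^ ((q - 1) / 4) := by
      rw [pow_mul, ← mul_pow]
      congr 1
      ring
    rw [h7]
    calc c ^ 3 = c ^ 3 * (c * (A * B * (-A) ^ 2) ^ ((q - 1) / 4)) := by rw [h5, mul_one]
      _ = c ^ 4 * (A * B * (-A) ^ 2) ^ ((q - 1) / 4) := by ring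
      _ = _ := by rw [h6, one_mul]
  · have h5 := Qu.recip_three (q := q) h4 h2 hψ hpF hpq (k := (q - 3) / 4) (by omega)
    rw [hJF, MulChar.ringHomComp_apply, hn] at h5
    have h6 : (q - 3) / 4 + 1 = (q + 1) / 4 := by omega
    rw [h6] at h5
    rw [← h5, pow_mul, ← mul_pow]
    congr 1
    ring

end Fermat.Agent.Cor.SectK
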