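import Fermat.Agent.Corollaries.SectK.QuChi

/-!
# The supplementary laws of quartic reciprocity

`recTwoStmt : RecTwoStmt η`: `(-1 / π)₄ = (-1) ^ ((p - 1) / 4)` and
`(2 / π)₄ i ^ ((p - 1) / 4) = (-1) ^ (((x + y) ^ 2 - 1) / 8)` for `π = x + y i ≡ 1 mod 2 + 2 i`.
-/

set_option autoImplicit false
set_option linter.unusedSectionVars false

noncomputable section

open NumberField
open scoped NumberTheorySymbols

namespace Fermat.Agent.Cor.SectK

namespace QuTwo

/-- `J(a² | b) = 1` for `a` prime to `b` -/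
theorem jac_sq {a : ℤ} {b : ℕ} (h : a.gcd b = 1) : J(a ^ 2 | b) = 1 := by
  rw [jacobiSym.pow_left]
  rcases jacobiSym.eq_one_or_neg_one h with h1 | h1 <;> rw [h1] <;> norm_num

/-- `J(a | p) = J(p | |a|)` for `p ≡ 1 mod 4`, `a` odd -/
theorem jac_abs {a : ℤ} {p : ℕ} (hp : p % 4 = 1) (ha : Odd a.natAbs) :
    J(a | p) = J((p : ℤ) | a.natAbs) := by
  rw [jacobiSym.quadratic_reciprocity_one_mod_four hp ha]
  have hodd : Odd p := Nat.odd_iff.2 (by omega)
  have h1 : J(-1 | p) = 1 := by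
    rw [jacobiSym.at_neg_one hodd, ZMod.χ₄_nat_one_mod_four hp]
  rcases Int.natAbs_eq a with h2 | h2
  · conv_lhs => rw [h2]
  · conv_lhs => rw [h2]
    rw [neg_eq_neg_one_mul, jacobiSym.mul_left, h1, one_mul]

theorem gcd_eq_one {x y : ℤ} {p : ℕ} (hp : p.Prime) (h : (p : ℤ) = x ^ 2 + y ^ 2) {d : ℕ}
    (hx : (d : ℤ) ∣ x) (hy : (d : ℤ) ∣ y) : d = 1 := by
  have h1 : (d : ℤ) * d ∣ p := by
    rw [h, sq, sq]
    exact dvd_add (mul_dvd_mul hx hx) (mul_dvd_mul hy hy)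
  have h2 : d * d ∣ p := by exact_mod_cast h1
  by_contra hd
  exact hd (Nat.isUnit_iff.1 (hp.prime.irreducible.squarefree d h2))

theorem odd_natAbs {a : ℤ} (h : a % 2 = 1) : Odd a.natAbs := by
  rw [Int.natAbs_odd, Int.odd_iff]
  exact h

theorem leg_x {x y : ℤ} {p : ℕ} [hp : Fact p.Prime] (h4 : p % 4 = 1)
    (h : (p : ℤ) = x ^ 2 + y ^ 2) (hx : x % 2 = 1) : legendreSym p x = 1 := by
  rw [jacobiSym.legendreSym.to_jacobiSym, jac_abs h4 (odd_natAbs hx), jacobiSym.mod_left, h]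
  have h1 : (x ^ 2 + y ^ 2) % (x.natAbs : ℤ) = y ^ 2 % (x.natAbs : ℤ) := by
    apply Int.ModEq.eq
    apply Int.modEq_iff_dvd.2
    have h2 : (x.natAbs : ℤ) ∣ x := Int.natAbs_dvd.2 dvd_rfl
    have h3 : y ^ 2 - (x ^ 2 + y ^ 2) = x * (-x) := by ring
    rw [h3]
    exact h2.mul_right _
  rw [h1, ← jacobiSym.mod_left]
  apply jac_sq
  have h5 : (((y.gcd x.natAbs : ℕ)) : ℤ) ∣ y := Int.gcd_dvd_left ..
  have h6 : (((y.gcd x.natAbs : ℕ)) : ℤ) ∣ x :=
    (Int.gcd_dvd_right ..).trans (Int.natAbs_dvd.2 dvd_rfl)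
  exact gcd_eq_one hp.out h h6 h5

theorem leg_add {x y : ℤ} {p : ℕ} [hp : Fact p.Prime] (h4 : p % 4 = 1)
    (h : (p : ℤ) = x ^ 2 + y ^ 2) (hxy : (x + y) % 4 = 1) :
    legendreSym p (x + y) = (-1) ^ (((x + y) ^ 2 - 1) / 8).toNat := by
  have hodd : Odd (x + y).natAbs := odd_natAbs (by omega)
  set S : ℕ := (x + y).natAbs with hS
  rw [jacobiSym.legendreSym.to_jacobiSym, jac_abs h4 hodd, ← hS]
  -- `J(2 p | S) = 1`
  have hSd : (S : ℤ) ∣ x + y := Int.natAbs_dvd.2 dvd_rfl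
  have h1 : J(2 * (p : ℤ) | S) = 1 := by
    rw [jacobiSym.mod_left]
    have h2 : (2 * (p : ℤ)) % (S : ℤ) = (x - y) ^ 2 % (S : ℤ) := by
      apply Int.ModEq.eq
      apply Int.modEq_iff_dvd.2
      have h3 : (x - y) ^ 2 - 2 * (p : ℤ) = (x + y) * (-(x + y)) := by
        rw [h]
        ring
      rw [h3]
      exact hSd.mul_right _
    rw [h2, ← jacobiSym.mod_left]
    apply jac_sq
    set d : ℕ := (x - y).gcd S with hd
    have h5 : (d : ℤ) ∣ x - y := Int.gcd_dvd_left ..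
    have h6 : (d : ℤ) ∣ S := Int.gcd_dvd_right ..
    have h7 : (d : ℤ) ∣ x + y := h6.trans hSd
    have hdo : IsCoprime (d : ℤ) 2 := by
      have h8 : d ∣ S := by exact_mod_cast h6
      have h9 : Odd d := Odd.of_dvd_nat hodd h8
      have h10 : Nat.Coprime d 2 := Nat.coprime_two_right.2 h9
      exact_mod_cast Nat.isCoprime_iff_coprime.2 h10
    have h8 : (d : ℤ) ∣ x := by
      apply hdo.dvd_of_dvd_mul_left
      have : 2 * x = (x - y) + (x + y) := by ring
      rw [this]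
      exact dvd_add h5 h7
    have h9 : (d : ℤ) ∣ y := by
      have : y = (x + y) - x := by ring
      rw [this]
      exact dvd_sub h7 h8
    exact gcd_eq_one hp.out h h8 h9
  rw [jacobiSym.mul_left] at h1
  have h2 : J(2 | S) = (-1) ^ (((x + y) ^ 2 - 1) / 8).toNat := by
    rw [jacobiSym.at_two hodd, ZMod.χ₈_nat_eq_if_mod_eight]
    obtain ⟨t, ht⟩ : ∃ t, x + y = 4 * t + 1 := ⟨(x + y) / 4, by omega⟩
    have h3 : ((x + y) ^ 2 - 1) / 8 = t * (2 * t + 1) := by
      have h5 : (x + y) ^ 2 - 1 = 8 * (t * (2 * t + 1)) := by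
        rw [ht]
        ring
      rw [h5, Int.mul_ediv_cancel_left _ (by norm_num)]
    have h5 : 0 ≤ t * (2 * t + 1) := by
      rcases le_or_gt 0 t with h6 | h6
      · positivity
      · nlinarith
    have h6 : S % 2 = 1 := Nat.odd_iff.1 hodd
    have h7 : (S : ℤ) = x + y ∨ (S : ℤ) = -(x + y) := by omega
    rw [if_neg (by omega), h3]
    have hpar : ((t * (2 * t + 1)).toNat : ℤ) % 2 = t % 2 := by
      rw [Int.toNat_of_nonneg h5]
      have h8 : t * (2 * t + 1) = t + 2 * (t * t) := by ring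
      rw [h8]
      omega
    rcases Int.emod_two_eq_zero_or_one t with h8 | h8
    · have h9 : Even (t * (2 * t + 1)).toNat := by
        rw [Nat.even_iff]
        omega
      rw [h9.neg_one_pow, if_pos (by omega)]
    · have h9 : Odd (t * (2 * t + 1)).toNat := by
        rw [Nat.odd_iff]
        omega
      rw [h9.neg_one_pow, if_neg (by omega)]
  rw [h2] at h1
  rcases neg_one_pow_eq_or ℤ (((x + y) ^ 2 - 1) / 8).toNat with h3 | h3
  · rw [h3] at h1 ⊢
    linarith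
  · rw [h3] at h1 ⊢
    linarith

end QuTwo

open QuTwo

variable {K : Type} [Field K] [NumberField K]

theorem four_pow {η : 𝓞 K} (hη : η ^ 2 + 1 = 0) (n : ℕ) :
    η ^ n = 1 ∨ η ^ n = η ∨ η ^ n = -1 ∨ η ^ n = -η := by
  induction n with
  | zero => left; rw [pow_zero]
  | succ n ih =>
    rw [pow_succ]
    exact four_mul hη ih (Or.inr (Or.inl rfl))

/-- (P5) the supplementary laws -/
theorem recTwoStmt (η : 𝓞 K) : RecTwoStmt η := by
  intro p hp x y r χ Q
  have h4 := Q.mod_four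
  have hsign : ∀ n : ℕ, ((-1 : 𝓞 K) ^ n = 1 ∨ (-1 : 𝓞 K) ^ n = η ∨ (-1 : 𝓞 K) ^ n = -1 ∨
      (-1 : 𝓞 K) ^ n = -η) := fun n => by
    rcases neg_one_pow_eq_or (𝓞 K) n with h1 | h1
    · exact Or.inl h1
    · exact Or.inr (Or.inr (Or.inl h1))
  refine ⟨?_, ?_⟩
  · refine Q.eq_of_red (neg_ne_zero.2 one_ne_zero) (hsign _) ?_
    rw [map_pow, map_neg, map_one]
  · have h20 : (2 : ZMod p) ≠ 0 := two_ne' Q.ne_two
    refine r_inj Q.root Q.ne_two r (four_mul Q.root (Q.four 2 h20) (four_pow Q.root _))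
      (hsign _) ?_
    rw [map_mul, Q.spec, map_pow, map_pow, map_neg, map_one]
    have hj : r η ^ 2 + 1 = 0 := by
      rw [← map_pow, ← map_one r, ← map_add, Q.root, map_zero]
    have hred : (x : ZMod p) + y * r η = 0 := by
      have h1 := Q.red
      rw [map_add, map_mul, map_intCast, map_intCast] at h1
      exact h1
    have hy : (y : ZMod p) = x * r η := by linear_combination (y : ZMod p) * hj - r η * hred
    have hp0 : (x : ZMod p) ^ 2 + (y : ZMod p) ^ 2 = 0 := by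
      have h1 : ((p : ℤ) : ZMod p) = ((x ^ 2 + y ^ 2 : ℤ) : ZMod p) := by rw [Q.eq]
      push_cast at h1
      rw [ZMod.natCast_self] at h1
      exact h1.symm
    have hkey : (((x + y : ℤ)) : ZMod p) ^ 2 = 2 * (x : ZMod p) ^ 2 * r η := by
      push_cast
      have : ((x : ZMod p) + y) ^ 2 = ((x : ZMod p) ^ 2 + (y : ZMod p) ^ 2) + 2 * x * y := by ring
      rw [this, hp0, zero_add]
      nth_rewrite 1 [hy]
      ring
    have hc : p / 2 = 2 * ((p - 1) / 4) := by omega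
    have hxodd : x % 2 = 1 := by
      have := Q.hy
      have := Q.hx
      omega
    have e1 : ((x : ZMod p) ^ 2) ^ ((p - 1) / 4) = 1 := by
      rw [← pow_mul, ← hc, ← legendreSym.eq_pow, leg_x h4 Q.eq hxodd, Int.cast_one]
    have e2 : ((((x + y : ℤ)) : ZMod p) ^ 2) ^ ((p - 1) / 4) =
        (-1) ^ (((x + y) ^ 2 - 1) / 8).toNat := by
      rw [← pow_mul, ← hc, ← legendreSym.eq_pow, leg_add h4 Q.eq Q.hx]
      push_cast
      rfl
    rw [hkey, mul_pow, mul_pow, e1, mul_one] at e2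
    exact e2

end Fermat.Agent.Cor.SectK
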