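import Fermat.Agent.Corollaries.SectK.QuOdd
import Fermat.Agent.Corollaries.SectK.QuRec
import Fermat.Agent.Corollaries.SectK.QuTwo

/-!
# The quartic symbol `(m / π)`, `m` a rational integer, is a Hecke character of type `0`
-/

set_option autoImplicit false
set_option linter.unusedSectionVars false

noncomputable section

open NumberField nonZeroDivisors Complex Module

open scoped Classical

namespace Fermat.Agent.Cor.SectK

variable {K : Type} [Field K] [NumberField K] {σ : K →+* ℂ} {η : 𝓞 K}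

theorem eight_le (h : GausDat σ η) :
    Ideal.span {((8 : ℕ) : 𝓞 K)} ≤ Ideal.span {(2 + 2 * η : 𝓞 K)} := by
  rw [Ideal.span_singleton_le_iff_mem, Ideal.mem_span_singleton]
  exact ⟨2 - 2 * η, by push_cast; linear_combination (4 : 𝓞 K) * h.root⟩

theorem eight_ne : Ideal.span {((8 : ℕ) : 𝓞 K)} ≠ ⊥ := by
  rw [Ne, Ideal.span_singleton_eq_bot]
  norm_num

theorem QuDat.cop_eight {p : ℕ} [hp : Fact p.Prime] {x y : ℤ} {r : 𝓞 K →+* ZMod p}
    {χ : MulChar (ZMod p) (𝓞 K)} (Q : QuDat η p x y r χ) (h : GausDat σ η)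
    {I : (Ideal (𝓞 K))⁰} (hI : (I : Ideal (𝓞 K)) = Ideal.span {(x + y * η : 𝓞 K)}) :
    IsCoprime (I : Ideal (𝓞 K)) (Ideal.span {((8 : ℕ) : 𝓞 K)}) := by
  rw [hI]
  refine isCoprime_of_norm hp.out (Q.absNorm_eq h) fun h4 => ?_
  have h5 : p ∣ 2 ^ 3 := by norm_num; exact h4
  have h6 := (Nat.prime_dvd_prime_iff_eq hp.out Nat.prime_two).1 (hp.out.dvd_of_dvd_pow h5)
  exact Q.ne_two h6

/-- the coordinates -/
def cx (h : GausDat σ η) (a : 𝓞 K) : ℤ := Classical.choose (h.ex a)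

/-- the coordinates -/
def cy (h : GausDat σ η) (a : 𝓞 K) : ℤ := Classical.choose (Classical.choose_spec (h.ex a))

theorem eq_co (h : GausDat σ η) (a : 𝓞 K) : a = cx h a + cy h a * η :=
  Classical.choose_spec (Classical.choose_spec (h.ex a))

theorem co_eq (h : GausDat σ η) (x y : ℤ) : cx h (x + y * η) = x ∧ cy h (x + y * η) = y := by
  obtain ⟨h1, h2⟩ := h.ext (eq_co h (x + y * η))
  exact ⟨h1.symm, h2.symm⟩

theorem co_mul (h : GausDat σ η) (a b : 𝓞 K) :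
    cx h (a * b) = cx h a * cx h b - cy h a * cy h b ∧
      cy h (a * b) = cx h a * cy h b + cy h a * cx h b := by
  have h1 : a * b = ((cx h a * cx h b - cy h a * cy h b : ℤ) : 𝓞 K) +
      ((cx h a * cy h b + cy h a * cx h b : ℤ) : 𝓞 K) * η := by
    conv_lhs => rw [eq_co h a, eq_co h b]
    push_cast
    linear_combination ((cy h a : 𝓞 K) * cy h b) * h.root
  have h2 := co_eq h (cx h a * cx h b - cy h a * cy h b) (cx h a * cy h b + cy h a * cx h b)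
  rwa [← h1] at h2

theorem pri_co (h : GausDat σ η) {a : 𝓞 K} (ha : IsPri η a) :
    cy h a % 2 = 0 ∧ (cx h a + cy h a) % 4 = 1 := by
  rw [IsPri, eq_co h a] at ha
  exact h.of_sub_one_mem ha

theorem cong_co (h : GausDat σ η) {a : 𝓞 K} (ha : a - 1 ∈ Ideal.span {((8 : ℕ) : 𝓞 K)}) :
    ∃ c d : ℤ, cx h a = 8 * c + 1 ∧ cy h a = 8 * d := by
  obtain ⟨b, hb⟩ := Ideal.mem_span_singleton'.1 ha
  obtain ⟨c, d, rfl⟩ := h.ex b
  refine ⟨c, d, ?_⟩
  have h1 : a = ((8 * c + 1 : ℤ) : 𝓞 K) + ((8 * d : ℤ) : 𝓞 K) * η := by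
    push_cast at hb ⊢
    linear_combination -hb
  have h2 := co_eq h (8 * c + 1) (8 * d)
  rwa [← h1] at h2

/-- the norm in coordinates -/
def cn (h : GausDat σ η) (a : 𝓞 K) : ℤ := cx h a ^ 2 + cy h a ^ 2

theorem cn_mul (h : GausDat σ η) (a b : 𝓞 K) : cn h (a * b) = cn h a * cn h b := by
  obtain ⟨h1, h2⟩ := co_mul h a b
  rw [cn, h1, h2, cn, cn]
  ring

theorem cn_mod (h : GausDat σ η) {a : 𝓞 K} (ha : IsPri η a) : ∃ u : ℤ, cn h a = 4 * u + 1 := by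
  obtain ⟨h1, h2⟩ := pri_co h ha
  obtain ⟨t, ht⟩ : ∃ t, cy h a = 2 * t := ⟨cy h a / 2, by omega⟩
  obtain ⟨s, hs⟩ : ∃ s, cx h a = 2 * s + 1 := ⟨cx h a / 2, by omega⟩
  exact ⟨s ^ 2 + s + t ^ 2, by rw [cn, hs, ht]; ring⟩

/-- the character `a ↦ z ^ ((N a - 1) / 4)`, `z ^ 4 = 1` -/
def fN (h : GausDat σ η) (z : ℂ) (a : 𝓞 K) : ℂ := z ^ ((cn h a - 1) / 4)

theorem fN_mul (h : GausDat σ η) {z : ℂ} (hz : z ^ 4 = 1) {a b : 𝓞 K} (ha : IsPri η a)
    (hb : IsPri η b) : fN h z (a * b) = fN h z a * fN h z b := by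
  have hz0 : z ≠ 0 := by
    rintro rfl
    norm_num at hz
  obtain ⟨u, hu⟩ := cn_mod h ha
  obtain ⟨v, hv⟩ := cn_mod h hb
  have h1 : (cn h (a * b) - 1) / 4 = u + v + 4 * (u * v) := by
    rw [cn_mul, hu, hv]
    have : (4 * u + 1) * (4 * v + 1) - 1 = 4 * (u + v + 4 * (u * v)) := by ring
    rw [this]
    omega
  have h2 : (cn h a - 1) / 4 = u := by omega
  have h3 : (cn h b - 1) / 4 = v := by omega
  rw [fN, fN, fN, h1, h2, h3, zpow_add₀ hz0, zpow_add₀ hz0, zpow_mul, ← zpow_natCast] at *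
  have h4 : z ^ (4 : ℤ) = 1 := by exact_mod_cast hz
  rw [h4, one_zpow, mul_one]

theorem fN_norm (h : GausDat σ η) {z : ℂ} (hz : z ^ 4 = 1) (a : 𝓞 K) : ‖fN h z a‖ = 1 := by
  rw [fN, norm_zpow, Complex.norm_eq_one_of_pow_eq_one hz (by norm_num), one_zpow]

theorem fN_cong (h : GausDat σ η) {z : ℂ} (hz : z ^ 4 = 1) {a : 𝓞 K}
    (ha : a - 1 ∈ Ideal.span {((8 : ℕ) : 𝓞 K)}) : fN h z a = 1 := by
  obtain ⟨c, d, h1, h2⟩ := cong_co h ha
  have h3 : (cn h a - 1) / 4 = 4 * (4 * c ^ 2 + c + 4 * d ^ 2) := by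
    rw [cn, h1, h2]
    have : (8 * c + 1) ^ 2 + (8 * d) ^ 2 - 1 = 4 * (4 * (4 * c ^ 2 + c + 4 * d ^ 2)) := by ring
    rw [this]
    omega
  have h4 : z ^ (4 : ℤ) = 1 := by exact_mod_cast hz
  rw [fN, h3, zpow_mul, h4, one_zpow]

/-- the character `a ↦ (-1) ^ ((x + y - 1) / 4)` -/
def fS (h : GausDat σ η) (a : 𝓞 K) : ℂ := (-1) ^ ((cx h a + cy h a - 1) / 4)

theorem fS_mul (h : GausDat σ η) {a b : 𝓞 K} (ha : IsPri η a) (hb : IsPri η b) :
    fS h (a * b) = fS h a * fS h b := by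
  obtain ⟨h1, h2⟩ := pri_co h ha
  obtain ⟨h3, h4⟩ := pri_co h hb
  obtain ⟨h5, h6⟩ := co_mul h a b
  obtain ⟨t, ht⟩ : ∃ t, cy h a = 2 * t := ⟨cy h a / 2, by omega⟩
  obtain ⟨t', ht'⟩ : ∃ t, cy h b = 2 * t := ⟨cy h b / 2, by omega⟩
  obtain ⟨u, hu⟩ : ∃ u, cx h a + cy h a = 4 * u + 1 := ⟨(cx h a + cy h a) / 4, by omega⟩
  obtain ⟨v, hv⟩ : ∃ u, cx h b + cy h b = 4 * u + 1 := ⟨(cx h b + cy h b) / 4, by omega⟩
  have h7 : (cx h (a * b) + cy h (a * b) - 1) / 4 = u + v + 2 * (2 * (u * v) - t * t') := by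
    rw [h5, h6]
    have hx : cx h a = 4 * u + 1 - 2 * t := by linarith
    have hx' : cx h b = 4 * v + 1 - 2 * t' := by linarith
    rw [hx, hx', ht, ht']
    have : (4 * u + 1 - 2 * t) * (4 * v + 1 - 2 * t') - 2 * t * (2 * t') +
        ((4 * u + 1 - 2 * t) * (2 * t') + 2 * t * (4 * v + 1 - 2 * t')) - 1 =
        4 * (u + v + 2 * (2 * (u * v) - t * t')) := by ring
    rw [this]
    omega
  have h8 : (cx h a + cy h a - 1) / 4 = u := by omega
  have h9 : (cx h b + cy h b - 1) / 4 = v := by omega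
  have h10 : (-1 : ℂ) ≠ 0 := by norm_num
  rw [fS, fS, fS, h7, h8, h9, zpow_add₀ h10, zpow_add₀ h10, zpow_mul]
  norm_num

theorem fS_norm (h : GausDat σ η) (a : 𝓞 K) : ‖fS h a‖ = 1 := by
  rw [fS, norm_zpow]
  norm_num

theorem fS_cong (h : GausDat σ η) {a : 𝓞 K}
    (ha : a - 1 ∈ Ideal.span {((8 : ℕ) : 𝓞 K)}) : fS h a = 1 := by
  obtain ⟨c, d, h1, h2⟩ := cong_co h ha
  have h3 : (cx h a + cy h a - 1) / 4 = 2 * (c + d) := by
    rw [h1, h2]
    omega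
  rw [fS, h3, zpow_mul]
  norm_num

/-- `(1 / π)`, `(-1 / π)` -/
theorem heckeQu_neg_one (σ : K →+* ℂ) (η : 𝓞 K) : HeckeQuStmt σ η (-1) := by
  intro h
  have hz : (-1 : ℂ) ^ 4 = 1 := by norm_num
  obtain ⟨φ, hφ, hφ'⟩ := h.exists_hChar_of (eight_le h) (fN h (-1))
    (fN_cong h hz (by rw [sub_self]; exact zero_mem _))
    (fun a b ha hb _ _ => fN_mul h hz ha hb) (fun a _ _ => fN_norm h hz a)
    (fun a ha => fN_cong h hz ha)
  refine ⟨_, φ, eight_ne, hφ, ?_⟩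
  intro p hp x y r χ Q _ I hI
  rw [hφ' I _ hI (Q.isPri h) (Q.cop_eight h hI)]
  obtain ⟨h1, h2⟩ := co_eq h x y
  have h3 : (cn h (x + y * η) - 1) / 4 = (((p - 1) / 4 : ℕ) : ℤ) := by
    rw [cn, h1, h2, ← Q.eq]
    have := Q.mod_four
    omega
  have h4 := (recTwoStmt η p x y r χ Q).1
  have h5 : (((-1 : ℤ)) : ZMod p) = -1 := by push_cast; rfl
  rw [fN, h3, h5, h4, zpow_natCast]
  simp

/-- `(2 / π)` -/
theorem heckeQu_two (σ : K →+* ℂ) (η : 𝓞 K) : HeckeQuStmt σ η 2 := by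
  intro h
  have hη4 : η ^ 4 = 1 := by linear_combination (η ^ 2 - 1) * h.root
  have hz : (sigO σ η ^ 3) ^ 4 = 1 := by
    rw [← pow_mul, mul_comm, pow_mul, ← map_pow, hη4, map_one, one_pow]
  obtain ⟨φ, hφ, hφ'⟩ := h.exists_hChar_of (eight_le h)
    (fun a => fS h a * fN h (sigO σ η ^ 3) a)
    (by
      have h0 : (1 : 𝓞 K) - 1 ∈ Ideal.span {((8 : ℕ) : 𝓞 K)} := by
        rw [sub_self]
        exact zero_mem _
      rw [fN_cong h hz h0, fS_cong h h0, one_mul])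
    (fun a b ha hb _ _ => by rw [fN_mul h hz ha hb, fS_mul h ha hb]; ring)
    (fun a _ _ => by rw [norm_mul, fN_norm h hz a, fS_norm h a, one_mul])
    (fun a ha => by rw [fN_cong h hz ha, fS_cong h ha, one_mul])
  refine ⟨_, φ, eight_ne, hφ, ?_⟩
  intro p hp x y r χ Q _ I hI
  rw [hφ' I _ hI (Q.isPri h) (Q.cop_eight h hI)]
  obtain ⟨h1, h2⟩ := co_eq h x y
  have h3 : (cn h (x + y * η) - 1) / 4 = (((p - 1) / 4 : ℕ) : ℤ) := by
    rw [cn, h1, h2, ← Q.eq]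
    have := Q.mod_four
    omega
  have h4 := (recTwoStmt η p x y r χ Q).2
  have hx := Q.hx
  obtain ⟨u, hu⟩ : ∃ u, x + y = 4 * u + 1 := ⟨(x + y) / 4, by omega⟩
  have h6 : fS h (x + y * η) = (-1) ^ (((x + y) ^ 2 - 1) / 8).toNat := by
    rw [fS, h1, h2, hu, ← zpow_natCast]
    have e1 : ((4 * u + 1) ^ 2 - 1) / 8 = u + 2 * u ^ 2 := by
      have : (4 * u + 1) ^ 2 - 1 = 8 * (u + 2 * u ^ 2) := by ring
      rw [this]
      omega
    have e2 : (4 * u + 1 - 1) / 4 = u := by omega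
    have e3 : 0 ≤ u + 2 * u ^ 2 := by
      rcases le_or_gt 0 u with h7 | h7
      · positivity
      · nlinarith
    rw [e1, e2, Int.toNat_of_nonneg e3, zpow_add₀ (by norm_num), zpow_mul]
    norm_num
  have h7 : sigO σ (χ 2) * sigO σ η ^ ((p - 1) / 4) = (-1) ^ (((x + y) ^ 2 - 1) / 8).toNat := by
    rw [← map_pow, ← map_mul, h4]
    simp
  have h8 : sigO σ η ^ ((p - 1) / 4) * (sigO σ η ^ 3) ^ ((p - 1) / 4) = 1 := by
    rw [← mul_pow, ← pow_succ', ← map_pow, hη4, map_one, one_pow]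
  rw [h6, fN, h3, zpow_natCast, ← h7, mul_assoc, h8, mul_one, sigO_apply]
  norm_cast

/-- products -/
theorem HeckeQuStmt.mul {m n : ℤ} (hm : HeckeQuStmt σ η m) (hn : HeckeQuStmt σ η n) :
    HeckeQuStmt σ η (m * n) := by
  intro h
  obtain ⟨𝔪, φ, h1, h2, h3⟩ := hm h
  obtain ⟨𝔫, ψ, h4, h5, h6⟩ := hn h
  refine ⟨𝔪 * 𝔫, φ * ψ, mul_ne_zero h1 h4, ?_, ?_⟩
  · have := Jz.mul_hChar h2 h5
    rwa [add_zero] at this
  · intro p hp x y r χ Q hpd I hI
    rw [MonoidHom.mul_apply, h3 p x y r χ Q (fun h7 => hpd (h7.mul_right _)) I hI,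
      h6 p x y r χ Q (fun h7 => hpd (h7.mul_left _)) I hI]
    push_cast
    rw [map_mul]
    simp

/-- (P6) **The quartic symbol `(m / π)` is a Hecke character of type `0`.** -/
theorem heckeQuStmt (σ : K →+* ℂ) (η : 𝓞 K) {m : ℤ} (hm : m ≠ 0) : HeckeQuStmt σ η m := by
  intro h
  have hneg := heckeQu_neg_one σ η
  have hone : HeckeQuStmt σ η 1 := by
    have := hneg.mul hneg
    norm_num at this
    exact this
  have hnat : ∀ n : ℕ, n ≠ 0 → HeckeQuStmt σ η n := by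
    intro n
    induction n using induction_on_primes with
    | zero => exact fun h0 => absurd rfl h0
    | one => exact fun _ => by exact_mod_cast hone
    | prime_mul q a hq ih =>
      intro h0
      have ha := ih (right_ne_zero_of_mul h0)
      have : Fact q.Prime := ⟨hq⟩
      have hqq : HeckeQuStmt σ η q := by
        rcases hq.eq_two_or_odd with h1 | h1
        · rw [h1]
          exact_mod_cast heckeQu_two σ η
        · have h2 : q % 4 = 1 ∨ q % 4 = 3 := by omega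
          rcases h2 with h2 | h2
          · exact heckeQu_one h q h2 (recOddStmt σ η) (jacQuStmt σ η)
          · have h3 := hneg.mul (heckeQu_three h q h2 (recOddStmt σ η) (jacQuStmt σ η))
            have h4 : (-1 : ℤ) * (-q) = q := by ring
            rwa [h4] at h3
      have := hqq.mul ha
      exact_mod_cast this
  have h1 := hnat m.natAbs (Int.natAbs_ne_zero.2 hm)
  rcases Int.natAbs_eq m with h2 | h2
  · rw [h2]
    exact h1 h
  · rw [h2]
    have h3 := hneg.mul h1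
    have h4 : (-1 : ℤ) * (m.natAbs : ℤ) = -(m.natAbs : ℤ) := by ring
    rw [h4] at h3
    exact h3 h

end Fermat.Agent.Cor.SectK
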