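import Fermat.Agent.Corollaries.SectK.QuChi
import Fermat.Agent.Corollaries.Diary.Lemniscate

/-!
# The quartic Jacobi sum: `J(χ, χ²) = -π`
-/

set_option autoImplicit false
set_option linter.unusedSectionVars false

noncomputable section

open NumberField nonZeroDivisors Module

namespace Fermat.Agent.Cor.SectK

open Finset Diary

/-- `#{x² + y⁴ = 1} = q - 1 + 2 Re J(χ², χ)` -/
theorem card_sq_four {F : Type*} [Field F] [Fintype F] [DecidableEq F] {χ : MulChar F ℂ}
    (hχ : orderOf χ = 4) :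
    ((univ.filter fun P : F × F => P.1 ^ 2 + P.2 ^ 4 = 1).card : ℂ) =
      Fintype.card F - 1 + (jacobiSum (χ ^ 2) χ + (starRingEnd ℂ) (jacobiSum (χ ^ 2) χ)) := by
  have hχ4 : χ ^ 4 = 1 := by rw [← hχ, pow_orderOf_eq_one]
  have hne : ∀ k : ℕ, ¬ 4 ∣ k → χ ^ k ≠ 1 := fun k hk h => hk (by
    rw [← hχ]
    exact orderOf_dvd_of_pow_eq_one h)
  have hρ : orderOf (χ ^ 2) = 2 := by
    rw [orderOf_pow, hχ]
    norm_num
  have hρ1 : χ ^ 2 ≠ 1 := hne 2 (by norm_num)
  have hinv3 : χ ^ 3 = χ⁻¹ := by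
    rw [eq_inv_iff_mul_eq_one, ← pow_succ, hχ4]
  have hinv2 : χ ^ 2 = (χ ^ 2)⁻¹ := by
    rw [eq_inv_iff_mul_eq_one, ← pow_add, hχ4]
  have hneg : (χ ^ 2) (-1) = 1 := by
    rw [MulChar.pow_apply' _ (by norm_num), ← map_pow]
    simp
  rw [card_add_pow_eq (by norm_num) (by norm_num) hρ hχ]
  simp only [sum_range_succ, range_zero, sum_empty, zero_add]
  have hχ1' : χ ^ 1 ≠ 1 := hne 1 (by norm_num)
  have hρ1' : (χ ^ 2) ^ 1 ≠ 1 := by rwa [pow_one]
  rw [sum_zero_zero, sum_zero_pow (by norm_num) hχ1', sum_zero_pow (by norm_num) hρ1,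
    sum_zero_pow (by norm_num) (hne 3 (by norm_num)), sum_pow_zero (by norm_num) hρ1',
    sum_pow_pow (by norm_num) (by norm_num), sum_pow_pow (by norm_num) (by norm_num),
    sum_pow_pow (by norm_num) (by norm_num), pow_one, pow_one, hinv3]
  have e1 : jacobiSum (χ ^ 2) χ⁻¹ = (starRingEnd ℂ) (jacobiSum (χ ^ 2) χ) := by
    nth_rewrite 1 [hinv2]
    exact jacobiSum_inv_eq_conj
  have e2 : jacobiSum (χ ^ 2) (χ ^ 2) = -1 := by
    nth_rewrite 2 [hinv2]
    rw [jacobiSum_nontrivial_inv hρ1, hneg]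
  rw [e1, e2]
  ring

/-- `∑ t ^ e (1 - t) ^ f = 0` in `𝔽_p` for `e + f < p - 1` -/
theorem sum_pow_mul_pow {p : ℕ} [hp : Fact p.Prime] {e f : ℕ} (he : e + f < p - 1) :
    ∑ t : ZMod p, t ^ e * (1 - t) ^ f = 0 := by
  have h1 : ∀ t : ZMod p, t ^ e * (1 - t) ^ f =
      ∑ k ∈ Finset.range (f + 1), ((-1) ^ k * (f.choose k : ZMod p)) * t ^ (e + k) := by
    intro t
    rw [show (1 - t) = (-t + 1) by ring, add_pow, Finset.mul_sum]
    refine Finset.sum_congr rfl fun k _ => ?_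
    rw [one_pow, mul_one, neg_pow, pow_add]
    ring
  simp_rw [h1]
  rw [Finset.sum_comm]
  refine Finset.sum_eq_zero fun k hk => ?_
  rw [← Finset.mul_sum, FiniteField.sum_pow_lt_card_sub_one (ZMod p) (e + k) ?_, mul_zero]
  rw [ZMod.card]
  have := Finset.mem_range.1 hk
  omega

variable {K : Type} [Field K] [NumberField K] {σ : K →+* ℂ} {η : 𝓞 K}

/-- the embedding of `𝓞 K` -/
def sigO (σ : K →+* ℂ) : 𝓞 K →+* ℂ := σ.comp (algebraMap (𝓞 K) K)

theorem sigO_apply (σ : K →+* ℂ) (z : 𝓞 K) : sigO σ z = σ (z : K) := rfl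

section

variable {p : ℕ} [hp : Fact p.Prime] {x y : ℤ} {r : 𝓞 K →+* ZMod p} {χ : MulChar (ZMod p) (𝓞 K)}

theorem QuDat.orderOf_eq (Q : QuDat η p x y r χ) {R : Type*} [CommRing R] [IsDomain R]
    (f : 𝓞 K →+* R) (h2 : (2 : R) ≠ 0) : orderOf (χ.ringHomComp f) = 4 := by
  have h4 : (χ.ringHomComp f) ^ 2 ^ (1 + 1) = 1 := by
    have h5 := congrArg (fun ψ : MulChar (ZMod p) (𝓞 K) => ψ.ringHomComp f) Q.pow_eq_one
    simp only [MulChar.ringHomComp_one] at h5
    rw [← h5, ← MulChar.ringHomComp_pow]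
    norm_num
  have h3 : ¬ (χ.ringHomComp f) ^ 2 ^ 1 = 1 := by
    intro h5
    rw [pow_one, MulChar.ringHomComp_pow, Q.sq_eq] at h5
    have hF : ringChar (ZMod p) ≠ 2 := by
      rw [ZMod.ringChar_zmod_n]
      exact Q.ne_two
    obtain ⟨a, ha⟩ := quadraticChar_exists_neg_one hF
    have ha0 : IsUnit a := by
      rw [isUnit_iff_ne_zero]
      rintro rfl
      rw [MulChar.map_zero] at ha
      norm_num at ha
    have h6 := DFunLike.congr_fun h5 a
    rw [MulChar.one_apply ha0, MulChar.ringHomComp_apply, MulChar.ringHomComp_apply, ha] at h6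
    have h7 : (-1 : R) = 1 := by simpa using h6
    exact h2 (by linear_combination -h7)
  exact orderOf_eq_prime_pow h3 h4

/-- (P3) **the quartic Jacobi sum** -/
theorem QuDat.jacobiSum_eq (Q : QuDat η p x y r χ) (h : GausDat σ η) :
    jacobiSum χ (χ ^ 2) = -(x + y * η : 𝓞 K) := by
  have h4 := Q.mod_four
  have hp2 := hp.out.two_le
  set χ' := χ.ringHomComp (sigO σ) with hχ'
  have hord : orderOf χ' = 4 := Q.orderOf_eq (sigO σ) (by norm_num)
  obtain ⟨s, t, hJ⟩ := h.ex (jacobiSum χ (χ ^ 2))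
  have hσ : jacobiSum (χ' ^ 2) χ' = σ ((s + t * η : 𝓞 K) : K) := by
    rw [jacobiSum_comm, hχ', MulChar.ringHomComp_pow, jacobiSum_ringHomComp, hJ]
    rfl
  have hne : ∀ k : ℕ, ¬ 4 ∣ k → χ' ^ k ≠ 1 := fun k hk h => hk (by
    rw [← hord]
    exact orderOf_dvd_of_pow_eq_one h)
  -- the norm
  have hn : (p : ℤ) = s ^ 2 + t ^ 2 := by
    have h1 := jacobiSum_mul_conj (χ := χ' ^ 2) (ψ := χ') (hne 2 (by norm_num))
      (by simpa using hne 1 (by norm_num)) (by rw [← pow_succ]; exact hne 3 (by norm_num))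
    rw [hσ, Complex.mul_conj, ZMod.card, Complex.normSq_eq_norm_sq, h.norm_sq] at h1
    exact_mod_cast h1.symm
  -- the real part
  have hs : s = -x := by
    have h1 := card_sq_four hord
    have h2 := (card_of_two_squares Q.eq Q.hy Q.hx).2
    have h3 : (((univ.filter fun P : ZMod p × ZMod p => P.1 ^ 2 + P.2 ^ 4 = 1).card : ℤ) : ℂ) =
        ((p - 1 - 2 * x : ℤ) : ℂ) := by rw [h2]
    rw [Int.cast_natCast, h1, hσ, Complex.add_conj, h.sig_re, ZMod.card] at h3
    push_cast at h3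
    have h5 : (s : ℂ) = ((-x : ℤ) : ℂ) := by
      push_cast
      linear_combination (1 / 2 : ℂ) * h3
    exact_mod_cast h5
  -- the reduction
  have hr : r (s + t * η) = 0 := by
    rw [← hJ, jacobiSum, map_sum, ← sum_pow_mul_pow (p := p) (e := (p - 1) / 4)
      (f := (p - 1) / 4 * 2) (by omega)]
    refine Finset.sum_congr rfl fun a _ => ?_
    rw [map_mul, MulChar.pow_apply' _ two_ne_zero, map_pow, Q.spec, Q.spec, ← pow_mul]
  have hr' := Q.red
  rw [map_add, map_mul, map_intCast, map_intCast] at hr hr'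
  have hη : r η ≠ 0 := by
    intro h0
    have h1 : r (η ^ 2 + 1) = 0 := by rw [Q.root, map_zero]
    rw [map_add, map_pow, h0, map_one] at h1
    norm_num at h1
  have hyt : ((y + t : ℤ) : ZMod p) = 0 := by
    have h1 : ((y + t : ℤ) : ZMod p) * r η = 0 := by
      rw [hs] at hr
      push_cast at hr ⊢
      linear_combination hr + hr'
    exact (mul_eq_zero.1 h1).resolve_right hη
  rw [ZMod.intCast_zmod_eq_zero_iff_dvd] at hyt
  have ht2 : t ^ 2 = y ^ 2 := by
    have h1 := Q.eq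
    rw [hs] at hn
    linear_combination h1 - hn
  have ht : t = -y := by
    rcases sq_eq_sq_iff_eq_or_eq_neg.1 ht2 with h1 | h1
    · rw [h1] at hyt
      have h2 : (p : ℤ) ∣ 2 * y := by
        have : y + y = 2 * y := by ring
        rwa [this] at hyt
      have hpz : Prime (p : ℤ) := Nat.prime_iff_prime_int.1 hp.out
      have h3 : (p : ℤ) ∣ y := by
        rcases hpz.dvd_or_dvd h2 with h5 | h5
        · exfalso
          have h6 := Int.le_of_dvd (by norm_num) h5
          have := Q.ne_two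
          omega
        · exact h5
      have h5 : y = 0 := by
        by_contra h0
        have h6 : (p : ℤ) ^ 2 ∣ y ^ 2 := pow_dvd_pow_of_dvd h3 2
        have h7 : 0 < y ^ 2 := by positivity
        have h8 := Int.le_of_dvd h7 h6
        have h9 := Q.eq
        nlinarith [sq_nonneg x]
      rw [h1, h5]
      ring
    · exact h1
  rw [hJ, hs, ht]
  push_cast
  ring

end

/-- (P3) -/
theorem jacQuStmt (σ : K →+* ℂ) (η : 𝓞 K) : JacQuStmt σ η :=
  fun h _ _ _ _ _ _ Q => Q.jacobiSum_eq h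

end Fermat.Agent.Cor.SectK
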