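import Fermat.Agent.Corollaries.SectK.QuExt
import Fermat.Agent.Corollaries.SectK.QuChi
import Fermat.Agent.Corollaries.SectK.QuJac

/-!
# The quartic symbol `(q* / π)`, `q` an odd prime, is a Hecke character of type `0`

from the rational quartic reciprocity law (`RecOddStmt`).
-/

set_option autoImplicit false
set_option linter.unusedSectionVars false

noncomputable section

open NumberField nonZeroDivisors Complex Module

open scoped Classical

namespace Fermat.Agent.Cor.SectK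

variable {K : Type} [Field K] [NumberField K] {σ : K →+* ℂ} {η : 𝓞 K}

/-! ### Fourth roots of unity in a field -/

section Four

variable {F : Type*} [Field F]

theorem s_inj (hη : η ^ 2 + 1 = 0) (h2 : (2 : F) ≠ 0) (r : 𝓞 K →+* F)
    {a b : 𝓞 K} (ha : a = 1 ∨ a = η ∨ a = -1 ∨ a = -η) (hb : b = 1 ∨ b = η ∨ b = -1 ∨ b = -η)
    (h : r a = r b) : a = b := by
  have hi : r η ^ 2 + 1 = 0 := by
    rw [← map_pow, ← map_one r, ← map_add, hη, map_zero]
  have k1 : r η ≠ 1 := fun h0 => h2 (by rw [h0] at hi; linear_combination hi)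
  have k2 : r η ≠ -1 := fun h0 => h2 (by rw [h0] at hi; linear_combination hi)
  have k3 : (1 : F) ≠ -1 := fun h0 => h2 (by linear_combination h0)
  have k4 : r η ≠ -r η := by
    intro h0
    have h1 : 2 * r η = 0 := by linear_combination h0
    rcases mul_eq_zero.1 h1 with h3 | h3
    · exact h2 h3
    · rw [h3] at hi
      norm_num at hi
  rcases ha with rfl | rfl | rfl | rfl <;> rcases hb with rfl | rfl | rfl | rfl <;>
    first
    | rfl
    | (exfalso
       simp only [map_one, map_neg] at h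
       first
       | exact k1 h
       | exact k1 h.symm
       | exact k2 h
       | exact k2 h.symm
       | exact k3 h
       | exact k3 h.symm
       | exact k4 h
       | exact k4 h.symm
       | exact k1 (neg_injective h)
       | exact k1 (neg_injective h).symm
       | exact k2 (by linear_combination -h)
       | exact k2 (by linear_combination h))

/-- the fourth root of unity of `𝓞 K` above `t` -/
def liftF (η : 𝓞 K) (s : 𝓞 K →+* F) (t : F) : 𝓞 K :=
  if t = 1 then 1 else if t = s η then η else if t = -1 then -1 else -η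

theorem liftF_four (η : 𝓞 K) (s : 𝓞 K →+* F) (t : F) :
    liftF η s t = 1 ∨ liftF η s t = η ∨ liftF η s t = -1 ∨ liftF η s t = -η := by
  unfold liftF
  split_ifs <;> simp

theorem s_liftF (hη : η ^ 2 + 1 = 0) (s : 𝓞 K →+* F) {t : F} (ht : t ^ 4 = 1) :
    s (liftF η s t) = t := by
  have hi : s η ^ 2 + 1 = 0 := by
    rw [← map_pow, ← map_one s, ← map_add, hη, map_zero]
  have h1 : (t - 1) * ((t + 1) * ((t - s η) * (t + s η))) = 0 := by
    linear_combination ht - (t ^ 2 - 1) * hi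
  unfold liftF
  split_ifs with h2 h3 h4
  · rw [h2, map_one]
  · rw [h3]
  · rw [h4, map_neg, map_one]
  · rcases mul_eq_zero.1 h1 with h5 | h5
    · exact absurd (sub_eq_zero.1 h5) h2
    · rcases mul_eq_zero.1 h5 with h6 | h6
      · exact absurd (by linear_combination h6) h4
      · rcases mul_eq_zero.1 h6 with h7 | h7
        · exact absurd (sub_eq_zero.1 h7) h3
        · rw [map_neg]
          linear_combination -h7

theorem liftF_mul (hη : η ^ 2 + 1 = 0) (h2 : (2 : F) ≠ 0) (s : 𝓞 K →+* F) {t u : F}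
    (ht : t ^ 4 = 1) (hu : u ^ 4 = 1) : liftF η s (t * u) = liftF η s t * liftF η s u := by
  refine s_inj hη h2 s (liftF_four _ _ _) (four_mul hη (liftF_four _ _ _) (liftF_four _ _ _)) ?_
  rw [s_liftF hη s (by rw [mul_pow, ht, hu, one_mul]), map_mul, s_liftF hη s ht, s_liftF hη s hu]

theorem liftF_s (hη : η ^ 2 + 1 = 0) (h2 : (2 : F) ≠ 0) (s : 𝓞 K →+* F) {a : 𝓞 K}
    (ha : a = 1 ∨ a = η ∨ a = -1 ∨ a = -η) : liftF η s (s a) = a := by
  have h4 : η ^ 4 = 1 := by linear_combination (η ^ 2 - 1) * hη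
  have ha4 : s a ^ 4 = 1 := by
    rw [← map_pow]
    rcases ha with rfl | rfl | rfl | rfl
    · simp
    · rw [h4, map_one]
    · norm_num
    · rw [neg_pow, h4]
      norm_num
  exact s_inj hη h2 s (liftF_four _ _ _) ha (s_liftF hη s ha4)

theorem liftF_one (η : 𝓞 K) (s : 𝓞 K →+* F) : liftF η s 1 = 1 := if_pos rfl

end Four

theorem norm_four (hη : η ^ 2 + 1 = 0) {a : 𝓞 K} (ha : a = 1 ∨ a = η ∨ a = -1 ∨ a = -η) :
    ‖sigO σ a‖ = 1 := by
  have h4 : η ^ 4 = 1 := by linear_combination (η ^ 2 - 1) * hη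
  refine Complex.norm_eq_one_of_pow_eq_one (n := 4) ?_ (by norm_num)
  rw [← map_pow]
  rcases ha with rfl | rfl | rfl | rfl
  · simp
  · rw [h4, map_one]
  · norm_num
  · rw [neg_pow, h4]
    norm_num

/-- an ideal of prime norm `p` is prime to every integer prime to `p` -/
theorem isCoprime_of_norm {p : ℕ} (hp : p.Prime) {I : Ideal (𝓞 K)} (hI : Ideal.absNorm I = p)
    {n : ℕ} (hn : ¬ p ∣ n) : IsCoprime I (Ideal.span {(n : 𝓞 K)}) := by
  have h1 : Nat.Coprime p n := (Nat.Prime.coprime_iff_not_dvd hp).2 hn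
  obtain ⟨u, v, huv⟩ := Nat.isCoprime_iff_coprime.2 h1
  have h2 : (u : 𝓞 K) * (p : 𝓞 K) + (v : 𝓞 K) * (n : 𝓞 K) = 1 := by
    exact_mod_cast congrArg (Int.cast : ℤ → 𝓞 K) huv
  have h4 := Ideal.absNorm_mem I
  rw [hI] at h4
  exact Ideal.isCoprime_iff_exists.2 ⟨_, Ideal.mul_mem_left _ (u : 𝓞 K) h4, _,
    Ideal.mul_mem_left _ (v : 𝓞 K) (Ideal.mem_span_singleton_self _), h2⟩

/-- the prime ideal `(π)` -/
theorem QuDat.absNorm_eq {p : ℕ} [hp : Fact p.Prime] {x y : ℤ} {r : 𝓞 K →+* ZMod p}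
    {χ : MulChar (ZMod p) (𝓞 K)} (Q : QuDat η p x y r χ) (h : GausDat σ η) :
    Ideal.absNorm (Ideal.span {(x + y * η : 𝓞 K)}) = p := by
  rw [Ideal.absNorm_span_singleton]
  refine Nat.cast_injective (R := ℤ) ?_
  rw [h.nat_norm, Q.eq]

theorem QuDat.isPri {p : ℕ} [hp : Fact p.Prime] {x y : ℤ} {r : 𝓞 K →+* ZMod p}
    {χ : MulChar (ZMod p) (𝓞 K)} (Q : QuDat η p x y r χ) (h : GausDat σ η) :
    IsPri η (x + y * η : 𝓞 K) := h.sub_one_mem Q.hy Q.hx

section Odd

variable (h : GausDat σ η) {q : ℕ} [hq : Fact q.Prime]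

/-- the field of characteristic `q` and the two reductions -/
theorem exists_field (h : GausDat σ η) (q : ℕ) [hq : Fact q.Prime] :
    ∃ (F : Type) (_ : Field F) (_ : CharP F q) (_ : IsAlgClosed F) (s s' : 𝓞 K →+* F),
      ∀ x y : ℤ, s (x - y * η) = s' (x + y * η) := by
  have hne : Ideal.span {(q : 𝓞 K)} ≠ ⊤ := by
    intro h0
    rw [Ideal.span_singleton_eq_top] at h0
    have h1 := Int.isUnit_iff_natAbs_eq.1 (h0.map (Algebra.norm ℤ))
    have h2 := h.nat_norm q 0
    have h3 : (((q : ℤ) : 𝓞 K) + ((0 : ℤ) : 𝓞 K) * η) = (q : 𝓞 K) := by simp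
    rw [h3, h1] at h2
    have h4 := hq.out.two_le
    push_cast at h2
    nlinarith
  obtain ⟨M, hM, hle⟩ := Ideal.exists_le_maximal _ hne
  let k := 𝓞 K ⧸ M
  let _ : Field k := Ideal.Quotient.field M
  have hq0 : (q : k) = 0 := by
    have h1 : Ideal.Quotient.mk M (q : 𝓞 K) = 0 :=
      Ideal.Quotient.eq_zero_iff_mem.2 (hle (Ideal.mem_span_singleton_self _))
    simpa using h1
  have hchar : CharP k q := (CharP.charP_iff_prime_eq_zero hq.out).2 hq0
  let F := AlgebraicClosure k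
  have hcharF : CharP F q := charP_of_injective_algebraMap (algebraMap k F).injective q
  let s : 𝓞 K →+* F := (algebraMap k F).comp (Ideal.Quotient.mk M)
  obtain ⟨c, hc⟩ := h.exists_hom (R := 𝓞 K) (j := -η) (by linear_combination h.root)
  refine ⟨F, inferInstance, hcharF, inferInstance, s, s.comp c, fun x y => ?_⟩
  change s (x - y * η) = s (c (x + y * η))
  rw [hc]
  congr 1
  ring

variable {F : Type} [Field F] [CharP F q] {s s' : 𝓞 K →+* F}

include h

/-- `s a ≠ 0`, if `a` is prime to `q` -/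
theorem s_ne_zero (s : 𝓞 K →+* F) {a : 𝓞 K}
    (ha : IsCoprime (Ideal.span {a}) (Ideal.span {(q : 𝓞 K)})) : s a ≠ 0 := by
  intro h0
  obtain ⟨i, hi, j, hj, hij⟩ := Ideal.isCoprime_iff_exists.1 ha
  obtain ⟨c, rfl⟩ := Ideal.mem_span_singleton'.1 hi
  obtain ⟨d, rfl⟩ := Ideal.mem_span_singleton'.1 hj
  have h1 := congrArg s hij
  rw [map_add, map_mul, map_mul, h0, map_natCast, CharP.cast_eq_zero, map_one] at h1
  simp at h1

/-- the Frobenius -/
theorem frob_s (h1 : q % 4 = 1) (a : 𝓞 K) (s : 𝓞 K →+* F) : s a ^ q = s a := by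
  obtain ⟨x, y, rfl⟩ := h.ex a
  have hη4 : η ^ 4 = 1 := by linear_combination (η ^ 2 - 1) * h.root
  have h2 : s η ^ q = s η := by
    rw [← map_pow]
    congr 1
    obtain ⟨k, hk⟩ : ∃ k, q = 4 * k + 1 := ⟨q / 4, by omega⟩
    rw [hk, pow_succ, pow_mul, hη4, one_pow, one_mul]
  have h3 : frobenius F q (s (x + y * η)) = s (x + y * η) := by
    rw [map_add, map_mul, map_intCast, map_intCast, map_add, map_mul, map_intCast, map_intCast,
      frobenius_def, h2]
  rwa [frobenius_def] at h3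

theorem frob_s_three (h3 : q % 4 = 3) (hs : ∀ x y : ℤ, s (x - y * η) = s' (x + y * η)) (a : 𝓞 K) :
    s a ^ q = s' a ∧ s' a ^ q = s a := by
  obtain ⟨x, y, rfl⟩ := h.ex a
  have hη4 : η ^ 4 = 1 := by linear_combination (η ^ 2 - 1) * h.root
  have h2 : s η ^ q = -s η := by
    rw [← map_pow, ← map_neg]
    congr 1
    obtain ⟨k, hk⟩ : ∃ k, q = 4 * k + 3 := ⟨q / 4, by omega⟩
    rw [hk, pow_add, pow_mul, hη4, one_pow, one_mul]
    linear_combination η * h.root
  have h5 : frobenius F q (s (x + y * η)) = s' (x + y * η) := by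
    rw [← hs, map_add, map_mul, map_intCast, map_intCast, map_add, map_mul, map_intCast,
      map_intCast, frobenius_def, h2, map_sub, map_mul, map_intCast, map_intCast]
    ring
  have h6 : frobenius F q (s' (x + y * η)) = s (x + y * η) := by
    rw [← hs, map_sub, map_mul, map_intCast, map_intCast, map_sub, map_mul, map_intCast,
      map_intCast, frobenius_def, h2, map_add, map_mul, map_intCast, map_intCast]
    ring
  rw [frobenius_def] at h5 h6
  exact ⟨h5, h6⟩

omit h in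
/-- **`(q / π)` for `q ≡ 1 mod 4`** -/
theorem heckeQu_one (h : GausDat σ η) (q : ℕ) [hq : Fact q.Prime] (h1 : q % 4 = 1)
    (hR : RecOddStmt σ η) (hJ : JacQuStmt σ η) : HeckeQuStmt σ η q := by
  intro _
  obtain ⟨F, iF, iC, iA, s, s', hs⟩ := exists_field h q
  have h2F : (2 : F) ≠ 0 := by
    intro h0
    have h3 : ((2 : ℕ) : F) = 0 := by exact_mod_cast h0
    rw [CharP.cast_eq_zero_iff F q] at h3
    have := Nat.le_of_dvd (by norm_num) h3
    have := hq.out.two_le
    omega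
  set k := (q - 1) / 4 with hk
  have hq4 : q = 4 * k + 1 := by omega
  let U : 𝓞 K → F := fun a => s a ^ (9 * k) * s' a ^ (3 * k)
  have hU1 : U 1 = 1 := by simp [U]
  have hUmul : ∀ a b, U (a * b) = U a * U b := by
    intro a b
    simp only [U, map_mul, mul_pow]
    ring
  have hpow : ∀ (t : 𝓞 K →+* F) (a : 𝓞 K),
      IsCoprime (Ideal.span {a}) (Ideal.span {(q : 𝓞 K)}) → t a ^ (4 * k) = 1 := by
    intro t a ha
    have h3 := frob_s h h1 a t
    have h4 := s_ne_zero h t ha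
    nth_rewrite 1 [hq4] at h3
    rw [pow_succ] at h3
    exact mul_right_cancel₀ h4 (by rw [h3, one_mul])
  have hU4 : ∀ a, IsCoprime (Ideal.span {a}) (Ideal.span {(q : 𝓞 K)}) → U a ^ 4 = 1 := by
    intro a ha
    have e1 : U a ^ 4 = (s a ^ (4 * k)) ^ 9 * (s' a ^ (4 * k)) ^ 3 := by
      simp only [U]
      rw [mul_pow, ← pow_mul, ← pow_mul, ← pow_mul, ← pow_mul]
      congr 2 <;> ring
    rw [e1, hpow s a ha, hpow s' a ha, one_pow, one_pow, one_mul]
  have hUc : ∀ a, a - 1 ∈ Ideal.span {(q : 𝓞 K)} → U a = 1 := by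
    intro a ha
    have key : ∀ t : 𝓞 K →+* F, t a = 1 := by
      intro t
      obtain ⟨c, hc⟩ := Ideal.mem_span_singleton'.1 ha
      have h3 := congrArg t hc
      rw [map_mul, map_natCast, CharP.cast_eq_zero, mul_zero, map_sub, map_one] at h3
      exact (sub_eq_zero.1 h3.symm)
    simp only [U]
    rw [key s, key s', one_pow, one_pow, one_mul]
  set 𝔪 : Ideal (𝓞 K) := Ideal.span {((8 * q : ℕ) : 𝓞 K)} with h𝔪
  have hle : 𝔪 ≤ Ideal.span {(2 + 2 * η : 𝓞 K)} := by
    rw [h𝔪, Ideal.span_singleton_le_iff_mem, Ideal.mem_span_singleton]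
    exact ⟨q * (2 - 2 * η), by push_cast; linear_combination (4 * q : 𝓞 K) * h.root⟩
  have hleq : 𝔪 ≤ Ideal.span {(q : 𝓞 K)} := by
    rw [h𝔪, Ideal.span_singleton_le_iff_mem, Ideal.mem_span_singleton]
    exact ⟨8, by push_cast; ring⟩
  have hcopq : ∀ {I : Ideal (𝓞 K)}, IsCoprime I 𝔪 → IsCoprime I (Ideal.span {(q : 𝓞 K)}) := by
    intro I hI
    rw [Ideal.isCoprime_iff_sup_eq] at hI ⊢
    rw [eq_top_iff, ← hI]
    exact sup_le_sup_left hleq _
  obtain ⟨φ, hφ, hφ'⟩ := h.exists_hChar_of hle (fun a => sigO σ (liftF η s (U a)))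
    (by simp only [hU1, liftF_one, map_one])
    (fun a b _ _ ha hb => by
      rw [hUmul, liftF_mul h.root h2F s (hU4 a (hcopq ha)) (hU4 b (hcopq hb)), map_mul])
    (fun a _ _ => norm_four h.root (liftF_four _ _ _))
    (fun a ha => by
      rw [hUc a (hleq ha), liftF_one, map_one])
  refine ⟨𝔪, φ, ?_, hφ, ?_⟩
  · rw [h𝔪, Ne, Ideal.span_singleton_eq_bot]
    have := hq.out.ne_zero
    exact_mod_cast (by omega : 8 * q ≠ 0)
  · intro p hp x y r χ Q hpq I hI
    have hpq' : q ≠ p := by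
      rintro rfl
      exact hpq dvd_rfl
    have hN := Q.absNorm_eq h
    have hcop : IsCoprime (I : Ideal (𝓞 K)) 𝔪 := by
      rw [hI]
      refine isCoprime_of_norm hp.out hN fun h3 => ?_
      rcases (Nat.Prime.dvd_mul hp.out).1 h3 with h4 | h4
      · have h5 : p ∣ 2 ^ 3 := by norm_num; exact h4
        have h6 := (Nat.prime_dvd_prime_iff_eq hp.out Nat.prime_two).1 (hp.out.dvd_of_dvd_pow h5)
        exact Q.ne_two h6
      · exact hpq' ((Nat.prime_dvd_prime_iff_eq hp.out hq.out).1 h4).symm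
    rw [hφ' I _ hI (Q.isPri h) hcop]
    have hcp : IsCoprime (Ideal.span {(x + y * η : 𝓞 K)}) (Ideal.span {(q : 𝓞 K)}) :=
      hcopq (hI ▸ hcop)
    have hrec := (hR h p x y r χ Q (hJ h p x y r χ Q) q (by omega) hpq' F s).1 h1
    have hqp : (q : ZMod p) ≠ 0 := by
      rw [Ne, ZMod.natCast_eq_zero_iff]
      exact fun h3 => hpq' ((Nat.prime_dvd_prime_iff_eq hp.out hq.out).1 h3).symm
    have h4 := Q.pow_four hqp
    have hUχ : U (x + y * η) = s (χ (q : ZMod p)) := by
      have e1 : s (χ (q : ZMod p)) = (s (χ (q : ZMod p)) ^ 3) ^ 3 := by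
        rw [← pow_mul, ← map_pow]
        congr 1
        calc χ (q : ZMod p) = χ (q : ZMod p) * (χ (q : ZMod p) ^ 4) ^ 2 := by rw [h4]; ring
          _ = χ (q : ZMod p) ^ (3 * 3) := by ring
      rw [e1, hrec, hs]
      simp only [U]
      rw [mul_pow, ← pow_mul, ← pow_mul]
      congr 2 <;> ring
    change sigO σ (liftF η s (U (x + y * η))) = _
    rw [hUχ, liftF_s h.root h2F s (Q.four _ hqp), sigO_apply]
    norm_cast

omit h in
/-- **`(-q / π)` for `q ≡ 3 mod 4`** -/
theorem heckeQu_three (h : GausDat σ η) (q : ℕ) [hq : Fact q.Prime] (h1 : q % 4 = 3)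
    (hR : RecOddStmt σ η) (hJ : JacQuStmt σ η) : HeckeQuStmt σ η (-q : ℤ) := by
  intro _
  obtain ⟨F, iF, iC, iA, s, s', hs⟩ := exists_field h q
  have h2F : (2 : F) ≠ 0 := by
    intro h0
    have h3 : ((2 : ℕ) : F) = 0 := by exact_mod_cast h0
    rw [CharP.cast_eq_zero_iff F q] at h3
    have := Nat.le_of_dvd (by norm_num) h3
    have := hq.out.two_le
    omega
  obtain ⟨k, hk⟩ : ∃ k, q = 4 * k + 3 := ⟨q / 4, by omega⟩
  let U : 𝓞 K → F := fun a => s a ^ (3 * k + 2) * s' a ^ k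
  have hU1 : U 1 = 1 := by simp [U]
  have hUmul : ∀ a b, U (a * b) = U a * U b := by
    intro a b
    simp only [U, map_mul, mul_pow]
    ring
  have hU4 : ∀ a, IsCoprime (Ideal.span {a}) (Ideal.span {(q : 𝓞 K)}) → U a ^ 4 = 1 := by
    intro a ha
    obtain ⟨h3, h4⟩ := frob_s_three h h1 hs a
    have h5 := s_ne_zero h s ha
    have h6 := s_ne_zero h s' ha
    have e1 : U a ^ 4 * (s a * s' a ^ 3) = (s a ^ q) ^ 3 * s' a ^ q := by
      simp only [U]
      rw [hk]
      ring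
    rw [h3, h4] at e1
    have h7 : s a * s' a ^ 3 ≠ 0 := mul_ne_zero h5 (pow_ne_zero _ h6)
    exact mul_right_cancel₀ h7 (by rw [e1]; ring)
  have hUc : ∀ a, a - 1 ∈ Ideal.span {(q : 𝓞 K)} → U a = 1 := by
    intro a ha
    have key : ∀ t : 𝓞 K →+* F, t a = 1 := by
      intro t
      obtain ⟨c, hc⟩ := Ideal.mem_span_singleton'.1 ha
      have h3 := congrArg t hc
      rw [map_mul, map_natCast, CharP.cast_eq_zero, mul_zero, map_sub, map_one] at h3
      exact (sub_eq_zero.1 h3.symm)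
    simp only [U]
    rw [key s, key s', one_pow, one_pow, one_mul]
  set 𝔪 : Ideal (𝓞 K) := Ideal.span {((8 * q : ℕ) : 𝓞 K)} with h𝔪
  have hle : 𝔪 ≤ Ideal.span {(2 + 2 * η : 𝓞 K)} := by
    rw [h𝔪, Ideal.span_singleton_le_iff_mem, Ideal.mem_span_singleton]
    exact ⟨q * (2 - 2 * η), by push_cast; linear_combination (4 * q : 𝓞 K) * h.root⟩
  have hleq : 𝔪 ≤ Ideal.span {(q : 𝓞 K)} := by
    rw [h𝔪, Ideal.span_singleton_le_iff_mem, Ideal.mem_span_singleton]
    exact ⟨8, by push_cast; ring⟩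
  have hcopq : ∀ {I : Ideal (𝓞 K)}, IsCoprime I 𝔪 → IsCoprime I (Ideal.span {(q : 𝓞 K)}) := by
    intro I hI
    rw [Ideal.isCoprime_iff_sup_eq] at hI ⊢
    rw [eq_top_iff, ← hI]
    exact sup_le_sup_left hleq _
  obtain ⟨φ, hφ, hφ'⟩ := h.exists_hChar_of hle (fun a => sigO σ (liftF η s (U a)))
    (by simp only [hU1, liftF_one, map_one])
    (fun a b _ _ ha hb => by
      rw [hUmul, liftF_mul h.root h2F s (hU4 a (hcopq ha)) (hU4 b (hcopq hb)), map_mul])
    (fun a _ _ => norm_four h.root (liftF_four _ _ _))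
    (fun a ha => by
      rw [hUc a (hleq ha), liftF_one, map_one])
  refine ⟨𝔪, φ, ?_, hφ, ?_⟩
  · rw [h𝔪, Ne, Ideal.span_singleton_eq_bot]
    have := hq.out.ne_zero
    exact_mod_cast (by omega : 8 * q ≠ 0)
  · intro p hp x y r χ Q hpq I hI
    have hpq' : q ≠ p := by
      rintro rfl
      exact hpq ((dvd_neg).2 dvd_rfl)
    have hN := Q.absNorm_eq h
    have hcop : IsCoprime (I : Ideal (𝓞 K)) 𝔪 := by
      rw [hI]
      refine isCoprime_of_norm hp.out hN fun h3 => ?_
      rcases (Nat.Prime.dvd_mul hp.out).1 h3 with h4 | h4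
      · have h5 : p ∣ 2 ^ 3 := by norm_num; exact h4
        have h6 := (Nat.prime_dvd_prime_iff_eq hp.out Nat.prime_two).1 (hp.out.dvd_of_dvd_pow h5)
        exact Q.ne_two h6
      · exact hpq' ((Nat.prime_dvd_prime_iff_eq hp.out hq.out).1 h4).symm
    rw [hφ' I _ hI (Q.isPri h) hcop]
    have hcp : IsCoprime (Ideal.span {(x + y * η : 𝓞 K)}) (Ideal.span {(q : 𝓞 K)}) :=
      hcopq (hI ▸ hcop)
    have hrec := (hR h p x y r χ Q (hJ h p x y r χ Q) q (by omega) hpq' F s).2 h1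
    have hqp : (q : ZMod p) ≠ 0 := by
      rw [Ne, ZMod.natCast_eq_zero_iff]
      exact fun h3 => hpq' ((Nat.prime_dvd_prime_iff_eq hp.out hq.out).1 h3).symm
    have hUχ : U (x + y * η) = s (χ (-q : ZMod p)) := by
      have h5 := s_ne_zero h s hcp
      have h6 := s_ne_zero h s' hcp
      rw [hs] at hrec
      refine mul_right_cancel₀ (mul_ne_zero h5 h6) ?_
      rw [hrec]
      simp only [U]
      have e1 : (q + 1) / 4 = k + 1 := by omega
      rw [e1]
      ring
    change sigO σ (liftF η s (U (x + y * η))) = _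
    rw [hUχ, liftF_s h.root h2F s (Q.four _ (neg_ne_zero.2 hqp)), sigO_apply]
    norm_cast

end Odd

end Fermat.Agent.Cor.SectK
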