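import Fermat.Agent.Corollaries.SectK.CMAll

/-!
# Hasse's bound is the best possible one for a fixed curve with `j = 0, 1728, 54000, 287496`

* `infinite_cm` : infinitely many primes `p` with `a_p / (2 √p)` in a given interval;
* `hasse_sharp_ap`, `hasse_sharp_card` : `a_p > (2 - ε) √p` and `a_p < -(2 - ε) √p` infinitely
  often, and the same for the number of points.
-/

set_option autoImplicit false
set_option linter.unusedSectionVars false

noncomputable section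

open Filter Topology

open scoped Classical

namespace Fermat.Agent.Cor.SectK

open Fermat.Agent.ClassL Fermat.Agent.Cor.Ray Fermat.Agent.Classic.Zeta WeierstrassCurve

theorem infinite_of_tendsto {D R : ℕ → Prop} {l : ℝ} (hl : 0 < l)
    (h : Tendsto (fun x : ℕ => (Nat.card {p : ℕ // p.Prime ∧ D p ∧ p ≤ x ∧ R p} : ℝ) *
      Real.log x / x) atTop (𝓝 l)) : {p : ℕ | p.Prime ∧ D p ∧ R p}.Infinite := by
  intro hfin
  have h0 : Tendsto (fun x : ℕ => ({p : ℕ | p.Prime ∧ D p ∧ R p}.ncard : ℝ) *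
      (Real.log x / x)) atTop (𝓝 0) := by
    simpa using qd_log_div.const_mul ({p : ℕ | p.Prime ∧ D p ∧ R p}.ncard : ℝ)
  have h1 : Tendsto (fun x : ℕ => (Nat.card {p : ℕ // p.Prime ∧ D p ∧ p ≤ x ∧ R p} : ℝ) *
      Real.log x / x) atTop (𝓝 0) := by
    refine squeeze_zero (fun x => ?_) (fun x => ?_) h0
    · exact div_nonneg (mul_nonneg (Nat.cast_nonneg _) (Real.log_natCast_nonneg x))
        (Nat.cast_nonneg x)
    · rw [mul_div_assoc]
      refine mul_le_mul_of_nonneg_right ?_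
        (div_nonneg (Real.log_natCast_nonneg x) (Nat.cast_nonneg x))
      rw [Nat.cast_le]
      change Nat.card {p : ℕ | p.Prime ∧ D p ∧ p ≤ x ∧ R p} ≤ _
      rw [Nat.card_coe_set_eq]
      exact Set.ncard_le_ncard (fun p hp => ⟨hp.1, hp.2.1, hp.2.2.2⟩) hfin
  exact hl.ne' (tendsto_nhds_unique h h1)

variable {W : WeierstrassCurve ℤ} (hΔ : W.Δ ≠ 0)
  (hj : W.c₄ ^ 3 = 0 * W.Δ ∨ W.c₄ ^ 3 = 1728 * W.Δ ∨ W.c₄ ^ 3 = 54000 * W.Δ ∨
    W.c₄ ^ 3 = 287496 * W.Δ)

include hΔ hj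

/-- infinitely many primes with `a_p / (2 √p)` in a given interval -/
theorem infinite_cm {α β : ℝ} (hα : -1 ≤ α) (hαβ : α < β) (hβ : β ≤ 1) :
    {p : ℕ | p.Prime ∧ ¬ (p : ℤ) ∣ W.Δ ∧ α ≤ (W.apOfModel p : ℝ) / (2 * Real.sqrt p) ∧
      (W.apOfModel p : ℝ) / (2 * Real.sqrt p) ≤ β}.Infinite := by
  refine infinite_of_tendsto ?_ (sato_tate_cm hΔ hj hα hαβ.le hβ)
  have h1 : Real.arccos β < Real.arccos α :=
    Real.strictAntiOn_arccos ⟨hα, hαβ.le.trans hβ⟩ ⟨hα.trans hαβ.le, hβ⟩ hαβ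
  have hpi := Real.pi_pos
  have h2 : 0 < (Real.arccos α - Real.arccos β) / (2 * Real.pi) :=
    div_pos (sub_pos.2 h1) (by positivity)
  split_ifs <;> linarith

/-- **Hasse's bound `|a_p| < 2 √p` cannot be improved for these curves**, in both directions. -/
theorem hasse_sharp_ap {ε : ℝ} (hε : 0 < ε) :
    {p : ℕ | p.Prime ∧ ¬ (p : ℤ) ∣ W.Δ ∧ (2 - ε) * Real.sqrt p < W.apOfModel p}.Infinite ∧
    {p : ℕ | p.Prime ∧ ¬ (p : ℤ) ∣ W.Δ ∧
      (W.apOfModel p : ℝ) < -((2 - ε) * Real.sqrt p)}.Infinite := by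
  have hα : (-1 : ℝ) ≤ 1 - min ε 2 / 3 := by
    have := min_le_right ε 2
    linarith
  have hm : 0 < min ε 2 := lt_min hε two_pos
  have hm' := min_le_left ε 2
  constructor
  · refine (infinite_cm hΔ hj hα (by linarith) le_rfl).mono ?_
    rintro p ⟨hp, h1, h2, -⟩
    refine ⟨hp, h1, ?_⟩
    have h0 : (0 : ℝ) < p := by exact_mod_cast hp.pos
    have h3 : 0 < Real.sqrt p := Real.sqrt_pos.2 h0
    rw [le_div_iff₀ (by positivity)] at h2
    refine lt_of_lt_of_le ?_ h2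
    rw [← mul_assoc]
    exact mul_lt_mul_of_pos_right (by linarith) h3
  · refine (infinite_cm hΔ hj (α := -1) (β := -(1 - min ε 2 / 3)) le_rfl (by linarith)
      (by linarith)).mono ?_
    rintro p ⟨hp, h1, -, h2⟩
    refine ⟨hp, h1, ?_⟩
    have h0 : (0 : ℝ) < p := by exact_mod_cast hp.pos
    have h3 : 0 < Real.sqrt p := Real.sqrt_pos.2 h0
    rw [div_le_iff₀ (by positivity)] at h2
    refine lt_of_le_of_lt h2 ?_
    rw [← mul_assoc, ← neg_mul]
    exact mul_lt_mul_of_pos_right (by linarith) h3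

/-- **The number of points** of these curves modulo `p` comes infinitely often as close as one
likes to both of Hasse's bounds `p + 1 ± 2 √p`. -/
theorem hasse_sharp_card {ε : ℝ} (hε : 0 < ε) :
    {p : ℕ | p.Prime ∧ ¬ (p : ℤ) ∣ W.Δ ∧
      (Nat.card (W.reductionMod p).toAffine.Point : ℝ) <
        p + 1 - (2 - ε) * Real.sqrt p}.Infinite ∧
    {p : ℕ | p.Prime ∧ ¬ (p : ℤ) ∣ W.Δ ∧
      p + 1 + (2 - ε) * Real.sqrt p <
        (Nat.card (W.reductionMod p).toAffine.Point : ℝ)}.Infinite := by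
  have key : ∀ p : ℕ, (W.apOfModel p : ℝ) =
      p + 1 - (Nat.card (W.reductionMod p).toAffine.Point : ℝ) := by
    intro p
    rw [apOfModel, traceOfFrobenius, card, Nat.card_zmod]
    push_cast
    ring
  obtain ⟨h1, h2⟩ := hasse_sharp_ap hΔ hj hε
  constructor
  · refine h1.mono ?_
    rintro p ⟨hp, h3, h4⟩
    rw [key] at h4
    exact ⟨hp, h3, by linarith⟩
  · refine h2.mono ?_
    rintro p ⟨hp, h3, h4⟩
    rw [key] at h4
    exact ⟨hp, h3, by linarith⟩

end Fermat.Agent.Cor.SectK
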