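import Fermat.Agent.Corollaries.SectK.CMAll
import Fermat.Agent.ECFrob.Main

/-!
# The signs of the traces of Frobenius of the curves with `j = 0, 1728, 54000, 287496`

`a_p = 0` (supersingular reduction) for one half of the primes, `a_p > 0` for one quarter and
`a_p < 0` for one quarter.
-/

set_option autoImplicit false
set_option linter.unusedSectionVars false

noncomputable section

open Filter Topology

open scoped Classical

namespace Fermat.Agent.Cor.SectK

open WeierstrassCurve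

theorem card_split {A R R₁ R₂ : ℕ → Prop} (x : ℕ)
    (h : ∀ p, p.Prime → A p → (R p ↔ R₁ p ∨ R₂ p)) (hd : ∀ p, R₁ p → R₂ p → False) :
    Nat.card {p : ℕ // p.Prime ∧ A p ∧ p ≤ x ∧ R p} =
      Nat.card {p : ℕ // p.Prime ∧ A p ∧ p ≤ x ∧ R₁ p} +
        Nat.card {p : ℕ // p.Prime ∧ A p ∧ p ≤ x ∧ R₂ p} := by
  rw [card_eq_filter, card_eq_filter, card_eq_filter, ← Finset.card_union_of_disjoint]
  · congr 1
    ext p
    rw [Finset.mem_union, Finset.mem_filter, Finset.mem_filter, Finset.mem_filter,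
      ← and_or_left, ← and_or_left, ← and_or_left]
    exact and_congr_right fun _ => and_congr_right fun hp => and_congr_right fun ha => h p hp ha
  · rw [Finset.disjoint_left]
    intro p hp hp'
    rw [Finset.mem_filter] at hp hp'
    exact hd p hp.2.2.2 hp'.2.2.2

/-- Hasse's bound -/
theorem abs_ap_le {W : WeierstrassCurve ℤ} {p : ℕ} (hp : p.Prime) (h : ¬ (p : ℤ) ∣ W.Δ) :
    -1 ≤ (W.apOfModel p : ℝ) / (2 * Real.sqrt p) ∧
      (W.apOfModel p : ℝ) / (2 * Real.sqrt p) ≤ 1 := by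
  have hpF : Fact p.Prime := ⟨hp⟩
  have hE : (W.reductionMod p).IsElliptic := by
    refine ⟨isUnit_iff_ne_zero.2 ?_⟩
    rw [reductionMod, WeierstrassCurve.map_Δ, eq_intCast, Ne, ZMod.intCast_zmod_eq_zero_iff_dvd]
    exact h
  have h1 := ECFrob.hasse_bound (W.reductionMod p)
  rw [ZMod.card] at h1
  have h2 : (W.apOfModel p : ℝ) ^ 2 ≤ 4 * p := by
    have h3 : (W.apOfModel p) ^ 2 ≤ 4 * (p : ℤ) := h1
    exact_mod_cast h3
  have h0 : (0 : ℝ) < p := by exact_mod_cast hp.pos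
  have h4 : 0 < Real.sqrt p := Real.sqrt_pos.2 h0
  have h5 : Real.sqrt p ^ 2 = p := Real.sq_sqrt h0.le
  have h6 : |(W.apOfModel p : ℝ)| ≤ 2 * Real.sqrt p := by
    refine abs_le_of_sq_le_sq ?_ (by positivity)
    rw [mul_pow, h5]
    linarith
  rw [abs_le] at h6
  rw [le_div_iff₀ (by positivity), div_le_iff₀ (by positivity)]
  constructor <;> linarith [h6.1, h6.2]

variable {W : WeierstrassCurve ℤ} (hΔ : W.Δ ≠ 0)
  (hj : W.c₄ ^ 3 = 0 * W.Δ ∨ W.c₄ ^ 3 = 1728 * W.Δ ∨ W.c₄ ^ 3 = 54000 * W.Δ ∨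
    W.c₄ ^ 3 = 287496 * W.Δ)

include hΔ hj

/-- **One half of the primes are supersingular** (Deuring) -/
theorem supersingular_cm :
    Tendsto (fun x : ℕ => (Nat.card {p : ℕ // p.Prime ∧ ¬ (p : ℤ) ∣ W.Δ ∧ p ≤ x ∧
      W.apOfModel p = 0} : ℝ) * Real.log x / x) atTop (𝓝 (1 / 2)) := by
  have h := sato_tate_cm hΔ hj (α := 0) (β := 0) (by norm_num) le_rfl (by norm_num)
  rw [if_pos ⟨le_rfl, le_rfl⟩, sub_self, zero_div, add_zero] at h
  refine h.congr fun x => ?_
  congr 2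
  rw [Nat.cast_inj]
  refine Nat.card_congr (Equiv.subtypeEquivRight fun p => ?_)
  refine and_congr_right fun hp => and_congr_right fun _ => and_congr_right fun _ => ?_
  have h0 : (0 : ℝ) < p := by exact_mod_cast hp.pos
  have h1 : 0 < 2 * Real.sqrt p := by
    have := Real.sqrt_pos.2 h0
    positivity
  constructor
  · rintro ⟨h2, h3⟩
    have h4 : (W.apOfModel p : ℝ) / (2 * Real.sqrt p) = 0 := le_antisymm h3 h2
    rw [div_eq_zero_iff] at h4
    rcases h4 with h4 | h4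
    · exact_mod_cast h4
    · exact absurd h4 h1.ne'
  · intro h2
    rw [h2, Int.cast_zero, zero_div]
    exact ⟨le_rfl, le_rfl⟩

/-- **One quarter of the primes** have `a_p > 0` -/
theorem pos_cm :
    Tendsto (fun x : ℕ => (Nat.card {p : ℕ // p.Prime ∧ ¬ (p : ℤ) ∣ W.Δ ∧ p ≤ x ∧
      0 < W.apOfModel p} : ℝ) * Real.log x / x) atTop (𝓝 (1 / 4)) := by
  have h := (sato_tate_cm hΔ hj (α := 0) (β := 1) (by norm_num) zero_le_one le_rfl).sub
    (supersingular_cm hΔ hj)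
  have hpi := Real.pi_ne_zero
  have e : ((if (0 : ℝ) ≤ 0 ∧ (0 : ℝ) ≤ 1 then (1 / 2 : ℝ) else 0) +
      (Real.arccos 0 - Real.arccos 1) / (2 * Real.pi)) - 1 / 2 = 1 / 4 := by
    rw [if_pos ⟨le_rfl, zero_le_one⟩, Real.arccos_zero, Real.arccos_one]
    field_simp
    ring
  rw [e] at h
  refine h.congr fun x => ?_
  have h1 : Nat.card {p : ℕ // p.Prime ∧ ¬ (p : ℤ) ∣ W.Δ ∧ p ≤ x ∧
      0 ≤ (W.apOfModel p : ℝ) / (2 * Real.sqrt p) ∧
        (W.apOfModel p : ℝ) / (2 * Real.sqrt p) ≤ 1} =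
      Nat.card {p : ℕ // p.Prime ∧ ¬ (p : ℤ) ∣ W.Δ ∧ p ≤ x ∧ W.apOfModel p = 0} +
      Nat.card {p : ℕ // p.Prime ∧ ¬ (p : ℤ) ∣ W.Δ ∧ p ≤ x ∧ 0 < W.apOfModel p} := by
    refine card_split x (fun p hp hd => ?_) (fun p h2 h3 => ?_)
    · have h0 : (0 : ℝ) < p := by exact_mod_cast hp.pos
      have h2 : 0 < 2 * Real.sqrt p := by
        have := Real.sqrt_pos.2 h0
        positivity
      rw [le_div_iff₀ h2, zero_mul]
      constructor
      · rintro ⟨h3, -⟩
        have h4 : 0 ≤ W.apOfModel p := by exact_mod_cast h3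
        rcases h4.eq_or_lt with h5 | h5
        · exact Or.inl h5.symm
        · exact Or.inr h5
      · intro h3
        have h4 : 0 ≤ W.apOfModel p := by
          rcases h3 with h3 | h3
          · exact h3.symm.le
          · exact h3.le
        exact ⟨by exact_mod_cast h4, (abs_ap_le hp hd).2⟩
    · rw [h2] at h3
      exact lt_irrefl _ h3
  rw [h1]
  push_cast
  ring

/-- **One quarter of the primes** have `a_p < 0` -/
theorem neg_cm :
    Tendsto (fun x : ℕ => (Nat.card {p : ℕ // p.Prime ∧ ¬ (p : ℤ) ∣ W.Δ ∧ p ≤ x ∧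
      W.apOfModel p < 0} : ℝ) * Real.log x / x) atTop (𝓝 (1 / 4)) := by
  have h := (sato_tate_cm hΔ hj (α := -1) (β := 0) le_rfl (by norm_num) zero_le_one).sub
    (supersingular_cm hΔ hj)
  have hpi := Real.pi_ne_zero
  have e : ((if (-1 : ℝ) ≤ 0 ∧ (0 : ℝ) ≤ 0 then (1 / 2 : ℝ) else 0) +
      (Real.arccos (-1) - Real.arccos 0) / (2 * Real.pi)) - 1 / 2 = 1 / 4 := by
    rw [if_pos ⟨by norm_num, le_rfl⟩, Real.arccos_zero, Real.arccos_neg_one]
    field_simp
    norm_num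
  rw [e] at h
  refine h.congr fun x => ?_
  have h1 : Nat.card {p : ℕ // p.Prime ∧ ¬ (p : ℤ) ∣ W.Δ ∧ p ≤ x ∧
      -1 ≤ (W.apOfModel p : ℝ) / (2 * Real.sqrt p) ∧
        (W.apOfModel p : ℝ) / (2 * Real.sqrt p) ≤ 0} =
      Nat.card {p : ℕ // p.Prime ∧ ¬ (p : ℤ) ∣ W.Δ ∧ p ≤ x ∧ W.apOfModel p = 0} +
      Nat.card {p : ℕ // p.Prime ∧ ¬ (p : ℤ) ∣ W.Δ ∧ p ≤ x ∧ W.apOfModel p < 0} := by
    refine card_split x (fun p hp hd => ?_) (fun p h2 h3 => ?_)
    · have h0 : (0 : ℝ) < p := by exact_mod_cast hp.pos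
      have h2 : 0 < 2 * Real.sqrt p := by
        have := Real.sqrt_pos.2 h0
        positivity
      rw [div_le_iff₀ h2, zero_mul]
      constructor
      · rintro ⟨-, h3⟩
        have h4 : W.apOfModel p ≤ 0 := by exact_mod_cast h3
        rcases h4.eq_or_lt with h5 | h5
        · exact Or.inl h5
        · exact Or.inr h5
      · intro h3
        have h4 : W.apOfModel p ≤ 0 := by
          rcases h3 with h3 | h3
          · exact h3.le
          · exact h3.le
        exact ⟨(abs_ap_le hp hd).1, by exact_mod_cast h4⟩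
    · rw [h2] at h3
      exact lt_irrefl _ h3
  rw [h1]
  push_cast
  ring

end Fermat.Agent.Cor.SectK
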