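import Fermat.Agent.Corollaries.SectK.Lattice
import Fermat.Agent.Corollaries.Ray.Group

/-!
# Partial sums of Hecke characters of imaginary quadratic fields

`|∑_{N I ≤ n} ψ(I)| ≤ C √n` for a Hecke character `ψ` of `∞`-type `k ≠ 0`.
-/

set_option autoImplicit false
set_option linter.unusedSectionVars false

noncomputable section

open Filter Topology NumberField Fermat.Agent.Cor.Ray
open scoped nonZeroDivisors

namespace Fermat.Agent.Cor.SectK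

universe u

variable {K : Type u} [Field K] [NumberField K] {𝔪 : Ideal (𝓞 K)}

/-! ### Norms -/

theorem abs_norm_eq_sq (hK : IsTotallyComplex K) (h2 : Module.finrank ℚ K = 2) (σ : K →+* ℂ)
    (x : K) : ((|Algebra.norm ℚ x| : ℚ) : ℝ) = ‖σ x‖ ^ 2 := by
  have h3 := InfinitePlace.prod_eq_abs_norm x
  have h4 : Fintype.card (InfinitePlace K) = 1 := by
    have h5 := IsTotallyComplex.finrank (K := K)
    have h6 := IsTotallyComplex.nrRealPlaces_eq_zero (K := K)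
    have h7 := InfinitePlace.card_eq_nrRealPlaces_add_nrComplexPlaces K
    omega
  obtain ⟨w, hw⟩ := Fintype.card_eq_one_iff.1 h4
  have h8 : (Finset.univ : Finset (InfinitePlace K)) = {InfinitePlace.mk σ} := by
    ext v
    rw [Finset.mem_singleton]
    exact ⟨fun _ => (hw v).trans (hw _).symm, fun _ => Finset.mem_univ _⟩
  rw [h8, Finset.prod_singleton, IsTotallyComplex.mult_eq, InfinitePlace.apply] at h3
  exact h3.symm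

theorem natAbs_norm_eq_sq (hK : IsTotallyComplex K) (h2 : Module.finrank ℚ K = 2) (σ : K →+* ℂ)
    (a : 𝓞 K) : ((Algebra.norm ℤ a).natAbs : ℝ) = ‖σ (a : K)‖ ^ 2 := by
  rw [← abs_norm_eq_sq hK h2 σ, ← Algebra.coe_norm_int, Nat.cast_natAbs]
  push_cast
  rfl

theorem absNorm_eq_sq (hK : IsTotallyComplex K) (h2 : Module.finrank ℚ K = 2) (σ : K →+* ℂ)
    {L : Ideal (𝓞 K)} {a : 𝓞 K} (h : L = Ideal.span {a}) :
    (Ideal.absNorm L : ℝ) = ‖σ (a : K)‖ ^ 2 := by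
  rw [h, Ideal.absNorm_span_singleton, natAbs_norm_eq_sq hK h2 σ]

/-! ### The ray class of `1` -/

theorem coprime_span_of_sub_mem {a : 𝓞 K} (ha : a - 1 ∈ 𝔪) : IsCoprime (Ideal.span {a}) 𝔪 :=
  isCoprime_span_iff.2 ⟨1, by rwa [one_mul]⟩

theorem rayEq_one_iff {L : (Ideal (𝓞 K))⁰} :
    RayEq 𝔪 L 1 ↔ ∃ a : 𝓞 K, a - 1 ∈ 𝔪 ∧ (L : Ideal (𝓞 K)) = Ideal.span {a} := by
  constructor
  · rintro ⟨a, b, ha, hb, hc, hab, he⟩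
    rw [Submonoid.coe_one, mul_one] at he
    have h1 : b ∈ Ideal.span {a} := Ideal.dvd_span_singleton.1 (Dvd.intro _ he)
    obtain ⟨c, rfl⟩ := Ideal.mem_span_singleton.1 h1
    have hsp : Ideal.span {a} ≠ 0 := by
      rwa [Ne, Ideal.zero_eq_bot, Ideal.span_singleton_eq_bot]
    rw [← Ideal.span_singleton_mul_span_singleton] at he
    refine ⟨c, ?_, mul_left_cancel₀ hsp he⟩
    obtain ⟨d, hd⟩ := isCoprime_span_iff.1 hc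
    have h3 : c - 1 = -(d * (a - a * c)) + (d * a - 1) * (1 - c) := by ring
    rw [h3]
    exact 𝔪.add_mem (𝔪.neg_mem (𝔪.mul_mem_left _ hab)) (𝔪.mul_mem_right _ hd)
  · rintro ⟨a, ha, hL⟩
    have ha0 : a ≠ 0 := by
      rintro rfl
      rw [Ideal.span_singleton_eq_bot.2 rfl] at hL
      exact nonZeroDivisors.coe_ne_zero L hL
    refine ⟨1, a, one_ne_zero, ha0, isCoprime_span_iff.2 ⟨1, by simp⟩, ?_, ?_⟩
    · rw [← neg_sub]; exact 𝔪.neg_mem ha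
    · rw [Submonoid.coe_one, mul_one, hL, Ideal.span_singleton_one, Ideal.top_mul]

/-! ### The generators `≡ 1` of a principal ideal -/

/-- the generators `≡ 1 mod 𝔪` of `L` are a torsor under the units `≡ 1 mod 𝔪` -/
theorem card_generators {L : (Ideal (𝓞 K))⁰} {a₀ : 𝓞 K} (ha₀ : a₀ - 1 ∈ 𝔪)
    (hL : (L : Ideal (𝓞 K)) = Ideal.span {a₀}) :
    Nat.card {a : 𝓞 K // a - 1 ∈ 𝔪 ∧ (L : Ideal (𝓞 K)) = Ideal.span {a}} =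
      Nat.card {v : (𝓞 K)ˣ // (v : 𝓞 K) - 1 ∈ 𝔪} := by
  have h0 : a₀ ≠ 0 := by
    rintro rfl
    rw [Ideal.span_singleton_eq_bot.2 rfl] at hL
    exact nonZeroDivisors.coe_ne_zero L hL
  have hiff : ∀ v : (𝓞 K)ˣ, (v : 𝓞 K) * a₀ - 1 ∈ 𝔪 ↔ (v : 𝓞 K) - 1 ∈ 𝔪 := by
    intro v
    have h1 : (v : 𝓞 K) * (a₀ - 1) ∈ 𝔪 := 𝔪.mul_mem_left _ ha₀
    have h2 : (v : 𝓞 K) * a₀ - 1 = (v : 𝓞 K) * (a₀ - 1) + ((v : 𝓞 K) - 1) := by ring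
    rw [h2]
    exact 𝔪.add_mem_iff_right h1
  symm
  refine Nat.card_congr (Equiv.ofBijective (fun v => ⟨(v.1 : 𝓞 K) * a₀, (hiff v.1).2 v.2, ?_⟩)
    ⟨?_, ?_⟩)
  · rw [hL, Ideal.span_singleton_eq_span_singleton]
    exact ⟨v.1, mul_comm _ _⟩
  · intro v w h
    have h1 := congrArg Subtype.val h
    exact Subtype.ext (Units.ext (mul_right_cancel₀ h0 h1))
  · rintro ⟨a, ha, haL⟩
    rw [hL, Ideal.span_singleton_eq_span_singleton] at haL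
    obtain ⟨v, hv⟩ := haL
    have hv' : (v : 𝓞 K) * a₀ = a := by rw [mul_comm]; exact hv
    exact ⟨⟨v, (hiff v).1 (by rw [hv']; exact ha)⟩, Subtype.ext hv'⟩

/-! ### One class -/

theorem exists_cofactor {J : (Ideal (𝓞 K))⁰} {a : 𝓞 K} (ha : a ∈ (J : Ideal (𝓞 K)))
    (ha0 : a ≠ 0) : ∃ I : (Ideal (𝓞 K))⁰,
      ((J * I : (Ideal (𝓞 K))⁰) : Ideal (𝓞 K)) = Ideal.span {a} := by
  obtain ⟨I, hI⟩ := Ideal.dvd_iff_le.2 ((Ideal.span_singleton_le_iff_mem _).2 ha)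
  have hI0 : I ≠ 0 := by
    rintro rfl
    rw [mul_zero, Ideal.zero_eq_bot, Ideal.span_singleton_eq_bot] at hI
    exact ha0 hI
  refine ⟨⟨I, mem_nonZeroDivisors_of_ne_zero hI0⟩, ?_⟩
  rw [Submonoid.coe_mul]
  exact hI.symm

theorem cofactor_unique {J I L : (Ideal (𝓞 K))⁰}
    (h : ((J * L : (Ideal (𝓞 K))⁰) : Ideal (𝓞 K)) = ((J * I : (Ideal (𝓞 K))⁰) : Ideal (𝓞 K))) :
    L = I := by
  rw [Submonoid.coe_mul, Submonoid.coe_mul] at h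
  exact Subtype.ext (mul_left_cancel₀ (nonZeroDivisors.coe_ne_zero J) h)

theorem mem_of_cofactor {J I : (Ideal (𝓞 K))⁰} {a : 𝓞 K}
    (h : ((J * I : (Ideal (𝓞 K))⁰) : Ideal (𝓞 K)) = Ideal.span {a}) :
    a ∈ (J : Ideal (𝓞 K)) := by
  rw [Submonoid.coe_mul] at h
  exact Ideal.dvd_span_singleton.1 (Dvd.intro _ h)

theorem ne_zero_of_span {L : (Ideal (𝓞 K))⁰} {a : 𝓞 K}
    (h : (L : Ideal (𝓞 K)) = Ideal.span {a}) : a ≠ 0 := by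
  rintro rfl
  rw [Ideal.span_singleton_eq_bot.2 rfl] at h
  exact nonZeroDivisors.coe_ne_zero L h

theorem absNorm_le_iff (hK : IsTotallyComplex K) (h2 : Module.finrank ℚ K = 2) (σ : K →+* ℂ)
    {J I : (Ideal (𝓞 K))⁰} {a : 𝓞 K} (n : ℕ)
    (h : ((J * I : (Ideal (𝓞 K))⁰) : Ideal (𝓞 K)) = Ideal.span {a}) :
    Ideal.absNorm (I : Ideal (𝓞 K)) ≤ n ↔
      ‖σ (a : K)‖ ≤ √((n : ℝ) * Ideal.absNorm (J : Ideal (𝓞 K))) := by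
  have hNJ : (0 : ℝ) < Ideal.absNorm (J : Ideal (𝓞 K)) := by
    exact_mod_cast Ideal.absNorm_pos_of_nonZeroDivisors J
  have h3 := absNorm_eq_sq hK h2 σ h
  rw [Submonoid.coe_mul, map_mul, Nat.cast_mul] at h3
  rw [Real.le_sqrt (norm_nonneg _) (by positivity), ← h3, mul_comm (n : ℝ),
    mul_le_mul_iff_right₀ hNJ, Nat.cast_le]

section Count

variable {a₁ : 𝓞 K} {J : (Ideal (𝓞 K))⁰}

theorem sub_one_mem_of {a : 𝓞 K} (ha₁ : a₁ - 1 ∈ 𝔪)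
    (h : a - a₁ ∈ (J : Ideal (𝓞 K)) ⊓ 𝔪) : a - 1 ∈ 𝔪 := by
  have h4 : a - 1 = (a - a₁) + (a₁ - 1) := by ring
  rw [h4]
  exact 𝔪.add_mem h.2 ha₁

theorem mem_of_sub {a : 𝓞 K} (ha₁J : a₁ ∈ (J : Ideal (𝓞 K)))
    (h : a - a₁ ∈ (J : Ideal (𝓞 K)) ⊓ 𝔪) : a ∈ (J : Ideal (𝓞 K)) := by
  have h4 : a = (a - a₁) + a₁ := by ring
  rw [h4]
  exact (J : Ideal (𝓞 K)).add_mem h.1 ha₁J

theorem sub_mem_inf {a : 𝓞 K} (ha₁ : a₁ - 1 ∈ 𝔪) (ha₁J : a₁ ∈ (J : Ideal (𝓞 K)))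
    (h : a ∈ (J : Ideal (𝓞 K))) (h1 : a - 1 ∈ 𝔪) : a - a₁ ∈ (J : Ideal (𝓞 K)) ⊓ 𝔪 := by
  refine ⟨(J : Ideal (𝓞 K)).sub_mem h ha₁J, ?_⟩
  have h6 : a - a₁ = (a - 1) - (a₁ - 1) := by ring
  rw [h6]
  exact 𝔪.sub_mem h1 ha₁

open Classical in
/-- the sum over the generators of `J I` -/
theorem sum_generators (hK : IsTotallyComplex K) (h2 : Module.finrank ℚ K = 2)
    (σ : K →+* ℂ) {k : ℤ} {ψ : (Ideal (𝓞 K))⁰ →* ℂ} (hψ : HChar σ 𝔪 k ψ)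
    (ha₁ : a₁ - 1 ∈ 𝔪) (ha₁J : a₁ ∈ (J : Ideal (𝓞 K))) {n : ℕ} {B : Finset (𝓞 K)}
    (hB : ∀ a, a ∈ B ↔ a - a₁ ∈ (J : Ideal (𝓞 K)) ⊓ 𝔪 ∧ a ≠ 0 ∧
      ‖σ (a : K)‖ ≤ √((n : ℝ) * Ideal.absNorm (J : Ideal (𝓞 K))))
    {I : (Ideal (𝓞 K))⁰} (hI : Ideal.absNorm (I : Ideal (𝓞 K)) ≤ n) (hr : RayEq 𝔪 (J * I) 1) :
    ∑ a ∈ B, (if ((J * I : (Ideal (𝓞 K))⁰) : Ideal (𝓞 K)) = Ideal.span {a} then
      ang σ a ^ k else 0) =
        (Nat.card {v : (𝓞 K)ˣ // (v : 𝓞 K) - 1 ∈ 𝔪} : ℂ) * (ψ J * ψ I) := by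
  obtain ⟨a₀, ha₀, hL⟩ := rayEq_one_iff.1 hr
  rw [← Finset.sum_filter]
  have h3 : ∀ a ∈ B.filter (fun a => ((J * I : (Ideal (𝓞 K))⁰) : Ideal (𝓞 K)) =
      Ideal.span {a}), ang σ a ^ k = ψ J * ψ I := by
    intro a ha
    rw [Finset.mem_filter] at ha
    rw [← map_mul, hψ.cong (J * I) a ha.2 (sub_one_mem_of ha₁ ((hB a).1 ha.1).1)]
  rw [Finset.sum_congr rfl h3, Finset.sum_const, nsmul_eq_mul, ← card_generators ha₀ hL]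
  congr 2
  rw [← Fintype.card_coe, ← Nat.card_eq_fintype_card]
  refine Nat.card_congr (Equiv.subtypeEquivRight fun a => ?_)
  rw [Finset.mem_filter]
  constructor
  · rintro ⟨h4, h5⟩
    exact ⟨sub_one_mem_of ha₁ ((hB a).1 h4).1, h5⟩
  · rintro ⟨h4, h5⟩
    exact ⟨(hB a).2 ⟨sub_mem_inf ha₁ ha₁J (mem_of_cofactor h5) h4, ne_zero_of_span h5,
      (absNorm_le_iff hK h2 σ n h5).1 hI⟩, h5⟩

open Classical in
/-- every generator belongs to one ideal -/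
theorem sum_ideals (hK : IsTotallyComplex K) (h2 : Module.finrank ℚ K = 2)
    (σ : K →+* ℂ) (k : ℤ) (ha₁ : a₁ - 1 ∈ 𝔪) (ha₁J : a₁ ∈ (J : Ideal (𝓞 K))) {n : ℕ}
    {G : Finset (Ideal (𝓞 K))⁰}
    (hG : ∀ I, I ∈ G ↔ Ideal.absNorm (I : Ideal (𝓞 K)) ≤ n ∧ RayEq 𝔪 (J * I) 1) {a : 𝓞 K}
    (ha : a - a₁ ∈ (J : Ideal (𝓞 K)) ⊓ 𝔪) (ha0 : a ≠ 0)
    (haR : ‖σ (a : K)‖ ≤ √((n : ℝ) * Ideal.absNorm (J : Ideal (𝓞 K)))) :
    ∑ I ∈ G, (if ((J * I : (Ideal (𝓞 K))⁰) : Ideal (𝓞 K)) = Ideal.span {a} then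
      ang σ a ^ k else 0) = ang σ a ^ k := by
  obtain ⟨I', hI'⟩ := exists_cofactor (mem_of_sub ha₁J ha) ha0
  have hmem : I' ∈ G := (hG I').2 ⟨(absNorm_le_iff hK h2 σ n hI').2 haR,
    rayEq_one_iff.2 ⟨a, sub_one_mem_of ha₁ ha, hI'⟩⟩
  rw [Finset.sum_eq_single I', if_pos hI']
  · intro L _ hL
    refine if_neg fun h => hL ?_
    exact cofactor_unique (h.trans hI'.symm)
  · exact fun h => absurd hmem h

end Count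

theorem exists_mem_of_coprime {J : Ideal (𝓞 K)} (hJ : IsCoprime J 𝔪) :
    ∃ a₁ ∈ J, a₁ - 1 ∈ 𝔪 := by
  obtain ⟨i, hi, j, hj, hij⟩ := Ideal.isCoprime_iff_exists.1 hJ
  refine ⟨i, hi, ?_⟩
  have : i - 1 = -j := by linear_combination hij
  rw [this]
  exact 𝔪.neg_mem hj

theorem inf_ne_bot {J : (Ideal (𝓞 K))⁰} (h𝔪 : 𝔪 ≠ ⊥) : (J : Ideal (𝓞 K)) ⊓ 𝔪 ≠ ⊥ := by
  intro h
  have h1 : (J : Ideal (𝓞 K)) * 𝔪 ≤ ⊥ := h ▸ Ideal.mul_le_inf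
  exact mul_ne_zero (nonZeroDivisors.coe_ne_zero J) h𝔪 (le_bot_iff.1 h1)

theorem one_le_card_units {J I : (Ideal (𝓞 K))⁰} {B : Finset (𝓞 K)}
    (hB : ∀ a : 𝓞 K, a - 1 ∈ 𝔪 → ((J * I : (Ideal (𝓞 K))⁰) : Ideal (𝓞 K)) = Ideal.span {a} →
      a ∈ B) (hr : RayEq 𝔪 (J * I) 1) :
    (1 : ℝ) ≤ Nat.card {v : (𝓞 K)ˣ // (v : 𝓞 K) - 1 ∈ 𝔪} := by
  obtain ⟨a₀, ha₀, hL⟩ := rayEq_one_iff.1 hr
  have hfinG : Finite {a : 𝓞 K // a - 1 ∈ 𝔪 ∧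
      ((J * I : (Ideal (𝓞 K))⁰) : Ideal (𝓞 K)) = Ideal.span {a}} :=
    Finite.of_injective (β := B) (fun a => ⟨a.1, hB a.1 a.2.1 a.2.2⟩) fun a b h =>
      Subtype.ext (congrArg (fun z : B => (z : 𝓞 K)) h)
  have hpos : 1 ≤ Nat.card {v : (𝓞 K)ˣ // (v : 𝓞 K) - 1 ∈ 𝔪} := by
    rw [← card_generators ha₀ hL]
    exact Nat.one_le_iff_ne_zero.2 (Nat.card_ne_zero.2 ⟨⟨⟨a₀, ha₀, hL⟩⟩, hfinG⟩)
  exact_mod_cast hpos

open Classical in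
theorem norm_class_sum_le (hK : IsTotallyComplex K) (h2 : Module.finrank ℚ K = 2)
    (σ : K →+* ℂ) (h𝔪 : 𝔪 ≠ ⊥) {k : ℤ} (hk : k ≠ 0) {ψ : (Ideal (𝓞 K))⁰ →* ℂ}
    (hψ : HChar σ 𝔪 k ψ) (J : (Ideal (𝓞 K))⁰) (hJ : IsCoprime (J : Ideal (𝓞 K)) 𝔪) :
    ∃ C : ℝ, 0 ≤ C ∧ ∀ (n : ℕ) (G : Finset (Ideal (𝓞 K))⁰),
      (∀ I, I ∈ G ↔ Ideal.absNorm (I : Ideal (𝓞 K)) ≤ n ∧ RayEq 𝔪 (J * I) 1) →
      ‖∑ I ∈ G, ψ I‖ ≤ C * √(n : ℝ) := by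
  obtain ⟨a₁, ha₁J, ha₁⟩ := exists_mem_of_coprime hJ
  obtain ⟨C, hC⟩ := latStmt K hK h2 σ _ (inf_ne_bot (J := J) h𝔪) a₁ k hk
  have hC0 : 0 ≤ C := by
    have := (norm_nonneg _).trans (hC 1 le_rfl).2
    linarith
  have hNJ : 0 < Ideal.absNorm (J : Ideal (𝓞 K)) := Ideal.absNorm_pos_of_nonZeroDivisors J
  refine ⟨C * √(Ideal.absNorm (J : Ideal (𝓞 K)) : ℝ), by positivity, fun n G hG => ?_⟩
  rcases G.eq_empty_or_nonempty with hGe | ⟨I₀, hI₀⟩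
  · rw [hGe, Finset.sum_empty, norm_zero]
    positivity
  have hI₀' := (hG I₀).1 hI₀
  have hn : 0 < n := (Ideal.absNorm_pos_of_nonZeroDivisors I₀).trans_le hI₀'.1
  have hR : 1 ≤ √((n : ℝ) * Ideal.absNorm (J : Ideal (𝓞 K))) := by
    rw [Real.one_le_sqrt]
    exact_mod_cast Nat.one_le_iff_ne_zero.2 (Nat.mul_ne_zero hn.ne' hNJ.ne')
  obtain ⟨hfin, hle⟩ := hC _ hR
  obtain ⟨B, hB⟩ : ∃ B : Finset (𝓞 K), ∀ a, a ∈ B ↔ a - a₁ ∈ (J : Ideal (𝓞 K)) ⊓ 𝔪 ∧ a ≠ 0 ∧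
      ‖σ (a : K)‖ ≤ √((n : ℝ) * Ideal.absNorm (J : Ideal (𝓞 K))) :=
    ⟨hfin.toFinset, fun a => hfin.mem_toFinset⟩
  have hkey : (Nat.card {v : (𝓞 K)ˣ // (v : 𝓞 K) - 1 ∈ 𝔪} : ℂ) * (ψ J * ∑ I ∈ G, ψ I) =
      ∑ a ∈ B, ang σ a ^ k := by
    rw [← Finset.sum_congr rfl (fun a ha => sum_ideals hK h2 σ k ha₁ ha₁J hG ((hB a).1 ha).1
      ((hB a).1 ha).2.1 ((hB a).1 ha).2.2), Finset.sum_comm,
      Finset.sum_congr rfl (fun I hI => sum_generators hK h2 σ hψ ha₁ ha₁J hB ((hG I).1 hI).1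
      ((hG I).1 hI).2), Finset.mul_sum, Finset.mul_sum]
  have htsum : ∑' a : {a : 𝓞 K // a - a₁ ∈ (J : Ideal (𝓞 K)) ⊓ 𝔪 ∧ a ≠ 0 ∧
      ‖σ (a : K)‖ ≤ √((n : ℝ) * Ideal.absNorm (J : Ideal (𝓞 K)))}, ang σ a ^ k =
      ∑ a ∈ B, ang σ a ^ k := by
    have h3 := tsum_subtype {a : 𝓞 K | a - a₁ ∈ (J : Ideal (𝓞 K)) ⊓ 𝔪 ∧ a ≠ 0 ∧
      ‖σ (a : K)‖ ≤ √((n : ℝ) * Ideal.absNorm (J : Ideal (𝓞 K)))} (fun a => ang σ a ^ k)
    refine h3.trans ?_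
    rw [tsum_eq_sum (s := B)]
    · exact Finset.sum_congr rfl fun a ha => Set.indicator_of_mem (by exact (hB a).1 ha) _
    · intro a ha
      rw [Set.indicator_of_notMem]
      exact fun h => ha ((hB a).2 h)
  rw [htsum, ← hkey, norm_mul, norm_mul, hψ.norm_eq J hJ, one_mul, Complex.norm_natCast,
    Real.sqrt_mul (Nat.cast_nonneg n), mul_comm √(n : ℝ), ← mul_assoc] at hle
  have h5 : (1 : ℝ) ≤ Nat.card {v : (𝓞 K)ˣ // (v : 𝓞 K) - 1 ∈ 𝔪} := by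
    refine one_le_card_units (J := J) (I := I₀) (B := B) (fun a h6 h7 => ?_) hI₀'.2
    exact (hB a).2 ⟨sub_mem_inf ha₁ ha₁J (mem_of_cofactor h7) h6, ne_zero_of_span h7,
      (absNorm_le_iff hK h2 σ n h7).1 hI₀'.1⟩
  exact (le_mul_of_one_le_left (norm_nonneg _) h5).trans hle

/-! ### All classes -/

theorem finite_absNorm_le (n : ℕ) :
    {I : (Ideal (𝓞 K))⁰ | Ideal.absNorm (I : Ideal (𝓞 K)) ≤ n}.Finite := by
  refine Set.Finite.of_injOn (f := fun I : (Ideal (𝓞 K))⁰ => (I : Ideal (𝓞 K)))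
    (t := {I : Ideal (𝓞 K) | Ideal.absNorm I ≤ n}) (fun I hI => hI)
    (fun I _ J _ h => Subtype.ext h) ?_
  exact Ideal.finite_setOfPred_absNorm_le n

theorem rayEq_mul_one_iff {J : Cop 𝔪} {I : (Ideal (𝓞 K))⁰}
    (hI : IsCoprime (I : Ideal (𝓞 K)) 𝔪) :
    RayEq 𝔪 (J.1 * I) 1 ↔ rayCl 𝔪 J * rayCl 𝔪 ⟨I, hI⟩ = 1 := by
  rw [← map_mul, ← map_one (rayCl 𝔪), rayCl_eq_iff, Submonoid.coe_mul, Submonoid.coe_one]

theorem mul_eq_one_iff_eq_of {G : Type*} [CommMonoid G] {x y z : G} (h : y * z = 1) :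
    x * z = 1 ↔ x = y := by
  constructor
  · intro h7
    calc x = x * (y * z) := by rw [h, mul_one]
      _ = (x * z) * y := by rw [mul_comm y, mul_assoc]
      _ = y := by rw [h7, one_mul]
  · rintro rfl
    exact h

open Classical in
/-- **(S2)** -/
theorem sumStmt (K : Type u) [Field K] [NumberField K] : SumStmt K := by
  intro hK h2 σ 𝔪 h𝔪 k hk ψ hψ
  have hfinC : Finite (RayClass 𝔪) := finite_rayClass h𝔪
  have : Fintype (RayClass 𝔪) := Fintype.ofFinite _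
  choose J hJ using rayCl_surjective (m := 𝔪)
  choose C hC0 hC using fun x : RayClass 𝔪 =>
    norm_class_sum_le hK h2 σ h𝔪 hk hψ (J x).1 (J x).2
  refine ⟨∑ x, C x, fun n => ?_⟩
  have hfin := finite_absNorm_le (K := K) n
  obtain ⟨F, hF⟩ : ∃ F : Finset (Ideal (𝓞 K))⁰, ∀ I, I ∈ F ↔
    Ideal.absNorm (I : Ideal (𝓞 K)) ≤ n := ⟨hfin.toFinset, fun I => hfin.mem_toFinset⟩
  have h3 : ∑' I : {I : (Ideal (𝓞 K))⁰ // Ideal.absNorm (I : Ideal (𝓞 K)) ≤ n}, ψ I =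
      ∑ I ∈ F, ψ I := by
    have h4 := tsum_subtype {I : (Ideal (𝓞 K))⁰ | Ideal.absNorm (I : Ideal (𝓞 K)) ≤ n}
      (fun I => ψ I)
    refine h4.trans ?_
    rw [tsum_eq_sum (s := F)]
    · exact Finset.sum_congr rfl fun I hI => Set.indicator_of_mem (by exact (hF I).1 hI) _
    · intro I hI
      rw [Set.indicator_of_notMem]
      exact fun h => hI ((hF I).2 h)
  have h5 : ∀ I ∈ F, ψ I = ∑ x : RayClass 𝔪, if RayEq 𝔪 ((J x).1 * I) 1 then ψ I else 0 := by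
    intro I _
    by_cases hI : IsCoprime (I : Ideal (𝓞 K)) 𝔪
    · obtain ⟨y, hy⟩ := exists_mul_rayCl_eq_one h𝔪 (rayCl 𝔪 ⟨I, hI⟩)
      have hiff : ∀ x : RayClass 𝔪, RayEq 𝔪 ((J x).1 * I) 1 ↔ x = y := by
        intro x
        rw [rayEq_mul_one_iff hI, hJ, mul_eq_one_iff_eq_of hy]
      simp only [hiff]
      rw [Finset.sum_ite_eq' Finset.univ y (fun _ => ψ I), if_pos (Finset.mem_univ _)]
    · rw [hψ.eq_zero I hI]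
      simp
  rw [h3, Finset.sum_congr rfl h5, Finset.sum_comm, Finset.sum_mul]
  refine (norm_sum_le _ _).trans (Finset.sum_le_sum fun x _ => ?_)
  rw [← Finset.sum_filter]
  refine hC x n _ fun I => ?_
  rw [Finset.mem_filter, hF]

end Fermat.Agent.Cor.SectK
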