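import Fermat.Agent.Corollaries.SectK.Moments
import Mathlib.Topology.ContinuousMap.Weierstrass
import Mathlib.Analysis.SpecialFunctions.Integrals.Basic
import Mathlib.Data.Nat.Choose.Central

/-!
# Continuous test functions in the Sato-Tate law of Hecke characters

* `integral_two_cos_pow` : `(1/π) ∫_0^π (2 cos t)^n dt = C(n, n/2)` or `0`;
* `tendsto_cont` : `∑ φ(Re ψ(P)) ~ ((1/π) ∫_0^π φ(cos t) dt) x / log x`;
* `IsHecke.tendsto_cont` : the same for the traces of Frobenius;
* `mean_abs_j` : the mean of `|a_p| / √p` is `2/π` for the curves with `j = 0` or `1728`.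
-/

set_option autoImplicit false
set_option linter.unusedSectionVars false

noncomputable section

open NumberField nonZeroDivisors Complex Filter Topology Module

open scoped Classical Polynomial

namespace Fermat.Agent.Cor.SectK

open Fermat.Agent.ClassL Fermat.Agent.Cor.Ray Fermat.Agent.Classic.Zeta

/-- the mean of `φ (cos t)` -/
def lam (φ : ℝ → ℝ) : ℝ := (∫ t in (0 : ℝ)..Real.pi, φ (Real.cos t)) / Real.pi

theorem lam_pow_succ_succ (n : ℕ) :
    lam (fun t => t ^ (n + 2)) = (n + 1) / (n + 2) * lam (fun t => t ^ n) := by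
  rw [lam, lam, integral_cos_pow]
  simp
  ring

theorem lam_pow (n : ℕ) : lam (fun t => (2 * t) ^ n) =
    if Even n then (n.choose (n / 2) : ℝ) else 0 := by
  have key : ∀ n : ℕ, lam (fun t => (2 * t) ^ n) = 2 ^ n * lam (fun t => t ^ n) := by
    intro n
    rw [lam, lam]
    simp_rw [mul_pow]
    rw [intervalIntegral.integral_const_mul]
    ring
  have hpi := Real.pi_ne_zero
  have h : ∀ m : ℕ, lam (fun t => t ^ (2 * m)) * 2 ^ (2 * m) = (m.centralBinom : ℝ) ∧
      lam (fun t => t ^ (2 * m + 1)) = 0 := by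
    intro m
    induction m with
    | zero =>
      constructor
      · simp [lam, hpi]
      · simp [lam]
    | succ m ih =>
      have e1 : 2 * (m + 1) = 2 * m + 2 := by ring
      have e2 : 2 * (m + 1) + 1 = (2 * m + 1) + 2 := by ring
      constructor
      · rw [e1, lam_pow_succ_succ, pow_add]
        have h1 := Nat.succ_mul_centralBinom_succ m
        have h2 : ((m : ℝ) + 1) * ((m + 1).centralBinom : ℝ) =
            2 * (2 * m + 1) * (m.centralBinom : ℝ) := by exact_mod_cast h1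
        have h3 : ((m : ℝ) + 1) ≠ 0 := by positivity
        have h4 : ((m + 1).centralBinom : ℝ) =
            2 * (2 * m + 1) / (m + 1) * (m.centralBinom : ℝ) := by
          field_simp
          linarith
        rw [h4, ← ih.1]
        push_cast
        have h5 : (2 * (m : ℝ) + 2) ≠ 0 := by positivity
        field_simp
      · rw [e2, lam_pow_succ_succ, ih.2, mul_zero]
  rw [key]
  rcases Nat.even_or_odd' n with ⟨m, rfl | rfl⟩
  · have e : 2 * m / 2 = m := by omega
    rw [if_pos (even_two_mul m), e, mul_comm, (h m).1, Nat.centralBinom_eq_two_mul_choose]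
  · rw [if_neg (by simp), (h m).2, mul_zero]

theorem lam_sub_le {φ χ : ℝ → ℝ} (hφ : Continuous φ) (hχ : Continuous χ) {ε : ℝ}
    (h : ∀ t ∈ Set.Icc (-1 : ℝ) 1, |χ t - φ t| ≤ ε) : |lam χ - lam φ| ≤ ε := by
  have hpi := Real.pi_pos
  have i1 : IntervalIntegrable (fun t => χ (Real.cos t)) MeasureTheory.volume 0 Real.pi :=
    (hχ.comp Real.continuous_cos).intervalIntegrable _ _
  have i2 : IntervalIntegrable (fun t => φ (Real.cos t)) MeasureTheory.volume 0 Real.pi :=
    (hφ.comp Real.continuous_cos).intervalIntegrable _ _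
  rw [lam, lam, ← sub_div, ← intervalIntegral.integral_sub i1 i2, abs_div, abs_of_pos hpi,
    div_le_iff₀ hpi]
  have h1 := intervalIntegral.norm_integral_le_of_norm_le_const (a := 0) (b := Real.pi)
    (f := fun t => χ (Real.cos t) - φ (Real.cos t)) (C := ε) (fun t _ => by
      rw [Real.norm_eq_abs]
      exact h _ ⟨Real.neg_one_le_cos t, Real.cos_le_one t⟩)
  rw [sub_zero, abs_of_pos hpi, Real.norm_eq_abs] at h1
  exact h1

variable {K : Type} [Field K] [NumberField K]

section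

variable (hc : IsTotallyComplex K) (h2 : finrank ℚ K = 2)
  {σ : K →+* ℂ} {𝔪 : Ideal (𝓞 K)} (h𝔪 : 𝔪 ≠ ⊥) {k : ℤ} (hk : k ≠ 0)
  {ψ : (Ideal (𝓞 K))⁰ →* ℂ} (hψ : HChar σ 𝔪 k ψ) (S : Finset ℕ)

include hc h2 h𝔪 hk hψ

theorem tendsto_poly {D : ℝ} (hD : IsCount (fun P : PrC 𝔪 => nP P.1) D) (q : ℝ[X]) :
    Tendsto (fun x : ℕ => (∑ P ∈ hD.F x, q.eval (ψ P.1.1).re) * Real.log x / x) atTop
      (𝓝 (lam fun t => q.eval t)) := by
  induction q using Polynomial.induction_on' with
  | add p q hp hq =>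
    have e : lam (fun t => (p + q).eval t) = lam (fun t => p.eval t) + lam fun t => q.eval t := by
      simp_rw [lam, Polynomial.eval_add]
      rw [intervalIntegral.integral_add, add_div]
      · exact (p.continuous.comp Real.continuous_cos).intervalIntegrable _ _
      · exact (q.continuous.comp Real.continuous_cos).intervalIntegrable _ _
    rw [e]
    refine (hp.add hq).congr fun x => ?_
    simp_rw [Polynomial.eval_add]
    rw [Finset.sum_add_distrib]
    ring
  | monomial n a =>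
    have h3 := (tendsto_moment hc h2 h𝔪 hk hψ hD n).const_mul (a / 2 ^ n)
    have e : lam (fun t => (Polynomial.monomial n a).eval t) =
        a / 2 ^ n * (if Even n then (n.choose (n / 2) : ℝ) else 0) := by
      rw [← lam_pow, lam, lam]
      simp_rw [Polynomial.eval_monomial, mul_pow]
      rw [intervalIntegral.integral_const_mul, intervalIntegral.integral_const_mul]
      field_simp
    rw [e]
    refine h3.congr fun x => ?_
    simp_rw [Polynomial.eval_monomial, mul_pow]
    rw [← Finset.mul_sum, ← Finset.mul_sum]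
    field_simp

/-- **Continuous test functions** for the real parts of the values of a Hecke character -/
theorem tendsto_cont {D : ℝ} (hD : IsCount (fun P : PrC 𝔪 => nP P.1) D) {φ : ℝ → ℝ}
    (hφ : Continuous φ) :
    Tendsto (fun x : ℕ => (∑ P ∈ hD.F x, φ (ψ P.1.1).re) * Real.log x / x) atTop
      (𝓝 (lam φ)) := by
  rw [Metric.tendsto_atTop]
  intro ε hε
  obtain ⟨q, hq⟩ := exists_polynomial_near_of_continuousOn (-1) 1 φ hφ.continuousOn (ε / 5)
    (by positivity)
  have h3 := tendsto_poly hc h2 h𝔪 hk hψ hD q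
  obtain ⟨L, Z, hd⟩ := exists_heckeDat (contStmt K) hc h2 h𝔪 hk hψ
  have h4 := hd.tendsto_card hD
  rw [Metric.tendsto_atTop] at h3 h4
  obtain ⟨N1, hN1⟩ := h3 (ε / 5) (by positivity)
  obtain ⟨N2, hN2⟩ := h4 1 one_pos
  refine ⟨max N1 N2, fun x hx => ?_⟩
  have h5 := hN1 x ((le_max_left _ _).trans hx)
  have h6 := hN2 x ((le_max_right _ _).trans hx)
  have h7 := lam_sub_le hφ q.continuous (ε := ε / 5) (fun t ht => (hq t ht).le)
  rw [Real.dist_eq] at h5 h6 ⊢
  have h8 : 0 ≤ Real.log x / x := div_nonneg (Real.log_natCast_nonneg x) (Nat.cast_nonneg x)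
  have h9 : |(∑ P ∈ hD.F x, φ (ψ P.1.1).re) * Real.log x / x -
      (∑ P ∈ hD.F x, q.eval (ψ P.1.1).re) * Real.log x / x| ≤ 2 * (ε / 5) := by
    have e1 : (∑ P ∈ hD.F x, φ (ψ P.1.1).re) * Real.log x / x -
      (∑ P ∈ hD.F x, q.eval (ψ P.1.1).re) * Real.log x / x =
      (∑ P ∈ hD.F x, (φ (ψ P.1.1).re - q.eval (ψ P.1.1).re)) * (Real.log x / x) := by
      rw [Finset.sum_sub_distrib]
      ring
    rw [e1, abs_mul, abs_of_nonneg h8]
    have h10 : |∑ P ∈ hD.F x, (φ (ψ P.1.1).re - q.eval (ψ P.1.1).re)| ≤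
        (hD.F x).card * (ε / 5) := by
      refine (Finset.abs_sum_le_sum_abs _ _).trans ?_
      refine (Finset.sum_le_sum (g := fun _ => ε / 5) fun P _ => ?_).trans_eq ?_
      · rw [abs_sub_comm]
        refine (hq _ ?_).le
        have h11 := Complex.abs_re_le_norm (ψ P.1.1)
        rw [hψ.norm_eq P.1.1 P.2, abs_le] at h11
        exact h11
      · rw [Finset.sum_const, nsmul_eq_mul]
    have h11 : ((hD.F x).card : ℝ) * Real.log x / x ≤ 2 := by
      rw [abs_lt] at h6
      linarith [h6.2]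
    calc |∑ P ∈ hD.F x, (φ (ψ P.1.1).re - q.eval (ψ P.1.1).re)| * (Real.log x / x) ≤
          (hD.F x).card * (ε / 5) * (Real.log x / x) := mul_le_mul_of_nonneg_right h10 h8
      _ = ((hD.F x).card : ℝ) * Real.log x / x * (ε / 5) := by ring
      _ ≤ 2 * (ε / 5) := mul_le_mul_of_nonneg_right h11 (by positivity)
  have h10 : (∑ P ∈ hD.F x, φ (ψ P.1.1).re) * Real.log x / x - lam φ =
      ((∑ P ∈ hD.F x, φ (ψ P.1.1).re) * Real.log x / x -
        (∑ P ∈ hD.F x, q.eval (ψ P.1.1).re) * Real.log x / x) +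
      ((∑ P ∈ hD.F x, q.eval (ψ P.1.1).re) * Real.log x / x - lam fun t => q.eval t) +
      ((lam fun t => q.eval t) - lam φ) := by ring
  rw [h10]
  calc |_| ≤ _ := abs_add_three _ _ _
    _ ≤ 2 * (ε / 5) + ε / 5 + ε / 5 := add_le_add (add_le_add h9 h5.le) h7
    _ < ε := by linarith

end

/-- **Continuous test functions in the Sato-Tate law**: `∑_{p ≤ x} φ(a_p / (2 √p))` is
asymptotic to `(φ(0) / 2 + (1 / 2π) ∫_0^π φ(cos t) dt) x / log x`. -/
theorem IsHecke.tendsto_cont {a : ℕ → ℝ} {N : ℤ} (h : IsHecke a N) (hN : N ≠ 0) {φ : ℝ → ℝ}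
    (hφ : Continuous φ) :
    Tendsto (fun x : ℕ => (∑ p ∈ (Finset.Icc 1 x).filter (fun p : ℕ => p.Prime ∧ ¬ (p : ℤ) ∣ N),
      φ (a p / (2 * Real.sqrt p))) * Real.log x / x) atTop
      (𝓝 (φ 0 / 2 + (∫ t in (0 : ℝ)..Real.pi, φ (Real.cos t)) / (2 * Real.pi))) := by
  obtain ⟨K, _, _, σ, 𝔪, ψ, hK, h2, h𝔪, hψ, h3, h4⟩ := h
  obtain ⟨D, hD⟩ := exists_isCountC 𝔪
  obtain ⟨M, hM⟩ := (isCompact_Icc (a := (-1 : ℝ)) (b := 1)).exists_bound_of_continuousOn
    hφ.continuousOn
  have h5 := tendsto_test hK h2 h𝔪 one_ne_zero hψ N.natAbs.primeFactors hD (φ := φ) (M := M)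
    (fun t ht => hM t (abs_le.1 ht)) (SectK.tendsto_cont hK h2 h𝔪 one_ne_zero hψ hD hφ)
    (r := fun p => a p / (2 * Real.sqrt p)) (fun P h6 h7 => ?_) (fun p h6 h7 h8 => ?_)
  · have e : lam φ / 2 = (∫ t in (0 : ℝ)..Real.pi, φ (Real.cos t)) / (2 * Real.pi) := by
      rw [lam, div_div, mul_comm]
    rw [e] at h5
    refine h5.congr fun x => ?_
    congr 3
    refine Finset.filter_congr fun p _ => and_congr_right fun hp => ?_
    exact notMem_primeFactors_iff hN hp
  · have h8 : (0 : ℝ) < nP P := by exact_mod_cast h6.pos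
    have h9 : 2 * Real.sqrt (nP P) ≠ 0 := by
      have := Real.sqrt_pos.2 h8
      positivity
    change a (nP P) / (2 * Real.sqrt (nP P)) = _
    rw [h3 (nP P) P h6 ((notMem_primeFactors_iff hN h6).1 h7) rfl, mul_div_cancel_left₀ _ h9]
  · rw [h4 p h6 ((notMem_primeFactors_iff hN h6).1 h7) h8, zero_div]

/-- **Continuous test functions in the Sato-Tate law of the elliptic curves over `ℚ` with `j = 0`
or `j = 1728`** -/
theorem tendsto_cont_j {W : WeierstrassCurve ℤ} (hΔ : W.Δ ≠ 0) (hc : W.c₄ * W.c₆ = 0)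
    {φ : ℝ → ℝ} (hφ : Continuous φ) :
    Tendsto (fun x : ℕ => (∑ p ∈ (Finset.Icc 1 x).filter (fun p : ℕ => p.Prime ∧
      ¬ (p : ℤ) ∣ 6 * W.Δ), φ ((W.apOfModel p : ℝ) / (2 * Real.sqrt p))) * Real.log x / x) atTop
      (𝓝 (φ 0 / 2 + (∫ t in (0 : ℝ)..Real.pi, φ (Real.cos t)) / (2 * Real.pi))) :=
  (isHecke_j hΔ hc).tendsto_cont (mul_ne_zero (by norm_num) hΔ) hφ

theorem integral_abs_cos : ∫ t in (0 : ℝ)..Real.pi, |Real.cos t| = 2 := by
  have i : ∀ a b : ℝ, IntervalIntegrable (fun t => |Real.cos t|) MeasureTheory.volume a b :=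
    fun a b => Real.continuous_cos.abs.intervalIntegrable _ _
  have hpi := Real.pi_pos
  rw [← intervalIntegral.integral_add_adjacent_intervals (i 0 (Real.pi / 2)) (i _ _)]
  have h1 : ∫ t in (0 : ℝ)..(Real.pi / 2), |Real.cos t| = 1 := by
    rw [intervalIntegral.integral_congr (g := Real.cos)]
    · simp
    · intro t ht
      rw [Set.uIcc_of_le (by linarith)] at ht
      exact abs_of_nonneg (Real.cos_nonneg_of_mem_Icc ⟨by linarith [ht.1], ht.2⟩)
  have h2 : ∫ t in (Real.pi / 2)..Real.pi, |Real.cos t| = 1 := by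
    rw [intervalIntegral.integral_congr (g := fun t => -Real.cos t)]
    · simp
    · intro t ht
      rw [Set.uIcc_of_le (by linarith)] at ht
      exact abs_of_nonpos (Real.cos_nonpos_of_pi_div_two_le_of_le ht.1 (by linarith [ht.2]))
  rw [h1, h2]
  norm_num

/-- the mean of `|a_p| / √p` is `2/π` -/
theorem mean_abs_j {W : WeierstrassCurve ℤ} (hΔ : W.Δ ≠ 0) (hc : W.c₄ * W.c₆ = 0) :
    Tendsto (fun x : ℕ => (∑ p ∈ (Finset.Icc 1 x).filter (fun p : ℕ => p.Prime ∧
      ¬ (p : ℤ) ∣ 6 * W.Δ), |(W.apOfModel p : ℝ)| / Real.sqrt p) * Real.log x / x) atTop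
      (𝓝 (2 / Real.pi)) := by
  have h := tendsto_cont_j hΔ hc (φ := fun t => 2 * |t|) (continuous_const.mul continuous_abs)
  have hpi := Real.pi_ne_zero
  have e : (2 * |(0 : ℝ)|) / 2 + (∫ t in (0 : ℝ)..Real.pi, 2 * |Real.cos t|) / (2 * Real.pi) =
      2 / Real.pi := by
    rw [intervalIntegral.integral_const_mul, integral_abs_cos]
    simp
    field_simp
  rw [e] at h
  refine h.congr fun x => ?_
  congr 2
  refine Finset.sum_congr rfl fun p hp => ?_
  rw [Finset.mem_filter, Finset.mem_Icc] at hp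
  have h6 : (0 : ℝ) < p := by exact_mod_cast hp.1.1
  have h7 : 0 < Real.sqrt p := Real.sqrt_pos.2 h6
  rw [abs_div, abs_of_pos (by positivity : (0 : ℝ) < 2 * Real.sqrt p)]
  field_simp

end Fermat.Agent.Cor.SectK
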