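import Fermat.Agent.Corollaries.SectK.HeckeTwist
import Fermat.Agent.Corollaries.Twist.Ap
import Fermat.Agent.Corollaries.Twist.Chi

/-!
# The Sato-Tate law for all quadratic twists of the Fermat cubic
-/

set_option autoImplicit false
set_option linter.unusedSectionVars false

noncomputable section

open NumberField nonZeroDivisors Complex Filter Topology Module

open scoped Classical

namespace Fermat.Agent.Cor.SectK

open Fermat.Agent.ClassL Fermat.Agent.Cor.Ray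

namespace EisDat

variable {K : Type} [Field K] [NumberField K] {σ : K →+* ℂ} {η : 𝓞 K} (h : EisDat σ η)

include h

theorem three_ne_bot : (Ideal.span {(3 : 𝓞 K)}) ≠ ⊥ := by
  rw [Ne, Ideal.span_singleton_eq_bot]
  norm_num

/-- the Hecke character of `E27` -/
theorem exists_hchar : ∃ ψ : (Ideal (𝓞 K))⁰ →* ℂ, HChar σ (Ideal.span {(3 : 𝓞 K)}) 1 ψ := by
  refine extStmt K σ _ h.three_ne_bot 1 fun v hv => ?_
  have h1 := (Nat.card_eq_one_iff_unique.1 h.card_units).1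
  have h2 : (⟨v, hv⟩ : {v : (𝓞 K)ˣ // (v : 𝓞 K) - 1 ∈ Ideal.span {(3 : 𝓞 K)}}) =
    ⟨1, by simp⟩ := Subsingleton.elim _ _
  have h3 : v = 1 := congrArg Subtype.val h2
  rw [h3, zpow_one, ang]
  simp

/-- the split primes -/
theorem ap_split {ψ : (Ideal (𝓞 K))⁰ →* ℂ} (hψ : HChar σ (Ideal.span {(3 : 𝓞 K)}) 1 ψ) {p : ℕ}
    (hp : p.Prime) (h3 : p ≠ 3) (P : (Ideal (𝓞 K))⁰)
    (hP : Ideal.absNorm (P : Ideal (𝓞 K)) = p) :
    (E27.apOfModel p : ℝ) = 2 * Real.sqrt p * (ψ P).re := by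
  have : Fact p.Prime := ⟨hp⟩
  have hcop : IsCoprime (P : Ideal (𝓞 K)) (Ideal.span {(3 : 𝓞 K)}) := by
    have h1 : Nat.Coprime p 3 := (Nat.coprime_primes hp Nat.prime_three).2 h3
    obtain ⟨u, v, huv⟩ := Nat.isCoprime_iff_coprime.2 h1
    have h2 : (u : 𝓞 K) * (p : 𝓞 K) + (v : 𝓞 K) * 3 = 1 := by
      exact_mod_cast congrArg (Int.cast : ℤ → 𝓞 K) huv
    have h4 := Ideal.absNorm_mem (P : Ideal (𝓞 K))
    rw [hP] at h4
    exact Ideal.isCoprime_iff_exists.2 ⟨_, Ideal.mul_mem_left _ (u : 𝓞 K) h4, _,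
      Ideal.mul_mem_left _ (v : 𝓞 K) (Ideal.mem_span_singleton_self _), h2⟩
  obtain ⟨a, ha0, ha, ha1⟩ := h.exists_gen ⟨P, hcop⟩
  have h5 := hψ.cong P a ha ha1
  obtain ⟨s, m, rfl, hs⟩ := h.exists_coord ha1
  have hn : (Algebra.norm ℤ (s + (3 * m : ℤ) * η : 𝓞 K)).natAbs = p := by
    rw [← Ideal.absNorm_span_singleton, ← hP]
    exact congrArg Ideal.absNorm ha.symm
  have h4 := h.four_norm (s := s) (m := m)
  rw [hn] at h4
  have hap : E27.apOfModel p = -(3 * m - 2 * s) := ap_E27_of_one (by omega) h4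
  have hnn := h.nat_norm s (3 * m)
  rw [hn] at hnn
  have hz : ‖σ ((s + (3 * m : ℤ) * η : 𝓞 K) : K)‖ ^ 2 = p := by
    rw [h.norm_sq]
    have h5 : ((p : ℤ) : ℝ) = ((s ^ 2 - s * (3 * m) + (3 * m) ^ 2 : ℤ) : ℝ) := by rw [hnn]
    rw [Int.cast_natCast] at h5
    rw [h5]
    push_cast
    ring
  have hz' : ‖σ ((s + (3 * m : ℤ) * η : 𝓞 K) : K)‖ = Real.sqrt p := by
    rw [← hz, Real.sqrt_sq (norm_nonneg _)]
  have hp0 : (0 : ℝ) < p := by exact_mod_cast hp.pos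
  have h6 : Real.sqrt p ≠ 0 := (Real.sqrt_pos.2 hp0).ne'
  rw [h5, zpow_one, ang, hz', hap, Complex.div_ofReal_re, h.sig_re]
  push_cast
  field_simp
  ring

/-- the primes `p ≡ 1 mod 3` are norms of prime ideals -/
theorem exists_pr {p : ℕ} (hp : p.Prime) (hp3 : p % 3 = 1) :
    ∃ P : Pr K, Ideal.absNorm ((P.1 : (Ideal (𝓞 K))⁰) : Ideal (𝓞 K)) = p := by
  have : Fact p.Prime := ⟨hp⟩
  obtain ⟨L, ⟨hL, M, hM⟩, -⟩ := Diary.existsUnique_four_mul (p := p) hp3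
  have h5 : (3 * M - L) % 2 = 0 := by
    have h6 : (L ^ 2 + 27 * M ^ 2) % 2 = 0 := by omega
    rcases Int.even_or_odd' L with ⟨l, rfl | rfl⟩ <;>
      rcases Int.even_or_odd' M with ⟨n, rfl | rfl⟩
    · omega
    · exfalso
      have h7 : (2 * l) ^ 2 + 27 * (2 * n + 1) ^ 2 =
          2 * (2 * l ^ 2 + 54 * n ^ 2 + 54 * n + 13) + 1 := by ring
      omega
    · exfalso
      have h7 : (2 * l + 1) ^ 2 + 27 * (2 * n) ^ 2 =
          2 * (2 * l ^ 2 + 2 * l + 54 * n ^ 2) + 1 := by ring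
      omega
    · omega
  obtain ⟨s, hs⟩ : ∃ s, 3 * M - L = 2 * s := ⟨(3 * M - L) / 2, by omega⟩
  have hN : (Algebra.norm ℤ (s + (3 * M : ℤ) * η : 𝓞 K)).natAbs = p := by
    have h6 := h.four_norm (s := s) (m := M)
    have h7 : 3 * M - 2 * s = L := by linarith
    rw [h7, ← hM] at h6
    have h8 : ((Algebra.norm ℤ (s + (3 * M : ℤ) * η : 𝓞 K)).natAbs : ℤ) = (p : ℤ) := by
      linarith
    exact_mod_cast Nat.cast_injective (R := ℤ) h8
  have hπ : Prime (s + (3 * M : ℤ) * η : 𝓞 K) := prime_of_norm h (by rw [hN]; exact hp)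
  have hne : (Ideal.span {(s + (3 * M : ℤ) * η : 𝓞 K)}) ≠ ⊥ := by
    rw [Ne, Ideal.span_singleton_eq_bot]
    exact hπ.ne_zero
  have hpr : (Ideal.span {(s + (3 * M : ℤ) * η : 𝓞 K)}).IsPrime :=
    (Ideal.span_singleton_prime hπ.ne_zero).2 hπ
  refine ⟨⟨⟨_, mem_nonZeroDivisors_of_ne_zero hne⟩, Ideal.prime_of_isPrime hne hpr⟩, ?_⟩
  change Ideal.absNorm (Ideal.span {(s + (3 * M : ℤ) * η : 𝓞 K)}) = p
  rw [Ideal.absNorm_span_singleton, hN]

end EisDat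

theorem E27_good {p : ℕ} [Fact p.Prime] (h2 : p ≠ 2) (h3 : p ≠ 3) : E27.IsGoodPrimeFor p := by
  have h1 := E27_Δ h2 h3
  rw [WeierstrassCurve.reductionMod, WeierstrassCurve.map_Δ, eq_intCast, Ne,
    ZMod.intCast_zmod_eq_zero_iff_dvd] at h1
  exact h1

/-- **The Sato-Tate law for all quadratic twists of the Fermat cubic** (of its Jacobian `E27`): for
every integer `d ≠ 0` and `[α, β] ⊆ [-1, 1]` the number of the primes `p ≤ x` with
`α ≤ a_p / (2 √p) ≤ β` is asymptotic to `μ([α, β]) x / log x`, where `μ` is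
`(1/2) δ₀ + dt / (2π √(1 - t²))`. -/
theorem sato_tate_fermat_cubic_twist {d : ℤ} (hd : d ≠ 0) {α β : ℝ} (hα : -1 ≤ α) (hαβ : α ≤ β)
    (hβ : β ≤ 1) :
    Tendsto (fun x : ℕ => (Nat.card {p : ℕ // p.Prime ∧ p ≠ 2 ∧ p ≠ 3 ∧ ¬ (p : ℤ) ∣ d ∧ p ≤ x ∧
      α ≤ ((Twist.quadTwist E27 d).apOfModel p : ℝ) / (2 * Real.sqrt p) ∧
      ((Twist.quadTwist E27 d).apOfModel p : ℝ) / (2 * Real.sqrt p) ≤ β} : ℝ) *
        Real.log x / x) atTop
      (𝓝 ((if α ≤ 0 ∧ 0 ≤ β then 1 / 2 else 0) +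
        (Real.arccos α - Real.arccos β) / (2 * Real.pi))) := by
  have : NeZero ((3 : ℕ) : ℚ) := ⟨by norm_num⟩
  have : IsCyclotomicExtension {3} ℚ (CyclotomicField 3 ℚ) :=
    CyclotomicField.isCyclotomicExtension 3 ℚ
  obtain ⟨σ⟩ : Nonempty (CyclotomicField 3 ℚ →+* ℂ) := inferInstance
  obtain ⟨η, h⟩ := exists_eisDat (K := CyclotomicField 3 ℚ) σ
  obtain ⟨ψ, hψ⟩ := h.exists_hchar
  have := Twist.neZero_mod hd
  have hdvd : ∀ {p : ℕ}, p.Prime → (p ∣ 4 * d.natAbs ↔ p = 2 ∨ (p : ℤ) ∣ d) := by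
    intro p hp
    rw [hp.dvd_mul, Int.natCast_dvd]
    refine or_congr ?_ Iff.rfl
    have h4 : (4 : ℕ) = 2 ^ 2 := by norm_num
    rw [h4]
    exact ⟨fun h5 => (Nat.prime_dvd_prime_iff_eq hp Nat.prime_two).1 (hp.dvd_of_dvd_pow h5),
      fun h5 => by rw [h5]; norm_num⟩
  have key := sato_tate_of_hecke_twist h.cpx h.rank h.three_ne_bot one_ne_zero hψ {2, 3}
    (a := fun p => (E27.apOfModel p : ℝ))
    (fun p P hp hpS hP => h.ap_split hψ hp (by
      rintro rfl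
      simp at hpS) P.1 hP)
    (fun p hp hpS hP => by
      rw [Finset.mem_insert, Finset.mem_singleton, not_or] at hpS
      have : Fact p.Prime := ⟨hp⟩
      have h5 : p % 3 ≠ 0 := by
        intro h6
        have h7 : 3 ∣ p := Nat.dvd_of_mod_eq_zero h6
        exact hpS.2 ((Nat.prime_dvd_prime_iff_eq Nat.prime_three hp).1 h7).symm
      have h6 : p % 3 ≠ 1 := by
        intro h6
        obtain ⟨P, hP'⟩ := h.exists_pr hp h6
        exact hP P hP'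
      have h7 : E27.apOfModel p = 0 := ap_E27_of_two (by omega) hpS.1
      simp [h7])
    (Twist.chiD d hd) (fun p => if h : p.Prime then
      ((@legendreSym p ⟨h⟩ d : ℤ) : ℝ) else 0)
    (fun p hp hpm => by
      have : Fact p.Prime := ⟨hp⟩
      rw [Twist.chiD_prime hd hpm, dif_pos hp]
      push_cast
      rfl)
    (b := fun p => ((Twist.quadTwist E27 d).apOfModel p : ℝ))
    (fun p hp hpS hpm => by
      have : Fact p.Prime := ⟨hp⟩
      rw [Finset.mem_insert, Finset.mem_singleton, not_or] at hpS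
      rw [hdvd hp, not_or] at hpm
      rw [dif_pos hp]
      have := Twist.apOfModel_quadTwist E27 hpm.1 hpm.2 (E27_good hpS.1 hpS.2)
      rw [this]
      push_cast
      rfl)
    hα hαβ hβ
  refine key.congr fun x => ?_
  congr 2
  rw [Nat.cast_inj]
  refine Nat.card_congr (Equiv.subtypeEquivRight fun p => ?_)
  rw [Finset.mem_union, not_or, Finset.mem_insert, Finset.mem_singleton, not_or,
    Nat.mem_primeFactors]
  constructor
  · rintro ⟨hp, ⟨⟨h1, h2⟩, h3⟩, h4⟩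
    refine ⟨hp, h1, h2, fun h5 => h3 ⟨hp, (hdvd hp).2 (Or.inr h5), NeZero.ne _⟩, h4⟩
  · rintro ⟨hp, h1, h2, h3, h4⟩
    refine ⟨hp, ⟨⟨h1, h2⟩, fun h5 => ?_⟩, h4⟩
    rcases (hdvd hp).1 h5.2.1 with h6 | h6
    · exact h1 h6
    · exact h3 h6

end Fermat.Agent.Cor.SectK
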