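import Fermat.Agent.Corollaries.SectK.TwistGauss
import Fermat.Agent.Corollaries.SectK.JZero

/-!
# Two-isogenous curves have the same number of points; the Sato-Tate law for `j = 54000`, `287496`

* `sum_two_isog` : `y² = x (x² + a x + b)` and `y² = x (x² - 2 a x + a² - 4 b)` have the same number of
  points over every finite field of odd characteristic.
* `sato_tate_j54000`, `sato_tate_j287496` : the Sato-Tate law for the elliptic curves over `ℚ` with
  complex multiplication by `ℤ[√-3]`, `ℤ[2i]`.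
-/

set_option autoImplicit false
set_option linter.unusedSectionVars false

noncomputable section

open Filter Topology

namespace Fermat.Agent.Cor.SectK

section Isog

variable {F : Type*} [Field F] [Fintype F] [DecidableEq F]

theorem sum_quadraticChar_add (hF : ringChar F ≠ 2) (a : F) :
    ∑ t : F, quadraticChar F (t + a) = 0 := by
  rw [← quadraticChar_sum_zero hF]
  exact Fintype.sum_equiv (Equiv.addRight a) _ _ fun t => rfl

/-- the number of `x ≠ 0` with `x + b / x = t` -/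
theorem card_fibre (hF : ringChar F ≠ 2) {b : F} (hb : b ≠ 0) (t : F) :
    (((Finset.univ.filter fun x : F => x ≠ 0 ∧ x + b / x = t).card : ℕ) : ℤ) =
      quadraticChar F (t ^ 2 - 4 * b) + 1 := by
  have h2 : (2 : F) ≠ 0 := Ring.two_ne_zero hF
  rw [← quadraticChar_card_sqrts hF]
  congr 1
  refine Finset.card_bij (fun x _ => 2 * x - t) ?_ ?_ ?_
  · intro x hx
    rw [Finset.mem_filter] at hx
    obtain ⟨-, hx0, hx⟩ := hx
    rw [Set.mem_toFinset]
    change (2 * x - t) ^ 2 = t ^ 2 - 4 * b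
    have h3 : x * x + b = t * x := by
      rw [← hx]
      field_simp
    linear_combination 4 * h3
  · intro x _ x' _ h
    have h3 : 2 * (x - x') = 0 := by linear_combination h
    exact sub_eq_zero.1 ((mul_eq_zero.1 h3).resolve_left h2)
  · intro z hz
    rw [Set.mem_toFinset] at hz
    change z ^ 2 = t ^ 2 - 4 * b at hz
    have h3 : (z + t) / 2 * ((z + t) / 2) + b = t * ((z + t) / 2) := by
      field_simp
      linear_combination hz
    have h0 : (z + t) / 2 ≠ 0 := by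
      intro h0
      rw [h0] at h3
      apply hb
      linear_combination h3
    refine ⟨(z + t) / 2, ?_, ?_⟩
    · rw [Finset.mem_filter]
      refine ⟨Finset.mem_univ _, h0, ?_⟩
      have h4 : ((z + t) / 2 + b / ((z + t) / 2)) * ((z + t) / 2) = t * ((z + t) / 2) := by
        rw [← h3, add_mul, div_mul_cancel₀ _ h0]
      exact mul_right_cancel₀ h0 h4
    · field_simp
      ring

/-- **Two-isogenous curves have the same number of points**, as an identity of character sums. -/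
theorem sum_two_isog (hF : ringChar F ≠ 2) (a : F) {b : F} (hb : b ≠ 0) :
    ∑ x : F, quadraticChar F (x * (x ^ 2 + a * x + b)) =
      ∑ x : F, quadraticChar F (x * (x ^ 2 - 2 * a * x + (a ^ 2 - 4 * b))) := by
  have h1 : ∑ x : F, quadraticChar F (x * (x ^ 2 + a * x + b)) =
      ∑ x ∈ Finset.univ.filter fun x : F => x ≠ 0, quadraticChar F ((x + b / x) + a) := by
    rw [Finset.sum_filter]
    refine Finset.sum_congr rfl fun x _ => ?_
    split_ifs with hx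
    · have h2 : x * (x ^ 2 + a * x + b) = x ^ 2 * ((x + b / x) + a) := by
        field_simp
        ring
      rw [h2, map_mul, quadraticChar_sq_one' hx, one_mul]
    · rw [not_not.1 hx, zero_mul, MulChar.map_zero]
  have h3 : ∑ x ∈ Finset.univ.filter fun x : F => x ≠ 0, quadraticChar F ((x + b / x) + a) =
      ∑ t : F, ((quadraticChar F (t ^ 2 - 4 * b) + 1) * quadraticChar F (t + a)) := by
    rw [← Finset.sum_fiberwise (s := Finset.univ.filter fun x : F => x ≠ 0)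
      (g := fun x : F => x + b / x)]
    refine Finset.sum_congr rfl fun t _ => ?_
    rw [Finset.filter_filter, Finset.sum_congr rfl (g := fun _ => quadraticChar F (t + a))
      fun x hx => by rw [(Finset.mem_filter.1 hx).2.2], Finset.sum_const, nsmul_eq_mul,
      ← card_fibre hF hb t]
  have h4 : ∑ t : F, ((quadraticChar F (t ^ 2 - 4 * b) + 1) * quadraticChar F (t + a)) =
      ∑ t : F, quadraticChar F ((t + a) * ((t + a) ^ 2 - 2 * a * (t + a) + (a ^ 2 - 4 * b))) := by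
    simp_rw [add_mul, one_mul]
    rw [Finset.sum_add_distrib, sum_quadraticChar_add hF, add_zero]
    refine Finset.sum_congr rfl fun t _ => ?_
    rw [← map_mul]
    congr 1
    ring
  rw [h1, h3, h4]
  exact Fintype.sum_equiv (Equiv.addRight a) _ _ fun t => rfl

end Isog

section Curves

open WeierstrassCurve

/-- `y² = x (x² + 6 d x - 3 d²)`, `j = 54000` -/
def E54000 (d : ℤ) : WeierstrassCurve ℤ := ⟨0, 6 * d, 0, -3 * d ^ 2, 0⟩

/-- `y² = x (x² - 6 d x + d²)`, `j = 287496` -/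
def E287496 (d : ℤ) : WeierstrassCurve ℤ := ⟨0, -6 * d, 0, d ^ 2, 0⟩

theorem E54000_Δ (d : ℤ) : (E54000 d).Δ = 6912 * d ^ 6 := by
  simp only [WeierstrassCurve.Δ, WeierstrassCurve.b₂, WeierstrassCurve.b₄, WeierstrassCurve.b₆,
    WeierstrassCurve.b₈, E54000]
  ring

/-- the `j`-invariant is `54000` -/
theorem E54000_j (d : ℤ) : (E54000 d).c₄ ^ 3 = 54000 * (E54000 d).Δ := by
  rw [E54000_Δ]
  simp only [WeierstrassCurve.c₄, WeierstrassCurve.b₂, WeierstrassCurve.b₄, E54000]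
  ring

theorem E287496_Δ (d : ℤ) : (E287496 d).Δ = 512 * d ^ 6 := by
  simp only [WeierstrassCurve.Δ, WeierstrassCurve.b₂, WeierstrassCurve.b₄, WeierstrassCurve.b₆,
    WeierstrassCurve.b₈, E287496]
  ring

/-- the `j`-invariant is `287496` -/
theorem E287496_j (d : ℤ) : (E287496 d).c₄ ^ 3 = 287496 * (E287496 d).Δ := by
  rw [E287496_Δ]
  simp only [WeierstrassCurve.c₄, WeierstrassCurve.b₂, WeierstrassCurve.b₄, E287496]
  ring

variable {p : ℕ} [hp : Fact p.Prime]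

theorem cast_ne_zero' {d : ℤ} (hd : ¬ (p : ℤ) ∣ d) : (d : ZMod p) ≠ 0 := by
  rw [Ne, ZMod.intCast_zmod_eq_zero_iff_dvd]
  exact hd

/-- `a_p` of `y² = x³ + a₂ x² + a₄ x + a₆` as a character sum -/
theorem ap_eq_sum (h2 : p ≠ 2) {a₂ a₄ a₆ : ℤ}
    (hΔ : ¬ (p : ℤ) ∣ (⟨0, a₂, 0, a₄, a₆⟩ : WeierstrassCurve ℤ).Δ) :
    (⟨0, a₂, 0, a₄, a₆⟩ : WeierstrassCurve ℤ).apOfModel p =
      -∑ x : ZMod p, quadraticChar (ZMod p) (x ^ 3 + a₂ * x ^ 2 + a₄ * x + a₆) := by
  have hF : ringChar (ZMod p) ≠ 2 := by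
    rw [ZMod.ringChar_zmod_n]
    exact h2
  have hΔ' : ((⟨0, a₂, 0, a₄, a₆⟩ : WeierstrassCurve ℤ).reductionMod p).Δ ≠ 0 := by
    rw [reductionMod, WeierstrassCurve.map_Δ, eq_intCast]
    exact cast_ne_zero' hΔ
  have h1 := Twist.trace_eq ((⟨0, a₂, 0, a₄, a₆⟩ : WeierstrassCurve ℤ).reductionMod p) hF hΔ'
  rw [apOfModel, h1]
  congr 1
  refine Finset.sum_congr rfl fun x _ => ?_
  have h3 : 4 * x ^ 3 + ((⟨0, a₂, 0, a₄, a₆⟩ : WeierstrassCurve ℤ).reductionMod p).b₂ * x ^ 2 +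
      2 * ((⟨0, a₂, 0, a₄, a₆⟩ : WeierstrassCurve ℤ).reductionMod p).b₄ * x +
      ((⟨0, a₂, 0, a₄, a₆⟩ : WeierstrassCurve ℤ).reductionMod p).b₆ =
      2 ^ 2 * (x ^ 3 + a₂ * x ^ 2 + a₄ * x + a₆) := by
    simp only [reductionMod, WeierstrassCurve.map_b₂, WeierstrassCurve.map_b₄,
      WeierstrassCurve.map_b₆]
    simp [WeierstrassCurve.b₂, WeierstrassCurve.b₄, WeierstrassCurve.b₆]
    ring
  rw [h3, map_mul, quadraticChar_sq_one' (two_ne_zmod h2), one_mul]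

/-- `a_p (y² = x (x² + 6 d x - 3 d²)) = a_p (y² = x³ + d³)` -/
theorem ap_E54000 {d : ℤ} (hd : ¬ (p : ℤ) ∣ 6 * d) :
    (E54000 d).apOfModel p = (E0 (d ^ 3)).apOfModel p := by
  have hpz := Nat.prime_iff_prime_int.1 hp.out
  have h2 : p ≠ 2 := by
    rintro rfl
    exact hd ⟨3 * d, by ring⟩
  have h3 : p ≠ 3 := by
    rintro rfl
    exact hd ⟨2 * d, by ring⟩
  have hd' : ¬ (p : ℤ) ∣ d := fun h => hd (h.mul_left _)
  have h2' : ¬ (p : ℤ) ∣ 2 := by
    intro h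
    have h4 : p ∣ 2 := by exact_mod_cast h
    exact h2 ((Nat.prime_dvd_prime_iff_eq hp.out Nat.prime_two).1 h4)
  have h3' : ¬ (p : ℤ) ∣ 3 := by
    intro h
    have h4 : p ∣ 3 := by exact_mod_cast h
    exact h3 ((Nat.prime_dvd_prime_iff_eq hp.out Nat.prime_three).1 h4)
  have hF : ringChar (ZMod p) ≠ 2 := by
    rw [ZMod.ringChar_zmod_n]
    exact h2
  have e1 : ¬ (p : ℤ) ∣ (E54000 d).Δ := by
    rw [E54000_Δ]
    intro h
    have h4 : (6912 : ℤ) * d ^ 6 = 2 ^ 8 * (3 ^ 3 * d ^ 6) := by ring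
    rw [h4] at h
    rcases hpz.dvd_or_dvd h with h | h
    · exact h2' (hpz.dvd_of_dvd_pow h)
    · rcases hpz.dvd_or_dvd h with h | h
      · exact h3' (hpz.dvd_of_dvd_pow h)
      · exact hd' (hpz.dvd_of_dvd_pow h)
  have e2 : ¬ (p : ℤ) ∣ (E0 (d ^ 3)).Δ := by
    have h5 : (E0 (d ^ 3)).Δ = -(2 ^ 4 * (3 ^ 3 * d ^ 6)) := by
      simp only [WeierstrassCurve.Δ, WeierstrassCurve.b₂, WeierstrassCurve.b₄,
        WeierstrassCurve.b₆, WeierstrassCurve.b₈, E0]
      ring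
    rw [h5, dvd_neg]
    intro h
    rcases hpz.dvd_or_dvd h with h | h
    · exact h2' (hpz.dvd_of_dvd_pow h)
    · rcases hpz.dvd_or_dvd h with h | h
      · exact h3' (hpz.dvd_of_dvd_pow h)
      · exact hd' (hpz.dvd_of_dvd_pow h)
  have h6 := ap_eq_sum h2 (a₂ := 6 * d) (a₄ := -3 * d ^ 2) (a₆ := 0) e1
  have h7 := ap_eq_sum h2 (a₂ := 0) (a₄ := 0) (a₆ := d ^ 3) e2
  have hb : (3 * (d : ZMod p) ^ 2) ≠ 0 := by
    refine mul_ne_zero ?_ (pow_ne_zero _ (cast_ne_zero' hd'))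
    have := cast_ne_zero' h3'
    exact_mod_cast this
  have h8 := sum_two_isog hF (-3 * (d : ZMod p)) hb
  change (⟨0, 6 * d, 0, -3 * d ^ 2, 0⟩ : WeierstrassCurve ℤ).apOfModel p =
    (⟨0, 0, 0, 0, d ^ 3⟩ : WeierstrassCurve ℤ).apOfModel p
  rw [h6, h7]
  congr 1
  have h9 : ∑ x : ZMod p, quadraticChar (ZMod p) (x ^ 3 + ((0 : ℤ) : ZMod p) * x ^ 2 +
      ((0 : ℤ) : ZMod p) * x + ((d ^ 3 : ℤ) : ZMod p)) =
      ∑ x : ZMod p, quadraticChar (ZMod p) (x * (x ^ 2 + -3 * (d : ZMod p) * x +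
        3 * (d : ZMod p) ^ 2)) := by
    refine Fintype.sum_equiv (Equiv.addRight (d : ZMod p)) _ _ fun x => ?_
    congr 1
    change _ = (x + d) * ((x + d) ^ 2 + -3 * (d : ZMod p) * (x + d) + 3 * (d : ZMod p) ^ 2)
    push_cast
    ring
  rw [h9, h8]
  refine Finset.sum_congr rfl fun x _ => ?_
  congr 1
  push_cast
  ring

/-- `a_p (y² = x (x² - 6 d x + d²)) = a_p (y² = x³ - d² x)` -/
theorem ap_E287496 {d : ℤ} (h2 : p ≠ 2) (hd' : ¬ (p : ℤ) ∣ d) :
    (E287496 d).apOfModel p = (congCurve d).apOfModel p := by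
  have hpz := Nat.prime_iff_prime_int.1 hp.out
  have h2' : ¬ (p : ℤ) ∣ 2 := by
    intro h
    have h4 : p ∣ 2 := by exact_mod_cast h
    exact h2 ((Nat.prime_dvd_prime_iff_eq hp.out Nat.prime_two).1 h4)
  have hF : ringChar (ZMod p) ≠ 2 := by
    rw [ZMod.ringChar_zmod_n]
    exact h2
  have e1 : ¬ (p : ℤ) ∣ (E287496 d).Δ := by
    rw [E287496_Δ]
    intro h
    have h4 : (512 : ℤ) * d ^ 6 = 2 ^ 9 * d ^ 6 := by ring
    rw [h4] at h
    rcases hpz.dvd_or_dvd h with h | h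
    · exact h2' (hpz.dvd_of_dvd_pow h)
    · exact hd' (hpz.dvd_of_dvd_pow h)
  have h6 := ap_eq_sum h2 (a₂ := -6 * d) (a₄ := d ^ 2) (a₆ := 0) e1
  have h7 := ap_congCurve_eq h2 hd'
  have hb : (2 * (d : ZMod p) ^ 2) ≠ 0 :=
    mul_ne_zero (two_ne_zmod h2) (pow_ne_zero _ (cast_ne_zero' hd'))
  have h8 := sum_two_isog hF (3 * (d : ZMod p)) hb
  change (⟨0, -6 * d, 0, d ^ 2, 0⟩ : WeierstrassCurve ℤ).apOfModel p = (congCurve d).apOfModel p
  rw [h6, h7]
  congr 1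
  have h9 : ∑ x : ZMod p, quadraticChar (ZMod p) (x ^ 3 - (d : ZMod p) ^ 2 * x) =
      ∑ x : ZMod p, quadraticChar (ZMod p) (x * (x ^ 2 + 3 * (d : ZMod p) * x +
        2 * (d : ZMod p) ^ 2)) := by
    refine (Fintype.sum_equiv (Equiv.addRight (d : ZMod p)) _ _ fun x => ?_).symm
    congr 1
    change _ = (x + d) ^ 3 - (d : ZMod p) ^ 2 * (x + d)
    ring
  rw [h9, h8]
  refine Finset.sum_congr rfl fun x _ => ?_
  congr 1
  push_cast
  ring

end Curves

/-- **The Sato-Tate law for the elliptic curves over `ℚ` with complex multiplication by `ℤ[2i]`**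
(`j = 287496`): `y² = x (x² - 6 d x + d²)`, every integer `d ≠ 0`. -/
theorem sato_tate_j287496 {d : ℤ} (hd : d ≠ 0) {α β : ℝ} (hα : -1 ≤ α) (hαβ : α ≤ β)
    (hβ : β ≤ 1) :
    Tendsto (fun x : ℕ => (Nat.card {p : ℕ // p.Prime ∧ p ≠ 2 ∧ ¬ (p : ℤ) ∣ d ∧ p ≤ x ∧
      α ≤ ((E287496 d).apOfModel p : ℝ) / (2 * Real.sqrt p) ∧
      ((E287496 d).apOfModel p : ℝ) / (2 * Real.sqrt p) ≤ β} : ℝ) *
        Real.log x / x) atTop
      (𝓝 ((if α ≤ 0 ∧ 0 ≤ β then 1 / 2 else 0) +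
        (Real.arccos α - Real.arccos β) / (2 * Real.pi))) := by
  classical
  have h := sato_tate_congruent hd hα hαβ hβ
  have e : ∀ x : ℕ, Nat.card {p : ℕ // p.Prime ∧ p ≠ 2 ∧ ¬ (p : ℤ) ∣ d ∧ p ≤ x ∧
      α ≤ ((congCurve d).apOfModel p : ℝ) / (2 * Real.sqrt p) ∧
      ((congCurve d).apOfModel p : ℝ) / (2 * Real.sqrt p) ≤ β} =
      Nat.card {p : ℕ // p.Prime ∧ p ≠ 2 ∧ ¬ (p : ℤ) ∣ d ∧ p ≤ x ∧
      α ≤ ((E287496 d).apOfModel p : ℝ) / (2 * Real.sqrt p) ∧
      ((E287496 d).apOfModel p : ℝ) / (2 * Real.sqrt p) ≤ β} := by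
    intro x
    refine Nat.card_congr (Equiv.subtypeEquivRight fun p => ?_)
    refine and_congr_right fun hp => and_congr_right fun h2 => and_congr_right fun h3 => ?_
    have : Fact p.Prime := ⟨hp⟩
    rw [ap_E287496 h2 h3]
  simp_rw [e] at h
  convert h using 4

/-- **The Sato-Tate law for the elliptic curves over `ℚ` with complex multiplication by `ℤ[√-3]`**
(`j = 54000`): `y² = x (x² + 6 d x - 3 d²)`, every integer `d ≠ 0`. -/
theorem sato_tate_j54000 {d : ℤ} (hd : d ≠ 0) {α β : ℝ} (hα : -1 ≤ α) (hαβ : α ≤ β)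
    (hβ : β ≤ 1) :
    Tendsto (fun x : ℕ => (Nat.card {p : ℕ // p.Prime ∧ ¬ (p : ℤ) ∣ 6 * d ∧ p ≤ x ∧
      α ≤ ((E54000 d).apOfModel p : ℝ) / (2 * Real.sqrt p) ∧
      ((E54000 d).apOfModel p : ℝ) / (2 * Real.sqrt p) ≤ β} : ℝ) *
        Real.log x / x) atTop
      (𝓝 ((if α ≤ 0 ∧ 0 ≤ β then 1 / 2 else 0) +
        (Real.arccos α - Real.arccos β) / (2 * Real.pi))) := by
  classical
  have h := sato_tate_jzero (m := d ^ 3) (pow_ne_zero 3 hd) hα hαβ hβ
  have e : ∀ x : ℕ, Nat.card {p : ℕ // p.Prime ∧ ¬ (p : ℤ) ∣ 6 * d ^ 3 ∧ p ≤ x ∧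
      α ≤ ((E0 (d ^ 3)).apOfModel p : ℝ) / (2 * Real.sqrt p) ∧
      ((E0 (d ^ 3)).apOfModel p : ℝ) / (2 * Real.sqrt p) ≤ β} =
      Nat.card {p : ℕ // p.Prime ∧ ¬ (p : ℤ) ∣ 6 * d ∧ p ≤ x ∧
      α ≤ ((E54000 d).apOfModel p : ℝ) / (2 * Real.sqrt p) ∧
      ((E54000 d).apOfModel p : ℝ) / (2 * Real.sqrt p) ≤ β} := by
    intro x
    refine Nat.card_congr (Equiv.subtypeEquivRight fun p => ?_)
    refine and_congr_right fun hp => ?_
    have hpz := Nat.prime_iff_prime_int.1 hp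
    have h1 : (p : ℤ) ∣ 6 * d ^ 3 ↔ (p : ℤ) ∣ 6 * d := by
      constructor
      · intro h2
        rcases hpz.dvd_or_dvd h2 with h3 | h3
        · exact h3.mul_right _
        · exact (hpz.dvd_of_dvd_pow h3).mul_left _
      · intro h2
        rcases hpz.dvd_or_dvd h2 with h3 | h3
        · exact h3.mul_right _
        · exact (h3.trans (dvd_pow_self d three_ne_zero)).mul_left _
    rw [h1]
    refine and_congr_right fun h3 => ?_
    have : Fact p.Prime := ⟨hp⟩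
    rw [ap_E54000 h3]
  simp_rw [e] at h
  convert h using 4

end Fermat.Agent.Cor.SectK
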